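import Mathlib

/-!
Shared definitions for project S14.  Everything lives in `Fermat.Agent.S14`.
-/

namespace Fermat.Agent.S14

open NumberField
open scoped nonZeroDivisors

/-- The prime `P` of `A` splits completely in `B`: every prime of `B` over `P` has
ramification index and residue degree one. -/
def SplitsCompletely (A : Type*) [CommRing A] (B : Type*) [CommRing B] [Algebra A B]
    (P : Ideal A) : Prop :=
  ∀ Q : Ideal B, Q.IsPrime → Q.LiesOver P → Q.ramificationIdx A = 1 ∧ Q.inertiaDeg A = 1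

/-- The number-field data extracted from a non-split admissible extension:
`K = ℚ(ζ_p)`, `L / K` of degree `p`, unramified everywhere, split over `p`, and the
conjugation action of `Gal(L/ℚ)` on `Gal(L/K)` is through the inverse cyclotomic character. -/
structure CoreData (p : ℕ) (K L : Type) [Field K] [NumberField K] [Field L] [NumberField L]
    [Algebra K L] : Prop where
  finrank_eq : Module.finrank K L = p
  unramified : ∀ Q : Ideal (𝓞 L), Q.IsPrime → Q ≠ ⊥ → Q.ramificationIdx (𝓞 K) = 1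
  split_p : ∀ P : Ideal (𝓞 K), P.IsPrime → (p : 𝓞 K) ∈ P → SplitsCompletely (𝓞 K) (𝓞 L) P
  twist : ∀ (σ τ : L ≃ₐ[ℚ] L) (ζ : K) (m : ℕ), IsPrimitiveRoot ζ p →
    (∀ x : K, τ (algebraMap K L x) = algebraMap K L x) →
    σ (algebraMap K L ζ) = algebraMap K L ζ ^ m → σ * τ ^ m * σ⁻¹ = τ

/-- The Dirichlet-type sum `∑ f(I) N(I)^(-s)` over the nonzero ideals of `𝓞 F`. -/
noncomputable def idealSum (F : Type*) [Field F] [NumberField F]
    (f : (Ideal (𝓞 F))⁰ → ℂ) (s : ℝ) : ℂ :=
  ∑' I : (Ideal (𝓞 F))⁰, f I * (((Ideal.absNorm (I : Ideal (𝓞 F)) : ℝ) ^ (-s) : ℝ) : ℂ)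

end Fermat.Agent.S14
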