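import Mathlib
import Fermat.Agent.S14.Defs

/-!
# S14, package FLD, row FLD-T : Frobenius / splitting toolkit for towers of number fields

Generic statements about a tower `k ⊆ E ⊆ M` of number fields (as types).
-/

set_option autoImplicit false
set_option linter.unusedSectionVars false
set_option linter.unusedVariables false

namespace Fermat.Agent.S14

open NumberField
open scoped nonZeroDivisors Pointwise

/-- In a finite field all of whose elements satisfy `y ^ q = y` there are at most `q`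
elements. -/
theorem h73_card_le_of_pow_eq {κ : Type*} [Field κ] [Finite κ] (q : ℕ) (hq : 1 < q)
    (h : ∀ y : κ, y ^ q = y) : Nat.card κ ≤ q := by
  classical
  letI := Fintype.ofFinite κ
  have hne := FiniteField.X_pow_card_sub_X_ne_zero κ hq
  have hdeg := FiniteField.X_pow_card_sub_X_natDegree_eq κ hq
  have huniv : (Finset.univ : Finset κ) ⊆ (Polynomial.X ^ q - Polynomial.X : Polynomial κ).roots.toFinset := by
    intro y _
    rw [Multiset.mem_toFinset, Polynomial.mem_roots hne]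
    simp [h y]
  calc Nat.card κ = (Finset.univ : Finset κ).card := by
        rw [Nat.card_eq_fintype_card, Finset.card_univ]
    _ ≤ (Polynomial.X ^ q - Polynomial.X : Polynomial κ).roots.toFinset.card :=
        Finset.card_le_card huniv
    _ ≤ (Polynomial.X ^ q - Polynomial.X : Polynomial κ).roots.card := Multiset.toFinset_card_le _
    _ ≤ (Polynomial.X ^ q - Polynomial.X : Polynomial κ).natDegree := Polynomial.card_roots' _
    _ = q := hdeg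

section Toolkit

variable {k E M : Type*} [Field k] [NumberField k] [Field E] [NumberField E] [Field M]
  [NumberField M] [Algebra k E] [Algebra E M] [Algebra k M] [IsScalarTower k E M]

/-- Fermat's little theorem in the residue field of a nonzero prime. -/
theorem h73_pow_card_sub_mem (Q : Ideal (𝓞 E)) [Q.IsPrime] (hQ0 : Q ≠ ⊥) (x : 𝓞 E) :
    x ^ Nat.card (𝓞 E ⧸ Q) - x ∈ Q := by
  classical
  have hmax : Q.IsMaximal := Ideal.IsPrime.isMaximal inferInstance hQ0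
  letI := Ideal.Quotient.field Q
  haveI : Finite (𝓞 E ⧸ Q) := Ideal.finiteQuotientOfFreeOfNeBot Q hQ0
  letI := Fintype.ofFinite (𝓞 E ⧸ Q)
  rw [← Ideal.Quotient.eq_zero_iff_mem, map_sub, map_pow, Nat.card_eq_fintype_card,
    FiniteField.pow_card, sub_self]

/-- The restriction of a Frobenius element is a Frobenius element. -/
theorem h73_frob_restrictNormal [IsGalois k M] [IsGalois k E] (𝔓 : Ideal (𝓞 M))
    (σ : M ≃ₐ[k] M) (hσ : IsArithFrobAt (𝓞 k) σ 𝔓) :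
    IsArithFrobAt (𝓞 k) (σ.restrictNormal E) (𝔓.under (𝓞 E)) := by
  intro x
  rw [Ideal.under_under, Ideal.mem_comap, map_sub, map_pow]
  have h1 : algebraMap (𝓞 E) (𝓞 M)
      (MulSemiringAction.toAlgHom (𝓞 k) (𝓞 E) (σ.restrictNormal E) x)
      = MulSemiringAction.toAlgHom (𝓞 k) (𝓞 M) σ (algebraMap (𝓞 E) (𝓞 M) x) := by
    apply RingOfIntegers.ext
    exact AlgEquiv.restrictNormal_commutes σ E (x : E)
  rw [h1]
  exact hσ _

/-- An unramified prime has trivial inertia group. -/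
theorem h73_inertia_eq_one [IsGalois k E] (Q : Ideal (𝓞 E)) [Q.IsPrime]
    (h : Q.ramificationIdx (𝓞 k) = 1) (g : E ≃ₐ[k] E)
    (hg : g ∈ Q.inertia (E ≃ₐ[k] E)) : g = 1 := by
  have h1 : Nat.card (Q.inertia (E ≃ₐ[k] E)) = 1 := by
    rw [Ideal.card_inertia_eq_ramificationIdxIn (Q.under (𝓞 k)) Q,
      Ideal.ramificationIdxIn_eq_ramificationIdx (Q.under (𝓞 k)) Q (E ≃ₐ[k] E), h]
  have h2 : Q.inertia (E ≃ₐ[k] E) = ⊥ := Subgroup.card_eq_one.mp h1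
  rw [h2] at hg
  exact Subgroup.mem_bot.mp hg

theorem fldT_ramificationIdx_tower (𝔓 : Ideal (𝓞 M)) [𝔓.IsPrime]
    (h : 𝔓.ramificationIdx (𝓞 k) = 1) :
    𝔓.ramificationIdx (𝓞 E) = 1 ∧ (𝔓.under (𝓞 E)).ramificationIdx (𝓞 k) = 1 := by
  have h1 := Ideal.ramificationIdx_tower (R := 𝓞 k) (𝔓.under (𝓞 E)) 𝔓
  rw [h] at h1
  exact ⟨Nat.eq_one_of_mul_eq_one_left h1.symm, Nat.eq_one_of_mul_eq_one_right h1.symm⟩

theorem fldT_exists_over (Q : Ideal (𝓞 E)) [Q.IsPrime] :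
    ∃ 𝔓 : Ideal (𝓞 M), 𝔓.IsPrime ∧ 𝔓.under (𝓞 E) = Q := by
  obtain ⟨⟨𝔓, h1, h2⟩⟩ := (inferInstance : Nonempty (Q.primesOver (𝓞 M)))
  exact ⟨𝔓, h1, h2.over.symm⟩

theorem fldT_frob_restrict [IsGalois k M] [IsGalois k E] (𝔓 : Ideal (𝓞 M)) [𝔓.IsPrime]
    (h0 : 𝔓 ≠ ⊥) (σ : M ≃ₐ[k] M) (hσ : IsArithFrobAt (𝓞 k) σ 𝔓)
    (hunr : (𝔓.under (𝓞 E)).ramificationIdx (𝓞 k) = 1)
    (τ : E ≃ₐ[k] E) (hτ : IsArithFrobAt (𝓞 k) τ (𝔓.under (𝓞 E))) :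
    ∀ x : E, σ (algebraMap E M x) = algebraMap E M (τ x) := by
  have h1 := h73_frob_restrictNormal (E := E) 𝔓 σ hσ
  have h2 := IsArithFrobAt.mul_inv_mem_inertia h1 hτ
  have h3 := h73_inertia_eq_one _ hunr _ h2
  have h4 : σ.restrictNormal E = τ := mul_inv_eq_one.mp h3
  intro x
  rw [← h4, AlgEquiv.restrictNormal_commutes]

/-- The prime below a nonzero prime is nonzero. -/
theorem h73_under_ne_bot (𝔓 : Ideal (𝓞 M)) [𝔓.IsPrime] (h0 : 𝔓 ≠ ⊥) :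
    𝔓.under (𝓞 E) ≠ ⊥ := by
  intro h
  exact h0 (Ideal.eq_bot_of_comap_eq_bot h)

/-- If the residue degree is one, the identity is a Frobenius element. -/
theorem h73_one_isArithFrobAt [IsGalois k E] (Q : Ideal (𝓞 E)) [Q.IsPrime] (hQ0 : Q ≠ ⊥)
    (hf : Q.inertiaDeg (𝓞 k) = 1) : IsArithFrobAt (𝓞 k) (1 : E ≃ₐ[k] E) Q := by
  intro x
  have h1 := Ideal.absNorm_pow_inertiaDeg (Q.under (𝓞 k)) Q
  rw [hf, pow_one, Ideal.absNorm_apply, Submodule.cardQuot_apply, Ideal.absNorm_apply,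
    Submodule.cardQuot_apply] at h1
  rw [h1]
  have h2 := h73_pow_card_sub_mem Q hQ0 x
  have h3 : MulSemiringAction.toAlgHom (𝓞 k) (𝓞 E) (1 : E ≃ₐ[k] E) x = x := by
    apply RingOfIntegers.ext
    rfl
  rw [h3]
  have h4 : x - x ^ Nat.card (𝓞 E ⧸ Q) = - (x ^ Nat.card (𝓞 E ⧸ Q) - x) := by ring
  rw [h4]
  exact Q.neg_mem h2

/-- If a Frobenius element is trivial, the residue degree is one. -/
theorem h73_inertiaDeg_eq_one_of_frob_one [IsGalois k E] (Q : Ideal (𝓞 E)) [Q.IsPrime] (hQ0 : Q ≠ ⊥)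
    (h : IsArithFrobAt (𝓞 k) (1 : E ≃ₐ[k] E) Q) : Q.inertiaDeg (𝓞 k) = 1 := by
  classical
  have hmax : Q.IsMaximal := Ideal.IsPrime.isMaximal inferInstance hQ0
  letI := Ideal.Quotient.field Q
  haveI : Finite (𝓞 E ⧸ Q) := Ideal.finiteQuotientOfFreeOfNeBot Q hQ0
  have hP0 : Q.under (𝓞 k) ≠ ⊥ := h73_under_ne_bot (E := k) (M := E) Q hQ0
  have hPmax : (Q.under (𝓞 k)).IsMaximal := Ideal.IsPrime.isMaximal inferInstance hP0
  letI := Ideal.Quotient.field (Q.under (𝓞 k))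
  haveI : Finite (𝓞 k ⧸ Q.under (𝓞 k)) := Ideal.finiteQuotientOfFreeOfNeBot _ hP0
  have hq1 : 1 < Nat.card (𝓞 k ⧸ Q.under (𝓞 k)) := Finite.one_lt_card
  have hall : ∀ y : 𝓞 E ⧸ Q, y ^ Nat.card (𝓞 k ⧸ Q.under (𝓞 k)) = y := by
    intro y
    obtain ⟨x, rfl⟩ := Ideal.Quotient.mk_surjective y
    have hx := h x
    have h3 : MulSemiringAction.toAlgHom (𝓞 k) (𝓞 E) (1 : E ≃ₐ[k] E) x = x := by
      apply RingOfIntegers.ext
      rfl
    rw [h3, ← Ideal.Quotient.eq_zero_iff_mem, map_sub, map_pow, sub_eq_zero] at hx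
    exact hx.symm
  have hle := h73_card_le_of_pow_eq _ hq1 hall
  have h1 := Ideal.absNorm_pow_inertiaDeg (Q.under (𝓞 k)) Q
  rw [Ideal.absNorm_apply, Submodule.cardQuot_apply, Ideal.absNorm_apply,
    Submodule.cardQuot_apply] at h1
  rw [← h1] at hle
  have hpos : 0 < Q.inertiaDeg (𝓞 k) := Ideal.inertiaDeg_pos Q (𝓞 k)
  by_contra hne
  have h2 : 2 ≤ Q.inertiaDeg (𝓞 k) := by omega
  have h5 : Nat.card (𝓞 k ⧸ Q.under (𝓞 k)) ^ 1 <
      Nat.card (𝓞 k ⧸ Q.under (𝓞 k)) ^ Q.inertiaDeg (𝓞 k) :=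
    Nat.pow_lt_pow_right hq1 (by omega)
  rw [pow_one] at h5
  omega

theorem fldT_splitsCompletely_iff [IsGalois k M] [IsGalois k E] (𝔓 : Ideal (𝓞 M)) [𝔓.IsPrime]
    (h0 : 𝔓 ≠ ⊥) (hunr : 𝔓.ramificationIdx (𝓞 k) = 1) (σ : M ≃ₐ[k] M)
    (hσ : IsArithFrobAt (𝓞 k) σ 𝔓) :
    SplitsCompletely (𝓞 k) (𝓞 E) (𝔓.under (𝓞 k)) ↔
      ∀ x : E, σ (algebraMap E M x) = algebraMap E M x := by
  constructor
  · intro hs
    have hQover : (𝔓.under (𝓞 E)).LiesOver (𝔓.under (𝓞 k)) :=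
      ⟨(Ideal.under_under (B := 𝓞 E) 𝔓).symm⟩
    obtain ⟨he, hf⟩ := hs (𝔓.under (𝓞 E)) inferInstance hQover
    have hQ0 : 𝔓.under (𝓞 E) ≠ ⊥ := h73_under_ne_bot 𝔓 h0
    have hτ := h73_one_isArithFrobAt (k := k) (𝔓.under (𝓞 E)) hQ0 hf
    have := fldT_frob_restrict 𝔓 h0 σ hσ he 1 hτ
    intro x
    rw [this x]
    rfl
  · intro hfix Q' hQ'prime hQ'over
    obtain ⟨𝔓', h𝔓'prime, h𝔓'Q'⟩ := fldT_exists_over (M := M) Q'
    have h𝔓'P : 𝔓'.under (𝓞 k) = 𝔓.under (𝓞 k) := by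
      rw [← Ideal.under_under (B := 𝓞 E) 𝔓', h𝔓'Q']
      exact hQ'over.over.symm
    haveI : 𝔓'.LiesOver (𝔓.under (𝓞 k)) := ⟨h𝔓'P.symm⟩
    obtain ⟨g, hg⟩ := Ideal.exists_smul_eq_of_isGaloisGroup (𝔓.under (𝓞 k)) 𝔓 𝔓' (M ≃ₐ[k] M)
    have he' : 𝔓'.ramificationIdx (𝓞 k) = 1 := by
      rw [← hg, Ideal.ramificationIdx_smul]
      exact hunr
    have h𝔓'0 : 𝔓' ≠ ⊥ := by
      rintro rfl
      apply h0
      have : g⁻¹ • (g • 𝔓) = g⁻¹ • (⊥ : Ideal (𝓞 M)) := by rw [hg]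
      rw [inv_smul_smul] at this
      rw [this]
      simp
    have hQ'0 : Q' ≠ ⊥ := by
      rw [← h𝔓'Q']
      exact h73_under_ne_bot 𝔓' h𝔓'0
    refine ⟨?_, ?_⟩
    · have := (fldT_ramificationIdx_tower (k := k) (E := E) 𝔓' he').2
      rwa [h𝔓'Q'] at this
    · apply h73_inertiaDeg_eq_one_of_frob_one Q' hQ'0
      have h1 := hσ.conj g
      have h2 := h73_frob_restrictNormal (E := E) _ _ h1
      rw [hg, h𝔓'Q'] at h2
      have h3 : (g * σ * g⁻¹).restrictNormal E = 1 := by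
        apply AlgEquiv.ext
        intro x
        apply (algebraMap E M).injective
        rw [AlgEquiv.restrictNormal_commutes]
        show g (σ (g⁻¹ (algebraMap E M x))) = algebraMap E M x
        rw [← AlgEquiv.restrictNormal_commutes g⁻¹ E x, hfix]
        rw [AlgEquiv.restrictNormal_commutes]
        show g (g⁻¹ (algebraMap E M x)) = _
        exact AlgEquiv.apply_symm_apply g _
      rw [h3] at h2
      exact h2

theorem fldT_frob_zeta [IsGalois k M] (𝔓 : Ideal (𝓞 M)) [𝔓.IsPrime] (h0 : 𝔓 ≠ ⊥)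
    (σ : M ≃ₐ[k] M) (hσ : IsArithFrobAt (𝓞 k) σ 𝔓) (m : ℕ) (hm : (m : 𝓞 M) ∉ 𝔓) (ζ : M)
    (hζ : ζ ^ m = 1) : σ ζ = ζ ^ Ideal.absNorm (𝔓.under (𝓞 k)) := by
  have hm0 : m ≠ 0 := by
    rintro rfl
    exact hm (by simp)
  have hint : ζ ∈ integralClosure ℤ M :=
    ⟨Polynomial.X ^ m - 1, Polynomial.monic_X_pow_sub_C 1 hm0, by simp [hζ]⟩
  obtain ⟨ζ', rfl⟩ : ∃ ζ' : 𝓞 M, (ζ' : M) = ζ := ⟨⟨ζ, hint⟩, rfl⟩
  have hζ' : ζ' ^ m = 1 := by
    apply RingOfIntegers.ext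
    show algebraMap (𝓞 M) M (ζ' ^ m) = algebraMap (𝓞 M) M 1
    rw [map_pow, map_one]
    exact hζ
  have h := AlgHom.IsArithFrobAt.apply_of_pow_eq_one hσ hζ' hm
  have h2 : algebraMap (𝓞 M) M (MulSemiringAction.toAlgHom (𝓞 k) (𝓞 M) σ ζ') =
      algebraMap (𝓞 M) M (ζ' ^ Nat.card (𝓞 k ⧸ 𝔓.under (𝓞 k))) := congrArg _ h
  rw [map_pow] at h2
  rw [Ideal.absNorm_apply, Submodule.cardQuot_apply]
  exact h2

theorem fldT_splits_of_splits_above {E' : Type*} [Field E'] [NumberField E'] [Algebra k E']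
    [Algebra E' M] [IsScalarTower k E' M] [IsGalois k M]
    (Q : Ideal (𝓞 E)) [Q.IsPrime] (hQ0 : Q ≠ ⊥) (he : Q.ramificationIdx (𝓞 k) = 1)
    (hf : Q.inertiaDeg (𝓞 k) = 1) (hs : SplitsCompletely (𝓞 E) (𝓞 M) Q) :
    SplitsCompletely (𝓞 k) (𝓞 E') (Q.under (𝓞 k)) := by
  intro R' hR'prime hR'over
  obtain ⟨𝔓, h𝔓prime, h𝔓Q⟩ := fldT_exists_over (M := M) Q
  have h𝔓over : 𝔓.LiesOver Q := ⟨h𝔓Q.symm⟩
  obtain ⟨he1, hf1⟩ := hs 𝔓 h𝔓prime h𝔓over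
  have he𝔓 : 𝔓.ramificationIdx (𝓞 k) = 1 := by
    rw [Ideal.ramificationIdx_tower (R := 𝓞 k) Q 𝔓, he, he1]
  have hf𝔓 : 𝔓.inertiaDeg (𝓞 k) = 1 := by
    rw [Ideal.inertiaDeg_tower (R := 𝓞 k) Q 𝔓, hf, hf1]
  obtain ⟨𝔓', h𝔓'prime, h𝔓'R'⟩ := fldT_exists_over (E := E') (M := M) R'
  have h𝔓'over : 𝔓'.LiesOver R' := ⟨h𝔓'R'.symm⟩
  have h𝔓P : 𝔓.under (𝓞 k) = Q.under (𝓞 k) := by
    rw [← Ideal.under_under (B := 𝓞 E) 𝔓, h𝔓Q]
  have h𝔓'P : 𝔓'.under (𝓞 k) = Q.under (𝓞 k) := by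
    rw [← Ideal.under_under (B := 𝓞 E') 𝔓', h𝔓'R']
    exact hR'over.over.symm
  have h𝔓overP : 𝔓.LiesOver (Q.under (𝓞 k)) := ⟨h𝔓P.symm⟩
  have h𝔓'overP : 𝔓'.LiesOver (Q.under (𝓞 k)) := ⟨h𝔓'P.symm⟩
  have he' : 𝔓'.ramificationIdx (𝓞 k) = 1 := by
    rw [← Ideal.ramificationIdx_eq_of_isGaloisGroup (Q.under (𝓞 k)) 𝔓 𝔓' (M ≃ₐ[k] M)]
    exact he𝔓
  have hf' : 𝔓'.inertiaDeg (𝓞 k) = 1 := by
    rw [← Ideal.inertiaDeg_eq_of_isGaloisGroup (Q.under (𝓞 k)) 𝔓 𝔓' (M ≃ₐ[k] M)]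
    exact hf𝔓
  refine ⟨?_, ?_⟩
  · have := Ideal.ramificationIdx_below_dvd (R := 𝓞 k) R' 𝔓'
    rw [he'] at this
    exact Nat.dvd_one.mp this
  · have := Ideal.inertiaDeg_below_dvd (R := 𝓞 k) R' 𝔓'
    rw [hf'] at this
    exact Nat.dvd_one.mp this

end Toolkit

end Fermat.Agent.S14
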