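import Mathlib
import Fermat.Prelude.Def_FLTPrelim_Ramification
import Fermat.Agent.S13.h24_Unram

/-!
Package GAL-V of project S14: valuation subrings of `Qbar = AlgebraicClosure ℚ` over primes of a
number field `L ↪ Qbar`, and lifting of decomposition / inertia elements.
-/

set_option autoImplicit false

namespace Fermat.Agent.S14

open NumberField

/-- A prime ideal containing a nonzero natural number contains a prime number. -/
private theorem h24_exists_prime_natCast_mem {R : Type*} [CommRing R] (Q : Ideal R) [Q.IsPrime]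
    (n : ℕ) (hn : n ≠ 0) (h : (n : R) ∈ Q) : ∃ ℓ : ℕ, ℓ.Prime ∧ (ℓ : R) ∈ Q := by
  induction n using Nat.recOnMul with
  | zero => exact absurd rfl hn
  | one =>
    exfalso
    apply (inferInstance : Q.IsPrime).ne_top
    rw [Ideal.eq_top_iff_one]
    simpa using h
  | prime p hp => exact ⟨p, hp, h⟩
  | mul a b iha ihb =>
    have ha : a ≠ 0 := fun h0 => hn (by rw [h0, zero_mul])
    have hb : b ≠ 0 := fun h0 => hn (by rw [h0, mul_zero])
    rw [Nat.cast_mul] at h
    rcases Ideal.IsPrime.mem_or_mem inferInstance h with h | h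
    · exact iha ha h
    · exact ihb hb h

/-- The image of `L` in `Qbar`, as an intermediate field. -/
private noncomputable def h24_fieldRange (L : Type) [Field L] (iL : L →+* AlgebraicClosure ℚ) :
    IntermediateField ℚ (AlgebraicClosure ℚ) :=
  Subfield.toIntermediateField iL.fieldRange (fun q => by
    rw [eq_ratCast]
    exact SubfieldClass.ratCast_mem _ q)

private theorem h24_mem_fieldRange (L : Type) [Field L] (iL : L →+* AlgebraicClosure ℚ)
    (x : AlgebraicClosure ℚ) : x ∈ h24_fieldRange L iL ↔ ∃ y : L, iL y = x :=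
  Iff.rfl

/-- An element of the image of `L` that is integral over `ℤ` is the image of an element of
`𝓞 L`. -/
private theorem h24_exists_int (L : Type) [Field L] [NumberField L]
    (iL : L →+* AlgebraicClosure ℚ) (y : L) (hy : IsIntegral ℤ (iL y)) :
    ∃ z : 𝓞 L, (z : L) = y := by
  have h1 : IsIntegral ℤ y := (isIntegral_algHom_iff iL.toIntAlgHom iL.injective).mp hy
  exact ⟨⟨y, h1⟩, rfl⟩

theorem gal_exists_valuationSubring (L : Type) [Field L] [NumberField L]
    (iL : L →+* AlgebraicClosure ℚ) (Q : Ideal (𝓞 L)) [Q.IsPrime] (hQ : Q ≠ ⊥) :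
    ∃ (A : ValuationSubring (AlgebraicClosure ℚ)) (ℓ : ℕ), ℓ.Prime ∧ A.LiesOverPrime ℓ ∧
      (ℓ : 𝓞 L) ∈ Q ∧ ∀ x : 𝓞 L, iL (x : L) ∈ A ∧ (iL (x : L) ∈ A.nonunits ↔ x ∈ Q) := by
  classical
  set f : 𝓞 L →+* AlgebraicClosure ℚ := iL.comp (algebraMap (𝓞 L) L) with hf
  have hfx : ∀ x : 𝓞 L, f x = iL (x : L) := fun x => rfl
  have hfinj : Function.Injective f :=
    iL.injective.comp RingOfIntegers.coe_injective
  have hI : Ideal.map f.rangeRestrict Q ≠ ⊤ := by
    intro htop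
    have h1 : (1 : f.range) ∈ Ideal.map f.rangeRestrict Q := by rw [htop]; trivial
    obtain ⟨x, hx, hx1⟩ := (Ideal.mem_map_iff_of_surjective _ f.rangeRestrict_surjective).mp h1
    have h2 : f x = f 1 := by
      have := congrArg Subtype.val hx1
      simpa using this
    have hx1' : x = 1 := hfinj h2
    exact (inferInstance : Q.IsPrime).ne_top ((Ideal.eq_top_iff_one _).mpr (hx1' ▸ hx))
  obtain ⟨B, -, hB⟩ := Ideal.image_subset_nonunits_valuationSubring _ hI
  have hmem : ∀ x ∈ Q, f x ∈ B.nonunits := fun x hx =>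
    hB ⟨f.rangeRestrict x, Ideal.mem_map_of_mem _ hx, rfl⟩
  have hint : ∀ x : 𝓞 L, f x ∈ B := fun x =>
    Fermat.Agent.S13.h24_integral_mem B
      ((RingOfIntegers.isIntegral_coe x).map iL.toIntAlgHom)
  have hmax : Q.IsMaximal := Ideal.IsPrime.isMaximal inferInstance hQ
  have hN0 : Ideal.absNorm Q ≠ 0 := by
    rw [Ne, Ideal.absNorm_eq_zero_iff]
    exact hQ
  obtain ⟨ℓ, hℓ, hℓQ⟩ := h24_exists_prime_natCast_mem Q _ hN0 (Ideal.absNorm_mem Q)
  refine ⟨B, ℓ, hℓ, ?_, hℓQ, fun x => ⟨hint x, ?_, hmem x⟩⟩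
  · have h := hmem _ hℓQ
    rw [map_natCast] at h
    exact h
  · intro hx
    by_contra hxQ
    obtain ⟨y, q, hq, hyq⟩ := hmax.exists_inv hxQ
    have h1 : f y * f x + f q = 1 := by rw [← map_mul, ← map_add, hyq, map_one]
    apply Fermat.Agent.S13.h24_one_not_mem_nonunits B
    rw [← h1]
    exact Fermat.Agent.S13.h24_add_mem_nonunits B
      (Fermat.Agent.S13.h24_mul_mem_nonunits B (hint y) hx) (hmem q hq)

theorem gal_inertia_lift (L : Type) [Field L] [NumberField L]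
    (iL : L →+* AlgebraicClosure ℚ) (A : ValuationSubring (AlgebraicClosure ℚ))
    (σ : AlgebraicClosure ℚ ≃ₐ[ℚ] AlgebraicClosure ℚ)
    (hσ : ∀ x : 𝓞 L, σ (iL (x : L)) - iL (x : L) ∈ A.nonunits) :
    ∃ σ' ∈ A.inertiaSubgroupIn ℚ, ∀ x : L, σ' (iL x) = σ (iL x) := by
  obtain ⟨σ', hσ', h⟩ := Fermat.Agent.S13.h24_exists_inertia_lift_Qbar (h24_fieldRange L iL) A σ
    (by
      rintro x ⟨y, rfl⟩ hxi
      obtain ⟨z, rfl⟩ := h24_exists_int L iL y hxi
      exact hσ z)
  exact ⟨σ', hσ', fun x => h (iL x) ⟨x, rfl⟩⟩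

theorem gal_decomp_lift (L : Type) [Field L] [NumberField L]
    (iL : L →+* AlgebraicClosure ℚ) (A : ValuationSubring (AlgebraicClosure ℚ))
    (σ : AlgebraicClosure ℚ ≃ₐ[ℚ] AlgebraicClosure ℚ)
    (hσ : ∀ x : 𝓞 L, σ (iL (x : L)) ∈ A.nonunits ↔ iL (x : L) ∈ A.nonunits) :
    ∃ σ' ∈ A.decompositionSubgroup ℚ, ∀ x : L, σ' (iL x) = σ (iL x) := by
  obtain ⟨σ', hσ', h⟩ :=
    Fermat.Agent.S13.h24_exists_decomposition_lift_Qbar (h24_fieldRange L iL) A σ
    (by
      rintro x ⟨y, rfl⟩ hxi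
      obtain ⟨z, rfl⟩ := h24_exists_int L iL y hxi
      exact hσ z)
  exact ⟨σ', hσ', fun x => h (iL x) ⟨x, rfl⟩⟩

end Fermat.Agent.S14
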