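import Mathlib

/-!
# S14, block FLD: generic lemmas (finite residue fields, trivial inertia, Frobenius powers,
roots of unity modulo primes, restriction of automorphisms to rings of integers)
-/

set_option autoImplicit false

namespace Fermat.Agent.S14

open NumberField

/-- For finite fields `k ⊆ k'`: the degree is one iff `x ^ #k = x` on `k'`. -/
theorem h28_finrank_eq_one_iff_pow_card (k k' : Type*) [Field k] [Field k'] [Algebra k k']
    [Finite k] [Finite k'] :
    Module.finrank k k' = 1 ↔ ∀ x : k', x ^ Nat.card k = x := by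
  classical
  have := Fintype.ofFinite k
  have := Fintype.ofFinite k'
  have hcard : Nat.card k' = Nat.card k ^ Module.finrank k k' := by
    rw [Nat.card_eq_fintype_card, Nat.card_eq_fintype_card]
    exact Module.card_eq_pow_finrank
  have hk1 : 1 < Nat.card k := Finite.one_lt_card
  constructor
  · intro h x
    rw [h, pow_one] at hcard
    rw [← hcard, Nat.card_eq_fintype_card]
    exact FiniteField.pow_card x
  · intro h
    have hle : Nat.card k' ≤ Nat.card k := by
      have hne : (Polynomial.X ^ Nat.card k - Polynomial.X : Polynomial k') ≠ 0 :=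
        FiniteField.X_pow_card_sub_X_ne_zero k' hk1
      have hroots : (Finset.univ : Finset k') ⊆
          (Polynomial.X ^ Nat.card k - Polynomial.X : Polynomial k').roots.toFinset := by
        intro x _
        rw [Multiset.mem_toFinset, Polynomial.mem_roots hne, Polynomial.IsRoot.def,
          Polynomial.eval_sub, Polynomial.eval_pow, Polynomial.eval_X, h x, sub_self]
      calc Nat.card k' = (Finset.univ : Finset k').card := by
            rw [Nat.card_eq_fintype_card, Finset.card_univ]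
        _ ≤ (Polynomial.X ^ Nat.card k - Polynomial.X : Polynomial k').roots.toFinset.card :=
            Finset.card_le_card hroots
        _ ≤ Multiset.card (Polynomial.X ^ Nat.card k - Polynomial.X : Polynomial k').roots :=
            Multiset.toFinset_card_le _
        _ ≤ (Polynomial.X ^ Nat.card k - Polynomial.X : Polynomial k').natDegree :=
            Polynomial.card_roots' _
        _ = Nat.card k := FiniteField.X_pow_card_sub_X_natDegree_eq k' hk1
    rw [hcard] at hle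
    have hpos : 0 < Module.finrank k k' := Module.finrank_pos
    by_contra hne
    have h2 : 2 ≤ Module.finrank k k' := by omega
    have : Nat.card k ^ 2 ≤ Nat.card k ^ Module.finrank k k' :=
      Nat.pow_le_pow_right (by omega) h2
    nlinarith

/-- The residue degree is one iff `x ^ #(R/p) ≡ x` modulo `q` for all `x`. -/
theorem h28_inertiaDeg_eq_one_iff {R S : Type*} [CommRing R] [CommRing S] [Algebra R S]
    (p : Ideal R) (q : Ideal S) [q.LiesOver p] [p.IsMaximal] [q.IsMaximal]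
    [Finite (R ⧸ p)] [Finite (S ⧸ q)] :
    q.inertiaDeg R = 1 ↔ ∀ x : S, x ^ Nat.card (R ⧸ p) - x ∈ q := by
  rw [Ideal.inertiaDeg_eq_of_isMaximal p q]
  let _ : Field (R ⧸ p) := Ideal.Quotient.field p
  let _ : Field (S ⧸ q) := Ideal.Quotient.field q
  rw [h28_finrank_eq_one_iff_pow_card (R ⧸ p) (S ⧸ q)]
  constructor
  · intro h x
    have := h (Ideal.Quotient.mk q x)
    rw [← map_pow, ← sub_eq_zero, ← map_sub, Ideal.Quotient.eq_zero_iff_mem] at this
    exact this
  · intro h x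
    obtain ⟨x, rfl⟩ := Ideal.Quotient.mk_surjective x
    rw [← map_pow, ← sub_eq_zero, ← map_sub, Ideal.Quotient.eq_zero_iff_mem]
    exact h x

/-- If `η ^ n = 1`, `η ≠ 1` in a domain, then `η - 1 ∣ n`. -/
theorem h28_sub_one_dvd_natCast {S : Type*} [CommRing S] [IsDomain S] {η : S} {n : ℕ}
    (h1 : η ^ n = 1) (hne : η ≠ 1) : η - 1 ∣ (n : S) := by
  have hsum : ∑ i ∈ Finset.range n, η ^ i = 0 := by
    have := mul_geom_sum η n
    rw [h1, sub_self] at this
    rcases mul_eq_zero.mp this with h | h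
    · exact absurd (sub_eq_zero.mp h) hne
    · exact h
  have hn : (n : S) = ∑ i ∈ Finset.range n, (1 - η ^ i) := by
    rw [Finset.sum_sub_distrib, hsum, sub_zero]
    simp
  rw [hn]
  refine Finset.dvd_sum fun i _ => ?_
  have : η - 1 ∣ η ^ i - 1 := by
    simpa using sub_dvd_pow_sub_pow η 1 i
  simpa using (dvd_neg.mpr this)

/-- Roots of unity of prime order `q` stay distinct modulo a prime not containing `q`. -/
theorem h28_pow_eq_of_sub_mem {S : Type*} [CommRing S] [IsDomain S] {ζ : S} {q : ℕ}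
    (hq : q.Prime) (hζ : IsPrimitiveRoot ζ q) (P : Ideal S) [P.IsPrime] (hP : (q : S) ∉ P)
    {i j : ℕ} (h : ζ ^ i - ζ ^ j ∈ P) : ζ ^ i = ζ ^ j := by
  wlog hij : j ≤ i generalizing i j
  · exact (this (by simpa using neg_mem h) (le_of_not_ge hij)).symm
  by_contra hne
  obtain ⟨k, rfl⟩ := Nat.exists_eq_add_of_le hij
  have hζu : IsUnit (ζ ^ j) := (hζ.isUnit hq.ne_zero).pow j
  have h' : ζ ^ j * (ζ ^ k - 1) ∈ P := by
    have : ζ ^ j * (ζ ^ k - 1) = ζ ^ (j + k) - ζ ^ j := by ring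
    rw [this]; exact h
  have hk : ζ ^ k - 1 ∈ P := by
    rcases Ideal.IsPrime.mem_or_mem inferInstance h' with h1 | h1
    · exact absurd (P.eq_top_of_isUnit_mem h1 hζu) (Ideal.IsPrime.ne_top inferInstance)
    · exact h1
  have hk1 : ζ ^ k ≠ 1 := by
    intro h1
    apply hne
    rw [pow_add, h1, mul_one]
  have hkq : (ζ ^ k) ^ q = 1 := by
    rw [← pow_mul, mul_comm, pow_mul, hζ.pow_eq_one, one_pow]
  exact hP (P.mem_of_dvd (h28_sub_one_dvd_natCast hkq hk1) hk)

/-- Equal powers of a primitive root have congruent exponents. -/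
theorem h28_natCast_eq_of_pow_eq {S : Type*} [CommMonoid S] {ζ : S} {k : ℕ} [NeZero k]
    (hζ : IsPrimitiveRoot ζ k) {i j : ℕ} (h : ζ ^ i = ζ ^ j) : (i : ZMod k) = (j : ZMod k) := by
  wlog hij : j ≤ i generalizing i j
  · exact (this h.symm (le_of_not_ge hij)).symm
  obtain ⟨m, rfl⟩ := Nat.exists_eq_add_of_le hij
  have hu : IsUnit (ζ ^ j) := (hζ.isUnit (NeZero.ne k)).pow j
  have h1 : ζ ^ m = 1 := by
    rw [pow_add] at h
    exact hu.mul_left_cancel (by rw [h, mul_one])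
  obtain ⟨c, rfl⟩ := (hζ.pow_eq_one_iff_dvd m).mp h1
  simp

/-- Trivial inertia: an element of the Galois group acting trivially modulo an unramified
prime is the identity. -/
theorem h28_eq_one_of_forall_smul_sub_mem {R S G : Type*} [CommRing R] [CommRing S]
    [Algebra R S] [Group G] [MulSemiringAction G S] [IsGaloisGroup G R S] [Finite G]
    [IsDomain R] [IsDomain S] [Module.Finite R S] [Module.Flat R S]
    (P : Ideal S) [P.IsPrime] [PerfectField (P.under R).ResidueField]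
    (he : P.ramificationIdx R = 1) (g : G) (hg : ∀ x : S, g • x - x ∈ P) : g = 1 := by
  have h1 : Nat.card (P.inertia G) = 1 := by
    rw [Ideal.card_inertia_eq_ramificationIdxIn (G := G) (P.under R) P,
      Ideal.ramificationIdxIn_eq_ramificationIdx (P.under R) P G, he]
  have h2 : (⟨g, hg⟩ : P.inertia G) = 1 := by
    have := (Nat.card_eq_one_iff_unique.mp h1).1
    exact Subsingleton.elim _ _
  simpa using congrArg Subtype.val h2

/-- Powers of a Frobenius element. -/
theorem h28_frob_pow {R S G : Type*} [CommRing R] [CommRing S] [Algebra R S] [Group G]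
    [MulSemiringAction G S] [SMulCommClass G R S] {Q : Ideal S} {σ : G}
    (h : IsArithFrobAt R σ Q) (n : ℕ) (x : S) :
    (σ ^ n) • x - x ^ (Nat.card (R ⧸ Q.under R) ^ n) ∈ Q := by
  induction n generalizing x with
  | zero => simp
  | succ n ih =>
    have h1 : (σ ^ (n + 1)) • x = σ • ((σ ^ n) • x) := by
      rw [pow_succ', mul_smul]
    have h2 : σ • ((σ ^ n) • x) - ((σ ^ n) • x) ^ Nat.card (R ⧸ Q.under R) ∈ Q := h _
    have h3 : ((σ ^ n) • x) ^ Nat.card (R ⧸ Q.under R) -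
        (x ^ (Nat.card (R ⧸ Q.under R) ^ n)) ^ Nat.card (R ⧸ Q.under R) ∈ Q :=
      Ideal.mem_of_dvd _ (sub_dvd_pow_sub_pow _ _ _) (ih x)
    have h4 : (x ^ (Nat.card (R ⧸ Q.under R) ^ n)) ^ Nat.card (R ⧸ Q.under R) =
        x ^ (Nat.card (R ⧸ Q.under R) ^ (n + 1)) := by
      rw [← pow_mul, pow_succ]
    rw [h1, ← h4]
    have := add_mem h2 h3
    simpa using this


section restrict

variable {K M Ω : Type*} [Field K] [NumberField K] [Field M] [NumberField M] [Field Ω]
  [NumberField Ω] [Algebra K M] [Algebra M Ω] [Algebra K Ω] [IsScalarTower K M Ω]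

theorem h28_coe_smul (τ : Ω ≃ₐ[K] Ω) (x : 𝓞 Ω) : ((τ • x : 𝓞 Ω) : Ω) = τ (x : Ω) := rfl

theorem h28_restrict_smul [Normal K M] (τ : Ω ≃ₐ[K] Ω) (y : 𝓞 M) :
    algebraMap (𝓞 M) (𝓞 Ω) ((AlgEquiv.restrictNormalHom M τ) • y) =
      τ • algebraMap (𝓞 M) (𝓞 Ω) y := by
  apply RingOfIntegers.ext
  rw [h28_coe_smul]
  change algebraMap M Ω ((AlgEquiv.restrictNormalHom M τ) (y : M)) = τ (algebraMap M Ω (y : M))
  exact AlgEquiv.restrictNormal_commutes τ M (y : M)

/-- An automorphism acting trivially on `𝓞 M` modulo a prime unramified in `M / K`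
restricts to the identity of `M`. -/
theorem h28_restrict_eq_one [IsGalois K M] (τ : Ω ≃ₐ[K] Ω) (𝔓 : Ideal (𝓞 Ω)) [𝔓.IsPrime]
    (he : (𝔓.under (𝓞 M)).ramificationIdx (𝓞 K) = 1)
    (hτ : ∀ y : 𝓞 M, τ • (algebraMap (𝓞 M) (𝓞 Ω) y) - algebraMap (𝓞 M) (𝓞 Ω) y ∈ 𝔓) :
    AlgEquiv.restrictNormalHom M τ = 1 := by
  refine h28_eq_one_of_forall_smul_sub_mem (R := 𝓞 K) (S := 𝓞 M) (𝔓.under (𝓞 M)) he _ ?_
  intro y
  rw [Ideal.under_def, Ideal.mem_comap, map_sub, h28_restrict_smul]
  exact hτ y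

end restrict

/-- The group theory behind the auxiliary fields: in `Γ ↪ G × U` (`G` of prime order `p`
generated by `σ₀`, `U` cyclic of order divisible by `p`, `u₀` not a `p`-th power) there are
subgroups `HN ≤ HF` of indices `p ^ 2` and `p` with the membership properties below. -/
theorem h28_group_theory {Γ G U : Type*} [Group Γ] [Group G] [CommGroup U] [IsCyclic U]
    [Finite U] [Finite Γ] (p : ℕ) [Fact p.Prime] (res : Γ →* G) (χ : Γ →* U) (σ₀ : G) (u₀ : U)
    (hG : Nat.card G = p) (hσ₀ : σ₀ ≠ 1) (hu₀ : ¬ ∃ y : U, u₀ = y ^ p)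
    (hpU : p ∣ Nat.card U) (hres : Function.Surjective res)
    (hinj : ∀ τ : Γ, res τ = 1 → χ τ = 1 → τ = 1)
    (hsurj : ∀ c : U, ∃ τ : Γ, res τ = 1 ∧ χ τ = c) :
    ∃ HF HN : Subgroup Γ, HN ≤ HF ∧ HF.Normal ∧ HN.Normal ∧ HF.index = p ∧ HN.index = p ^ 2 ∧
      (∀ τ ∈ HN, res τ = 1) ∧
      (∀ τ ∈ HN, ∃ y : U, χ τ = y ^ p) ∧
      (∀ τ ∈ HF, (∃ y : U, χ τ = y ^ p) → τ ∈ HN) ∧
      (∀ (τ : Γ) (k : ℕ) (y : U), res τ = σ₀ ^ k → χ τ = u₀ ^ k * y ^ p → τ ∈ HF) ∧
      (∀ τ : Γ, ∃ τ₁ τ₂ : Γ, res τ₁ = 1 ∧ τ₂ ∈ HF ∧ τ = τ₁ * τ₂) := by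
  classical
  have hp : p.Prime := Fact.out
  -- `G` is cyclic generated by `σ₀`
  have hgen : ∀ x : G, x ∈ Subgroup.zpowers σ₀ := by
    intro x
    rw [zpowers_eq_top_of_prime_card hG hσ₀]
    exact Subgroup.mem_top x
  have hGfin : Finite G := Nat.finite_of_card_ne_zero (by rw [hG]; exact hp.ne_zero)
  have hσ₀p : σ₀ ^ p = 1 := by rw [← hG]; exact pow_card_eq_one'
  have hord : orderOf σ₀ = p := orderOf_eq_prime hσ₀p hσ₀
  have hGcomm : ∀ x y : G, x * y = y * x := by
    intro x y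
    obtain ⟨a, rfl⟩ := Subgroup.mem_zpowers_iff.mp (hgen x)
    obtain ⟨b, rfl⟩ := Subgroup.mem_zpowers_iff.mp (hgen y)
    rw [← zpow_add, ← zpow_add, add_comm]
  -- commutativity of Γ
  have hΓcomm : ∀ x y : Γ, x * y = y * x := by
    intro x y
    have h1 : res (x * y * (y * x)⁻¹) = 1 := by
      rw [map_mul, map_mul, map_inv, map_mul, hGcomm (res x) (res y), mul_inv_cancel]
    have h2 : χ (x * y * (y * x)⁻¹) = 1 := by
      rw [map_mul, map_mul, map_inv, map_mul, mul_comm (χ x) (χ y), mul_inv_cancel]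
    exact mul_inv_eq_one.mp (hinj _ h1 h2)
  -- the quotient `C = U / U^p`
  let Pp : Subgroup U := (powMonoidHom p : U →* U).range
  let b : U →* U ⧸ Pp := QuotientGroup.mk' Pp
  have hb1 : ∀ u : U, b u = 1 ↔ ∃ y : U, u = y ^ p := by
    intro u
    rw [show b u = (u : U ⧸ Pp) from rfl, QuotientGroup.eq_one_iff]
    constructor
    · rintro ⟨y, hy⟩; exact ⟨y, hy.symm⟩
    · rintro ⟨y, hy⟩; exact ⟨y, hy.symm⟩
  have hbpow : ∀ y : U, b (y ^ p) = 1 := fun y => (hb1 _).mpr ⟨y, rfl⟩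
  have hbu₀ : b u₀ ≠ 1 := fun h => hu₀ ((hb1 u₀).mp h)
  have hcardC : Nat.card (U ⧸ Pp) = p := by
    have : Pp.index = p := by
      rw [IsCyclic.index_powMonoidHom_range, Nat.gcd_eq_right hpU]
    rw [← this]; rfl
  have hordb : orderOf (b u₀) ∣ orderOf σ₀ := by
    rw [hord]
    apply orderOf_dvd_of_pow_eq_one
    rw [← map_pow]; exact hbpow u₀
  let a : G →* U ⧸ Pp := monoidHomOfForallMemZpowers hgen hordb
  have haσ₀ : a σ₀ = b u₀ := monoidHomOfForallMemZpowers_apply_gen hgen hordb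
  have hainj : ∀ g : G, a g = 1 → g = 1 := by
    intro g hg
    have hker : a.ker = ⊥ := by
      have : Fact (Nat.card G).Prime := ⟨by rw [hG]; exact hp⟩
      rcases Subgroup.eq_bot_or_eq_top_of_prime_card a.ker with h | h
      · exact h
      · exfalso
        have : σ₀ ∈ a.ker := by rw [h]; exact Subgroup.mem_top _
        rw [MonoidHom.mem_ker, haσ₀] at this
        exact hbu₀ this
    have : g ∈ a.ker := MonoidHom.mem_ker.mpr hg
    rw [hker] at this
    exact Subgroup.mem_bot.mp this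
  have hbsurj : Function.Surjective b := QuotientGroup.mk'_surjective Pp
  have hasurj : Function.Surjective a := by
    have hfin : Finite (U ⧸ Pp) := inferInstance
    have hinj' : Function.Injective a := by
      rw [injective_iff_map_eq_one]; exact hainj
    exact (Nat.bijective_iff_injective_and_card a).mpr ⟨hinj', by rw [hG, hcardC]⟩ |>.2
  -- the two homomorphisms
  let α : Γ →* U ⧸ Pp := a.comp res
  let β : Γ →* U ⧸ Pp := b.comp χ
  let δ : Γ →* U ⧸ Pp := α * β⁻¹
  have hδ : ∀ τ, δ τ = a (res τ) * (b (χ τ))⁻¹ := fun τ => rfl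
  refine ⟨δ.ker, (α.prod β).ker, ?_, ?_, ?_, ?_, ?_, ?_, ?_, ?_, ?_, ?_⟩
  · intro τ hτ
    rw [MonoidHom.mem_ker, MonoidHom.prod_apply, Prod.mk_eq_one] at hτ
    rw [MonoidHom.mem_ker, hδ]
    have h1 : a (res τ) = 1 := hτ.1
    have h2 : b (χ τ) = 1 := hτ.2
    rw [h1, h2]; simp
  · exact ⟨fun n hn g => by rw [hΓcomm g n, mul_inv_cancel_right]; exact hn⟩
  · exact ⟨fun n hn g => by rw [hΓcomm g n, mul_inv_cancel_right]; exact hn⟩
  · rw [Subgroup.index_ker]
    have hδsurj : Function.Surjective δ := by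
      intro c
      obtain ⟨u, hu⟩ := hbsurj c⁻¹
      obtain ⟨τ, hτ1, hτ2⟩ := hsurj u
      refine ⟨τ, ?_⟩
      rw [hδ, hτ1, hτ2, hu]; simp
    rw [MonoidHom.range_eq_top.mpr hδsurj]
    rw [Subgroup.card_top, hcardC]
  · rw [Subgroup.index_ker]
    have hsurj' : Function.Surjective (α.prod β) := by
      rintro ⟨c₁, c₂⟩
      obtain ⟨g, hg⟩ := hasurj c₁
      obtain ⟨τ₁, hτ₁⟩ := hres g
      obtain ⟨u, hu⟩ := hbsurj (c₂ * (b (χ τ₁))⁻¹)
      obtain ⟨τ₂, hτ21, hτ22⟩ := hsurj u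
      refine ⟨τ₁ * τ₂, ?_⟩
      rw [MonoidHom.prod_apply]
      refine Prod.ext ?_ ?_
      · change a (res (τ₁ * τ₂)) = c₁
        rw [map_mul, hτ21, mul_one, hτ₁, hg]
      · change b (χ (τ₁ * τ₂)) = c₂
        rw [map_mul, map_mul, hτ22, hu]; simp
    rw [MonoidHom.range_eq_top.mpr hsurj', Subgroup.card_top, Nat.card_prod, hcardC, sq]
  · intro τ hτ
    rw [MonoidHom.mem_ker, MonoidHom.prod_apply, Prod.mk_eq_one] at hτ
    exact hainj _ hτ.1
  · intro τ hτ
    rw [MonoidHom.mem_ker, MonoidHom.prod_apply, Prod.mk_eq_one] at hτ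
    exact (hb1 _).mp hτ.2
  · intro τ hτ hy
    rw [MonoidHom.mem_ker, hδ] at hτ
    have h2 : b (χ τ) = 1 := (hb1 _).mpr hy
    rw [h2, inv_one, mul_one] at hτ
    rw [MonoidHom.mem_ker, MonoidHom.prod_apply, Prod.mk_eq_one]
    exact ⟨hτ, h2⟩
  · intro τ k y h1 h2
    rw [MonoidHom.mem_ker, hδ, h1, h2, map_pow, haσ₀, map_mul, map_pow, hbpow, mul_one]
    simp
  · intro τ
    obtain ⟨u, hu⟩ := hbsurj ((b (χ τ)) * (a (res τ))⁻¹)
    obtain ⟨τ₁, hτ11, hτ12⟩ := hsurj u
    refine ⟨τ₁, τ₁⁻¹ * τ, hτ11, ?_, by simp⟩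
    have e1 : res (τ₁⁻¹ * τ) = res τ := by rw [map_mul, map_inv, hτ11, inv_one, one_mul]
    have e2 : b (χ (τ₁⁻¹ * τ)) = (b u)⁻¹ * b (χ τ) := by
      rw [map_mul, map_inv, hτ12, map_mul, map_inv]
    rw [MonoidHom.mem_ker, hδ, e1, e2, hu]
    simp

end Fermat.Agent.S14
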