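import Mathlib

set_option autoImplicit false

/-!
# Euler products over the ideal monoid of a Dedekind domain (helper35, S14 package EULER)

`h35_eulerProduct_hasProd` : for a Dedekind domain `R`, a complete normed field `F` and a
completely multiplicative, norm-summable `f : Ideal R → F` with `f ⊥ = 0`,
`∏' v, (1 - f v)⁻¹ = ∑' I, f I` (as a `HasProd`), the product being over the height-one spectrum.
-/

namespace Fermat.Agent.S14

open IsDedekindDomain

section Supp

variable {R : Type*} [CommRing R] [IsDedekindDomain R]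

/-- The nonzero ideals all of whose prime factors lie in the finite set `S`. -/
def h35_supp (S : Finset (HeightOneSpectrum R)) : Set (Ideal R) :=
  {I | I ≠ ⊥ ∧ ∀ v : HeightOneSpectrum R, I ≤ v.asIdeal → v ∈ S}

theorem h35_mem_supp {S : Finset (HeightOneSpectrum R)} {I : Ideal R} :
    I ∈ h35_supp S ↔ I ≠ ⊥ ∧ ∀ v : HeightOneSpectrum R, I ≤ v.asIdeal → v ∈ S := Iff.rfl

theorem h35_supp_mono {S T : Finset (HeightOneSpectrum R)} (h : S ⊆ T) :
    h35_supp S ⊆ h35_supp T := fun _ hI => ⟨hI.1, fun v hv => h (hI.2 v hv)⟩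

theorem h35_supp_empty : h35_supp (∅ : Finset (HeightOneSpectrum R)) = {⊤} := by
  ext I
  simp only [h35_mem_supp, Finset.notMem_empty, imp_false, Set.mem_singleton_iff]
  constructor
  · rintro ⟨h0, h⟩
    by_contra htop
    obtain ⟨m, hm, hIm⟩ := Ideal.exists_le_maximal I htop
    have hm0 : m ≠ ⊥ := fun h' => h0 (le_bot_iff.mp (h' ▸ hIm))
    exact h ⟨m, hm.isPrime, hm0⟩ hIm
  · rintro rfl
    exact ⟨top_ne_bot, fun v hv => v.isPrime.ne_top (top_le_iff.mp hv)⟩

theorem h35_le_iff_eq (v w : HeightOneSpectrum R) : v.asIdeal ≤ w.asIdeal ↔ v = w := by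
  constructor
  · intro h
    exact HeightOneSpectrum.ext (v.isMaximal.eq_of_le w.isPrime.ne_top h)
  · rintro rfl; exact le_rfl

theorem h35_pow_mul_mem_supp [DecidableEq (HeightOneSpectrum R)]
    {S : Finset (HeightOneSpectrum R)} (v : HeightOneSpectrum R) (e : ℕ)
    {I : Ideal R} (hI : I ∈ h35_supp S) : v.asIdeal ^ e * I ∈ h35_supp (insert v S) := by
  refine ⟨mul_ne_zero (pow_ne_zero _ v.ne_bot) hI.1, fun w hw => ?_⟩
  rcases (w.isPrime.mul_le).mp hw with h | h
  · have hvw : v.asIdeal ≤ w.asIdeal := by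
      by_cases he : e = 0
      · subst he
        rw [pow_zero, Ideal.one_eq_top] at h
        exact absurd (top_le_iff.mp h) w.isPrime.ne_top
      · exact (w.isPrime.pow_le_iff he).mp h
    rw [(h35_le_iff_eq v w).mp hvw]
    exact Finset.mem_insert_self _ _
  · exact Finset.mem_insert_of_mem (hI.2 w h)

theorem h35_mem_supp_of_mem_insert [DecidableEq (HeightOneSpectrum R)]
    {S : Finset (HeightOneSpectrum R)} {v : HeightOneSpectrum R}
    {I : Ideal R} (hI : I ∈ h35_supp (insert v S)) (hv : ¬ v.asIdeal ∣ I) : I ∈ h35_supp S := by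
  refine ⟨hI.1, fun w hw => ?_⟩
  rcases Finset.mem_insert.mp (hI.2 w hw) with h | h
  · subst h
    exact absurd (Ideal.dvd_iff_le.mpr hw) hv
  · exact h

/-- The map `(e, I) ↦ v ^ e * I` identifying `ℕ × supp S` with `supp (insert v S)`. -/
noncomputable def h35_suppEquiv [DecidableEq (HeightOneSpectrum R)]
    (S : Finset (HeightOneSpectrum R)) (v : HeightOneSpectrum R) (hv : v ∉ S) :
    ℕ × h35_supp S ≃ h35_supp (insert v S) :=
  Equiv.ofBijective (fun x => ⟨v.asIdeal ^ x.1 * x.2.1, h35_pow_mul_mem_supp v x.1 x.2.2⟩) (by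
    have hnd : ∀ I : h35_supp S, ¬ v.asIdeal ∣ I.1 := fun I h =>
      hv (I.2.2 v (Ideal.dvd_iff_le.mp h))
    have key : ∀ (e e' : ℕ) (I I' : h35_supp S), e ≤ e' →
        v.asIdeal ^ e * I.1 = v.asIdeal ^ e' * I'.1 → e = e' ∧ I = I' := by
      intro e e' I I' hle h
      obtain ⟨d, rfl⟩ := Nat.exists_eq_add_of_le hle
      rw [pow_add, mul_assoc] at h
      have h' : I.1 = v.asIdeal ^ d * I'.1 := mul_left_cancel₀ (pow_ne_zero _ v.ne_bot) h
      have hd : d = 0 := by
        by_contra hd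
        refine hnd I ?_
        rw [h']
        exact Dvd.dvd.mul_right (dvd_pow_self _ hd) _
      subst hd
      rw [pow_zero, one_mul] at h'
      exact ⟨by simp, Subtype.ext h'⟩
    constructor
    · rintro ⟨e, I⟩ ⟨e', I'⟩ h
      have h' : v.asIdeal ^ e * I.1 = v.asIdeal ^ e' * I'.1 := congrArg Subtype.val h
      rcases le_total e e' with hle | hle
      · obtain ⟨h1, h2⟩ := key e e' I I' hle h'
        rw [h1, h2]
      · obtain ⟨h1, h2⟩ := key e' e I' I hle h'.symm
        rw [h1, h2]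
    · rintro ⟨J, hJ⟩
      obtain ⟨n, I, hnI, rfl⟩ := WfDvdMonoid.max_power_factor hJ.1 v.irreducible
      exact ⟨(n, ⟨I, h35_mem_supp_of_mem_insert
        ⟨right_ne_zero_of_mul hJ.1, fun w hw => hJ.2 w (le_trans Ideal.mul_le_right hw)⟩ hnI⟩), rfl⟩)

@[simp]
theorem h35_suppEquiv_apply [DecidableEq (HeightOneSpectrum R)]
    (S : Finset (HeightOneSpectrum R)) (v : HeightOneSpectrum R) (hv : v ∉ S)
    (x : ℕ × h35_supp S) :
    ((h35_suppEquiv S v hv x : h35_supp (insert v S)) : Ideal R) = v.asIdeal ^ x.1 * x.2.1 := rfl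

/-- Every nonzero ideal is supported on a finite set of primes. -/
theorem h35_exists_mem_supp {I : Ideal R} (hI : I ≠ ⊥) :
    ∃ S : Finset (HeightOneSpectrum R), I ∈ h35_supp S := by
  have hfin := Ideal.finite_factors hI
  refine ⟨hfin.toFinset, hI, fun v hv => ?_⟩
  rw [Set.Finite.mem_toFinset]
  exact Ideal.dvd_iff_le.mpr hv

end Supp

section Euler

variable {R : Type*} [CommRing R] [IsDedekindDomain R]
variable {F : Type*} [NormedField F] [CompleteSpace F]

/-- Finite Euler product: the sum of a completely multiplicative `f` over the ideals supported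
on a finite set `S` of primes is `∏ v ∈ S, (1 - f v)⁻¹`. -/
theorem h35_summable_hasSum_supp (f : Ideal R → F) (h1 : f ⊤ = 1)
    (hmul : ∀ I J : Ideal R, f (I * J) = f I * f J)
    (hlt : ∀ v : HeightOneSpectrum R, ‖f v.asIdeal‖ < 1) (S : Finset (HeightOneSpectrum R)) :
    Summable (fun I : h35_supp S => ‖f I‖) ∧
      HasSum (fun I : h35_supp S => f I) (∏ v ∈ S, (1 - f v.asIdeal)⁻¹) := by
  classical
  have hpow : ∀ (v : HeightOneSpectrum R) (e : ℕ), f (v.asIdeal ^ e) = f v.asIdeal ^ e := by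
    intro v e
    induction e with
    | zero => rw [pow_zero, pow_zero, Ideal.one_eq_top, h1]
    | succ e ih => rw [pow_succ, hmul, ih, pow_succ]
  induction S using Finset.induction_on with
  | empty =>
    rw [h35_supp_empty, Finset.prod_empty]
    exact ⟨(Set.finite_singleton (⊤ : Ideal R)).summable (fun I => ‖f I‖), h1 ▸ hasSum_singleton ⊤ f⟩
  | insert v S hv ih =>
    have hgeo : HasSum (fun n : ℕ => f v.asIdeal ^ n) (1 - f v.asIdeal)⁻¹ :=
      hasSum_geometric_of_norm_lt_one (hlt v)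
    have hgeon : Summable (fun n : ℕ => ‖f v.asIdeal ^ n‖) := by
      simp only [norm_pow]
      exact summable_geometric_of_lt_one (norm_nonneg _) (hlt v)
    constructor
    · rw [← (h35_suppEquiv S v hv).summable_iff]
      have : ((fun I : h35_supp (insert v S) => ‖f I‖) ∘ (h35_suppEquiv S v hv)) =
          fun x : ℕ × h35_supp S => ‖f v.asIdeal ^ x.1‖ * ‖f x.2‖ := by
        funext x
        simp only [Function.comp_apply, h35_suppEquiv_apply, hmul, hpow, norm_mul]
      rw [this]
      exact Summable.mul_of_nonneg hgeon ih.1 (fun _ => norm_nonneg _) (fun _ => norm_nonneg _)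
    · rw [Finset.prod_insert hv, ← (h35_suppEquiv S v hv).hasSum_iff]
      have : ((fun I : h35_supp (insert v S) => f I) ∘ (h35_suppEquiv S v hv)) =
          fun x : ℕ × h35_supp S => f v.asIdeal ^ x.1 * f x.2 := by
        funext x
        simp only [Function.comp_apply, h35_suppEquiv_apply, hmul, hpow]
      rw [this]
      have : T3Space F := instT3Space
      apply hgeo.mul ih.2
      apply summable_mul_of_summable_norm hgeon ih.1

/-- `‖f v‖ < 1` for a norm-summable completely multiplicative `f`. -/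
theorem h35_norm_lt_one (f : Ideal R → F) (h1 : f ⊤ = 1)
    (hmul : ∀ I J : Ideal R, f (I * J) = f I * f J) (hsum : Summable fun I : Ideal R => ‖f I‖)
    (v : HeightOneSpectrum R) : ‖f v.asIdeal‖ < 1 := by
  have hpow : ∀ e : ℕ, f (v.asIdeal ^ e) = f v.asIdeal ^ e := by
    intro e
    induction e with
    | zero => rw [pow_zero, pow_zero, Ideal.one_eq_top, h1]
    | succ e ih => rw [pow_succ, hmul, ih, pow_succ]
  have hinj : Function.Injective (fun e : ℕ => v.asIdeal ^ e) :=
    (Ideal.pow_right_strictAnti v.asIdeal v.ne_bot v.isPrime.ne_top).injective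
  have := hsum.comp_injective hinj
  simp only [Function.comp_def, hpow, norm_pow] at this
  simpa using summable_geometric_iff_norm_lt_one.mp this

/-- The sum over ideals supported on `S` is the partial Euler product. -/
theorem h35_prod_eq_tsum_supp (f : Ideal R → F) (h1 : f ⊤ = 1)
    (hmul : ∀ I J : Ideal R, f (I * J) = f I * f J) (hsum : Summable fun I : Ideal R => ‖f I‖)
    (S : Finset (HeightOneSpectrum R)) :
    ∏ v ∈ S, (1 - f v.asIdeal)⁻¹ = ∑' I : h35_supp S, f I :=
  ((h35_summable_hasSum_supp f h1 hmul (h35_norm_lt_one f h1 hmul hsum) S).2.tsum_eq).symm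

/-- **Euler product over the ideal monoid of a Dedekind domain.** -/
theorem h35_eulerProduct_hasProd (f : Ideal R → F) (h0 : f ⊥ = 0) (h1 : f ⊤ = 1)
    (hmul : ∀ I J : Ideal R, f (I * J) = f I * f J) (hsum : Summable fun I : Ideal R => ‖f I‖) :
    HasProd (fun v : HeightOneSpectrum R => (1 - f v.asIdeal)⁻¹) (∑' I : Ideal R, f I) := by
  classical
  rw [HasProd, SummationFilter.unconditional, Metric.tendsto_atTop]
  intro ε hε
  have hsum' : Summable f := hsum.of_norm
  obtain ⟨T, hT⟩ := hsum'.tsum_vanishing (Metric.ball_mem_nhds (0 : F) hε)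
  -- a finite set of primes supporting every nonzero element of `T`
  have hfin : {v : HeightOneSpectrum R | ∃ I ∈ T, I ≠ ⊥ ∧ I ≤ v.asIdeal}.Finite := by
    have hsub : {v : HeightOneSpectrum R | ∃ I ∈ T, I ≠ ⊥ ∧ I ≤ v.asIdeal} ⊆
        ⋃ I ∈ (T : Set (Ideal R)), {v : HeightOneSpectrum R | I ≠ ⊥ ∧ I ≤ v.asIdeal} := by
      rintro v ⟨I, hIT, hI⟩
      exact Set.mem_biUnion (Finset.mem_coe.mpr hIT) hI
    refine (Set.Finite.biUnion T.finite_toSet (fun I _ => ?_)).subset hsub
    by_cases hI : I = ⊥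
    · simp [hI]
    · exact (Ideal.finite_factors hI).subset fun v hv => Ideal.dvd_iff_le.mpr hv.2
  refine ⟨hfin.toFinset, fun s hs => ?_⟩
  rw [dist_eq_norm, h35_prod_eq_tsum_supp f h1 hmul hsum s,
    ← hsum'.tsum_subtype_add_tsum_subtype_compl (h35_supp s), sub_add_cancel_left, norm_neg,
    tsum_eq_tsum_sdiff_singleton (h35_supp s)ᶜ h0]
  have hdisj : Disjoint ((h35_supp s)ᶜ \ {⊥}) (T : Set (Ideal R)) := by
    rw [Set.disjoint_left]
    rintro I ⟨hIs, hI0⟩ hIT
    refine hIs ⟨hI0, fun v hv => hs ?_⟩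
    rw [Set.Finite.mem_toFinset]
    exact ⟨I, Finset.mem_coe.mp hIT, hI0, hv⟩
  simpa using hT _ hdisj

/-- `tprod` form of the Euler product. -/
theorem h35_eulerProduct_tprod (f : Ideal R → F) (h0 : f ⊥ = 0) (h1 : f ⊤ = 1)
    (hmul : ∀ I J : Ideal R, f (I * J) = f I * f J) (hsum : Summable fun I : Ideal R => ‖f I‖) :
    ∏' v : HeightOneSpectrum R, (1 - f v.asIdeal)⁻¹ = ∑' I : Ideal R, f I :=
  (h35_eulerProduct_hasProd f h0 h1 hmul hsum).tprod_eq

end Euler

end Fermat.Agent.S14
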