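import Mathlib
import Fermat.Agent.S14.h35_Euler

set_option autoImplicit false

/-!
# Dedekind zeta as a sum over ideals, and its Euler product (helper35, S14 package ZETA)
-/

namespace Fermat.Agent.S14

open NumberField IsDedekindDomain Filter Topology

section Zeta

variable (K : Type*) [Field K] [NumberField K]

/-- The counting asymptotics in the form used by the `LSeries` summability criterion. -/
theorem h35_tendsto_sum_card_div :
    Tendsto (fun n : ℕ ↦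
      (∑ k ∈ Finset.Icc 1 n, (Nat.card {I : Ideal (𝓞 K) // Ideal.absNorm I = k} : ℝ)) / n)
      atTop (𝓝 (dedekindZeta_residue K)) := by
  refine ((Ideal.tendsto_norm_le_div_atTop₀ K).comp tendsto_natCast_atTop_atTop).congr fun n ↦ ?_
  simp only [Function.comp_apply, Nat.cast_le, ← Nat.cast_sum]
  congr
  rw [← add_left_inj 1, ← Ideal.card_norm_le_eq_card_norm_le_add_one,
    show Finset.Icc 1 n = Finset.Ioc 0 n from Finset.Icc_succ_left_eq_Ioc _ _,
    show 1 = Nat.card {I : Ideal (𝓞 K) // Ideal.absNorm I = 0} by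
      simp [Ideal.absNorm_eq_zero_iff],
    Finset.sum_Ioc_add_eq_sum_Icc (n.zero_le),
    ← Finset.card_preimage_eq_sum_card_image_eq
      (fun k _ ↦ Ideal.finite_setOfPred_absNorm_eq k)]
  simp [Set.coe_eq_subtype]

/-- The L-series defining the Dedekind zeta function converges for `1 < re s`. -/
theorem h35_lseriesSummable {s : ℂ} (hs : 1 < s.re) :
    LSeriesSummable (fun n => (Nat.card {I : Ideal (𝓞 K) // Ideal.absNorm I = n} : ℂ)) s := by
  have hO : (fun n : ℕ => ∑ k ∈ Finset.Icc 1 n,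
      (Nat.card {I : Ideal (𝓞 K) // Ideal.absNorm I = k} : ℝ)) =O[atTop]
      fun n : ℕ => (n : ℝ) ^ (1 : ℝ) := by
    refine Asymptotics.isBigO_of_div_tendsto_nhds ?_ (dedekindZeta_residue K) ?_
    · filter_upwards [eventually_ne_atTop 0] with n hn h
      simp [hn] at h
    · refine (h35_tendsto_sum_card_div K).congr fun n => ?_
      simp
  have h := LSeriesSummable_of_sum_norm_bigO_and_nonneg (s := s) hO
    (fun _ => Nat.cast_nonneg _) zero_le_one hs
  simpa using h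

/-- Norm of `N(I)^(-s)`. -/
theorem h35_norm_absNorm_cpow {s : ℂ} (hs : s.re ≠ 0) (I : Ideal (𝓞 K)) :
    ‖(Ideal.absNorm I : ℂ) ^ (-s)‖ = (Ideal.absNorm I : ℝ) ^ (-s.re) := by
  rcases Nat.eq_zero_or_pos (Ideal.absNorm I) with h | h
  · have hs' : -s ≠ 0 := by
      intro h'
      apply hs
      have := congrArg Complex.re h'
      simpa using this
    rw [h, Nat.cast_zero, Nat.cast_zero, Complex.zero_cpow hs', norm_zero,
      Real.zero_rpow (neg_ne_zero.mpr hs)]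
  · rw [Complex.norm_natCast_cpow_of_pos h, Complex.neg_re]

/-- `∑ N(I)^(-σ)` over all ideals converges for real `σ > 1`. -/
theorem h35_summable_absNorm_rpow {σ : ℝ} (hσ : 1 < σ) :
    Summable fun I : Ideal (𝓞 K) => (Ideal.absNorm I : ℝ) ^ (-σ) := by
  have hL := (h35_lseriesSummable K (s := (σ : ℂ)) (by simpa using hσ)).norm
  rw [← (Equiv.sigmaFiberEquiv (Ideal.absNorm (S := 𝓞 K))).summable_iff]
  refine (summable_sigma_of_nonneg
    (fun x => Real.rpow_nonneg (Nat.cast_nonneg _) _)).mpr ⟨fun n => ?_, ?_⟩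
  · have : Finite {I : Ideal (𝓞 K) // Ideal.absNorm I = n} :=
      (Ideal.finite_setOfPred_absNorm_eq (S := 𝓞 K) n).to_subtype
    exact Summable.of_finite
  · refine hL.congr fun n => ?_
    have : Finite {I : Ideal (𝓞 K) // Ideal.absNorm I = n} :=
      (Ideal.finite_setOfPred_absNorm_eq (S := 𝓞 K) n).to_subtype
    have := Fintype.ofFinite {I : Ideal (𝓞 K) // Ideal.absNorm I = n}
    have h1 : ∀ y : {I : Ideal (𝓞 K) // Ideal.absNorm I = n},
        ((Ideal.absNorm ((Equiv.sigmaFiberEquiv (Ideal.absNorm (S := 𝓞 K))) ⟨n, y⟩) : ℕ) : ℝ) ^ (-σ)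
          = (n : ℝ) ^ (-σ) := by
      intro y
      rw [Equiv.sigmaFiberEquiv_apply]
      simp only [y.2]
    simp only [h1]
    rw [tsum_const, LSeries.norm_term_eq, Nat.card_eq_fintype_card]
    rcases eq_or_ne n 0 with rfl | hn
    · simp [Real.zero_rpow (neg_ne_zero.mpr (zero_lt_one.trans hσ).ne')]
    · simp [hn, Real.rpow_neg (Nat.cast_nonneg n), div_eq_mul_inv]

/-- `∑ N(I)^(-s)` over all ideals converges absolutely for `1 < re s`. -/
theorem h35_summable_norm_absNorm_cpow {s : ℂ} (hs : 1 < s.re) :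
    Summable fun I : Ideal (𝓞 K) => ‖(Ideal.absNorm I : ℂ) ^ (-s)‖ := by
  simp only [h35_norm_absNorm_cpow K (zero_lt_one.trans hs).ne']
  exact h35_summable_absNorm_rpow K hs

/-- The Dedekind zeta function is the sum of `N(I)^(-s)` over all ideals (`1 < re s`); the zero
ideal contributes `0`. -/
theorem h35_dedekindZeta_eq_tsum {s : ℂ} (hs : 1 < s.re) :
    dedekindZeta K s = ∑' I : Ideal (𝓞 K), (Ideal.absNorm I : ℂ) ^ (-s) := by
  have hsum : Summable fun I : Ideal (𝓞 K) => (Ideal.absNorm I : ℂ) ^ (-s) :=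
    (h35_summable_norm_absNorm_cpow K hs).of_norm
  have hs0 : s ≠ 0 := by
    rintro rfl
    simp at hs
    linarith
  rw [← (Equiv.sigmaFiberEquiv (Ideal.absNorm (S := 𝓞 K))).tsum_eq]
  have hfin : ∀ n : ℕ, Finite {I : Ideal (𝓞 K) // Ideal.absNorm I = n} := fun n =>
    (Ideal.finite_setOfPred_absNorm_eq (S := 𝓞 K) n).to_subtype
  have hsig := Summable.tsum_sigma'
    (f := (fun I : Ideal (𝓞 K) => (Ideal.absNorm I : ℂ) ^ (-s)) ∘
      (Equiv.sigmaFiberEquiv (Ideal.absNorm (S := 𝓞 K))))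
    (fun n => Summable.of_finite)
    ((Equiv.sigmaFiberEquiv (Ideal.absNorm (S := 𝓞 K))).summable_iff.mpr hsum)
  simp only [Function.comp_apply] at hsig
  rw [hsig, dedekindZeta, LSeries]
  refine tsum_congr fun n => ?_
  have := Fintype.ofFinite {I : Ideal (𝓞 K) // Ideal.absNorm I = n}
  have h1 : ∀ y : {I : Ideal (𝓞 K) // Ideal.absNorm I = n},
      ((Ideal.absNorm ((Equiv.sigmaFiberEquiv (Ideal.absNorm (S := 𝓞 K))) ⟨n, y⟩) : ℕ) : ℂ) ^ (-s)
        = (n : ℂ) ^ (-s) := by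
    intro y
    rw [Equiv.sigmaFiberEquiv_apply]
    simp only [y.2]
  simp only [h1]
  rw [tsum_const, LSeries.term_of_ne_zero' hs0, Nat.card_eq_fintype_card, Complex.cpow_neg,
    nsmul_eq_mul, div_eq_mul_inv]

/-- Real form: for real `σ > 1`, `ζ_K(σ)` is the (real) sum of `N(I)^(-σ)`. -/
theorem h35_dedekindZeta_ofReal {σ : ℝ} (hσ : 1 < σ) :
    dedekindZeta K (σ : ℂ) = ((∑' I : Ideal (𝓞 K), (Ideal.absNorm I : ℝ) ^ (-σ) : ℝ) : ℂ) := by
  rw [h35_dedekindZeta_eq_tsum K (s := (σ : ℂ)) (by simpa using hσ), Complex.ofReal_tsum]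
  refine tsum_congr fun I => ?_
  rw [Complex.ofReal_cpow (Nat.cast_nonneg _)]
  simp

/-- The real Dedekind zeta function, as a sum over ideals. -/
noncomputable def h35_zeta (σ : ℝ) : ℝ := ∑' I : Ideal (𝓞 K), (Ideal.absNorm I : ℝ) ^ (-σ)

theorem h35_zeta_def (σ : ℝ) :
    h35_zeta K σ = ∑' I : Ideal (𝓞 K), (Ideal.absNorm I : ℝ) ^ (-σ) := rfl

theorem h35_dedekindZeta_eq_zeta {σ : ℝ} (hσ : 1 < σ) :
    dedekindZeta K (σ : ℂ) = (h35_zeta K σ : ℂ) := h35_dedekindZeta_ofReal K hσ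

/-- Class number formula in terms of `h35_zeta`: simple pole at `1` with positive residue. -/
theorem h35_tendsto_sub_one_mul_zeta :
    Tendsto (fun σ : ℝ => (σ - 1) * h35_zeta K σ) (𝓝[>] 1) (𝓝 (dedekindZeta_residue K)) := by
  have h := tendsto_sub_one_mul_dedekindZeta_nhdsGT K
  have h2 : Tendsto (fun σ : ℝ => (((σ - 1) * h35_zeta K σ : ℝ) : ℂ)) (𝓝[>] 1)
      (𝓝 ((dedekindZeta_residue K : ℝ) : ℂ)) := by
    refine h.congr' ?_
    filter_upwards [self_mem_nhdsWithin] with σ hσ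
    rw [h35_dedekindZeta_eq_zeta K hσ]
    push_cast
    ring
  exact (Complex.continuous_re.tendsto _).comp h2 |>.congr (fun σ => by simp)

/-! ### Euler products -/

theorem h35_absNorm_cpow_mul (s : ℂ) (I J : Ideal (𝓞 K)) :
    (Ideal.absNorm (I * J) : ℂ) ^ (-s) =
      (Ideal.absNorm I : ℂ) ^ (-s) * (Ideal.absNorm J : ℂ) ^ (-s) := by
  rw [map_mul, Nat.cast_mul, Complex.natCast_mul_natCast_cpow]

theorem h35_absNorm_rpow_mul (σ : ℝ) (I J : Ideal (𝓞 K)) :
    (Ideal.absNorm (I * J) : ℝ) ^ (-σ) =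
      (Ideal.absNorm I : ℝ) ^ (-σ) * (Ideal.absNorm J : ℝ) ^ (-σ) := by
  rw [map_mul, Nat.cast_mul, Real.mul_rpow (Nat.cast_nonneg _) (Nat.cast_nonneg _)]

/-- Euler product of the Dedekind zeta function, `1 < re s`. -/
theorem h35_eulerProduct_dedekindZeta {s : ℂ} (hs : 1 < s.re) :
    HasProd (fun v : HeightOneSpectrum (𝓞 K) => (1 - (Ideal.absNorm v.asIdeal : ℂ) ^ (-s))⁻¹)
      (dedekindZeta K s) := by
  have hs0 : -s ≠ 0 := by
    intro h
    have := congrArg Complex.re h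
    simp at this
    linarith
  rw [h35_dedekindZeta_eq_tsum K hs]
  refine h35_eulerProduct_hasProd (fun I : Ideal (𝓞 K) => (Ideal.absNorm I : ℂ) ^ (-s)) ?_ ?_
    (h35_absNorm_cpow_mul K s) (h35_summable_norm_absNorm_cpow K hs)
  · simp [Complex.zero_cpow hs0]
  · simp

/-- Euler product of the real Dedekind zeta function, `1 < σ`. -/
theorem h35_eulerProduct_zeta {σ : ℝ} (hσ : 1 < σ) :
    HasProd (fun v : HeightOneSpectrum (𝓞 K) => (1 - (Ideal.absNorm v.asIdeal : ℝ) ^ (-σ))⁻¹)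
      (h35_zeta K σ) := by
  have hσ0 : -σ ≠ 0 := neg_ne_zero.mpr (zero_lt_one.trans hσ).ne'
  refine h35_eulerProduct_hasProd (fun I : Ideal (𝓞 K) => (Ideal.absNorm I : ℝ) ^ (-σ)) ?_ ?_
    (h35_absNorm_rpow_mul K σ) ?_
  · simp [Real.zero_rpow hσ0]
  · simp
  · simpa [abs_of_nonneg (Real.rpow_nonneg (Nat.cast_nonneg _) _)] using
      h35_summable_absNorm_rpow K hσ

/-- Partial Euler products are bounded by the zeta value. -/
theorem h35_prod_le_zeta {σ : ℝ} (hσ : 1 < σ) (S : Finset (HeightOneSpectrum (𝓞 K))) :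
    ∏ v ∈ S, (1 - (Ideal.absNorm v.asIdeal : ℝ) ^ (-σ))⁻¹ ≤ h35_zeta K σ := by
  have hσ0 : -σ ≠ 0 := neg_ne_zero.mpr (zero_lt_one.trans hσ).ne'
  have hsum := h35_summable_absNorm_rpow K hσ
  have hsum' : Summable fun I : Ideal (𝓞 K) => ‖(Ideal.absNorm I : ℝ) ^ (-σ)‖ := by
    simpa [abs_of_nonneg (Real.rpow_nonneg (Nat.cast_nonneg _) _)] using hsum
  rw [h35_prod_eq_tsum_supp (fun I : Ideal (𝓞 K) => (Ideal.absNorm I : ℝ) ^ (-σ)) (by simp)
    (h35_absNorm_rpow_mul K σ) hsum' S, h35_zeta]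
  exact Summable.tsum_subtype_le (fun I : Ideal (𝓞 K) => (Ideal.absNorm I : ℝ) ^ (-σ))
    (h35_supp S) (fun I => Real.rpow_nonneg (Nat.cast_nonneg _) _) hsum

/-- `N(v)^(-σ) ≤ 1/2` for a prime `v` and `σ ≥ 1`. -/
theorem h35_absNorm_rpow_le_half {σ : ℝ} (hσ : 1 ≤ σ) (v : HeightOneSpectrum (𝓞 K)) :
    (Ideal.absNorm v.asIdeal : ℝ) ^ (-σ) ≤ 1 / 2 := by
  have h2 : 2 ≤ Ideal.absNorm v.asIdeal := by
    have h0 : Ideal.absNorm v.asIdeal ≠ 0 := by
      rw [Ne, Ideal.absNorm_eq_zero_iff]; exact v.ne_bot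
    have h1 : Ideal.absNorm v.asIdeal ≠ 1 := by
      rw [Ne, Ideal.absNorm_eq_one_iff]; exact v.isPrime.ne_top
    omega
  have h2' : (2 : ℝ) ≤ (Ideal.absNorm v.asIdeal : ℝ) := by exact_mod_cast h2
  calc (Ideal.absNorm v.asIdeal : ℝ) ^ (-σ) ≤ (Ideal.absNorm v.asIdeal : ℝ) ^ (-1 : ℝ) :=
        Real.rpow_le_rpow_of_exponent_le (by linarith) (by linarith)
    _ = ((Ideal.absNorm v.asIdeal : ℝ))⁻¹ := Real.rpow_neg_one _
    _ ≤ 1 / 2 := by
        rw [one_div]
        exact inv_anti₀ (by norm_num) h2'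

/-! ### Twisted sums (class characters etc.) -/

/-- Absolute convergence of `∑ χ(I) N(I)^(-s)` for bounded `χ`. -/
theorem h35_summable_norm_twist (χ : Ideal (𝓞 K) → ℂ) (hχ : ∀ I, ‖χ I‖ ≤ 1) {s : ℂ}
    (hs : 1 < s.re) :
    Summable fun I : Ideal (𝓞 K) => ‖χ I * (Ideal.absNorm I : ℂ) ^ (-s)‖ := by
  refine Summable.of_nonneg_of_le (fun _ => norm_nonneg _) (fun I => ?_)
    (h35_summable_norm_absNorm_cpow K hs)
  rw [norm_mul]
  exact mul_le_of_le_one_left (norm_nonneg _) (hχ I)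

/-- Euler product of a twisted zeta sum `∑ χ(I) N(I)^(-s)`, `χ` completely multiplicative with
`‖χ‖ ≤ 1`. -/
theorem h35_eulerProduct_twist (χ : Ideal (𝓞 K) → ℂ) (hχ1 : χ ⊤ = 1)
    (hχmul : ∀ I J, χ (I * J) = χ I * χ J) (hχ : ∀ I, ‖χ I‖ ≤ 1) {s : ℂ} (hs : 1 < s.re) :
    HasProd (fun v : HeightOneSpectrum (𝓞 K) =>
        (1 - χ v.asIdeal * (Ideal.absNorm v.asIdeal : ℂ) ^ (-s))⁻¹)
      (∑' I : Ideal (𝓞 K), χ I * (Ideal.absNorm I : ℂ) ^ (-s)) := by
  have hs0 : -s ≠ 0 := by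
    intro h
    have := congrArg Complex.re h
    simp at this
    linarith
  refine h35_eulerProduct_hasProd
    (fun I : Ideal (𝓞 K) => χ I * (Ideal.absNorm I : ℂ) ^ (-s)) ?_ ?_ ?_
    (h35_summable_norm_twist K χ hχ hs)
  · simp [Complex.zero_cpow hs0]
  · simp [hχ1]
  · intro I J
    rw [hχmul, h35_absNorm_cpow_mul]
    ring

end Zeta

end Fermat.Agent.S14
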