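import Mathlib

/-!
# S14, package NS: primes of residue degree `≥ 2` contribute boundedly

For a number field `F`, the height-one primes `v` of `𝓞 F` whose absolute norm is not a prime
number satisfy `N v ≥ ℓ²` (`ℓ` the rational prime below `v`), and at most `[F : ℚ]` primes lie
over each `ℓ`.  Hence `∑ N v ^ (-s)` over such primes is bounded uniformly in `s ≥ 1`, and so
are the corresponding partial Euler products.
-/

set_option linter.unusedSectionVars false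

open NumberField IsDedekindDomain

namespace Fermat.Agent.S14

variable (F : Type*) [Field F] [NumberField F]

/-- The rational prime below `v`. -/
noncomputable def h84_char (v : HeightOneSpectrum (𝓞 F)) : ℕ :=
  Ideal.absNorm (Ideal.under ℤ v.asIdeal)

theorem h84_char_prime (v : HeightOneSpectrum (𝓞 F)) : (h84_char F v).Prime := by
  have : NeZero v.asIdeal := ⟨v.ne_bot⟩
  exact Nat.absNorm_under_prime v.asIdeal

theorem h84_liesOver_char (v : HeightOneSpectrum (𝓞 F)) :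
    v.asIdeal.LiesOver (Ideal.span {((h84_char F v : ℕ) : ℤ)}) :=
  Int.liesOver_span_absNorm v.asIdeal

theorem h84_two_le_absNorm (v : HeightOneSpectrum (𝓞 F)) : 2 ≤ Ideal.absNorm v.asIdeal := by
  have h0 : Ideal.absNorm v.asIdeal ≠ 0 := by
    rw [Ne, Ideal.absNorm_eq_zero_iff]
    exact v.ne_bot
  have h1 : Ideal.absNorm v.asIdeal ≠ 1 := by
    rw [Ne, Ideal.absNorm_eq_one_iff]
    exact v.isPrime.ne_top
  omega

/-- `N v = ℓ ^ f` with `f ≥ 1`. -/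
theorem h84_absNorm_eq_char_pow (v : HeightOneSpectrum (𝓞 F)) :
    ∃ f : ℕ, 0 < f ∧ Ideal.absNorm v.asIdeal = h84_char F v ^ f := by
  have := h84_liesOver_char F v
  refine ⟨_, ?_, Ideal.absNorm_eq_pow_inertiaDeg' v.asIdeal (h84_char_prime F v)⟩
  rw [Nat.pos_iff_ne_zero]
  intro h0
  have h := Ideal.absNorm_eq_pow_inertiaDeg' v.asIdeal (h84_char_prime F v)
  rw [h0, pow_zero] at h
  have := h84_two_le_absNorm F v
  omega

/-- If `N v` is not prime then `N v ≥ ℓ²`. -/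
theorem h84_sq_le_absNorm (v : HeightOneSpectrum (𝓞 F))
    (hv : ¬ (Ideal.absNorm v.asIdeal).Prime) : h84_char F v ^ 2 ≤ Ideal.absNorm v.asIdeal := by
  obtain ⟨f, hf, h⟩ := h84_absNorm_eq_char_pow F v
  have hf2 : 2 ≤ f := by
    by_contra hlt
    have hf1 : f = 1 := by omega
    rw [hf1, pow_one] at h
    exact hv (h ▸ h84_char_prime F v)
  rw [h]
  exact Nat.pow_le_pow_right (h84_char_prime F v).pos hf2

/-- At most `[F : ℚ]` primes of `F` lie over a given rational prime. -/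
theorem h84_card_char_le (ℓ : ℕ) (T : Finset (HeightOneSpectrum (𝓞 F)))
    (hT : ∀ v ∈ T, h84_char F v = ℓ) : T.card ≤ Module.finrank ℚ F := by
  classical
  rcases T.eq_empty_or_nonempty with rfl | ⟨v0, hv0⟩
  · simp
  have hℓ : ℓ.Prime := hT v0 hv0 ▸ h84_char_prime F v0
  have : Fact ℓ.Prime := ⟨hℓ⟩
  have hmax : (Ideal.span {(ℓ : ℤ)}).IsMaximal := inferInstance
  let φ : T → (Ideal.span {(ℓ : ℤ)}).primesOver (𝓞 F) := fun v =>
    ⟨v.1.asIdeal, v.1.isPrime, by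
      have := h84_liesOver_char F v.1
      rwa [hT v.1 v.2] at this⟩
  have hφ : Function.Injective φ := by
    intro v v' h
    exact Subtype.ext (HeightOneSpectrum.ext (congrArg Subtype.val h))
  have h1 : T.card ≤ Fintype.card ((Ideal.span {(ℓ : ℤ)}).primesOver (𝓞 F)) := by
    have := Fintype.card_le_of_injective φ hφ
    simpa using this
  have h2 := Ideal.sum_ramification_inertia_eq_finrank (Ideal.span {(ℓ : ℤ)}) (𝓞 F)
  rw [RingOfIntegers.rank] at h2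
  rw [← h2]
  refine h1.trans ?_
  rw [← Finset.card_univ, Finset.card_eq_sum_ones]
  refine Finset.sum_le_sum fun q _ => ?_
  have hq : q.1.IsPrime := q.2.1
  exact Nat.one_le_iff_ne_zero.mpr (Nat.mul_ne_zero (q.1.ramificationIdx_pos ℤ).ne'
    (q.1.inertiaDeg_pos ℤ).ne')

/-- `N v ^ (-s) ≤ 1/2` for `s ≥ 1`. -/
theorem h84_rpow_le_half (v : HeightOneSpectrum (𝓞 F)) {s : ℝ} (hs : 1 ≤ s) :
    (Ideal.absNorm v.asIdeal : ℝ) ^ (-s) ≤ 1 / 2 := by
  have h2 : (2 : ℝ) ≤ (Ideal.absNorm v.asIdeal : ℝ) := by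
    exact_mod_cast h84_two_le_absNorm F v
  calc (Ideal.absNorm v.asIdeal : ℝ) ^ (-s) ≤ (Ideal.absNorm v.asIdeal : ℝ) ^ (-1 : ℝ) :=
        Real.rpow_le_rpow_of_exponent_le (by linarith) (by linarith)
    _ = ((Ideal.absNorm v.asIdeal : ℝ))⁻¹ := Real.rpow_neg_one _
    _ ≤ 1 / 2 := by
        rw [one_div]
        exact inv_anti₀ (by norm_num) h2

theorem h84_rpow_nonneg (v : HeightOneSpectrum (𝓞 F)) (s : ℝ) :
    0 ≤ (Ideal.absNorm v.asIdeal : ℝ) ^ (-s) :=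
  Real.rpow_nonneg (Nat.cast_nonneg _) _

/-- The Euler factor `(1 - N v ^ (-s))⁻¹` is `≥ 1`. -/
theorem h84_one_le_factor (v : HeightOneSpectrum (𝓞 F)) {s : ℝ} (hs : 1 ≤ s) :
    1 ≤ (1 - (Ideal.absNorm v.asIdeal : ℝ) ^ (-s))⁻¹ := by
  have h1 := h84_rpow_le_half F v hs
  have h0 := h84_rpow_nonneg F v s
  exact (one_le_inv₀ (by linarith)).mpr (by linarith)

/-- The Euler factor `(1 - N v ^ (-s))⁻¹` is `≤ 2`. -/
theorem h84_factor_le_two (v : HeightOneSpectrum (𝓞 F)) {s : ℝ} (hs : 1 ≤ s) :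
    (1 - (Ideal.absNorm v.asIdeal : ℝ) ^ (-s))⁻¹ ≤ 2 := by
  have h1 := h84_rpow_le_half F v hs
  have h0 := h84_rpow_nonneg F v s
  rw [inv_le_comm₀ (by linarith) (by norm_num)]
  linarith

/-- The Euler factor is at most `exp (2 N v ^ (-s))`. -/
theorem h84_factor_le_exp (v : HeightOneSpectrum (𝓞 F)) {s : ℝ} (hs : 1 ≤ s) :
    (1 - (Ideal.absNorm v.asIdeal : ℝ) ^ (-s))⁻¹ ≤
      Real.exp (2 * (Ideal.absNorm v.asIdeal : ℝ) ^ (-s)) := by
  have h1 := h84_rpow_le_half F v hs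
  have h0 := h84_rpow_nonneg F v s
  set x := (Ideal.absNorm v.asIdeal : ℝ) ^ (-s)
  have h2 : (1 - x)⁻¹ ≤ 1 + 2 * x := by
    rw [inv_le_iff_one_le_mul₀ (by linarith)]
    nlinarith
  have h3 : 1 + 2 * x ≤ Real.exp (2 * x) := by
    have := Real.add_one_le_exp (2 * x)
    linarith
  exact h2.trans h3

/-- The sum of `N v ^ (-s)` over primes of non-prime norm is bounded uniformly in `s ≥ 1`. -/
theorem h84_sum_degTwo_le {s : ℝ} (hs : 1 ≤ s) (T : Finset (HeightOneSpectrum (𝓞 F)))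
    (hT : ∀ v ∈ T, ¬ (Ideal.absNorm v.asIdeal).Prime) :
    ∑ v ∈ T, (Ideal.absNorm v.asIdeal : ℝ) ^ (-s) ≤
      Module.finrank ℚ F * ∑' n : ℕ, ((n : ℝ) ^ 2)⁻¹ := by
  classical
  have hsum : Summable fun n : ℕ => ((n : ℝ) ^ 2)⁻¹ := Real.summable_nat_pow_inv.mpr one_lt_two
  have step1 : ∀ v ∈ T, (Ideal.absNorm v.asIdeal : ℝ) ^ (-s) ≤ (((h84_char F v : ℕ) : ℝ) ^ 2)⁻¹ := by
    intro v hv
    have h2 : (1 : ℝ) ≤ (Ideal.absNorm v.asIdeal : ℝ) := by
      have := h84_two_le_absNorm F v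
      exact_mod_cast (by omega : 1 ≤ Ideal.absNorm v.asIdeal)
    have h3 : (((h84_char F v : ℕ) : ℝ) ^ 2) ≤ (Ideal.absNorm v.asIdeal : ℝ) := by
      exact_mod_cast h84_sq_le_absNorm F v (hT v hv)
    have h4 : (0 : ℝ) < ((h84_char F v : ℕ) : ℝ) ^ 2 := by
      have := (h84_char_prime F v).pos
      positivity
    calc (Ideal.absNorm v.asIdeal : ℝ) ^ (-s) ≤ (Ideal.absNorm v.asIdeal : ℝ) ^ (-1 : ℝ) :=
          Real.rpow_le_rpow_of_exponent_le h2 (by linarith)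
      _ = ((Ideal.absNorm v.asIdeal : ℝ))⁻¹ := Real.rpow_neg_one _
      _ ≤ (((h84_char F v : ℕ) : ℝ) ^ 2)⁻¹ := inv_anti₀ h4 h3
  calc ∑ v ∈ T, (Ideal.absNorm v.asIdeal : ℝ) ^ (-s)
      ≤ ∑ v ∈ T, (((h84_char F v : ℕ) : ℝ) ^ 2)⁻¹ := Finset.sum_le_sum step1
    _ = ∑ ℓ ∈ T.image (h84_char F), ∑ v ∈ T with h84_char F v = ℓ,
          (((h84_char F v : ℕ) : ℝ) ^ 2)⁻¹ :=
        (Finset.sum_fiberwise_of_maps_to (fun v hv => Finset.mem_image_of_mem _ hv) _).symm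
    _ ≤ ∑ ℓ ∈ T.image (h84_char F), (Module.finrank ℚ F : ℝ) * ((ℓ : ℝ) ^ 2)⁻¹ := by
        refine Finset.sum_le_sum fun ℓ _ => ?_
        rw [Finset.sum_congr rfl (g := fun _ => ((ℓ : ℝ) ^ 2)⁻¹)
          (fun v hv => by rw [(Finset.mem_filter.mp hv).2]), Finset.sum_const, nsmul_eq_mul]
        refine mul_le_mul_of_nonneg_right ?_ (by positivity)
        exact_mod_cast h84_card_char_le F ℓ _ fun v hv => (Finset.mem_filter.mp hv).2
    _ = (Module.finrank ℚ F : ℝ) * ∑ ℓ ∈ T.image (h84_char F), ((ℓ : ℝ) ^ 2)⁻¹ := by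
        rw [Finset.mul_sum]
    _ ≤ Module.finrank ℚ F * ∑' n : ℕ, ((n : ℝ) ^ 2)⁻¹ := by
        refine mul_le_mul_of_nonneg_left ?_ (Nat.cast_nonneg _)
        exact hsum.sum_le_tsum _ fun n _ => by positivity

/-- **Degree `≥ 2` bound**: the partial Euler products over primes of non-prime norm are
bounded, uniformly in `s ≥ 1`. -/
theorem h84_prod_degTwo_le : ∃ M : ℝ, 1 ≤ M ∧ ∀ s : ℝ, 1 ≤ s →
    ∀ T : Finset (HeightOneSpectrum (𝓞 F)), (∀ v ∈ T, ¬ (Ideal.absNorm v.asIdeal).Prime) →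
      ∏ v ∈ T, (1 - (Ideal.absNorm v.asIdeal : ℝ) ^ (-s))⁻¹ ≤ M := by
  refine ⟨Real.exp (2 * (Module.finrank ℚ F * ∑' n : ℕ, ((n : ℝ) ^ 2)⁻¹)), ?_, fun s hs T hT => ?_⟩
  · rw [Real.one_le_exp_iff]
    have : (0 : ℝ) ≤ ∑' n : ℕ, ((n : ℝ) ^ 2)⁻¹ := tsum_nonneg fun n => by positivity
    positivity
  · calc ∏ v ∈ T, (1 - (Ideal.absNorm v.asIdeal : ℝ) ^ (-s))⁻¹
        ≤ ∏ v ∈ T, Real.exp (2 * (Ideal.absNorm v.asIdeal : ℝ) ^ (-s)) :=
          Finset.prod_le_prod (fun v _ => le_trans zero_le_one (h84_one_le_factor F v hs))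
            fun v _ => h84_factor_le_exp F v hs
      _ = Real.exp (2 * ∑ v ∈ T, (Ideal.absNorm v.asIdeal : ℝ) ^ (-s)) := by
          rw [← Real.exp_sum, Finset.mul_sum]
      _ ≤ _ := by
          rw [Real.exp_le_exp]
          exact mul_le_mul_of_nonneg_left (h84_sum_degTwo_le F hs T hT) (by norm_num)

end Fermat.Agent.S14
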