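import Mathlib
import Fermat.Agent.S14.Defs

/-!
# S14, package NS-ALG: splitting of primes in an extension of number fields (algebraic half)

For number fields `F1 ⊆ F2` (`[Algebra F1 F2]`) we relate the height-one primes `w` of `𝓞 F2`
to the primes `v = w.under (𝓞 F1)` of `𝓞 F1` below them (Mathlib's
`IsDedekindDomain.HeightOneSpectrum.under`): norms, the number of primes above a completely
split prime, finiteness of ramification, the split/inert dichotomy in a Galois extension of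
prime degree, and the fibre-sum / fibre-product identities used by the analytic arguments.
-/

open NumberField IsDedekindDomain

namespace Fermat.Agent.S14

variable (F1 F2 : Type*) [Field F1] [Field F2] [NumberField F1] [NumberField F2] [Algebra F1 F2]

omit [NumberField F1] [NumberField F2] in
/-- `w` lies over `w.under (𝓞 F1)`. -/
theorem h84_liesOver_under (w : HeightOneSpectrum (𝓞 F2)) :
    w.asIdeal.LiesOver (w.under (𝓞 F1)).asIdeal := ⟨rfl⟩

/-- (S2) `N(w) = N(v)^f(w|v)` for `v = w ∩ 𝓞 F1`. -/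
theorem h84_absNorm_eq_pow (w : HeightOneSpectrum (𝓞 F2)) :
    Ideal.absNorm w.asIdeal =
      Ideal.absNorm (w.under (𝓞 F1)).asIdeal ^ w.asIdeal.inertiaDeg (𝓞 F1) := by
  have : w.asIdeal.LiesOver (w.under (𝓞 F1)).asIdeal := ⟨rfl⟩
  rw [← Ideal.inertiaDeg'_eq_inertiaDeg (w.under (𝓞 F1)).asIdeal w.asIdeal]
  exact Ideal.absNorm_eq_pow_inertiaDeg'_of_liesOver _ _ (w.under (𝓞 F1)).isPrime
    (w.under (𝓞 F1)).ne_bot

/-- The fibre of `under` over `v` is the set of primes over `v`. -/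
noncomputable def h84_fibreEquiv (v : HeightOneSpectrum (𝓞 F1)) :
    {w : HeightOneSpectrum (𝓞 F2) // w.under (𝓞 F1) = v} ≃ v.asIdeal.primesOver (𝓞 F2) where
  toFun w := ⟨w.1.asIdeal, w.1.isPrime, ⟨(congrArg HeightOneSpectrum.asIdeal w.2).symm⟩⟩
  invFun P := ⟨⟨P.1, P.2.1, Ideal.ne_bot_of_mem_primesOver v.ne_bot P.2⟩, by
    ext1; exact (P.2.2.over).symm⟩
  left_inv w := rfl
  right_inv P := rfl

instance h84_finite_fibre (v : HeightOneSpectrum (𝓞 F1)) :
    Finite {w : HeightOneSpectrum (𝓞 F2) // w.under (𝓞 F1) = v} :=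
  Finite.of_equiv _ (h84_fibreEquiv F1 F2 v).symm

/-- `v` splits completely in `F2`: every prime above it has `e = f = 1`. -/
def h84_SplitsCompletely (v : HeightOneSpectrum (𝓞 F1)) : Prop :=
  ∀ w : HeightOneSpectrum (𝓞 F2), w.under (𝓞 F1) = v →
    w.asIdeal.ramificationIdx (𝓞 F1) = 1 ∧ w.asIdeal.inertiaDeg (𝓞 F1) = 1

/-- `v` is unramified in `F2`: every prime above it has `e = 1`. -/
def h84_Unramified (v : HeightOneSpectrum (𝓞 F1)) : Prop :=
  ∀ w : HeightOneSpectrum (𝓞 F2), w.under (𝓞 F1) = v → w.asIdeal.ramificationIdx (𝓞 F1) = 1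

/-- The fundamental identity `∑_{w | v} e(w|v) f(w|v) = [F2 : F1]`. -/
theorem h84_sum_ramification_inertia (v : HeightOneSpectrum (𝓞 F1))
    [Fintype {w : HeightOneSpectrum (𝓞 F2) // w.under (𝓞 F1) = v}] :
    ∑ w : {w : HeightOneSpectrum (𝓞 F2) // w.under (𝓞 F1) = v},
      w.1.asIdeal.ramificationIdx (𝓞 F1) * w.1.asIdeal.inertiaDeg (𝓞 F1) =
      Module.finrank F1 F2 := by
  rw [IsFractionRing.finrank_eq (𝓞 F1) F1 (𝓞 F2) F2,
    ← Ideal.sum_ramification_inertia_eq_finrank v.asIdeal (𝓞 F2)]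
  exact Fintype.sum_equiv (h84_fibreEquiv F1 F2 v) _ _ fun w => rfl

/-- (S3) a completely split prime has exactly `[F2 : F1]` primes above it. -/
theorem h84_card_fibre_of_splits (v : HeightOneSpectrum (𝓞 F1))
    (h : h84_SplitsCompletely F1 F2 v) :
    Nat.card {w : HeightOneSpectrum (𝓞 F2) // w.under (𝓞 F1) = v} = Module.finrank F1 F2 := by
  classical
  have : Fintype {w : HeightOneSpectrum (𝓞 F2) // w.under (𝓞 F1) = v} := Fintype.ofFinite _
  rw [← h84_sum_ramification_inertia F1 F2 v, Nat.card_eq_fintype_card, ← Finset.card_univ,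
    Finset.card_eq_sum_ones]
  refine Finset.sum_congr rfl fun w _ => ?_
  rw [(h w.1 w.2).1, (h w.1 w.2).2]

/-- a completely split prime: norms agree. -/
theorem h84_absNorm_eq_of_splits (v : HeightOneSpectrum (𝓞 F1))
    (h : h84_SplitsCompletely F1 F2 v) (w : HeightOneSpectrum (𝓞 F2))
    (hw : w.under (𝓞 F1) = v) : Ideal.absNorm w.asIdeal = Ideal.absNorm v.asIdeal := by
  rw [h84_absNorm_eq_pow F1 F2 w, (h w hw).2, pow_one, hw]

/-- (S4) only finitely many primes of `F2` are ramified over `F1`. -/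
theorem h84_finite_ramified :
    {w : HeightOneSpectrum (𝓞 F2) | w.asIdeal.ramificationIdx (𝓞 F1) ≠ 1}.Finite := by
  have hd : differentIdeal (𝓞 F1) (𝓞 F2) ≠ ⊥ := differentIdeal_ne_bot
  refine (Ideal.finite_factors hd).subset fun w hw => ?_
  rw [Set.mem_ofPred_eq, dvd_differentIdeal_iff]
  intro hu
  exact hw (Ideal.ramificationIdx_eq_one w.asIdeal (𝓞 F1))

/-- (S4) only finitely many primes of `F1` are not unramified in `F2`. -/
theorem h84_finite_not_unramified :
    {v : HeightOneSpectrum (𝓞 F1) | ¬ h84_Unramified F1 F2 v}.Finite := by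
  refine ((h84_finite_ramified F1 F2).image (HeightOneSpectrum.under (𝓞 F1))).subset
    fun v hv => ?_
  simp only [h84_Unramified, not_forall, Set.mem_ofPred_eq] at hv
  obtain ⟨w, hw, hne⟩ := hv
  exact ⟨w, hne, hw⟩

/-- (S5) In a Galois extension of prime degree an unramified prime either splits completely or
is inert (exactly one prime above it, of inertia degree `[F2 : F1]`). -/
theorem h84_split_or_inert [IsGalois F1 F2] (hp : (Module.finrank F1 F2).Prime)
    (v : HeightOneSpectrum (𝓞 F1)) (hv : h84_Unramified F1 F2 v) :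
    h84_SplitsCompletely F1 F2 v ∨
      ((∃! w : HeightOneSpectrum (𝓞 F2), w.under (𝓞 F1) = v) ∧
        ∀ w : HeightOneSpectrum (𝓞 F2), w.under (𝓞 F1) = v →
          w.asIdeal.inertiaDeg (𝓞 F1) = Module.finrank F1 F2) := by
  classical
  have key := Ideal.ncard_primesOver_mul_ramificationIdxIn_mul_inertiaDegIn v.asIdeal (𝓞 F2)
    Gal(F2/F1)
  rw [IsGalois.card_aut_eq_finrank] at key
  have hin : ∀ w : HeightOneSpectrum (𝓞 F2), w.under (𝓞 F1) = v →
      v.asIdeal.inertiaDegIn (𝓞 F2) = w.asIdeal.inertiaDeg (𝓞 F1) := by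
    intro w hw
    have : w.asIdeal.LiesOver v.asIdeal := ⟨(congrArg HeightOneSpectrum.asIdeal hw).symm⟩
    exact Ideal.inertiaDegIn_eq_inertiaDeg v.asIdeal w.asIdeal Gal(F2/F1)
  have hram : v.asIdeal.ramificationIdxIn (𝓞 F2) = 1 := by
    obtain ⟨⟨P, hP⟩⟩ := (inferInstance : Nonempty (v.asIdeal.primesOver (𝓞 F2)))
    have hP1 : P.IsPrime := hP.1
    have hP2 : P.LiesOver v.asIdeal := hP.2
    rw [Ideal.ramificationIdxIn_eq_ramificationIdx v.asIdeal P Gal(F2/F1)]
    exact hv ((h84_fibreEquiv F1 F2 v).symm ⟨P, hP⟩).1 ((h84_fibreEquiv F1 F2 v).symm ⟨P, hP⟩).2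
  rw [hram, one_mul] at key
  rcases (Nat.dvd_prime hp).mp (Dvd.intro_left _ key) with hf | hf
  · left
    intro w hw
    exact ⟨hv w hw, (hin w hw).symm.trans hf⟩
  · right
    refine ⟨?_, fun w hw => (hin w hw).symm.trans hf⟩
    rw [hf] at key
    have hcard : (v.asIdeal.primesOver (𝓞 F2)).ncard = 1 := by
      have hpos := hp.pos
      exact Nat.eq_of_mul_eq_mul_right hpos (by rw [key, one_mul])
    have hcard' : Nat.card {w : HeightOneSpectrum (𝓞 F2) // w.under (𝓞 F1) = v} = 1 := by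
      rw [Nat.card_congr (h84_fibreEquiv F1 F2 v), ← hcard]
      rfl
    obtain ⟨w0, hw0⟩ := (Nat.card_eq_one_iff_exists.mp hcard')
    exact ⟨w0.1, w0.2, fun w hw => congrArg Subtype.val (hw0 ⟨w, hw⟩)⟩

/-- The set of primes of `F2` above a finite set of primes of `F1` is finite. -/
theorem h84_finite_preimage {S : Set (HeightOneSpectrum (𝓞 F1))} (hS : S.Finite) :
    (HeightOneSpectrum.under (𝓞 F1) ⁻¹' S : Set (HeightOneSpectrum (𝓞 F2))).Finite :=
  hS.preimage' fun v _ => Set.finite_coe_iff.mp (h84_finite_fibre F1 F2 v)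

/-- The finite set of primes of `F2` above a finite set of primes of `F1`. -/
noncomputable def h84_over (S : Finset (HeightOneSpectrum (𝓞 F1))) :
    Finset (HeightOneSpectrum (𝓞 F2)) :=
  (h84_finite_preimage F1 F2 S.finite_toSet).toFinset

@[simp] theorem h84_mem_over {S : Finset (HeightOneSpectrum (𝓞 F1))}
    {w : HeightOneSpectrum (𝓞 F2)} : w ∈ h84_over F1 F2 S ↔ w.under (𝓞 F1) ∈ S := by
  simp [h84_over]

/-- (S6, finite form) a product over the primes above a finite set `S` of completely split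
primes of a function of the norm is the `[F2 : F1]`-th power of the product over `S`. -/
theorem h84_prod_over {M : Type*} [CommMonoid M] (S : Finset (HeightOneSpectrum (𝓞 F1)))
    (hS : ∀ v ∈ S, h84_SplitsCompletely F1 F2 v) (G : ℕ → M) :
    ∏ w ∈ h84_over F1 F2 S, G (Ideal.absNorm w.asIdeal) =
      ∏ v ∈ S, G (Ideal.absNorm v.asIdeal) ^ Module.finrank F1 F2 := by
  classical
  rw [← Finset.prod_fiberwise_of_maps_to (g := HeightOneSpectrum.under (𝓞 F1)) (t := S)
    (fun w hw => (h84_mem_over F1 F2).mp hw)]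
  refine Finset.prod_congr rfl fun v hv => ?_
  rw [Finset.prod_congr rfl (g := fun _ => G (Ideal.absNorm v.asIdeal)), Finset.prod_const]
  · congr 1
    rw [← h84_card_fibre_of_splits F1 F2 v (hS v hv)]
    refine (Nat.subtype_card _ fun w => ?_).symm
    rw [Finset.mem_filter, h84_mem_over]
    exact ⟨fun h => h.2, fun h => ⟨h ▸ hv, h⟩⟩
  · intro w hw
    rw [Finset.mem_filter] at hw
    rw [h84_absNorm_eq_of_splits F1 F2 v (hS v hv) w hw.2]

/-- For a set `S` of completely split primes, the primes above `S` are `S × Fin [F2 : F1]`. -/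
noncomputable def h84_overEquiv (S : Set (HeightOneSpectrum (𝓞 F1)))
    (hS : ∀ v ∈ S, h84_SplitsCompletely F1 F2 v) :
    {w : HeightOneSpectrum (𝓞 F2) // w.under (𝓞 F1) ∈ S} ≃ S × Fin (Module.finrank F1 F2) :=
  ((Equiv.sigmaSubtypeFiberEquivSubtype (fun w : HeightOneSpectrum (𝓞 F2) => w.under (𝓞 F1))
      (p := fun w => w.under (𝓞 F1) ∈ S) (q := fun v => v ∈ S) (fun _ => Iff.rfl)).symm.trans
    (Equiv.sigmaCongrRight fun v : S =>
      Finite.equivFinOfCardEq (h84_card_fibre_of_splits F1 F2 v.1 (hS v.1 v.2)))).trans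
    (Equiv.sigmaEquivProd _ _)

theorem h84_overEquiv_symm_under (S : Set (HeightOneSpectrum (𝓞 F1)))
    (hS : ∀ v ∈ S, h84_SplitsCompletely F1 F2 v) (x : S × Fin (Module.finrank F1 F2)) :
    ((h84_overEquiv F1 F2 S hS).symm x).1.under (𝓞 F1) = x.1.1 := by
  obtain ⟨v, i⟩ := x
  simp only [h84_overEquiv, Equiv.symm_trans_apply, Equiv.symm_symm]
  exact ((Finite.equivFinOfCardEq (h84_card_fibre_of_splits F1 F2 v.1 (hS v.1 v.2))).symm i).2

/-- (S6) fibre-sum identity: if `∑_{v ∈ S} g(N v) = a` for a set `S` of completely split primes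
of `F1`, then `∑_{w above S} g(N w) = [F2 : F1] • a`. -/
theorem h84_hasSum_over {E : Type*} [AddCommMonoid E] [TopologicalSpace E] [ContinuousAdd E]
    (S : Set (HeightOneSpectrum (𝓞 F1))) (hS : ∀ v ∈ S, h84_SplitsCompletely F1 F2 v)
    (g : ℕ → E) {a : E} (h : HasSum (fun v : S => g (Ideal.absNorm v.1.asIdeal)) a) :
    HasSum (fun w : {w : HeightOneSpectrum (𝓞 F2) // w.under (𝓞 F1) ∈ S} =>
      g (Ideal.absNorm w.1.asIdeal)) (Module.finrank F1 F2 • a) := by
  classical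
  rw [← (h84_overEquiv F1 F2 S hS).symm.hasSum_iff]
  have h1 : ∀ i : Fin (Module.finrank F1 F2),
      HasSum (fun x : S × Fin (Module.finrank F1 F2) =>
        if x.2 = i then g (Ideal.absNorm x.1.1.asIdeal) else 0) a := by
    intro i
    have hinj : Function.Injective (fun v : S => ((v, i) : S × Fin (Module.finrank F1 F2))) :=
      fun v v' hvv' => (Prod.mk.inj hvv').1
    refine (hinj.hasSum_iff ?_).mp ?_
    · rintro ⟨v, j⟩ hx
      have : j ≠ i := fun hji => hx ⟨v, by rw [hji]⟩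
      simp [this]
    · simpa [Function.comp_def] using h
  have h2 := hasSum_sum (s := Finset.univ) fun i _ => h1 i
  have h3 : (fun x : S × Fin (Module.finrank F1 F2) =>
      ∑ i, if x.2 = i then g (Ideal.absNorm x.1.1.asIdeal) else 0) =
      (fun w : {w : HeightOneSpectrum (𝓞 F2) // w.under (𝓞 F1) ∈ S} =>
        g (Ideal.absNorm w.1.asIdeal)) ∘ (h84_overEquiv F1 F2 S hS).symm := by
    funext x
    rw [Finset.sum_ite_eq, if_pos (Finset.mem_univ _), Function.comp_apply,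
      h84_absNorm_eq_of_splits F1 F2 x.1.1 (hS x.1.1 x.1.2) _
        (h84_overEquiv_symm_under F1 F2 S hS x)]
  rw [h3] at h2
  simpa using h2

/-- (S6) summability transfer (upwards). -/
theorem h84_summable_over {E : Type*} [AddCommMonoid E] [TopologicalSpace E] [ContinuousAdd E]
    (S : Set (HeightOneSpectrum (𝓞 F1))) (hS : ∀ v ∈ S, h84_SplitsCompletely F1 F2 v)
    (g : ℕ → E) (h : Summable (fun v : S => g (Ideal.absNorm v.1.asIdeal))) :
    Summable (fun w : {w : HeightOneSpectrum (𝓞 F2) // w.under (𝓞 F1) ∈ S} =>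
      g (Ideal.absNorm w.1.asIdeal)) :=
  (h84_hasSum_over F1 F2 S hS g h.hasSum).summable

/-- (S6) tsum form. -/
theorem h84_tsum_over {E : Type*} [AddCommMonoid E] [TopologicalSpace E] [ContinuousAdd E]
    [T2Space E]
    (S : Set (HeightOneSpectrum (𝓞 F1))) (hS : ∀ v ∈ S, h84_SplitsCompletely F1 F2 v)
    (g : ℕ → E) (h : Summable (fun v : S => g (Ideal.absNorm v.1.asIdeal))) :
    ∑' w : {w : HeightOneSpectrum (𝓞 F2) // w.under (𝓞 F1) ∈ S}, g (Ideal.absNorm w.1.asIdeal) =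
      Module.finrank F1 F2 • ∑' v : S, g (Ideal.absNorm v.1.asIdeal) :=
  (h84_hasSum_over F1 F2 S hS g h.hasSum).tsum_eq

/-- A prime of `F2` of prime norm lies over a prime of `F1` of the same (prime) norm, with
residue degree one. -/
theorem h84_degree_one_under (w : HeightOneSpectrum (𝓞 F2))
    (hw : (Ideal.absNorm w.asIdeal).Prime) :
    w.asIdeal.inertiaDeg (𝓞 F1) = 1 ∧
      Ideal.absNorm (w.under (𝓞 F1)).asIdeal = Ideal.absNorm w.asIdeal := by
  have h := h84_absNorm_eq_pow F1 F2 w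
  rw [h] at hw
  have hf : w.asIdeal.inertiaDeg (𝓞 F1) = 1 := by
    by_contra hne
    rcases Nat.lt_or_ge (w.asIdeal.inertiaDeg (𝓞 F1)) 2 with hlt | hge
    · have h0 : w.asIdeal.inertiaDeg (𝓞 F1) = 0 := by omega
      rw [h0, pow_zero] at hw
      exact Nat.not_prime_one hw
    · exact Nat.Prime.not_prime_pow hge hw
  exact ⟨hf, by rw [h, hf, pow_one]⟩

omit [NumberField F1] [NumberField F2] in
/-- `¬ split completely` unfolded: some prime above has `e ≠ 1` or `f ≠ 1`. -/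
theorem h84_not_splits_iff (v : HeightOneSpectrum (𝓞 F1)) :
    ¬ h84_SplitsCompletely F1 F2 v ↔
      ∃ w : HeightOneSpectrum (𝓞 F2), w.under (𝓞 F1) = v ∧
        ¬ (w.asIdeal.ramificationIdx (𝓞 F1) = 1 ∧ w.asIdeal.inertiaDeg (𝓞 F1) = 1) := by
  simp [h84_SplitsCompletely]

/-! ### Bridges to the ideal-level predicates of `Defs.lean` / the skeleton -/

/-- The height-one prime attached to a nonzero prime ideal. -/
noncomputable def h84_mk {F : Type*} [Field F] [NumberField F] (P : Ideal (𝓞 F)) (hP : P.IsPrime)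
    (hP0 : P ≠ ⊥) : HeightOneSpectrum (𝓞 F) := ⟨P, hP, hP0⟩

omit [NumberField F1] [NumberField F2] in
theorem h84_ne_bot_of_liesOver (P : Ideal (𝓞 F1)) (hP0 : P ≠ ⊥) (Q : Ideal (𝓞 F2))
    (hQP : Q.LiesOver P) : Q ≠ ⊥ := by
  rintro rfl
  apply hP0
  rw [hQP.over]
  exact Ideal.under_bot _ _

omit [NumberField F1] [NumberField F2] in
theorem h84_splitsCompletely_iff (v : HeightOneSpectrum (𝓞 F1)) :
    h84_SplitsCompletely F1 F2 v ↔ SplitsCompletely (𝓞 F1) (𝓞 F2) v.asIdeal := by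
  constructor
  · intro h Q hQ hQv
    have hQ0 : Q ≠ ⊥ := h84_ne_bot_of_liesOver F1 F2 v.asIdeal v.ne_bot Q hQv
    exact h ⟨Q, hQ, hQ0⟩ (HeightOneSpectrum.ext hQv.over.symm)
  · intro h w hw
    exact h w.asIdeal w.isPrime ⟨(congrArg HeightOneSpectrum.asIdeal hw).symm⟩

omit [NumberField F1] [NumberField F2] in
theorem h84_unramified_iff (v : HeightOneSpectrum (𝓞 F1)) :
    h84_Unramified F1 F2 v ↔
      ∀ Q : Ideal (𝓞 F2), Q.IsPrime → Q.LiesOver v.asIdeal → Q.ramificationIdx (𝓞 F1) = 1 := by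
  constructor
  · intro h Q hQ hQv
    have hQ0 : Q ≠ ⊥ := h84_ne_bot_of_liesOver F1 F2 v.asIdeal v.ne_bot Q hQv
    exact h ⟨Q, hQ, hQ0⟩ (HeightOneSpectrum.ext hQv.over.symm)
  · intro h w hw
    exact h w.asIdeal w.isPrime ⟨(congrArg HeightOneSpectrum.asIdeal hw).symm⟩

/-- (S5), ideal form: in a Galois extension of prime degree, a nonzero prime `P` that is
unramified either splits completely or is inert: there is exactly one prime above it and its
residue degree is `[F2 : F1]`. -/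
theorem h84_split_or_inert_ideal [IsGalois F1 F2] (hp : (Module.finrank F1 F2).Prime)
    (P : Ideal (𝓞 F1)) (hP : P.IsPrime) (hP0 : P ≠ ⊥)
    (hunr : ∀ Q : Ideal (𝓞 F2), Q.IsPrime → Q.LiesOver P → Q.ramificationIdx (𝓞 F1) = 1) :
    SplitsCompletely (𝓞 F1) (𝓞 F2) P ∨
      ((∃ Q : Ideal (𝓞 F2), Q.IsPrime ∧ Q.LiesOver P ∧
          ∀ Q' : Ideal (𝓞 F2), Q'.IsPrime → Q'.LiesOver P → Q' = Q) ∧
        ∀ Q : Ideal (𝓞 F2), Q.IsPrime → Q.LiesOver P →
          Q.inertiaDeg (𝓞 F1) = Module.finrank F1 F2) := by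
  rcases h84_split_or_inert F1 F2 hp ⟨P, hP, hP0⟩
    ((h84_unramified_iff F1 F2 ⟨P, hP, hP0⟩).mpr hunr) with h | ⟨⟨w, hw, hw'⟩, hf⟩
  · exact Or.inl ((h84_splitsCompletely_iff F1 F2 ⟨P, hP, hP0⟩).mp h)
  · refine Or.inr ⟨⟨w.asIdeal, w.isPrime, ⟨(congrArg HeightOneSpectrum.asIdeal hw).symm⟩,
      fun Q' hQ' hQ'P => ?_⟩, fun Q hQ hQP => ?_⟩
    · have hQ0 : Q' ≠ ⊥ := h84_ne_bot_of_liesOver F1 F2 P hP0 Q' hQ'P
      exact congrArg HeightOneSpectrum.asIdeal
        (hw' ⟨Q', hQ', hQ0⟩ (HeightOneSpectrum.ext hQ'P.over.symm))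
    · have hQ0 : Q ≠ ⊥ := h84_ne_bot_of_liesOver F1 F2 P hP0 Q hQP
      exact hf ⟨Q, hQ, hQ0⟩ (HeightOneSpectrum.ext hQP.over.symm)

/-- (S2), ideal form. -/
theorem h84_absNorm_eq_pow_ideal (P : Ideal (𝓞 F1)) (Q : Ideal (𝓞 F2)) (hQ : Q.IsPrime)
    (hQ0 : Q ≠ ⊥) (hQP : Q.LiesOver P) :
    Ideal.absNorm Q = Ideal.absNorm P ^ Q.inertiaDeg (𝓞 F1) := by
  have h := h84_absNorm_eq_pow F1 F2 ⟨Q, hQ, hQ0⟩
  have h2 : ((⟨Q, hQ, hQ0⟩ : HeightOneSpectrum (𝓞 F2)).under (𝓞 F1)).asIdeal = P :=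
    hQP.over.symm
  rw [h2] at h
  exact h

end Fermat.Agent.S14
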