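import Mathlib
import Fermat.Agent.S14.Defs
import Fermat.Agent.S14.h35_Zeta
import Fermat.Agent.S14.h84_Split
import Fermat.Agent.S14.h84_DegTwo

/-!
# Package NS of project S14: non-split primes

A Galois extension `F₂ / F₁` of number fields of prime degree `p` has a prime of `F₁` of degree
one over `ℚ`, outside any given finite set, unramified in `F₂` and not split completely.

Proof: otherwise `ζ_{F₁}(s) ^ p ≤ M * ζ_{F₂}(s)` for all `s > 1` (Euler products: the good primes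
split into `p` primes of the same norm; the bad primes are finitely many or of degree `≥ 2`),
contradicting the simple poles at `s = 1`.
-/

set_option linter.unusedSectionVars false

namespace Fermat.Agent.S14

open NumberField IsDedekindDomain Filter Topology

section

variable (F1 F2 : Type*) [Field F1] [Field F2] [NumberField F1] [NumberField F2] [Algebra F1 F2]

/-- If every prime of `F1` of prime norm outside a finite set `B` splits completely in `F2`, then
`ζ_{F1}(σ) ^ [F2 : F1] ≤ M * ζ_{F2}(σ)` for all `σ > 1`. -/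
theorem h84_zeta_pow_le (B : Finset (HeightOneSpectrum (𝓞 F1)))
    (hsplit : ∀ v : HeightOneSpectrum (𝓞 F1), v ∉ B → (Ideal.absNorm v.asIdeal).Prime →
      h84_SplitsCompletely F1 F2 v) :
    ∃ M : ℝ, ∀ σ : ℝ, 1 < σ →
      h35_zeta F1 σ ^ Module.finrank F1 F2 ≤ M * h35_zeta F2 σ := by
  classical
  obtain ⟨M2, hM2, hM2'⟩ := h84_prod_degTwo_le F1
  refine ⟨(2 ^ B.card * M2) ^ Module.finrank F1 F2, fun σ hσ => ?_⟩
  have hσ1 : (1 : ℝ) ≤ σ := hσ.le
  set E : HeightOneSpectrum (𝓞 F1) → ℝ := fun v => (1 - (Ideal.absNorm v.asIdeal : ℝ) ^ (-σ))⁻¹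
    with hE
  have hE1 : ∀ v, 1 ≤ E v := fun v => h84_one_le_factor F1 v hσ1
  have hE0 : ∀ v, 0 ≤ E v := fun v => le_trans zero_le_one (hE1 v)
  have hζ2 : 0 ≤ h35_zeta F2 σ := by
    have := h35_prod_le_zeta F2 hσ ∅
    simp only [Finset.prod_empty] at this
    linarith
  have key : ∀ T : Finset (HeightOneSpectrum (𝓞 F1)),
      (∏ v ∈ T, E v) ^ Module.finrank F1 F2 ≤
        (2 ^ B.card * M2) ^ Module.finrank F1 F2 * h35_zeta F2 σ := by
    intro T
    -- split `T` into the part in `B`, the part of non-prime norm, and the good part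
    rw [← Finset.prod_filter_mul_prod_filter_not T (· ∈ B),
      ← Finset.prod_filter_mul_prod_filter_not (T.filter (¬ · ∈ B))
        (fun v => ¬ (Ideal.absNorm v.asIdeal).Prime)]
    set TB := T.filter (· ∈ B) with hTB
    set T2 := (T.filter (¬ · ∈ B)).filter (fun v => ¬ (Ideal.absNorm v.asIdeal).Prime) with hT2
    set TG := (T.filter (¬ · ∈ B)).filter (fun v => ¬ ¬ (Ideal.absNorm v.asIdeal).Prime)
      with hTG
    have h1 : ∏ v ∈ TB, E v ≤ 2 ^ B.card := by
      calc ∏ v ∈ TB, E v ≤ ∏ _v ∈ TB, (2 : ℝ) :=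
            Finset.prod_le_prod (fun v _ => hE0 v) fun v _ => h84_factor_le_two F1 v hσ1
        _ = 2 ^ TB.card := by rw [Finset.prod_const]
        _ ≤ 2 ^ B.card := by
            refine pow_le_pow_right₀ (by norm_num) (Finset.card_le_card ?_)
            intro v hv
            exact (Finset.mem_filter.mp hv).2
    have h2 : ∏ v ∈ T2, E v ≤ M2 :=
      hM2' σ hσ1 T2 fun v hv => (Finset.mem_filter.mp hv).2
    have hG : ∀ v ∈ TG, h84_SplitsCompletely F1 F2 v := by
      intro v hv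
      rw [hTG, Finset.mem_filter, Finset.mem_filter] at hv
      exact hsplit v hv.1.2 (not_not.mp hv.2)
    have h3 : (∏ v ∈ TG, E v) ^ Module.finrank F1 F2 ≤ h35_zeta F2 σ := by
      have := h84_prod_over F1 F2 TG hG (fun n : ℕ => (1 - (n : ℝ) ^ (-σ))⁻¹)
      rw [Finset.prod_pow] at this
      rw [← this]
      exact h35_prod_le_zeta F2 hσ _
    have h0B : 0 ≤ ∏ v ∈ TB, E v := Finset.prod_nonneg fun v _ => hE0 v
    have h02 : 0 ≤ ∏ v ∈ T2, E v := Finset.prod_nonneg fun v _ => hE0 v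
    have h0G : 0 ≤ ∏ v ∈ TG, E v := Finset.prod_nonneg fun v _ => hE0 v
    rw [mul_pow]
    have h4 : (∏ v ∈ TB, E v) * (∏ v ∈ T2, E v) ≤ 2 ^ B.card * M2 :=
      mul_le_mul h1 h2 h02 (by positivity)
    calc (∏ v ∈ TB, E v) ^ Module.finrank F1 F2 *
          ((∏ v ∈ T2, E v) * ∏ v ∈ TG, E v) ^ Module.finrank F1 F2
        = ((∏ v ∈ TB, E v) * (∏ v ∈ T2, E v)) ^ Module.finrank F1 F2 *
            (∏ v ∈ TG, E v) ^ Module.finrank F1 F2 := by ring
      _ ≤ (2 ^ B.card * M2) ^ Module.finrank F1 F2 * h35_zeta F2 σ :=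
          mul_le_mul (pow_le_pow_left₀ (mul_nonneg h0B h02) h4 _) h3 (pow_nonneg h0G _)
            (by positivity)
  have hprod : HasProd E (h35_zeta F1 σ) := h35_eulerProduct_zeta F1 hσ
  have hlim : Tendsto (fun T : Finset (HeightOneSpectrum (𝓞 F1)) =>
      (∏ v ∈ T, E v) ^ Module.finrank F1 F2) atTop
      (𝓝 (h35_zeta F1 σ ^ Module.finrank F1 F2)) := by
    unfold HasProd at hprod
    rw [SummationFilter.unconditional_filter] at hprod
    exact hprod.pow _
  exact le_of_tendsto' hlim key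

/-- The inequality `ζ_{F1}(σ) ^ n ≤ M * ζ_{F2}(σ)` for all `σ > 1` with `n ≥ 2` contradicts the
simple poles of the Dedekind zeta functions at `1`. -/
theorem h84_false_of_zeta_pow_le (n : ℕ) (hn : 2 ≤ n) (M : ℝ)
    (h : ∀ σ : ℝ, 1 < σ → h35_zeta F1 σ ^ n ≤ M * h35_zeta F2 σ) : False := by
  have h1 := h35_tendsto_sub_one_mul_zeta F1
  have h2 := h35_tendsto_sub_one_mul_zeta F2
  have hκ := dedekindZeta_residue_pos F1
  have hf : Tendsto (fun σ : ℝ => ((σ - 1) * h35_zeta F1 σ) ^ n) (𝓝[>] 1)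
      (𝓝 (dedekindZeta_residue F1 ^ n)) := h1.pow n
  have h0 : Tendsto (fun σ : ℝ => (σ - 1) ^ (n - 1)) (𝓝[>] 1) (𝓝 0) := by
    have hc : Continuous fun σ : ℝ => (σ - 1) ^ (n - 1) := by fun_prop
    have := hc.tendsto 1
    simp only [sub_self] at this
    rw [zero_pow (by omega)] at this
    exact this.mono_left nhdsWithin_le_nhds
  have hg : Tendsto (fun σ : ℝ => M * ((σ - 1) ^ (n - 1) * ((σ - 1) * h35_zeta F2 σ))) (𝓝[>] 1)
      (𝓝 (M * (0 * dedekindZeta_residue F2))) := (h0.mul h2).const_mul M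
  have hle : ∀ᶠ σ : ℝ in 𝓝[>] 1, ((σ - 1) * h35_zeta F1 σ) ^ n ≤
      M * ((σ - 1) ^ (n - 1) * ((σ - 1) * h35_zeta F2 σ)) := by
    filter_upwards [self_mem_nhdsWithin] with σ hσ
    have hσ1 : (1 : ℝ) < σ := hσ
    have hpos : 0 ≤ (σ - 1) ^ n := pow_nonneg (by linarith) n
    have hn' : (σ - 1) ^ n = (σ - 1) ^ (n - 1) * (σ - 1) := by
      rw [← pow_succ]
      congr 1
      omega
    calc ((σ - 1) * h35_zeta F1 σ) ^ n = (σ - 1) ^ n * h35_zeta F1 σ ^ n := mul_pow _ _ _
      _ ≤ (σ - 1) ^ n * (M * h35_zeta F2 σ) := mul_le_mul_of_nonneg_left (h σ hσ1) hpos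
      _ = M * ((σ - 1) ^ (n - 1) * ((σ - 1) * h35_zeta F2 σ)) := by rw [hn']; ring
  have := le_of_tendsto_of_tendsto hf hg hle
  rw [zero_mul, mul_zero] at this
  exact absurd this (not_le.mpr (pow_pos hκ n))

end

/-- **NS**: a Galois extension of number fields of prime degree has a prime of degree one,
outside any finite set, unramified and not split completely. -/
theorem exists_nonsplit_prime {p : ℕ} (hp : p.Prime)
    {F₁ F₂ : Type*} [Field F₁] [NumberField F₁] [Field F₂] [NumberField F₂] [Algebra F₁ F₂]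
    [IsGalois F₁ F₂] (hdeg : Module.finrank F₁ F₂ = p)
    (S : Set (Ideal (𝓞 F₁))) (hS : S.Finite) :
    ∃ P : Ideal (𝓞 F₁), P.IsPrime ∧ P ≠ ⊥ ∧ P ∉ S ∧ (Ideal.absNorm P).Prime ∧
      (∀ Q : Ideal (𝓞 F₂), Q.IsPrime → Q.LiesOver P → Q.ramificationIdx (𝓞 F₁) = 1) ∧
      ¬ SplitsCompletely (𝓞 F₁) (𝓞 F₂) P := by
  classical
  by_contra hcon
  push Not at hcon
  have hfin1 : {v : HeightOneSpectrum (𝓞 F₁) | v.asIdeal ∈ S}.Finite :=
    hS.preimage fun v _ v' _ h => HeightOneSpectrum.ext h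
  have hfin2 := h84_finite_not_unramified F₁ F₂
  obtain ⟨M, hM⟩ := h84_zeta_pow_le F₁ F₂ (hfin1.union hfin2).toFinset (by
    intro v hv hprime
    rw [Set.Finite.mem_toFinset, Set.mem_union, not_or] at hv
    have hunr : h84_Unramified F₁ F₂ v := not_not.mp hv.2
    exact (h84_splitsCompletely_iff F₁ F₂ v).mpr
      (hcon v.asIdeal v.isPrime v.ne_bot hv.1 hprime ((h84_unramified_iff F₁ F₂ v).mp hunr)))
  rw [hdeg] at hM
  exact h84_false_of_zeta_pow_le F₁ F₂ p hp.two_le M hM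

end Fermat.Agent.S14
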