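import Mathlib
import Fermat.Agent.S14.h35_Zeta

set_option autoImplicit false

/-!
# Prime sums of number fields near `s = 1` (helper35, S14: analytic half of NS / DENS)

`x_v(σ) = N(v)^(-σ)`, `L(σ) = log (1/(σ-1))`.  Finite-set forms:

* `h35_sum_prime_le`         : `∑ v ∈ S, x_v(σ) ≤ L(σ) + B` for every finite set `S` of primes;
* `h35_exists_sum_prime_ge`  : some finite set of degree-one primes outside a finite set `Bad`
                               has `∑ v ∈ S, x_v(σ) ≥ L(σ) - B`;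
* `h35_sum_split_le`         : primes with `n` primes of the same norm above them have
                               `n * ∑ v ∈ S, x_v(σ) ≤ L(σ) + B`;
* `h35_ns_core`              : not all degree-one primes outside a finite set can have `n ≥ 2`
                               primes of the same norm above them.
-/

namespace Fermat.Agent.S14

open NumberField IsDedekindDomain Filter Topology

/-! ### Elementary inequalities -/

theorem h35_exp_le_inv {x : ℝ} (h1 : x < 1) : Real.exp x ≤ (1 - x)⁻¹ := by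
  have h := Real.add_one_le_exp (-x)
  have hpos : 0 < 1 - x := by linarith
  rw [Real.exp_neg] at h
  rw [le_inv_comm₀ (Real.exp_pos x) hpos]
  linarith

theorem h35_inv_le_exp {x : ℝ} (h0 : 0 ≤ x) (h1 : x ≤ 1 / 2) :
    (1 - x)⁻¹ ≤ Real.exp (x + 2 * x ^ 2) := by
  have hpos : 0 < 1 - x := by linarith
  have h2 : (1 - x)⁻¹ ≤ 1 + (x + 2 * x ^ 2) := by
    rw [inv_eq_one_div, div_le_iff₀ hpos]
    nlinarith [mul_nonneg (mul_nonneg h0 h0) (by linarith : (0 : ℝ) ≤ 1 - 2 * x)]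
  linarith [Real.add_one_le_exp (x + 2 * x ^ 2)]

section OneField

variable (F : Type*) [Field F] [NumberField F]

/-- `x_v(σ) = N(v)^(-σ)`. -/
noncomputable def h35_x (σ : ℝ) (v : HeightOneSpectrum (𝓞 F)) : ℝ :=
  (Ideal.absNorm v.asIdeal : ℝ) ^ (-σ)

theorem h35_x_def (σ : ℝ) (v : HeightOneSpectrum (𝓞 F)) :
    h35_x F σ v = (Ideal.absNorm v.asIdeal : ℝ) ^ (-σ) := rfl

theorem h35_x_nonneg (σ : ℝ) (v : HeightOneSpectrum (𝓞 F)) : 0 ≤ h35_x F σ v :=
  Real.rpow_nonneg (Nat.cast_nonneg _) _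

theorem h35_x_le_half {σ : ℝ} (hσ : 1 ≤ σ) (v : HeightOneSpectrum (𝓞 F)) :
    h35_x F σ v ≤ 1 / 2 := h35_absNorm_rpow_le_half F hσ v

theorem h35_two_le_absNorm (v : HeightOneSpectrum (𝓞 F)) : 2 ≤ Ideal.absNorm v.asIdeal := by
  have h0 : Ideal.absNorm v.asIdeal ≠ 0 := by
    rw [Ne, Ideal.absNorm_eq_zero_iff]; exact v.ne_bot
  have h1 : Ideal.absNorm v.asIdeal ≠ 1 := by
    rw [Ne, Ideal.absNorm_eq_one_iff]; exact v.isPrime.ne_top
  omega

theorem h35_summable_x {σ : ℝ} (hσ : 1 < σ) : Summable (h35_x F σ) :=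
  (h35_summable_absNorm_rpow F hσ).comp_injective HeightOneSpectrum.asIdeal_injective

/-- Lower Euler bound: `exp (∑ v ∈ S, x_v) ≤ ζ_F(σ)`. -/
theorem h35_exp_sum_le_zeta {σ : ℝ} (hσ : 1 < σ) (S : Finset (HeightOneSpectrum (𝓞 F))) :
    Real.exp (∑ v ∈ S, h35_x F σ v) ≤ h35_zeta F σ := by
  rw [Real.exp_sum]
  refine le_trans (Finset.prod_le_prod (fun v _ => (Real.exp_pos _).le) (fun v _ => ?_))
    (h35_prod_le_zeta F hσ S)
  exact h35_exp_le_inv (lt_of_le_of_lt (h35_x_le_half F hσ.le v) (by norm_num))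

theorem h35_one_le_zeta {σ : ℝ} (hσ : 1 < σ) : 1 ≤ h35_zeta F σ := by
  simpa using h35_exp_sum_le_zeta F hσ ∅

theorem h35_zeta_pos {σ : ℝ} (hσ : 1 < σ) : 0 < h35_zeta F σ :=
  zero_lt_one.trans_le (h35_one_le_zeta F hσ)

theorem h35_sum_le_log_zeta {σ : ℝ} (hσ : 1 < σ) (S : Finset (HeightOneSpectrum (𝓞 F))) :
    ∑ v ∈ S, h35_x F σ v ≤ Real.log (h35_zeta F σ) :=
  (Real.le_log_iff_exp_le (h35_zeta_pos F hσ)).mpr (h35_exp_sum_le_zeta F hσ S)

theorem h35_x_sq_le {σ : ℝ} (hσ : 1 ≤ σ) (v : HeightOneSpectrum (𝓞 F)) :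
    h35_x F σ v ^ 2 ≤ h35_x F 2 v := by
  have h1 : (1 : ℝ) ≤ (Ideal.absNorm v.asIdeal : ℝ) := by
    have := h35_two_le_absNorm F v
    exact_mod_cast (by omega : 1 ≤ Ideal.absNorm v.asIdeal)
  rw [h35_x, h35_x, ← Real.rpow_natCast, ← Real.rpow_mul (Nat.cast_nonneg _)]
  exact Real.rpow_le_rpow_of_exponent_le h1 (by push_cast; linarith)

theorem h35_summable_x_sq {σ : ℝ} (hσ : 1 ≤ σ) : Summable fun v => h35_x F σ v ^ 2 :=
  Summable.of_nonneg_of_le (fun _ => sq_nonneg _) (fun v => h35_x_sq_le F hσ v)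
    (h35_summable_x F one_lt_two)

/-- Upper Euler bound: `ζ_F(σ) ≤ exp (∑' x_v + 2 ∑' x_v²)`. -/
theorem h35_zeta_le_exp {σ : ℝ} (hσ : 1 < σ) :
    h35_zeta F σ ≤ Real.exp (∑' v, h35_x F σ v + 2 * ∑' v, h35_x F σ v ^ 2) := by
  have ht := h35_eulerProduct_zeta F hσ
  rw [HasProd, SummationFilter.unconditional] at ht
  refine le_of_tendsto' ht (fun S => ?_)
  calc ∏ v ∈ S, (1 - (Ideal.absNorm v.asIdeal : ℝ) ^ (-σ))⁻¹
      ≤ ∏ v ∈ S, Real.exp (h35_x F σ v + 2 * h35_x F σ v ^ 2) := by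
        refine Finset.prod_le_prod (fun v _ => ?_) (fun v _ => ?_)
        · have := h35_x_le_half F hσ.le v
          rw [h35_x] at this
          exact inv_nonneg.mpr (by linarith)
        · exact h35_inv_le_exp (h35_x_nonneg F σ v) (h35_x_le_half F hσ.le v)
    _ = Real.exp (∑ v ∈ S, (h35_x F σ v + 2 * h35_x F σ v ^ 2)) := (Real.exp_sum _ _).symm
    _ ≤ Real.exp (∑' v, h35_x F σ v + 2 * ∑' v, h35_x F σ v ^ 2) := by
        refine Real.exp_le_exp.mpr ?_
        rw [Finset.sum_add_distrib, ← Finset.mul_sum]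
        refine add_le_add ((h35_summable_x F hσ).sum_le_tsum S (fun v _ => h35_x_nonneg F σ v))
          (mul_le_mul_of_nonneg_left
            ((h35_summable_x_sq F hσ.le).sum_le_tsum S (fun v _ => sq_nonneg _)) (by norm_num))

/-- `log ζ_F(σ) ≤ ∑' x_v(σ) + 2 ∑' x_v(2)`. -/
theorem h35_log_zeta_le {σ : ℝ} (hσ : 1 < σ) :
    Real.log (h35_zeta F σ) ≤ ∑' v, h35_x F σ v + 2 * ∑' v, h35_x F 2 v := by
  have h1 := (Real.log_le_iff_le_exp (h35_zeta_pos F hσ)).mpr (h35_zeta_le_exp F hσ)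
  have h2 : ∑' v, h35_x F σ v ^ 2 ≤ ∑' v, h35_x F 2 v :=
    (h35_summable_x_sq F hσ.le).tsum_le_tsum (fun v => h35_x_sq_le F hσ.le v)
      (h35_summable_x F one_lt_two)
  linarith

/-- `ζ_F` is antitone on `(1, ∞)`. -/
theorem h35_zeta_anti {σ₀ σ : ℝ} (hσ₀ : 1 < σ₀) (h : σ₀ ≤ σ) : h35_zeta F σ ≤ h35_zeta F σ₀ := by
  refine (h35_summable_absNorm_rpow F (hσ₀.trans_le h)).tsum_le_tsum (fun I => ?_)
    (h35_summable_absNorm_rpow F hσ₀)
  rcases Nat.eq_zero_or_pos (Ideal.absNorm I) with h0 | h0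
  · rw [h0, Nat.cast_zero, Real.zero_rpow (by linarith), Real.zero_rpow (by linarith)]
  · exact Real.rpow_le_rpow_of_exponent_le (by exact_mod_cast h0) (by linarith)

/-- `log ζ_F(σ) = log (1/(σ-1)) + O(1)` on `(1, 2]`. -/
theorem h35_exists_log_zeta_bound :
    ∃ B : ℝ, ∀ σ : ℝ, 1 < σ → σ ≤ 2 →
      |Real.log (h35_zeta F σ) - Real.log (1 / (σ - 1))| ≤ B := by
  have hρ := dedekindZeta_residue_pos F
  set ρ := dedekindZeta_residue F with hρdef
  have hev : ∀ᶠ σ in 𝓝[>] (1 : ℝ), (σ - 1) * h35_zeta F σ ∈ Set.Ioo (ρ / 2) (2 * ρ) :=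
    (h35_tendsto_sub_one_mul_zeta F).eventually (Ioo_mem_nhds (by linarith) (by linarith))
  obtain ⟨u, hu, hsub⟩ := mem_nhdsGT_iff_exists_Ioo_subset.mp hev
  have hu1 : (1 : ℝ) < u := hu
  set σ₀ : ℝ := min ((1 + u) / 2) 2 with hσ₀def
  have hσ₀1 : 1 < σ₀ := lt_min (by linarith) (by norm_num)
  have hσ₀u : σ₀ < u := lt_of_le_of_lt (min_le_left _ _) (by linarith)
  set m : ℝ := min (ρ / 2) (σ₀ - 1) with hmdef
  set M : ℝ := max (2 * ρ) (h35_zeta F σ₀) with hMdef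
  have hm : 0 < m := lt_min (by linarith) (by linarith)
  have key : ∀ σ : ℝ, 1 < σ → σ ≤ 2 → m ≤ (σ - 1) * h35_zeta F σ ∧ (σ - 1) * h35_zeta F σ ≤ M := by
    intro σ h1 h2
    by_cases hlt : σ < σ₀
    · have hmem : (σ - 1) * h35_zeta F σ ∈ Set.Ioo (ρ / 2) (2 * ρ) :=
        hsub ⟨h1, hlt.trans hσ₀u⟩
      exact ⟨(min_le_left _ _).trans hmem.1.le, hmem.2.le.trans (le_max_left _ _)⟩
    · push Not at hlt
      have hz1 := h35_one_le_zeta F h1
      have hz2 := h35_zeta_anti F hσ₀1 hlt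
      constructor
      · calc m ≤ σ₀ - 1 := min_le_right _ _
          _ ≤ (σ - 1) * 1 := by linarith
          _ ≤ (σ - 1) * h35_zeta F σ := mul_le_mul_of_nonneg_left hz1 (by linarith)
      · calc (σ - 1) * h35_zeta F σ ≤ 1 * h35_zeta F σ :=
              mul_le_mul_of_nonneg_right (by linarith) (by linarith)
          _ ≤ h35_zeta F σ₀ := by linarith
          _ ≤ M := le_max_right _ _
  refine ⟨max |Real.log m| |Real.log M|, fun σ h1 h2 => ?_⟩
  obtain ⟨hk1, hk2⟩ := key σ h1 h2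
  have hpos : 0 < σ - 1 := by linarith
  have hz := h35_zeta_pos F h1
  have heq : Real.log (h35_zeta F σ) - Real.log (1 / (σ - 1)) =
      Real.log ((σ - 1) * h35_zeta F σ) := by
    rw [Real.log_mul hpos.ne' hz.ne', one_div, Real.log_inv]
    ring
  rw [heq, abs_le]
  constructor
  · have := Real.log_le_log hm hk1
    have h3 := neg_abs_le (Real.log m)
    have h4 := le_max_left |Real.log m| |Real.log M|
    linarith
  · have := Real.log_le_log (hm.trans_le hk1) hk2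
    have h3 := le_abs_self (Real.log M)
    have h4 := le_max_right |Real.log m| |Real.log M|
    linarith

/-- (PS1) Every finite prime sum is at most `log (1/(σ-1)) + B`. -/
theorem h35_sum_prime_le :
    ∃ B : ℝ, ∀ σ : ℝ, 1 < σ → σ ≤ 2 → ∀ S : Finset (HeightOneSpectrum (𝓞 F)),
      ∑ v ∈ S, h35_x F σ v ≤ Real.log (1 / (σ - 1)) + B := by
  obtain ⟨B, hB⟩ := h35_exists_log_zeta_bound F
  refine ⟨B, fun σ h1 h2 S => ?_⟩
  have := h35_sum_le_log_zeta F h1 S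
  have := (abs_le.mp (hB σ h1 h2)).2
  linarith

/-! ### Primes of residue degree `≥ 2` -/

/-- Every prime of `𝓞 F` contains a rational prime. -/
theorem h35_exists_prime_mem (v : HeightOneSpectrum (𝓞 F)) :
    ∃ q : ℕ, q.Prime ∧ (q : 𝓞 F) ∈ v.asIdeal := by
  classical
  have hex : ∃ m : ℕ, 0 < m ∧ (m : 𝓞 F) ∈ v.asIdeal :=
    ⟨Ideal.absNorm v.asIdeal, by have := h35_two_le_absNorm F v; omega, Ideal.absNorm_mem _⟩
  have hspec := Nat.find_spec hex
  have hmin := fun m => Nat.find_min (H := hex) (m := m)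
  set q := Nat.find hex with hq
  have hq1 : q ≠ 1 := by
    intro h1
    have h := hspec.2
    rw [h1, Nat.cast_one] at h
    exact v.isPrime.ne_top ((Ideal.eq_top_iff_one _).mpr h)
  have hq2 : 2 ≤ q := by have := hspec.1; omega
  refine ⟨q, ?_, hspec.2⟩
  by_contra hnp
  obtain ⟨m, hm, hm2, hmq⟩ := Nat.exists_dvd_of_not_prime2 hq2 hnp
  obtain ⟨k, hk⟩ := hm
  have hk0 : 0 < k := by
    rcases Nat.eq_zero_or_pos k with h0 | h0
    · rw [h0, mul_zero] at hk; omega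
    · exact h0
  have hkq : k < q := by
    rw [hk]
    calc k = 1 * k := (one_mul k).symm
      _ < m * k := Nat.mul_lt_mul_of_pos_right (by omega) hk0
  have hmem : ((m : 𝓞 F)) * (k : 𝓞 F) ∈ v.asIdeal := by
    have h := hspec.2
    rw [hk, Nat.cast_mul] at h
    exact h
  rcases v.isPrime.mem_or_mem hmem with h | h
  · exact hmin m hmq ⟨by omega, h⟩
  · exact hmin k hkq ⟨hk0, h⟩

/-- If the rational prime `q` lies in `v` then `N(v) = q ^ j` with `1 ≤ j`. -/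
theorem h35_absNorm_eq_prime_pow (v : HeightOneSpectrum (𝓞 F)) {q : ℕ} (hq : q.Prime)
    (hqv : (q : 𝓞 F) ∈ v.asIdeal) :
    ∃ j : ℕ, 0 < j ∧ Ideal.absNorm v.asIdeal = q ^ j := by
  have hle : Ideal.span {(q : 𝓞 F)} ≤ v.asIdeal := (Ideal.span_singleton_le_iff_mem _).mpr hqv
  have hdvd := Ideal.absNorm_dvd_absNorm_of_le hle
  rw [Ideal.absNorm_span_natCast] at hdvd
  obtain ⟨j, -, hj⟩ := (Nat.dvd_prime_pow hq).mp hdvd
  refine ⟨j, ?_, hj⟩
  rcases Nat.eq_zero_or_pos j with h0 | h0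
  · rw [h0, pow_zero] at hj
    have := h35_two_le_absNorm F v
    omega
  · exact h0

/-- At most `[F : ℚ]` primes of `𝓞 F` contain a given rational prime. -/
theorem h35_card_le_finrank {q : ℕ} (hq : q.Prime) (S : Finset (HeightOneSpectrum (𝓞 F)))
    (hS : ∀ v ∈ S, (q : 𝓞 F) ∈ v.asIdeal) : S.card ≤ Module.finrank ℤ (𝓞 F) := by
  have hdvd : (∏ v ∈ S, v.asIdeal) ∣ Ideal.span {(q : 𝓞 F)} := by
    refine Finset.prod_dvd_of_coprime (fun v _ w _ hvw => ?_) (fun v hv => ?_)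
    · exact HeightOneSpectrum.isCoprime_of_ne v w hvw
    · exact Ideal.dvd_span_singleton.mpr (hS v hv)
  have h1 : Ideal.absNorm (∏ v ∈ S, v.asIdeal) ∣ q ^ Module.finrank ℤ (𝓞 F) := by
    rw [← Ideal.absNorm_span_natCast]
    exact map_dvd Ideal.absNorm hdvd
  rw [map_prod] at h1
  have h2 : q ^ S.card ≤ ∏ v ∈ S, Ideal.absNorm v.asIdeal := by
    rw [← Finset.prod_const]
    refine Finset.prod_le_prod' (fun v hv => ?_)
    obtain ⟨j, hj, hjv⟩ := h35_absNorm_eq_prime_pow F v hq (hS v hv)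
    rw [hjv]
    exact Nat.le_self_pow hj.ne' q
  have h3 : ∏ v ∈ S, Ideal.absNorm v.asIdeal ≤ q ^ Module.finrank ℤ (𝓞 F) :=
    Nat.le_of_dvd (pow_pos hq.pos _) h1
  exact (Nat.pow_le_pow_iff_right hq.one_lt).mp (h2.trans h3)

/-- The rational prime below `v`. -/
noncomputable def h35_qOf (v : HeightOneSpectrum (𝓞 F)) : ℕ :=
  Classical.choose (h35_exists_prime_mem F v)

theorem h35_qOf_prime (v : HeightOneSpectrum (𝓞 F)) : (h35_qOf F v).Prime :=
  (Classical.choose_spec (h35_exists_prime_mem F v)).1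

theorem h35_qOf_mem (v : HeightOneSpectrum (𝓞 F)) : ((h35_qOf F v : ℕ) : 𝓞 F) ∈ v.asIdeal :=
  (Classical.choose_spec (h35_exists_prime_mem F v)).2

/-- A prime whose norm is not a prime number has `N(v) ≥ q²`. -/
theorem h35_sq_le_absNorm (v : HeightOneSpectrum (𝓞 F))
    (hv : ¬ (Ideal.absNorm v.asIdeal).Prime) : h35_qOf F v ^ 2 ≤ Ideal.absNorm v.asIdeal := by
  obtain ⟨j, hj, hjv⟩ := h35_absNorm_eq_prime_pow F v (h35_qOf_prime F v) (h35_qOf_mem F v)
  have hj2 : 2 ≤ j := by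
    by_contra hlt
    have : j = 1 := by omega
    rw [this, pow_one] at hjv
    exact hv (hjv ▸ h35_qOf_prime F v)
  rw [hjv]
  exact Nat.pow_le_pow_right (h35_qOf_prime F v).pos hj2

/-- (D) The primes of residue degree `≥ 2` contribute boundedly. -/
theorem h35_sum_nonprime_le {σ : ℝ} (hσ : 1 ≤ σ) (S : Finset (HeightOneSpectrum (𝓞 F)))
    (hS : ∀ v ∈ S, ¬ (Ideal.absNorm v.asIdeal).Prime) :
    ∑ v ∈ S, h35_x F σ v ≤ (Module.finrank ℤ (𝓞 F) : ℝ) * ∑' m : ℕ, 1 / (m : ℝ) ^ 2 := by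
  classical
  have hsum2 : Summable fun m : ℕ => 1 / (m : ℝ) ^ 2 :=
    Real.summable_one_div_nat_pow.mpr one_lt_two
  have h1 : ∀ v ∈ S, h35_x F σ v ≤ 1 / ((h35_qOf F v : ℕ) : ℝ) ^ 2 := by
    intro v hv
    have hN1 : (1 : ℝ) ≤ (Ideal.absNorm v.asIdeal : ℝ) := by
      have := h35_two_le_absNorm F v
      exact_mod_cast (by omega : 1 ≤ Ideal.absNorm v.asIdeal)
    have hq0 : (0 : ℝ) < ((h35_qOf F v : ℕ) : ℝ) ^ 2 := by
      have := (h35_qOf_prime F v).pos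
      positivity
    have hle : (((h35_qOf F v : ℕ) : ℝ)) ^ 2 ≤ (Ideal.absNorm v.asIdeal : ℝ) := by
      exact_mod_cast h35_sq_le_absNorm F v (hS v hv)
    calc h35_x F σ v ≤ (Ideal.absNorm v.asIdeal : ℝ) ^ (-1 : ℝ) :=
          Real.rpow_le_rpow_of_exponent_le hN1 (by linarith)
      _ = 1 / (Ideal.absNorm v.asIdeal : ℝ) := by rw [Real.rpow_neg_one, one_div]
      _ ≤ 1 / ((h35_qOf F v : ℕ) : ℝ) ^ 2 := one_div_le_one_div_of_le hq0 hle
  calc ∑ v ∈ S, h35_x F σ v ≤ ∑ v ∈ S, 1 / ((h35_qOf F v : ℕ) : ℝ) ^ 2 := Finset.sum_le_sum h1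
    _ = ∑ q ∈ S.image (h35_qOf F), (S.filter (fun v => h35_qOf F v = q)).card •
          (1 / (q : ℝ) ^ 2) := Finset.sum_comp (fun q : ℕ => 1 / (q : ℝ) ^ 2) (h35_qOf F)
    _ ≤ ∑ q ∈ S.image (h35_qOf F), (Module.finrank ℤ (𝓞 F) : ℝ) * (1 / (q : ℝ) ^ 2) := by
        refine Finset.sum_le_sum (fun q hq => ?_)
        rw [nsmul_eq_mul]
        refine mul_le_mul_of_nonneg_right ?_ (by positivity)
        obtain ⟨v₀, hv₀, rfl⟩ := Finset.mem_image.mp hq
        have hcard := h35_card_le_finrank F (h35_qOf_prime F v₀)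
          (S.filter (fun v => h35_qOf F v = h35_qOf F v₀)) (fun v hv => by
            rw [← (Finset.mem_filter.mp hv).2]
            exact h35_qOf_mem F v)
        exact_mod_cast hcard
    _ = (Module.finrank ℤ (𝓞 F) : ℝ) * ∑ q ∈ S.image (h35_qOf F), 1 / (q : ℝ) ^ 2 := by
        rw [Finset.mul_sum]
    _ ≤ (Module.finrank ℤ (𝓞 F) : ℝ) * ∑' m : ℕ, 1 / (m : ℝ) ^ 2 :=
        mul_le_mul_of_nonneg_left (hsum2.sum_le_tsum _ (fun m _ => by positivity))
          (Nat.cast_nonneg _)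

/-- (PS2) The degree-one primes outside a finite set carry the whole pole: some finite set of
them has prime sum at least `log (1/(σ-1)) - B`. -/
theorem h35_exists_sum_prime_ge (Bad : Set (HeightOneSpectrum (𝓞 F))) (hBad : Bad.Finite) :
    ∃ B : ℝ, ∀ σ : ℝ, 1 < σ → σ ≤ 2 → ∃ S : Finset (HeightOneSpectrum (𝓞 F)),
      (∀ v ∈ S, (Ideal.absNorm v.asIdeal).Prime ∧ v ∉ Bad) ∧
        Real.log (1 / (σ - 1)) - B ≤ ∑ v ∈ S, h35_x F σ v := by
  classical
  obtain ⟨BZ, hBZ⟩ := h35_exists_log_zeta_bound F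
  set C₂ : ℝ := ∑' v, h35_x F 2 v with hC₂
  set CD : ℝ := (Module.finrank ℤ (𝓞 F) : ℝ) * ∑' m : ℕ, 1 / (m : ℝ) ^ 2 with hCD
  refine ⟨BZ + 2 * C₂ + 1 + hBad.toFinset.card + CD, fun σ h1 h2 => ?_⟩
  have hlog := h35_log_zeta_le F h1
  have hz := (abs_le.mp (hBZ σ h1 h2)).1
  have hsum := h35_summable_x F h1
  obtain ⟨S₀, hS₀⟩ : ∃ S₀ : Finset (HeightOneSpectrum (𝓞 F)),
      ∑' v, h35_x F σ v - 1 < ∑ v ∈ S₀, h35_x F σ v := by
    by_contra hall
    push Not at hall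
    have := hsum.tsum_le_of_sum_le hall
    linarith
  refine ⟨S₀.filter (fun v => (Ideal.absNorm v.asIdeal).Prime ∧ v ∉ Bad),
    fun v hv => (Finset.mem_filter.mp hv).2, ?_⟩
  have hsplit : ∑ v ∈ S₀, h35_x F σ v ≤
      ∑ v ∈ S₀.filter (fun v => (Ideal.absNorm v.asIdeal).Prime ∧ v ∉ Bad), h35_x F σ v +
      ∑ v ∈ S₀.filter (fun v => ¬ (Ideal.absNorm v.asIdeal).Prime), h35_x F σ v +
      ∑ v ∈ S₀.filter (fun v => v ∈ Bad), (1 : ℝ) := by
    rw [Finset.sum_filter, Finset.sum_filter, Finset.sum_filter, ← Finset.sum_add_distrib,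
      ← Finset.sum_add_distrib]
    refine Finset.sum_le_sum (fun v _ => ?_)
    have hx0 := h35_x_nonneg F σ v
    have hx1 : h35_x F σ v ≤ 1 := (h35_x_le_half F h1.le v).trans (by norm_num)
    by_cases hp : (Ideal.absNorm v.asIdeal).Prime <;> by_cases hb : v ∈ Bad <;>
      simp only [hp, hb, and_true, and_false, not_true_eq_false, not_false_eq_true, if_true,
        if_false] <;> linarith
  have hD := h35_sum_nonprime_le F h1.le
    (S₀.filter (fun v => ¬ (Ideal.absNorm v.asIdeal).Prime))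
    (fun v hv => (Finset.mem_filter.mp hv).2)
  have hBadc : ∑ v ∈ S₀.filter (fun v => v ∈ Bad), (1 : ℝ) ≤ hBad.toFinset.card := by
    rw [Finset.sum_const, nsmul_eq_mul, mul_one]
    exact_mod_cast Finset.card_le_card (fun v hv => by
      rw [Set.Finite.mem_toFinset]
      exact (Finset.mem_filter.mp hv).2)
  linarith

end OneField

section TwoFields

variable (F1 F2 : Type*) [Field F1] [NumberField F1] [Field F2] [NumberField F2]

/-- (PS3) Primes of `F1` having `n` primes of `F2` of the same norm above them (with respect to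
any map `c` from primes of `F2` to primes of `F1`) have `n * ∑ x_v ≤ log (1/(σ-1)) + B`. -/
theorem h35_sum_split_le (n : ℕ)
    (c : HeightOneSpectrum (𝓞 F2) → HeightOneSpectrum (𝓞 F1)) :
    ∃ B : ℝ, ∀ σ : ℝ, 1 < σ → σ ≤ 2 → ∀ S : Finset (HeightOneSpectrum (𝓞 F1)),
      (∀ v ∈ S, ∃ s : Finset (HeightOneSpectrum (𝓞 F2)), s.card = n ∧
        ∀ w ∈ s, c w = v ∧ Ideal.absNorm w.asIdeal = Ideal.absNorm v.asIdeal) →
      (n : ℝ) * ∑ v ∈ S, h35_x F1 σ v ≤ Real.log (1 / (σ - 1)) + B := by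
  classical
  obtain ⟨B, hB⟩ := h35_sum_prime_le F2
  refine ⟨B, fun σ h1 h2 S hS => ?_⟩
  choose! s hs using hS
  have hdisj : (S : Set (HeightOneSpectrum (𝓞 F1))).PairwiseDisjoint s := by
    intro v hv v' hv' hne
    rw [Function.onFun, Finset.disjoint_left]
    intro w hw hw'
    exact hne (((hs v hv).2 w hw).1.symm.trans ((hs v' hv').2 w hw').1)
  have hU := hB σ h1 h2 (S.biUnion s)
  rw [Finset.sum_biUnion hdisj] at hU
  have heq : ∑ v ∈ S, ∑ w ∈ s v, h35_x F2 σ w = (n : ℝ) * ∑ v ∈ S, h35_x F1 σ v := by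
    rw [Finset.mul_sum]
    refine Finset.sum_congr rfl (fun v hv => ?_)
    have h3 : ∀ w ∈ s v, h35_x F2 σ w = h35_x F1 σ v := by
      intro w hw
      rw [h35_x, h35_x, ((hs v hv).2 w hw).2]
    rw [Finset.sum_congr rfl h3, Finset.sum_const, (hs v hv).1, nsmul_eq_mul]
  linarith

/-- (NS-CORE) It is impossible that every degree-one prime of `F1` outside a finite set has
`n ≥ 2` primes of `F2` of the same norm above it. -/
theorem h35_ns_core (n : ℕ) (hn : 2 ≤ n)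
    (c : HeightOneSpectrum (𝓞 F2) → HeightOneSpectrum (𝓞 F1))
    (Bad : Set (HeightOneSpectrum (𝓞 F1))) (hBad : Bad.Finite)
    (h : ∀ v : HeightOneSpectrum (𝓞 F1), v ∉ Bad → (Ideal.absNorm v.asIdeal).Prime →
      ∃ s : Finset (HeightOneSpectrum (𝓞 F2)), s.card = n ∧
        ∀ w ∈ s, c w = v ∧ Ideal.absNorm w.asIdeal = Ideal.absNorm v.asIdeal) : False := by
  obtain ⟨B₁, hB₁⟩ := h35_exists_sum_prime_ge F1 Bad hBad
  obtain ⟨B₂, hB₂⟩ := h35_sum_split_le F1 F2 n c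
  set t : ℝ := |(n : ℝ) * B₁ + B₂| + 1 with ht
  have ht0 : 0 < t := by positivity
  set σ : ℝ := 1 + Real.exp (-t) with hσ
  have h1 : 1 < σ := by have := Real.exp_pos (-t); linarith
  have h2 : σ ≤ 2 := by
    have : Real.exp (-t) ≤ 1 := Real.exp_le_one_iff.mpr (by linarith)
    linarith
  have hL : Real.log (1 / (σ - 1)) = t := by
    rw [hσ, add_sub_cancel_left, one_div, Real.log_inv, Real.log_exp, neg_neg]
  obtain ⟨S, hSgood, hSge⟩ := hB₁ σ h1 h2
  have hSle := hB₂ σ h1 h2 S (fun v hv => h v (hSgood v hv).2 (hSgood v hv).1)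
  rw [hL] at hSge hSle
  have hn' : (2 : ℝ) ≤ (n : ℝ) := by exact_mod_cast hn
  have h3 : (n : ℝ) * (t - B₁) ≤ t + B₂ :=
    (mul_le_mul_of_nonneg_left hSge (by linarith)).trans hSle
  have h4 : (n : ℝ) * B₁ + B₂ ≤ |(n : ℝ) * B₁ + B₂| := le_abs_self _
  nlinarith

/-- (NS-CORE), `Nat.card` form of the hypothesis. -/
theorem h35_ns_core' (n : ℕ) (hn : 2 ≤ n)
    (c : HeightOneSpectrum (𝓞 F2) → HeightOneSpectrum (𝓞 F1))
    (Bad : Set (HeightOneSpectrum (𝓞 F1))) (hBad : Bad.Finite)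
    (h : ∀ v : HeightOneSpectrum (𝓞 F1), v ∉ Bad → (Ideal.absNorm v.asIdeal).Prime →
      n ≤ Nat.card {w : HeightOneSpectrum (𝓞 F2) //
        c w = v ∧ Ideal.absNorm w.asIdeal = Ideal.absNorm v.asIdeal}) : False := by
  classical
  refine h35_ns_core F1 F2 n hn c Bad hBad (fun v hv hp => ?_)
  have hc := h v hv hp
  have hfin : Finite {w : HeightOneSpectrum (𝓞 F2) //
      c w = v ∧ Ideal.absNorm w.asIdeal = Ideal.absNorm v.asIdeal} := by
    refine Nat.finite_of_card_ne_zero ?_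
    omega
  have := Fintype.ofFinite {w : HeightOneSpectrum (𝓞 F2) //
      c w = v ∧ Ideal.absNorm w.asIdeal = Ideal.absNorm v.asIdeal}
  rw [Nat.card_eq_fintype_card, ← Finset.card_univ] at hc
  obtain ⟨t, -, htc⟩ := Finset.exists_subset_card_eq hc
  refine ⟨t.map ⟨Subtype.val, Subtype.val_injective⟩, by rw [Finset.card_map, htc], ?_⟩
  intro w hw
  obtain ⟨w', -, rfl⟩ := Finset.mem_map.mp hw
  exact w'.2

end TwoFields

end Fermat.Agent.S14
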