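import Mathlib
import Fermat.Agent.S14.Defs

set_option autoImplicit false

namespace Fermat.Agent.S14

open NumberField Polynomial


/-- If a natural number `n ≠ 0` is a `p`-th power in `ℚ(ζ_p)`, then every prime occurs in `n` with
multiplicity divisible by `p` (take norms down to `ℚ`). -/
lemma h56_dvd_factorization_of_pow_eq (p : ℕ) [hp : Fact p.Prime] (n : ℕ) (hn : n ≠ 0)
    (b : CyclotomicField p ℚ) (hb : b ^ p = (n : CyclotomicField p ℚ)) (ℓ : ℕ) (hℓ : ℓ.Prime) :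
    p ∣ n.factorization ℓ := by
  have hpne : NeZero p := ⟨hp.out.ne_zero⟩
  have hcyc : IsCyclotomicExtension {p} ℚ (CyclotomicField p ℚ) :=
    CyclotomicField.isCyclotomicExtension p ℚ
  have hfr : Module.finrank ℚ (CyclotomicField p ℚ) = p - 1 := by
    rw [IsCyclotomicExtension.finrank (n := p) (K := ℚ) (CyclotomicField p ℚ)
      (Polynomial.cyclotomic.irreducible_rat hp.out.pos), Nat.totient_prime hp.out]
  have h1 : (Algebra.norm ℚ b) ^ p = (n : ℚ) ^ (p - 1) := by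
    have e1 : (n : CyclotomicField p ℚ) = algebraMap ℚ (CyclotomicField p ℚ) (n : ℚ) :=
      (map_natCast _ n).symm
    rw [← map_pow, hb, e1, Algebra.norm_algebraMap, hfr]
  have hn0 : (n : ℚ) ≠ 0 := by exact_mod_cast hn
  have hN0 : Algebra.norm ℚ b ≠ 0 := by
    intro h0
    rw [h0, zero_pow hp.out.ne_zero] at h1
    exact pow_ne_zero _ hn0 h1.symm
  have hℓ' : Fact ℓ.Prime := ⟨hℓ⟩
  have h2 := congrArg (padicValRat ℓ) h1
  rw [padicValRat.pow, padicValRat.pow, padicValRat.of_nat] at h2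
  have h3 : (p : ℤ) ∣ ((p - 1 : ℕ) : ℤ) * (padicValNat ℓ n : ℤ) := ⟨_, h2.symm⟩
  have hcop : IsCoprime (p : ℤ) ((p - 1 : ℕ) : ℤ) := by
    rw [Int.isCoprime_iff_gcd_eq_one, Int.gcd_natCast_natCast]
    have := hp.out.one_lt
    have h4 : Nat.Coprime (p - 1) p := by
      have : p - 1 + 1 = p := by omega
      conv_rhs => rw [← this]
      simp
    exact h4.symm
  have h5 := hcop.dvd_of_dvd_mul_left h3
  rw [Nat.factorization_def n hℓ]
  exact_mod_cast h5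



/-- Kummer descent: a `p`-th root, in `K(a^{1/p})`, of an element `c` of `K` exists only if
`c = d ^ p * a ^ k` for some `d ∈ K`. -/
lemma h56_kummer_descent {K : Type*} [Field K] (p : ℕ) (hp : p.Prime) (ζ : K)
    (hζ : IsPrimitiveRoot ζ p) (a : K) (H : Irreducible (X ^ p - C a)) (c : K) (hc : c ≠ 0)
    (b : AdjoinRoot (X ^ p - C a)) (hb : b ^ p = AdjoinRoot.of _ c) :
    ∃ k < p, ∃ d : K, c = d ^ p * a ^ k := by
  have hfact : Fact (Irreducible (X ^ p - C a)) := ⟨H⟩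
  have hpne : NeZero p := ⟨hp.ne_zero⟩
  have hprim : (primitiveRoots p K).Nonempty := ⟨ζ, (mem_primitiveRoots hp.pos).mpr hζ⟩
  have hsplit : IsSplittingField K (AdjoinRoot (X ^ p - C a)) (X ^ p - C a) :=
    isSplittingField_AdjoinRoot_X_pow_sub_C hprim H
  have hgal : IsGalois K (AdjoinRoot (X ^ p - C a)) :=
    isGalois_of_isSplittingField_X_pow_sub_C hprim H _
  have hfd : FiniteDimensional K (AdjoinRoot (X ^ p - C a)) :=
    Polynomial.IsSplittingField.finiteDimensional _ (X ^ p - C a)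
  set β : AdjoinRoot (X ^ p - C a) := AdjoinRoot.root (X ^ p - C a) with hβdef
  have hβ : β ^ p = AdjoinRoot.of _ a := root_X_pow_sub_C_pow p a
  have hβ0 : β ≠ 0 := root_X_pow_sub_C_ne_zero hp.one_lt a
  have hinj : Function.Injective (AdjoinRoot.of (X ^ p - C a)) := by
    rw [← AdjoinRoot.algebraMap_eq]
    exact (algebraMap K (AdjoinRoot (X ^ p - C a))).injective
  have hb0 : b ≠ 0 := by
    intro h0
    rw [h0, zero_pow hp.ne_zero] at hb
    exact hc (hinj (by rw [← hb, map_zero]))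
  -- the primitive root in `M`
  have hζM : IsPrimitiveRoot (AdjoinRoot.of (X ^ p - C a) ζ) p := hζ.map_of_injective hinj
  -- the generator of the Galois group
  let η : rootsOfUnity p K := hζ.toRootsOfUnity
  have hη : ((η : Kˣ) : K) = ζ := rfl
  let τ : AdjoinRoot (X ^ p - C a) ≃ₐ[K] AdjoinRoot (X ^ p - C a) := autAdjoinRootXPowSubC p a η
  have hτβ : τ β = AdjoinRoot.of _ ζ * β := by
    have := autAdjoinRootXPowSubC_root a η
    rw [hη, Algebra.smul_def, AdjoinRoot.algebraMap_eq] at this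
    exact this
  have hτof : ∀ x : K, τ (AdjoinRoot.of _ x) = AdjoinRoot.of _ x := fun x => by
    rw [← AdjoinRoot.algebraMap_eq]
    exact τ.commutes x
  obtain ⟨k, hk, hkb⟩ : ∃ k < p, AdjoinRoot.of (X ^ p - C a) ζ ^ k = τ b / b := by
    apply hζM.eq_pow_of_pow_eq_one
    rw [div_pow, ← map_pow, hb, hτof, div_self]
    rw [← hb]
    exact pow_ne_zero _ hb0
  have hτb : τ b = AdjoinRoot.of _ ζ ^ k * b := by
    rw [hkb, div_mul_cancel₀ _ hb0]
  set c₀ : AdjoinRoot (X ^ p - C a) := b / β ^ k with hc₀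
  have hτc₀ : τ c₀ = c₀ := by
    rw [hc₀, map_div₀, map_pow, hτb, hτβ, mul_pow, mul_div_mul_left]
    exact pow_ne_zero _ (hζM.ne_zero hp.ne_zero)
  -- every automorphism fixes `c₀`
  have hall : ∀ σ : AdjoinRoot (X ^ p - C a) ≃ₐ[K] AdjoinRoot (X ^ p - C a), σ c₀ = c₀ := by
    intro σ
    obtain ⟨η', rfl⟩ := (autAdjoinRootXPowSubCEquiv hprim H).surjective σ
    have hη'1 : ((η' : Kˣ) : K) ^ p = 1 := by
      have := (mem_rootsOfUnity' p (η' : Kˣ)).mp η'.2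
      exact this
    obtain ⟨m, -, hm⟩ := hζ.eq_pow_of_pow_eq_one hη'1
    have hη'η : η' = η ^ m := by
      apply Subtype.ext
      apply Units.ext
      rw [Subgroup.coe_pow, Units.val_pow_eq_pow_val, hη, hm]
    have hστ : autAdjoinRootXPowSubCEquiv hprim H η' = τ ^ m := by
      rw [hη'η, map_pow]
      rfl
    rw [hστ]
    have hmem : τ ∈ MulAction.stabilizer
        (AdjoinRoot (X ^ p - C a) ≃ₐ[K] AdjoinRoot (X ^ p - C a)) c₀ := by
      rw [MulAction.mem_stabilizer_iff]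
      exact hτc₀
    have := Subgroup.pow_mem _ hmem m
    rw [MulAction.mem_stabilizer_iff] at this
    exact this
  obtain ⟨d, hd⟩ : ∃ d : K, algebraMap K (AdjoinRoot (X ^ p - C a)) d = c₀ := by
    have := (IsGalois.mem_bot_iff_fixed (F := K) (E := AdjoinRoot (X ^ p - C a)) c₀).mpr hall
    rw [IntermediateField.mem_bot] at this
    exact this
  refine ⟨k, hk, d, ?_⟩
  apply hinj
  have hbd : b = AdjoinRoot.of _ d * β ^ k := by
    rw [← AdjoinRoot.algebraMap_eq, hd, hc₀, div_mul_cancel₀ _ (pow_ne_zero _ hβ0)]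
  rw [← hb, hbd, mul_pow, ← pow_mul, mul_comm k p, pow_mul, hβ, map_mul, map_pow, map_pow]



/-- Splitting criterion for a Kummer extension at a degree-one prime: if `c ≡ n ^ p` modulo the
degree-one prime `P` (of norm `q' ≡ 1 mod p`) of `F₁ ∋ ζ_p`, then every prime of
`F₂ = F₁(c^{1/p})` above `P` has residue degree one. -/
lemma h56_inertiaDeg_eq_one {F₁ F₂ : Type*} [Field F₁] [NumberField F₁] [Field F₂]
    [NumberField F₂] [Algebra F₁ F₂] [IsGalois F₁ F₂] (p : ℕ) (hp : p.Prime) (ζ : F₁)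
    (hζ : IsPrimitiveRoot ζ p) (c : ℕ) (γ : F₂) (hγ : γ ^ p = (c : F₂))
    (hgen : ∀ σ : F₂ ≃ₐ[F₁] F₂, σ γ = γ → σ = 1)
    (P : Ideal (𝓞 F₁)) [P.IsPrime] (hP0 : P ≠ ⊥) (q' : ℕ) (hq' : q'.Prime)
    (hPq' : Ideal.absNorm P = q') (hq'p : q' % p = 1) (hpP : (p : 𝓞 F₁) ∉ P)
    (hcP : (c : 𝓞 F₁) ∉ P) (n : ℕ) (hn : (n : ZMod q') ^ p = (c : ZMod q'))
    (Q : Ideal (𝓞 F₂)) [Q.IsPrime] [Q.LiesOver P] :
    Q.inertiaDeg (𝓞 F₁) = 1 := by
  classical
  have hpne : NeZero p := ⟨hp.ne_zero⟩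
  have hq'fact : Fact q'.Prime := ⟨hq'⟩
  have hQ0 : Q ≠ ⊥ := Ideal.ne_bot_of_liesOver_of_ne_bot hP0 Q
  have hPmax : P.IsMaximal := Ideal.IsPrime.isMaximal inferInstance hP0
  have hQmax : Q.IsMaximal := Ideal.IsPrime.isMaximal inferInstance hQ0
  have hQfin : Finite (𝓞 F₂ ⧸ Q) := Ideal.finiteQuotientOfFreeOfNeBot Q hQ0
  have hPfin : Finite (𝓞 F₁ ⧸ P) := Ideal.finiteQuotientOfFreeOfNeBot P hP0
  have hunder : Q.under (𝓞 F₁) = P := (Ideal.over_def Q P).symm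
  have hcardP : Nat.card (𝓞 F₁ ⧸ P) = q' := by
    rw [← hPq', Ideal.absNorm_apply, Submodule.cardQuot_apply]
  -- membership transfer
  have hmemQ : ∀ m : ℕ, (m : 𝓞 F₂) ∈ Q ↔ (m : 𝓞 F₁) ∈ P := by
    intro m
    rw [← hunder, Ideal.mem_comap, map_natCast]
  have hq'Q : (q' : 𝓞 F₂) ∈ Q := by
    rw [hmemQ, ← hPq']
    exact Ideal.absNorm_mem P
  -- the residue field `k₂`
  let π : 𝓞 F₂ →+* 𝓞 F₂ ⧸ Q := Ideal.Quotient.mk Q
  have hπ0 : ∀ x : 𝓞 F₂, π x = 0 ↔ x ∈ Q := fun x => Ideal.Quotient.eq_zero_iff_mem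
  let _ : Field (𝓞 F₂ ⧸ Q) := Ideal.Quotient.field Q
  have hchar : CharP (𝓞 F₂ ⧸ Q) q' := by
    apply ringChar.of_eq
    have h1 : ringChar (𝓞 F₂ ⧸ Q) ∣ q' := by
      apply ringChar.dvd
      rw [← map_natCast π, hπ0]
      exact hq'Q
    rcases (Nat.dvd_prime hq').mp h1 with h | h
    · exact absurd h CharP.ringChar_ne_one
    · exact h
  -- the Frobenius element
  obtain ⟨σ, hσ⟩ := IsArithFrobAt.exists_of_isInvariant (𝓞 F₁) (F₂ ≃ₐ[F₁] F₂) Q
  have hfrob : ∀ x : 𝓞 F₂, π (σ • x) = π x ^ q' := by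
    intro x
    have := AlgHom.IsArithFrobAt.mk_apply hσ x
    rw [hunder, hcardP] at this
    exact this
  -- integral elements
  have hcint : IsIntegral ℤ (c : F₂) := by
    have : (c : F₂) = algebraMap ℤ F₂ (c : ℤ) := by simp
    rw [this]
    exact isIntegral_algebraMap
  have hγint : IsIntegral ℤ γ := by
    apply IsIntegral.of_pow hp.pos
    rw [hγ]
    exact hcint
  let γ₂ : 𝓞 F₂ := ⟨γ, hγint⟩
  have hγ₂ : γ₂ ^ p = (c : 𝓞 F₂) := by
    apply RingOfIntegers.ext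
    push_cast
    exact hγ
  let ζ₁ : 𝓞 F₁ := hζ.toInteger
  have hζ₁ : IsPrimitiveRoot ζ₁ p := hζ.toInteger_isPrimitiveRoot
  let ζ₂ : 𝓞 F₂ := algebraMap (𝓞 F₁) (𝓞 F₂) ζ₁
  have hζ₂ : IsPrimitiveRoot ζ₂ p :=
    hζ₁.map_of_injective (RingOfIntegers.algebraMap.injective F₁ F₂)
  -- `c` is a unit modulo `Q`
  have hc0 : π (c : 𝓞 F₂) ≠ 0 := by
    rw [Ne, hπ0, hmemQ]
    exact hcP
  have hp0 : π (p : 𝓞 F₂) ≠ 0 := by
    rw [Ne, hπ0, hmemQ]
    exact hpP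
  have hg : π γ₂ ^ p = π (c : 𝓞 F₂) := by rw [← map_pow, hγ₂]
  have hg0 : π γ₂ ≠ 0 := by
    intro h0
    rw [h0, zero_pow hp.ne_zero] at hg
    exact hc0 hg.symm
  -- the `p`-th root of `c` modulo `q'`
  have hnbar : ((n : ℕ) : 𝓞 F₂ ⧸ Q) ^ p = π (c : 𝓞 F₂) := by
    have := congrArg (ZMod.castHom (dvd_refl q') (𝓞 F₂ ⧸ Q)) hn
    rw [map_pow, map_natCast, map_natCast] at this
    rw [this, map_natCast]
  have hn0 : ((n : ℕ) : 𝓞 F₂ ⧸ Q) ≠ 0 := by
    intro h0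
    rw [h0, zero_pow hp.ne_zero] at hnbar
    exact hc0 hnbar.symm
  -- roots of unity modulo `Q`
  have hroots : ∀ u : 𝓞 F₂ ⧸ Q, u ^ p = 1 → ∃ i : ℕ, u = π ζ₂ ^ i := by
    intro u hu
    have h1 := X_pow_sub_C_eq_prod hζ₂ hp.pos (one_pow p)
    have h2 : u ^ p - 1 = ∏ i ∈ Finset.range p, (u - π ζ₂ ^ i) := by
      have := congrArg (fun f : (𝓞 F₂)[X] => (f.map π).eval u) h1
      simpa [Polynomial.map_prod, eval_prod] using this
    rw [hu, sub_self] at h2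
    obtain ⟨i, -, hi⟩ := Finset.prod_eq_zero_iff.mp h2.symm
    exact ⟨i, sub_eq_zero.mp hi⟩
  obtain ⟨i, hi⟩ := hroots (π γ₂ / (n : 𝓞 F₂ ⧸ Q)) (by rw [div_pow, hg, hnbar, div_self hc0])
  have hgi : π γ₂ = π ζ₂ ^ i * (n : 𝓞 F₂ ⧸ Q) := by
    rw [← hi, div_mul_cancel₀ _ hn0]
  -- `q'`-th powers
  have hζq : π ζ₂ ^ q' = π ζ₂ := by
    have h1 : π ζ₂ ^ p = 1 := by rw [← map_pow, hζ₂.pow_eq_one, map_one]
    have h2 : q' = p * (q' / p) + 1 := by
      have := Nat.div_add_mod q' p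
      omega
    rw [h2, pow_succ, pow_mul, h1, one_pow, one_mul]
  have hnq : ((n : ℕ) : 𝓞 F₂ ⧸ Q) ^ q' = n := by
    have := map_natCast (frobenius (𝓞 F₂ ⧸ Q) q') n
    rwa [frobenius_def] at this
  have hgq : π γ₂ ^ q' = π γ₂ := by
    rw [hgi, mul_pow, ← pow_mul, mul_comm i q', pow_mul, hζq, hnq]
  -- the Frobenius fixes `γ`
  have hσγ : σ γ = γ := by
    have hγ0 : γ ≠ 0 := by
      intro h0
      apply hg0
      rw [hπ0]
      have : γ₂ = 0 := RingOfIntegers.ext h0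
      rw [this]
      exact Q.zero_mem
    have hζF : IsPrimitiveRoot (algebraMap F₁ F₂ ζ) p :=
      hζ.map_of_injective (algebraMap F₁ F₂).injective
    obtain ⟨k, hk, hkγ⟩ : ∃ k < p, algebraMap F₁ F₂ ζ ^ k = σ γ / γ := by
      apply hζF.eq_pow_of_pow_eq_one
      rw [div_pow, ← map_pow, hγ, map_natCast, div_self]
      rw [← hγ]
      exact pow_ne_zero _ hγ0
    have hσγ₂ : σ • γ₂ = ζ₂ ^ k * γ₂ := by
      apply RingOfIntegers.ext
      change σ γ = _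
      rw [eq_div_iff hγ0] at hkγ
      rw [← hkγ]
      rfl
    have h3 : π ζ₂ ^ k = 1 := by
      have h4 : π ζ₂ ^ k * π γ₂ = π γ₂ := by
        rw [← map_pow, ← map_mul, ← hσγ₂, hfrob, hgq]
      exact mul_right_cancel₀ hg0 (by rw [h4, one_mul])
    have hk0 : k = 0 := by
      by_contra hk0
      have hcop : Nat.Coprime k p :=
        ((Nat.Prime.coprime_iff_not_dvd hp).mpr
          (Nat.not_dvd_of_pos_of_lt (Nat.pos_of_ne_zero hk0) hk)).symm
      have h5 := (hζ₂.pow_of_coprime k hcop).geom_sum_eq_zero hp.one_lt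
      have h6 := congrArg π h5
      rw [map_sum, map_zero] at h6
      simp only [map_pow, h3, one_pow, Finset.sum_const, Finset.card_range, nsmul_eq_mul,
        mul_one] at h6
      apply hp0
      rw [map_natCast]
      exact h6
    rw [hk0, pow_zero] at hkγ
    rw [eq_div_iff hγ0, one_mul] at hkγ
    exact hkγ.symm
  have hσ1 : σ = 1 := hgen σ hσγ
  -- every element of the residue field is fixed by the `q'`-th power map
  have hall : ∀ u : 𝓞 F₂ ⧸ Q, u ^ q' = u := by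
    intro u
    obtain ⟨x, rfl⟩ := Ideal.Quotient.mk_surjective u
    have := hfrob x
    rw [hσ1, one_smul] at this
    exact this.symm
  -- counting
  rw [Ideal.inertiaDeg_eq_of_isMaximal P Q]
  let _ : Field (𝓞 F₁ ⧸ P) := Ideal.Quotient.field P
  have hfin : Fintype (𝓞 F₂ ⧸ Q) := Fintype.ofFinite _
  have hcard2 : Nat.card (𝓞 F₂ ⧸ Q) ≤ q' := by
    rw [Nat.card_eq_fintype_card, ← Finset.card_univ]
    have h1 : (Finset.univ : Finset (𝓞 F₂ ⧸ Q)).val ⊆ (X ^ q' - X : (𝓞 F₂ ⧸ Q)[X]).roots := by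
      intro u _
      rw [mem_roots (FiniteField.X_pow_card_sub_X_ne_zero _ hq'.one_lt)]
      simp [hall u]
    have h2 := card_le_degree_of_subset_roots h1
    rwa [FiniteField.X_pow_card_sub_X_natDegree_eq _ hq'.one_lt] at h2
  have hpow : Nat.card (𝓞 F₂ ⧸ Q) =
      Nat.card (𝓞 F₁ ⧸ P) ^ Module.finrank (𝓞 F₁ ⧸ P) (𝓞 F₂ ⧸ Q) :=
    Module.natCard_eq_pow_finrank
  rw [hcardP] at hpow
  have hpos : 0 < Module.finrank (𝓞 F₁ ⧸ P) (𝓞 F₂ ⧸ Q) := Module.finrank_pos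
  by_contra hne
  have h2 : 2 ≤ Module.finrank (𝓞 F₁ ⧸ P) (𝓞 F₂ ⧸ Q) := by omega
  have h3 : q' ^ 2 ≤ q' ^ Module.finrank (𝓞 F₁ ⧸ P) (𝓞 F₂ ⧸ Q) :=
    Nat.pow_le_pow_right hq'.pos h2
  have h4 : q' < q' ^ 2 := by
    have := hq'.one_lt
    nlinarith
  omega



/-- The residue map of a degree-one prime. -/
lemma h56_exists_residue_map {F : Type*} [Field F] [NumberField F] (P : Ideal (𝓞 F))
    [P.IsPrime] (hP0 : P ≠ ⊥) (q' : ℕ) (hq' : q'.Prime) (hPq' : Ideal.absNorm P = q') :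
    ∃ φ : 𝓞 F →+* ZMod q', ∀ x, φ x = 0 ↔ x ∈ P := by
  have hPfin : Finite (𝓞 F ⧸ P) := Ideal.finiteQuotientOfFreeOfNeBot P hP0
  have hfin : Fintype (𝓞 F ⧸ P) := Fintype.ofFinite _
  have hcard : Fintype.card (𝓞 F ⧸ P) = q' := by
    rw [← Nat.card_eq_fintype_card, ← hPq', Ideal.absNorm_apply, Submodule.cardQuot_apply]
  let e : ZMod q' ≃+* (𝓞 F ⧸ P) := ZMod.ringEquivOfPrime (𝓞 F ⧸ P) hq' hcard
  refine ⟨(e.symm : (𝓞 F ⧸ P) →+* ZMod q').comp (Ideal.Quotient.mk P), fun x => ?_⟩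
  rw [RingHom.comp_apply, RingEquiv.coe_toRingHom, map_eq_zero_iff _ e.symm.injective,
    Ideal.Quotient.eq_zero_iff_mem]

/-- The norm of a degree-one prime not dividing `p` of a field containing `ζ_p` is `1 mod p`. -/
lemma h56_mod_eq_one {F : Type*} [Field F] [NumberField F] (p : ℕ) (hp : p.Prime) (ζ : F)
    (hζ : IsPrimitiveRoot ζ p) (P : Ideal (𝓞 F)) [P.IsPrime] (hP0 : P ≠ ⊥) (q' : ℕ)
    (hq' : q'.Prime) (hPq' : Ideal.absNorm P = q') (hpP : (p : 𝓞 F) ∉ P) : q' % p = 1 := by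
  have hpne : NeZero p := ⟨hp.ne_zero⟩
  have hq'fact : Fact q'.Prime := ⟨hq'⟩
  have hpfact : Fact p.Prime := ⟨hp⟩
  obtain ⟨φ, hφ⟩ := h56_exists_residue_map P hP0 q' hq' hPq'
  let ζ₁ : 𝓞 F := hζ.toInteger
  have hζ₁ : IsPrimitiveRoot ζ₁ p := hζ.toInteger_isPrimitiveRoot
  have hz : φ ζ₁ ^ p = 1 := by rw [← map_pow, hζ₁.pow_eq_one, map_one]
  have hz1 : φ ζ₁ ≠ 1 := by
    intro h1
    have h2 := congrArg φ (hζ₁.geom_sum_eq_zero hp.one_lt)
    rw [map_sum, map_zero] at h2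
    simp only [map_pow, h1, one_pow, Finset.sum_const, Finset.card_range, nsmul_eq_mul,
      mul_one] at h2
    apply hpP
    rw [← hφ, map_natCast]
    exact h2
  have hz0 : φ ζ₁ ≠ 0 := by
    intro h0
    rw [h0, zero_pow hp.ne_zero] at hz
    exact zero_ne_one hz
  have hord : orderOf (φ ζ₁) = p := orderOf_eq_prime hz hz1
  have hdvd : p ∣ q' - 1 := by
    rw [← hord]
    exact ZMod.orderOf_dvd_card_sub_one hz0
  obtain ⟨t, ht⟩ := hdvd
  have h1 : q' = p * t + 1 := by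
    have := hq'.one_lt
    omega
  rw [h1, Nat.mul_add_mod_self_left, Nat.mod_eq_of_lt hp.one_lt]

/-- In a number field, only finitely many primes contain a given nonzero element. -/
lemma h56_finite_primes_of_mem {F : Type*} [Field F] [NumberField F] (x : 𝓞 F) (hx : x ≠ 0) :
    {P : Ideal (𝓞 F) | P.IsPrime ∧ x ∈ P}.Finite := by
  have h1 := Ideal.finite_factors (I := Ideal.span {x})
    (by rw [Ne, Ideal.zero_eq_bot, Ideal.span_singleton_eq_bot]; exact hx)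
  refine (h1.image (fun v => v.asIdeal)).subset ?_
  rintro P ⟨hP, hxP⟩
  have hP0 : P ≠ ⊥ := by
    rintro rfl
    exact hx (by simpa using hxP)
  refine ⟨⟨P, hP, hP0⟩, ?_, rfl⟩
  rw [Set.mem_ofPred_eq, Ideal.dvd_iff_le, Ideal.span_singleton_le_iff_mem]
  exact hxP


/-- One Kummer step: a degree-one prime of `F₁` at which `c` is not a `p`-th power. -/
lemma h56_exists_prime_not_pow (p : ℕ) (hp : p.Prime)
    (hNS : ∀ (F₁ F₂ : Type) [Field F₁] [NumberField F₁] [Field F₂] [NumberField F₂]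
      [Algebra F₁ F₂] [IsGalois F₁ F₂], Module.finrank F₁ F₂ = p →
      ∀ S : Set (Ideal (𝓞 F₁)), S.Finite →
      ∃ P : Ideal (𝓞 F₁), P.IsPrime ∧ P ≠ ⊥ ∧ P ∉ S ∧ (Ideal.absNorm P).Prime ∧
        (∀ Q : Ideal (𝓞 F₂), Q.IsPrime → Q.LiesOver P → Q.ramificationIdx (𝓞 F₁) = 1) ∧
        ¬ SplitsCompletely (𝓞 F₁) (𝓞 F₂) P)
    (F₁ : Type) [Field F₁] [NumberField F₁] (ζ : F₁) (hζ : IsPrimitiveRoot ζ p) (c : ℕ)
    (hirr : Irreducible (X ^ p - C (c : F₁))) (T : Finset ℕ) (h0 : 0 ∉ T) (hpT : p ∈ T)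
    (hcT : c ∈ T) :
    ∃ P : Ideal (𝓞 F₁), P.IsPrime ∧ P ≠ ⊥ ∧ (Ideal.absNorm P).Prime ∧
      (∀ ℓ ∈ T, (ℓ : 𝓞 F₁) ∉ P) ∧
      ¬ ∃ n : ℕ, (n : ZMod (Ideal.absNorm P)) ^ p = (c : ZMod (Ideal.absNorm P)) := by
  have hfact : Fact (Irreducible (X ^ p - C (c : F₁))) := ⟨hirr⟩
  have hprim : (primitiveRoots p F₁).Nonempty := ⟨ζ, (mem_primitiveRoots hp.pos).mpr hζ⟩
  have hsplit : IsSplittingField F₁ (AdjoinRoot (X ^ p - C (c : F₁))) (X ^ p - C (c : F₁)) :=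
    isSplittingField_AdjoinRoot_X_pow_sub_C hprim hirr
  have hgal : IsGalois F₁ (AdjoinRoot (X ^ p - C (c : F₁))) :=
    isGalois_of_isSplittingField_X_pow_sub_C hprim hirr _
  have hfr : Module.finrank F₁ (AdjoinRoot (X ^ p - C (c : F₁))) = p :=
    finrank_of_isSplittingField_X_pow_sub_C hprim hirr _
  have hch : CharZero (AdjoinRoot (X ^ p - C (c : F₁))) :=
    charZero_of_injective_algebraMap (algebraMap F₁ (AdjoinRoot (X ^ p - C (c : F₁)))).injective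
  have hfd1 : FiniteDimensional F₁ (AdjoinRoot (X ^ p - C (c : F₁))) :=
    (monic_X_pow_sub_C (c : F₁) hp.ne_zero).finite_adjoinRoot
  have hfd : FiniteDimensional ℚ (AdjoinRoot (X ^ p - C (c : F₁))) :=
    Module.Finite.trans F₁ (AdjoinRoot (X ^ p - C (c : F₁)))
  have hnf : NumberField (AdjoinRoot (X ^ p - C (c : F₁))) :=
    { to_charZero := hch, to_finiteDimensional := hfd }
  -- the excluded primes
  have hfin : (⋃ ℓ ∈ (T : Set ℕ), {P : Ideal (𝓞 F₁) | P.IsPrime ∧ (ℓ : 𝓞 F₁) ∈ P}).Finite := by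
    refine Set.Finite.biUnion T.finite_toSet (fun ℓ hℓ => ?_)
    apply h56_finite_primes_of_mem
    have hℓ0 : ℓ ≠ 0 := fun h => h0 (h ▸ hℓ)
    exact_mod_cast hℓ0
  obtain ⟨P, hPprime, hP0, hPS, hnorm, hunr, hns⟩ :=
    hNS F₁ (AdjoinRoot (X ^ p - C (c : F₁))) hfr _ hfin
  have hT : ∀ ℓ ∈ T, (ℓ : 𝓞 F₁) ∉ P := by
    intro ℓ hℓ hmem
    apply hPS
    simp only [Set.mem_iUnion, Set.mem_ofPred_eq, exists_prop]
    exact ⟨ℓ, hℓ, hPprime, hmem⟩
  refine ⟨P, hPprime, hP0, hnorm, hT, ?_⟩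
  rintro ⟨n, hn⟩
  apply hns
  intro Q hQ hQP
  refine ⟨hunr Q hQ hQP, ?_⟩
  have hγ : (AdjoinRoot.root (X ^ p - C (c : F₁))) ^ p =
      ((c : ℕ) : AdjoinRoot (X ^ p - C (c : F₁))) := by
    rw [root_X_pow_sub_C_pow]
    exact map_natCast (AdjoinRoot.of (X ^ p - C (c : F₁))) c
  have hgen : ∀ σ : AdjoinRoot (X ^ p - C (c : F₁)) ≃ₐ[F₁] AdjoinRoot (X ^ p - C (c : F₁)),
      σ (AdjoinRoot.root (X ^ p - C (c : F₁))) = AdjoinRoot.root (X ^ p - C (c : F₁)) →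
        σ = 1 := by
    intro σ h
    have h1 : (σ : AdjoinRoot (X ^ p - C (c : F₁)) →ₐ[F₁] AdjoinRoot (X ^ p - C (c : F₁))) =
        AlgHom.id F₁ _ := AdjoinRoot.algHom_ext (by simpa using h)
    ext x
    have := DFunLike.congr_fun h1 x
    simpa using this
  exact h56_inertiaDeg_eq_one p hp ζ hζ c _ hγ hgen P hP0 _ hnorm rfl
    (h56_mod_eq_one p hp ζ hζ P hP0 _ hnorm rfl (hT p hpT)) (hT p hpT) (hT c hcT) n hn Q

lemma h56_factorization (q q₀ : ℕ) (hq : q.Prime) (hq₀ : q₀.Prime) (hne : q ≠ q₀) (i j : ℕ) :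
    (q₀ ^ i * q ^ j).factorization q = j ∧ (q₀ ^ i * q ^ j).factorization q₀ = i := by
  have h1 : q₀ ^ i ≠ 0 := pow_ne_zero _ hq₀.ne_zero
  have h2 : q ^ j ≠ 0 := pow_ne_zero _ hq.ne_zero
  rw [Nat.factorization_mul h1 h2, Nat.factorization_pow, Nat.factorization_pow,
    hq.factorization, hq₀.factorization]
  simp [hne, hne.symm]

lemma h56_field_calc {k : Type*} [Field k] (x y₀ u : k) (a p : ℕ) (hp : 0 < p) (hu : u ≠ 0)
    (h : y₀ ^ p = u ^ ((p - 1) * a) * x) : x = u ^ a * (y₀ * u⁻¹ ^ a) ^ p := by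
  have e3 : u ^ (a * p) = u ^ a * u ^ ((p - 1) * a) := by
    rw [← pow_add]
    congr 1
    have := Nat.sub_add_cancel hp
    nlinarith
  rw [mul_pow, h, ← pow_mul, inv_pow, e3]
  have h1 : u ^ a ≠ 0 := pow_ne_zero _ hu
  have h2 : u ^ ((p - 1) * a) ≠ 0 := pow_ne_zero _ hu
  field_simp

/-- AUX with the non-split-prime theorem `NS` as a hypothesis. -/
theorem exists_aux_prime_of_NS (p : ℕ) [hpf : Fact p.Prime]
    (hNS : ∀ (F₁ F₂ : Type) [Field F₁] [NumberField F₁] [Field F₂] [NumberField F₂]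
      [Algebra F₁ F₂] [IsGalois F₁ F₂], Module.finrank F₁ F₂ = p →
      ∀ S : Set (Ideal (𝓞 F₁)), S.Finite →
      ∃ P : Ideal (𝓞 F₁), P.IsPrime ∧ P ≠ ⊥ ∧ P ∉ S ∧ (Ideal.absNorm P).Prime ∧
        (∀ Q : Ideal (𝓞 F₂), Q.IsPrime → Q.LiesOver P → Q.ramificationIdx (𝓞 F₁) = 1) ∧
        ¬ SplitsCompletely (𝓞 F₁) (𝓞 F₂) P)
    (q q₀ : ℕ) (hq : q.Prime) (hq₀ : q₀.Prime) (hne : q ≠ q₀) (a : ℕ) (S : Finset ℕ) :
    ∃ q' : ℕ, q'.Prime ∧ q' % p = 1 ∧ q' ∉ S ∧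
      (∃ y : ZMod q', (q : ZMod q') = (q₀ : ZMod q') ^ a * y ^ p) ∧
      ¬ ∃ y : ZMod q', (q₀ : ZMod q') = y ^ p := by
  have hp : p.Prime := hpf.out
  have hpne : NeZero p := ⟨hp.ne_zero⟩
  have hcyc : IsCyclotomicExtension {p} ℚ (CyclotomicField p ℚ) :=
    CyclotomicField.isCyclotomicExtension p ℚ
  have hζ : IsPrimitiveRoot (IsCyclotomicExtension.zeta p ℚ (CyclotomicField p ℚ)) p :=
    IsCyclotomicExtension.zeta_spec p ℚ (CyclotomicField p ℚ)
  set ζ := IsCyclotomicExtension.zeta p ℚ (CyclotomicField p ℚ) with hζdef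
  have hcop : Nat.Coprime p (p - 1) := by
    have h1 : p - 1 + 1 = p := Nat.sub_add_cancel hp.pos
    have h2 : Nat.Coprime (p - 1 + 1) (p - 1) := by simp
    rwa [h1] at h2
  -- the first Kummer generator
  set α : ℕ := q₀ ^ ((p - 1) * a) * q ^ 1 with hα
  have hα0 : α ≠ 0 := by
    rw [hα]
    exact mul_ne_zero (pow_ne_zero _ hq₀.ne_zero) (pow_ne_zero _ hq.ne_zero)
  have H1 : Irreducible (X ^ p - C ((α : ℕ) : CyclotomicField p ℚ)) := by
    apply X_pow_sub_C_irreducible_of_prime hp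
    intro b hb
    have h1 := h56_dvd_factorization_of_pow_eq p α hα0 b hb q hq
    rw [hα, (h56_factorization q q₀ hq hq₀ hne _ _).1] at h1
    exact hp.one_lt.ne' (Nat.dvd_one.mp h1)
  have hfact1 : Fact (Irreducible (X ^ p - C ((α : ℕ) : CyclotomicField p ℚ))) := ⟨H1⟩
  have hch : CharZero (AdjoinRoot (X ^ p - C ((α : ℕ) : CyclotomicField p ℚ))) :=
    charZero_of_injective_algebraMap (algebraMap (CyclotomicField p ℚ)
      (AdjoinRoot (X ^ p - C ((α : ℕ) : CyclotomicField p ℚ)))).injective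
  have hfd1 : FiniteDimensional (CyclotomicField p ℚ)
      (AdjoinRoot (X ^ p - C ((α : ℕ) : CyclotomicField p ℚ))) :=
    (monic_X_pow_sub_C ((α : ℕ) : CyclotomicField p ℚ) hp.ne_zero).finite_adjoinRoot
  have hfd : FiniteDimensional ℚ (AdjoinRoot (X ^ p - C ((α : ℕ) : CyclotomicField p ℚ))) :=
    Module.Finite.trans (CyclotomicField p ℚ) _
  have hnf : NumberField (AdjoinRoot (X ^ p - C ((α : ℕ) : CyclotomicField p ℚ))) :=
    { to_charZero := hch, to_finiteDimensional := hfd }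
  have hinj : Function.Injective
      (AdjoinRoot.of (X ^ p - C ((α : ℕ) : CyclotomicField p ℚ))) := by
    rw [← AdjoinRoot.algebraMap_eq]
    exact (algebraMap (CyclotomicField p ℚ) _).injective
  have hζM : IsPrimitiveRoot (AdjoinRoot.of (X ^ p - C ((α : ℕ) : CyclotomicField p ℚ)) ζ) p :=
    hζ.map_of_injective hinj
  -- the second Kummer generator
  have H2 : Irreducible (X ^ p - C ((q₀ : ℕ) :
      AdjoinRoot (X ^ p - C ((α : ℕ) : CyclotomicField p ℚ)))) := by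
    apply X_pow_sub_C_irreducible_of_prime hp
    intro b hb
    have hb' : b ^ p = AdjoinRoot.of (X ^ p - C ((α : ℕ) : CyclotomicField p ℚ))
        ((q₀ : ℕ) : CyclotomicField p ℚ) := by
      rw [hb]
      exact (map_natCast (AdjoinRoot.of (X ^ p - C ((α : ℕ) : CyclotomicField p ℚ))) q₀).symm
    have hq₀0 : ((q₀ : ℕ) : CyclotomicField p ℚ) ≠ 0 := by exact_mod_cast hq₀.ne_zero
    obtain ⟨k, hk, d, hd⟩ := h56_kummer_descent p hp ζ hζ _ H1 _ hq₀0 b hb'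
    have hn : (((q₀ ^ (1 + (p - 1) * a * ((p - 1) * k)) * q ^ ((p - 1) * k) : ℕ)) :
        CyclotomicField p ℚ) = (d * (α : CyclotomicField p ℚ) ^ k) ^ p := by
      have e1 : q₀ ^ (1 + (p - 1) * a * ((p - 1) * k)) * q ^ ((p - 1) * k) =
          q₀ * α ^ ((p - 1) * k) := by
        rw [hα]
        ring
      have e2 : k + (p - 1) * k = k * p := by
        have := Nat.sub_add_cancel hp.pos
        nlinarith
      rw [e1, Nat.cast_mul, Nat.cast_pow, hd, mul_pow, ← pow_mul, ← e2, pow_add]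
      ring
    have hn0 : q₀ ^ (1 + (p - 1) * a * ((p - 1) * k)) * q ^ ((p - 1) * k) ≠ 0 :=
      mul_ne_zero (pow_ne_zero _ hq₀.ne_zero) (pow_ne_zero _ hq.ne_zero)
    have h1 := h56_dvd_factorization_of_pow_eq p _ hn0 _ hn.symm q hq
    rw [(h56_factorization q q₀ hq hq₀ hne _ _).1] at h1
    have h2 : p ∣ k := (Nat.Coprime.dvd_mul_left hcop).mp h1
    have hk0 : k = 0 := Nat.eq_zero_of_dvd_of_lt h2 hk
    rw [hk0, pow_zero, mul_one] at hd
    have h3 := h56_dvd_factorization_of_pow_eq p (q₀ ^ 1 * q ^ 0) (by simpa using hq₀.ne_zero) d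
      (by rw [← hd]; simp) q₀ hq₀
    rw [(h56_factorization q q₀ hq hq₀ hne _ _).2] at h3
    exact hp.one_lt.ne' (Nat.dvd_one.mp h3)
  -- the auxiliary prime
  obtain ⟨P, hPprime, hP0, hnorm, hT, hnp⟩ := h56_exists_prime_not_pow p hp hNS
    (AdjoinRoot (X ^ p - C ((α : ℕ) : CyclotomicField p ℚ))) _ hζM q₀ H2
    ((insert p (insert q (insert q₀ S))).erase 0) (by simp)
    (by simp [hp.ne_zero]) (by simp [hq₀.ne_zero])
  have hq'fact : Fact (Ideal.absNorm P).Prime := ⟨hnorm⟩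
  have hq'0 : Ideal.absNorm P ≠ 0 := hnorm.ne_zero
  refine ⟨Ideal.absNorm P, hnorm, h56_mod_eq_one p hp _ hζM P hP0 _ hnorm rfl
    (hT p (by simp [hp.ne_zero])), ?_, ?_, ?_⟩
  · intro hS
    exact hT (Ideal.absNorm P) (by simp [hq'0, hS]) (Ideal.absNorm_mem P)
  · obtain ⟨φ, hφ⟩ := h56_exists_residue_map P hP0 _ hnorm rfl
    have hβint : IsIntegral ℤ (AdjoinRoot.root (X ^ p - C ((α : ℕ) : CyclotomicField p ℚ))) := by
      apply IsIntegral.of_pow hp.pos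
      rw [root_X_pow_sub_C_pow]
      have : AdjoinRoot.of (X ^ p - C ((α : ℕ) : CyclotomicField p ℚ))
          ((α : ℕ) : CyclotomicField p ℚ) = algebraMap ℤ _ (α : ℤ) := by
        rw [eq_intCast, Int.cast_natCast]
        exact map_natCast (AdjoinRoot.of (X ^ p - C ((α : ℕ) : CyclotomicField p ℚ))) α
      rw [this]
      exact isIntegral_algebraMap
    let β₁ : 𝓞 (AdjoinRoot (X ^ p - C ((α : ℕ) : CyclotomicField p ℚ))) := ⟨_, hβint⟩
    have hβ₁ : β₁ ^ p = ((α : ℕ) : 𝓞 (AdjoinRoot (X ^ p - C ((α : ℕ) : CyclotomicField p ℚ)))) := by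
      apply RingOfIntegers.ext
      push_cast
      change (AdjoinRoot.root (X ^ p - C ((α : ℕ) : CyclotomicField p ℚ))) ^ p = _
      rw [root_X_pow_sub_C_pow]
      exact map_natCast (AdjoinRoot.of (X ^ p - C ((α : ℕ) : CyclotomicField p ℚ))) α
    have hy₀ : φ β₁ ^ p = (q₀ : ZMod (Ideal.absNorm P)) ^ ((p - 1) * a) * (q : ZMod _) := by
      have h1 : φ β₁ ^ p = ((α : ℕ) : ZMod (Ideal.absNorm P)) := by
        rw [← map_pow, hβ₁]
        exact map_natCast φ α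
      have h2 := congrArg (fun n : ℕ => (n : ZMod (Ideal.absNorm P))) hα
      simp only [Nat.cast_mul, Nat.cast_pow, pow_one] at h2
      rw [h1, h2]
    have hq₀' : (q₀ : ZMod (Ideal.absNorm P)) ≠ 0 := by
      have h1 := hT q₀ (by simp [hq₀.ne_zero])
      rw [← hφ] at h1
      have h2 : φ ((q₀ : ℕ) : 𝓞 (AdjoinRoot (X ^ p - C ((α : ℕ) : CyclotomicField p ℚ)))) =
          (q₀ : ZMod (Ideal.absNorm P)) := map_natCast φ q₀
      rwa [h2] at h1
    exact ⟨_, h56_field_calc _ _ _ a p hp.pos hq₀' hy₀⟩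
  · rintro ⟨y, hy⟩
    apply hnp
    refine ⟨y.val, ?_⟩
    rw [ZMod.natCast_zmod_val, hy]


end Fermat.Agent.S14
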