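import Mathlib
import Fermat.Agent.S14.NS
import Fermat.Agent.S14.AuxPrimeCore

/-!
# Package AUX of project S14: the auxiliary prime

For distinct primes `q`, `q₀` and any exponent `a` there is a prime `q' ≡ 1 (mod p)`, outside any
given finite set, such that `q ≡ q₀ ^ a * y ^ p (mod q')` and `q₀` is not a `p`-th power modulo
`q'`.  (Apply the non-split-prime theorem `NS` to the top step of the Kummer tower
`ℚ(ζ_p) ⊆ ℚ(ζ_p, (q q₀^{(p-1)a})^{1/p}) ⊆ ℚ(ζ_p, (q q₀^{(p-1)a})^{1/p}, q₀^{1/p})`.)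
-/

set_option autoImplicit false

namespace Fermat.Agent.S14

theorem exists_aux_prime (p : ℕ) [Fact p.Prime] (hp2 : p ≠ 2) (q q₀ : ℕ) (hq : q.Prime)
    (hq₀ : q₀.Prime) (hne : q ≠ q₀) (hqp : q ≠ p) (hq₀p : q₀ ≠ p) (a : ℕ) (S : Finset ℕ) :
    ∃ q' : ℕ, q'.Prime ∧ q' % p = 1 ∧ q' ∉ S ∧
      (∃ y : ZMod q', (q : ZMod q') = (q₀ : ZMod q') ^ a * y ^ p) ∧
      ¬ ∃ y : ZMod q', (q₀ : ZMod q') = y ^ p :=
  exists_aux_prime_of_NS p
    (fun _ _ _ _ _ _ _ _ hdeg S hS => exists_nonsplit_prime Fact.out hdeg S hS) q q₀ hq hq₀ hne a S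

end Fermat.Agent.S14
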