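import Mathlib

/-!
# S14, package CLS : class characters from functions on ideals prime to a modulus

A function `f` on the ideals of a Dedekind domain `R` with values in a commutative group which is
multiplicative on nonzero ideals prime to `M` and trivial on principal ideals prime to `M`
descends to a character of the class group.
-/

set_option autoImplicit false

namespace Fermat.Agent.S14

open scoped nonZeroDivisors

section Dedekind

variable {R : Type*} [CommRing R] [IsDedekindDomain R]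

/-- Every ideal class contains an integral ideal prime to a given nonzero ideal `M`. -/
theorem h33_exists_coprime_rep (M : Ideal R) (hM : M ≠ ⊥) (C : ClassGroup R) :
    ∃ I : (Ideal R)⁰, IsCoprime (I : Ideal R) M ∧ ClassGroup.mk0 I = C := by
  obtain ⟨J, hJ⟩ := ClassGroup.mk0_surjective C⁻¹
  have hJ0 : (J : Ideal R) ≠ ⊥ := mem_nonZeroDivisors_iff_ne_zero.mp J.2
  have hMJ : M * (J : Ideal R) ≠ 0 := mul_ne_zero hM hJ0
  obtain ⟨a, ha⟩ := IsDedekindDomain.exists_sup_span_eq
    (Ideal.mul_le_right : M * (J : Ideal R) ≤ J) hMJ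
  have haJ : Ideal.span {a} ≤ (J : Ideal R) := by
    rw [← ha]; exact le_sup_right
  obtain ⟨K, hK⟩ := Ideal.dvd_iff_le.mpr haJ
  have hcop : M ⊔ K = ⊤ := by
    have h1 : (J : Ideal R) * (M ⊔ K) = (J : Ideal R) * ⊤ := by
      rw [Ideal.mul_sup, Ideal.mul_top, ← hK, mul_comm (J : Ideal R) M]
      exact ha
    exact mul_left_cancel₀ hJ0 h1
  by_cases hK0 : K = ⊥
  · -- then `M = ⊤` and every ideal is prime to `M`
    rw [hK0, sup_bot_eq] at hcop
    obtain ⟨I, hI⟩ := ClassGroup.mk0_surjective C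
    refine ⟨I, ?_, hI⟩
    rw [Ideal.isCoprime_iff_sup_eq, hcop]
    exact sup_top_eq _
  · have hKmem : K ∈ (Ideal R)⁰ := mem_nonZeroDivisors_iff_ne_zero.mpr hK0
    refine ⟨⟨K, hKmem⟩, ?_, ?_⟩
    · rw [Ideal.isCoprime_iff_sup_eq, sup_comm]
      exact hcop
    · have ha0 : a ≠ 0 := by
        rintro rfl
        have : (J : Ideal R) * K = ⊥ := by
          rw [← hK]; simp
        exact (mul_ne_zero hJ0 hK0) this
      have hprod : ClassGroup.mk0 J * ClassGroup.mk0 ⟨K, hKmem⟩ = 1 := by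
        rw [← map_mul]
        have hmem : (J : Ideal R) * K ∈ (Ideal R)⁰ :=
          mem_nonZeroDivisors_iff_ne_zero.mpr (mul_ne_zero hJ0 hK0)
        have : J * ⟨K, hKmem⟩ = ⟨(J : Ideal R) * K, hmem⟩ := rfl
        rw [this, ClassGroup.mk0_eq_one_iff]
        rw [← hK]
        exact ⟨⟨a, rfl⟩⟩
      rw [hJ] at hprod
      exact (inv_mul_eq_one.mp hprod).symm ▸ rfl

variable {G : Type*} [CommGroup G]

/-- Well-definedness: two ideals prime to `M` in the same class have the same value. -/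
theorem h33_classChar_wd (M : Ideal R) (hM : M ≠ ⊥) (f : Ideal R → G)
    (hmul : ∀ I J : Ideal R, I ≠ ⊥ → J ≠ ⊥ → IsCoprime I M → IsCoprime J M →
      f (I * J) = f I * f J)
    (hprinc : ∀ x : R, x ≠ 0 → IsCoprime (Ideal.span {x}) M → f (Ideal.span {x}) = 1)
    (I J : (Ideal R)⁰) (hI : IsCoprime (I : Ideal R) M) (hJ : IsCoprime (J : Ideal R) M)
    (h : ClassGroup.mk0 I = ClassGroup.mk0 J) : f I = f J := by
  obtain ⟨A, hA, hAI⟩ := h33_exists_coprime_rep M hM (ClassGroup.mk0 I)⁻¹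
  have hI0 : (I : Ideal R) ≠ ⊥ := mem_nonZeroDivisors_iff_ne_zero.mp I.2
  have hJ0 : (J : Ideal R) ≠ ⊥ := mem_nonZeroDivisors_iff_ne_zero.mp J.2
  have hA0 : (A : Ideal R) ≠ ⊥ := mem_nonZeroDivisors_iff_ne_zero.mp A.2
  have key : ∀ I' : (Ideal R)⁰, IsCoprime (I' : Ideal R) M →
      ClassGroup.mk0 I' = ClassGroup.mk0 I → f I' * f A = 1 := by
    intro I' hI' hcl
    have hI'0 : (I' : Ideal R) ≠ ⊥ := mem_nonZeroDivisors_iff_ne_zero.mp I'.2
    have h1 : ClassGroup.mk0 (I' * A) = 1 := by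
      rw [map_mul, hAI, hcl, mul_inv_cancel]
    have hmem : (I' : Ideal R) * A ∈ (Ideal R)⁰ :=
      mem_nonZeroDivisors_iff_ne_zero.mpr (mul_ne_zero hI'0 hA0)
    have h2 : I' * A = ⟨(I' : Ideal R) * A, hmem⟩ := rfl
    rw [h2, ClassGroup.mk0_eq_one_iff] at h1
    obtain ⟨⟨x, hx⟩⟩ := h1
    have hx' : (I' : Ideal R) * A = Ideal.span {x} := hx
    have hx0 : x ≠ 0 := by
      rintro rfl
      apply mul_ne_zero hI'0 hA0
      rw [hx']; simp
    have hcop : IsCoprime (Ideal.span {x}) M := by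
      rw [← hx']
      exact IsCoprime.mul_left hI' hA
    rw [← hmul _ _ hI'0 hA0 hI' hA, hx']
    exact hprinc x hx0 hcop
  have e1 := key I hI rfl
  have e2 := key J hJ h.symm
  exact mul_right_cancel (e1.trans e2.symm)

/-- A function on ideals, multiplicative on nonzero ideals prime to `M` and trivial on principal
ideals prime to `M`, induces a character of the class group. -/
theorem h33_exists_classChar (M : Ideal R) (hM : M ≠ ⊥) (f : Ideal R → G)
    (hmul : ∀ I J : Ideal R, I ≠ ⊥ → J ≠ ⊥ → IsCoprime I M → IsCoprime J M →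
      f (I * J) = f I * f J)
    (hprinc : ∀ x : R, x ≠ 0 → IsCoprime (Ideal.span {x}) M → f (Ideal.span {x}) = 1) :
    ∃ θ : ClassGroup R →* G, ∀ I : (Ideal R)⁰, IsCoprime (I : Ideal R) M →
      θ (ClassGroup.mk0 I) = f I := by
  choose rep hrep_cop hrep_cl using h33_exists_coprime_rep M hM
  have hrep0 : ∀ C, (rep C : Ideal R) ≠ ⊥ := fun C =>
    mem_nonZeroDivisors_iff_ne_zero.mp (rep C).2
  have hθ : ∀ I : (Ideal R)⁰, IsCoprime (I : Ideal R) M →
      f (rep (ClassGroup.mk0 I)) = f I := fun I hI =>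
    h33_classChar_wd M hM f hmul hprinc _ _ (hrep_cop _) hI (hrep_cl _)
  refine ⟨MonoidHom.mk' (fun C => f (rep C)) ?_, hθ⟩
  intro C D
  have h1 : f (rep (C * D)) = f ((rep C * rep D : (Ideal R)⁰) : Ideal R) := by
    refine h33_classChar_wd M hM f hmul hprinc _ _ (hrep_cop _) ?_ ?_
    · exact IsCoprime.mul_left (hrep_cop C) (hrep_cop D)
    · rw [hrep_cl, map_mul, hrep_cl, hrep_cl]
  rw [h1]
  exact hmul _ _ (hrep0 C) (hrep0 D) (hrep_cop C) (hrep_cop D)

end Dedekind

end Fermat.Agent.S14
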