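import Mathlib
import Fermat.Agent.S14.Defs
import Fermat.Agent.S14.h33_ClassChar

/-!
# S14, package CLS : class characters from functions on ideals prime to `m`
(exact skeleton statement `exists_classChar`).
-/

set_option autoImplicit false

namespace Fermat.Agent.S14

open NumberField
open scoped nonZeroDivisors

theorem exists_classChar (F : Type*) [Field F] [NumberField F] (m : ℕ) (hm : m ≠ 0)
    (f : Ideal (𝓞 F) → ℂˣ)
    (hmul : ∀ I J : Ideal (𝓞 F), I ≠ ⊥ → J ≠ ⊥ → IsCoprime I (Ideal.span {(m : 𝓞 F)}) →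
      IsCoprime J (Ideal.span {(m : 𝓞 F)}) → f (I * J) = f I * f J)
    (hprinc : ∀ x : 𝓞 F, x ≠ 0 → IsCoprime (Ideal.span {x}) (Ideal.span {(m : 𝓞 F)}) →
      f (Ideal.span {x}) = 1) :
    ∃ θ : ClassGroup (𝓞 F) →* ℂˣ, ∀ I : (Ideal (𝓞 F))⁰,
      IsCoprime (I : Ideal (𝓞 F)) (Ideal.span {(m : 𝓞 F)}) → θ (ClassGroup.mk0 I) = f I := by
  have hM : Ideal.span {(m : 𝓞 F)} ≠ ⊥ := by
    rw [Ne, Ideal.span_singleton_eq_bot]
    exact_mod_cast hm
  exact h33_exists_classChar (Ideal.span {(m : 𝓞 F)}) hM f hmul hprinc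

end Fermat.Agent.S14
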