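import Mathlib
import Fermat.Agent.S14.Defs

/-!
# S14, package FLD-A : arithmetic of `Ω = L(ζ_q')` over `K = ℚ(ζ_p)`

* `fldA_unramified` : `Ω / K` is unramified outside `q'`;
* `fldA_finrank` : `[Ω : L] = q' - 1`;
* `fldA_inertia` : over `q'` the inertia group is all of `Gal(Ω/L)`.
-/

set_option autoImplicit false

namespace Fermat.Agent.S14

open NumberField
open scoped nonZeroDivisors Pointwise

/-- roots of unity are distinct modulo a prime ideal not containing their order -/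
theorem h13_root_eq_of_sub_mem {S : Type*} [CommRing S] [IsDomain S] (Q : Ideal S) (m : ℕ)
    (hm : (m : S) ∉ Q) (a b : S) (ha : a ^ m = 1) (hb : b ^ m = 1) (hab : a - b ∈ Q) : a = b := by
  have hm0 : m ≠ 0 := by
    rintro rfl
    exact hm (by simp)
  obtain ⟨n, rfl⟩ := Nat.exists_eq_succ_of_ne_zero hm0
  have hξm : (a * b ^ n) ^ (n + 1) = 1 := by
    rw [mul_pow, ha, one_mul, ← pow_mul, mul_comm, pow_mul, hb, one_pow]
  have hξQ : a * b ^ n - 1 ∈ Q := by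
    have : a * b ^ n - 1 = (a - b) * b ^ n := by
      rw [sub_mul, ← pow_succ', hb]
    rw [this]
    exact Q.mul_mem_right _ hab
  have hgeom := geom_sum_mul (a * b ^ n) (n + 1)
  rw [hξm, sub_self, mul_eq_zero] at hgeom
  rcases hgeom with h | h
  · exfalso
    apply hm
    have h2 : (∑ i ∈ Finset.range (n + 1), ((a * b ^ n) ^ i - 1)) ∈ Q := by
      refine Q.sum_mem fun i _ => ?_
      have hdvd : a * b ^ n - 1 ∣ (a * b ^ n) ^ i - 1 := by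
        simpa using sub_dvd_pow_sub_pow (a * b ^ n) 1 i
      exact Ideal.mem_of_dvd Q hdvd hξQ
    rw [Finset.sum_sub_distrib, h, zero_sub, Finset.sum_const, Finset.card_range, nsmul_eq_mul,
      mul_one] at h2
    exact (Ideal.neg_mem_iff Q).mp h2
  · have h1 : a * b ^ n = 1 := sub_eq_zero.mp h
    calc a = a * b ^ (n + 1) := by rw [hb, mul_one]
      _ = (a * b ^ n) * b := by rw [pow_succ]; ring
      _ = b := by rw [h1, one_mul]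

/-- The order of the inertia group in `Gal(Ω/L)` is the ramification index over `𝓞 L`. -/
theorem h13_card_inertia {L Ω : Type*} [Field L] [NumberField L] [Field Ω] [NumberField Ω]
    [Algebra L Ω] [IsGalois L Ω] (𝔓 : Ideal (𝓞 Ω)) (h𝔓 : 𝔓.IsPrime) :
    Nat.card (𝔓.inertia (Ω ≃ₐ[L] Ω)) = 𝔓.ramificationIdx (𝓞 L) := by
  have hlo : 𝔓.LiesOver (𝔓.under (𝓞 L)) := ⟨rfl⟩
  rw [Ideal.card_inertia_eq_ramificationIdxIn (𝔓.under (𝓞 L)) 𝔓,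
    Ideal.ramificationIdxIn_eq_ramificationIdx (𝔓.under (𝓞 L)) 𝔓 (Ω ≃ₐ[L] Ω)]

section Arith

variable (p : ℕ) [Fact p.Prime] (K L : Type) [Field K] [NumberField K] [Field L] [NumberField L]
  [Algebra K L] [IsGalois K L] [IsCyclotomicExtension {p} ℚ K]
  (q' : ℕ) [Fact q'.Prime] (Ω : Type) [Field Ω] [NumberField Ω] [Algebra K Ω] [Algebra L Ω]
  [IsScalarTower K L Ω] [IsCyclotomicExtension {q'} L Ω]

/-- An `L`-automorphism of `Ω = L(ζ_q')` in the inertia group of a prime not above `q'` is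
trivial. -/
theorem h13_inertia_trivial (𝔓 : Ideal (𝓞 Ω)) (hq : (q' : 𝓞 Ω) ∉ 𝔓)
    (τ : Ω ≃ₐ[L] Ω) (hτ : ∀ x : 𝓞 Ω, τ • x - x ∈ 𝔓) : τ = 1 := by
  have hζ := IsCyclotomicExtension.zeta_spec q' L Ω
  have h1 : τ • hζ.toInteger = hζ.toInteger := by
    refine h13_root_eq_of_sub_mem 𝔓 q' hq _ _ ?_ hζ.toInteger_isPrimitiveRoot.pow_eq_one (hτ _)
    rw [← smul_pow', hζ.toInteger_isPrimitiveRoot.pow_eq_one, smul_one]
  have h2 : τ (IsCyclotomicExtension.zeta q' L Ω) = IsCyclotomicExtension.zeta q' L Ω :=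
    congrArg (fun x : 𝓞 Ω => (x : Ω)) h1
  have h3 : τ.toAlgHom = (1 : Ω ≃ₐ[L] Ω).toAlgHom := by
    apply (hζ.powerBasis L).algHom_ext
    rw [AlgEquiv.coe_toAlgHom, AlgEquiv.coe_toAlgHom, IsPrimitiveRoot.powerBasis_gen]
    exact h2
  exact AlgEquiv.coe_toAlgHom_injective h3

theorem fldA_unramified
    (hunr : ∀ Q : Ideal (𝓞 L), Q.IsPrime → Q ≠ ⊥ → Q.ramificationIdx (𝓞 K) = 1)
    (𝔓 : Ideal (𝓞 Ω)) (h𝔓 : 𝔓.IsPrime) (h0 : 𝔓 ≠ ⊥) (hq : (q' : 𝓞 Ω) ∉ 𝔓) :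
    𝔓.ramificationIdx (𝓞 K) = 1 := by
  have hlo : 𝔓.LiesOver (𝔓.under (𝓞 L)) := ⟨rfl⟩
  have hRp : (𝔓.under (𝓞 L)).IsPrime := Ideal.IsPrime.under (𝓞 L) 𝔓
  have hR0 : 𝔓.under (𝓞 L) ≠ ⊥ := Ideal.under_ne_bot (𝓞 L) h0
  have : IsGalois L Ω := IsCyclotomicExtension.isGalois {q'} L Ω
  rw [Ideal.ramificationIdx_tower (R := 𝓞 K) (𝔓.under (𝓞 L)) 𝔓, hunr _ hRp hR0, one_mul,
    ← h13_card_inertia (L := L) 𝔓 h𝔓, Subgroup.card_eq_one, Subgroup.eq_bot_iff_forall]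
  intro τ hτ
  exact h13_inertia_trivial L q' Ω 𝔓 hq τ hτ

/-- `|Gal(Ω/L)| ≤ q' - 1`. -/
theorem h13_card_aut_le : Nat.card (Ω ≃ₐ[L] Ω) ≤ q' - 1 := by
  have hζ := IsCyclotomicExtension.zeta_spec q' L Ω
  have : IsGalois L Ω := IsCyclotomicExtension.isGalois {q'} L Ω
  calc Nat.card (Ω ≃ₐ[L] Ω) ≤ Nat.card (ZMod q')ˣ :=
        Nat.card_le_card_of_injective _ (hζ.autToPow_injective L)
    _ = q' - 1 := by rw [Nat.card_eq_fintype_card, ZMod.card_units]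

/-- Over `q'`, the inertia group in `Gal(Ω/L)` has at least `q' - 1` elements. -/
theorem h13_le_card_inertia (hqp : q' ≠ p)
    (hunr : ∀ Q : Ideal (𝓞 L), Q.IsPrime → Q ≠ ⊥ → Q.ramificationIdx (𝓞 K) = 1)
    (𝔓 : Ideal (𝓞 Ω)) (h𝔓 : 𝔓.IsPrime) (hq : (q' : 𝓞 Ω) ∈ 𝔓) :
    q' - 1 ≤ Nat.card (𝔓.inertia (Ω ≃ₐ[L] Ω)) := by
  have hq'prime : q'.Prime := Fact.out
  have hpprime : p.Prime := Fact.out
  have hζ := IsCyclotomicExtension.zeta_spec q' L Ω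
  have hq0 : (q' : 𝓞 Ω) ≠ 0 := Nat.cast_ne_zero.mpr hq'prime.ne_zero
  have h0 : 𝔓 ≠ ⊥ := by
    rintro rfl
    exact hq0 (by simpa using hq)
  -- `𝔓` lies over `q'`
  have hmax : (Ideal.span {(q' : ℤ)}).IsMaximal := Int.ideal_span_isMaximal_of_prime q'
  have hloZ : 𝔓.LiesOver (Ideal.span {(q' : ℤ)}) := by
    refine ⟨hmax.eq_of_le (Ideal.IsPrime.under ℤ 𝔓).ne_top ?_⟩
    rw [Ideal.span_singleton_le_iff_mem, Ideal.under_def, Ideal.mem_comap]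
    simpa using hq
  have hloL : 𝔓.LiesOver (𝔓.under (𝓞 L)) := ⟨rfl⟩
  have hloK : 𝔓.LiesOver (𝔓.under (𝓞 K)) := ⟨rfl⟩
  have hRp : (𝔓.under (𝓞 L)).IsPrime := Ideal.IsPrime.under (𝓞 L) 𝔓
  have hR0 : 𝔓.under (𝓞 L) ≠ ⊥ := Ideal.under_ne_bot (𝓞 L) h0
  have hqp' : (𝔓.under (𝓞 K)).IsPrime := Ideal.IsPrime.under (𝓞 K) 𝔓
  have hqlo : (𝔓.under (𝓞 K)).LiesOver (Ideal.span {(q' : ℤ)}) :=
    Ideal.LiesOver.tower_bot 𝔓 (𝔓.under (𝓞 K)) (Ideal.span {(q' : ℤ)})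
  have he1 : (𝔓.under (𝓞 K)).ramificationIdx ℤ = 1 :=
    IsCyclotomicExtension.Rat.ramificationIdx_eq_of_not_dvd q' K (𝔓.under (𝓞 K)) (m := p)
      (fun h => hqp ((Nat.prime_dvd_prime_iff_eq hq'prime hpprime).mp h))
  have he2 : 𝔓.ramificationIdx ℤ = 𝔓.ramificationIdx (𝓞 L) := by
    rw [Ideal.ramificationIdx_tower (R := ℤ) (𝔓.under (𝓞 K)) 𝔓, he1, one_mul,
      Ideal.ramificationIdx_tower (R := 𝓞 K) (𝔓.under (𝓞 L)) 𝔓, hunr _ hRp hR0, one_mul]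
  have : IsGalois L Ω := IsCyclotomicExtension.isGalois {q'} L Ω
  rw [h13_card_inertia (L := L) 𝔓 h𝔓, ← he2]
  -- the multiplicity of `𝔓` in `(q')`
  have hassoc := IsCyclotomicExtension.Rat.associated_zeta_sub_one_pow_prime q' hζ
  have hmap : Ideal.map (algebraMap ℤ (𝓞 Ω)) (Ideal.span {(q' : ℤ)}) =
      Ideal.span {hζ.toInteger - 1} ^ (q' - 1) := by
    rw [Ideal.map_span, Set.image_singleton, Ideal.span_singleton_pow,
      Ideal.span_singleton_eq_span_singleton.mpr hassoc]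
    simp
  have hmapne : Ideal.map (algebraMap ℤ (𝓞 Ω)) (Ideal.span {(q' : ℤ)}) ≠ ⊥ := by
    rw [Ideal.map_span, Set.image_singleton, Ne, Ideal.span_singleton_eq_bot]
    simpa using hq0
  have hmem : hζ.toInteger - 1 ∈ 𝔓 := by
    apply h𝔓.mem_of_pow_mem (q' - 1)
    obtain ⟨u, hu⟩ := hassoc.symm
    rw [← hu]
    exact 𝔓.mul_mem_right _ hq
  rw [Ideal.IsDedekindDomain.ramificationIdx_eq_multiplicity (Ideal.span {(q' : ℤ)}) 𝔓 hmapne]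
  apply FiniteMultiplicity.le_multiplicity_of_pow_dvd
  · exact FiniteMultiplicity.of_not_isUnit (by rw [Ideal.isUnit_iff]; exact h𝔓.ne_top) hmapne
  · rw [hmap]
    exact pow_dvd_pow_of_dvd (Ideal.dvd_iff_le.mpr
      ((Ideal.span_singleton_le_iff_mem 𝔓).mpr hmem)) _

/-- There is a prime of `Ω` above `q'`. -/
theorem h13_exists_prime_over : ∃ 𝔓 : Ideal (𝓞 Ω), 𝔓.IsPrime ∧ (q' : 𝓞 Ω) ∈ 𝔓 := by
  have hmax : (Ideal.span {(q' : ℤ)}).IsMaximal := Int.ideal_span_isMaximal_of_prime q'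
  obtain ⟨𝔓, h𝔓, hlo⟩ :=
    Ideal.exists_maximal_ideal_liesOver_of_isIntegral (S := 𝓞 Ω) (Ideal.span {(q' : ℤ)})
  refine ⟨𝔓, h𝔓.isPrime, ?_⟩
  have := (Ideal.mem_of_liesOver 𝔓 (Ideal.span {(q' : ℤ)}) (q' : ℤ)).mp
    (Ideal.mem_span_singleton_self _)
  simpa using this

theorem fldA_finrank (hqp : q' ≠ p)
    (hunr : ∀ Q : Ideal (𝓞 L), Q.IsPrime → Q ≠ ⊥ → Q.ramificationIdx (𝓞 K) = 1) :
    Module.finrank L Ω = q' - 1 := by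
  have : IsGalois L Ω := IsCyclotomicExtension.isGalois {q'} L Ω
  obtain ⟨𝔓, h𝔓, hq⟩ := h13_exists_prime_over q' Ω
  have h1 := h13_le_card_inertia p K L q' Ω hqp hunr 𝔓 h𝔓 hq
  have h2 : Nat.card (𝔓.inertia (Ω ≃ₐ[L] Ω)) ≤ Nat.card (Ω ≃ₐ[L] Ω) :=
    Subgroup.card_le_card_group _
  have h3 := h13_card_aut_le L q' Ω
  rw [← IsGalois.card_aut_eq_finrank L Ω]
  omega

theorem fldA_inertia (hqp : q' ≠ p)
    (hunr : ∀ Q : Ideal (𝓞 L), Q.IsPrime → Q ≠ ⊥ → Q.ramificationIdx (𝓞 K) = 1)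
    (𝔓 : Ideal (𝓞 Ω)) (h𝔓 : 𝔓.IsPrime) (hq : (q' : 𝓞 Ω) ∈ 𝔓)
    (σ : Ω ≃ₐ[K] Ω) (hσ : ∀ x : L, σ (algebraMap L Ω x) = algebraMap L Ω x) (x : 𝓞 Ω) :
    σ • x - x ∈ 𝔓 := by
  have : IsGalois L Ω := IsCyclotomicExtension.isGalois {q'} L Ω
  have h1 := h13_le_card_inertia p K L q' Ω hqp hunr 𝔓 h𝔓 hq
  have h2 : Nat.card (𝔓.inertia (Ω ≃ₐ[L] Ω)) ≤ Nat.card (Ω ≃ₐ[L] Ω) :=
    Subgroup.card_le_card_group _
  have h3 := h13_card_aut_le L q' Ω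
  have htop : 𝔓.inertia (Ω ≃ₐ[L] Ω) = ⊤ :=
    (Subgroup.card_eq_iff_eq_top _).mp (by omega)
  let τ : Ω ≃ₐ[L] Ω := AlgEquiv.ofRingEquiv (f := σ.toRingEquiv) hσ
  have hτ : τ ∈ 𝔓.inertia (Ω ≃ₐ[L] Ω) := htop ▸ Subgroup.mem_top τ
  have hτx : τ • x = σ • x := Subtype.ext rfl
  rw [← hτx]
  exact hτ x

end Arith

end Fermat.Agent.S14
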