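import Mathlib
import Fermat.Agent.S14.Defs

/-!
# S14, package FLD-G: the group theory behind the auxiliary fields `F ⊆ N ⊆ Ω`

Pure group theory: inside `Γ ≅ G × (ZMod q')ˣ` (`G` of prime order `p`, `p ∣ q' - 1`) we build
the subgroups `NN = 1 × (p-th powers)` and `Z = ⟨(σ₀, u₀)⟩ · NN`.
-/

set_option autoImplicit false

namespace Fermat.Agent.S14

open NumberField
open scoped nonZeroDivisors Pointwise

/-- In a commutative group, if `u` is not a `p`-th power (`p` prime) and `u ^ k` is a `p`-th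
power, then `p ∣ k`. -/
theorem h17_dvd_of_zpow_mem_range {U : Type*} [CommGroup U] {p : ℕ} (hp : p.Prime) {u : U}
    (hu : u ∉ (powMonoidHom p : U →* U).range) {k : ℤ}
    (hk : u ^ k ∈ (powMonoidHom p : U →* U).range) : (p : ℤ) ∣ k := by
  by_contra hnd
  have hcop : IsCoprime (p : ℤ) k :=
    (Nat.prime_iff_prime_int.mp hp).coprime_iff_not_dvd.mpr hnd
  obtain ⟨a, b, hab⟩ := hcop
  apply hu
  have h1 : u = powMonoidHom p (u ^ a) * (u ^ k) ^ b := by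
    rw [powMonoidHom_apply, ← zpow_natCast, ← zpow_mul, ← zpow_mul, ← zpow_add, mul_comm k b, hab,
      zpow_one]
  rw [h1]
  exact mul_mem ⟨_, rfl⟩ (zpow_mem hk b)

theorem fldG_exists_subgroups (p q' : ℕ) [Fact p.Prime] [Fact q'.Prime] (hq'p : q' % p = 1)
    {Γ G : Type*} [Group Γ] [Group G] [Finite Γ] (hG : Nat.card G = p) (σ₀ : G) (hσ₀ : σ₀ ≠ 1)
    (u₀ : ZMod q') (hu₀ : ¬ ∃ y : ZMod q', u₀ = y ^ p)
    (Ψ₁ : Γ →* G) (Ψ₂ : Γ →* (ZMod q')ˣ)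
    (hinj : ∀ γ : Γ, Ψ₁ γ = 1 → Ψ₂ γ = 1 → γ = 1) (hcard : Nat.card Γ = p * (q' - 1)) :
    (∀ a b : Γ, a * b = b * a) ∧
    ∃ Z NN : Subgroup Γ, NN ≤ Z ∧ Z.index = p ∧ NN.index = p * p ∧
      (∀ γ ∈ NN, Ψ₁ γ = 1) ∧
      (∀ γ ∈ Z, (γ ∈ NN ↔ ∃ y : ZMod q', ((Ψ₂ γ : (ZMod q')ˣ) : ZMod q') = y ^ p)) ∧
      (∀ (γ : Γ) (k : ℕ) (y : ZMod q'), Ψ₁ γ = σ₀ ^ k →
        ((Ψ₂ γ : (ZMod q')ˣ) : ZMod q') = u₀ ^ k * y ^ p → γ ∈ Z) ∧
      (∀ γ : Γ, ∃ z ∈ Z, Ψ₁ (z⁻¹ * γ) = 1) := by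
  have hp : p.Prime := Fact.out
  have hq : q'.Prime := Fact.out
  have hGfin : Finite G := Nat.finite_of_card_ne_zero (by rw [hG]; exact hp.ne_zero)
  -- `σ₀` generates `G`
  have hgen : ∀ g : G, ∃ k : ℤ, g = σ₀ ^ k := by
    intro g
    have hg : g ∈ Subgroup.zpowers σ₀ := mem_zpowers_of_prime_card hG hσ₀
    obtain ⟨k, hk⟩ := Subgroup.mem_zpowers_iff.mp hg
    exact ⟨k, hk.symm⟩
  have hGcomm : ∀ x y : G, x * y = y * x := by
    intro x y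
    obtain ⟨i, rfl⟩ := hgen x
    obtain ⟨j, rfl⟩ := hgen y
    rw [← zpow_add, ← zpow_add, add_comm]
  have hord : orderOf σ₀ = p := by
    have h1 : orderOf σ₀ ∣ p := hG ▸ orderOf_dvd_natCard σ₀
    rcases (Nat.dvd_prime hp).mp h1 with h | h
    · exact absurd (orderOf_eq_one_iff.mp h) hσ₀
    · exact h
  have hσpow : ∀ k : ℤ, σ₀ ^ k = 1 ↔ (p : ℤ) ∣ k := by
    intro k
    rw [← hord]
    exact orderOf_dvd_iff_zpow_eq_one.symm
  -- the unit `u`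
  have hu0 : u₀ ≠ 0 := by
    rintro rfl
    exact hu₀ ⟨0, (zero_pow hp.ne_zero).symm⟩
  obtain ⟨u, rfl⟩ : ∃ u : (ZMod q')ˣ, (u : ZMod q') = u₀ := ⟨Units.mk0 u₀ hu0, rfl⟩
  set Pw : Subgroup (ZMod q')ˣ := (powMonoidHom p : (ZMod q')ˣ →* (ZMod q')ˣ).range with hPw
  have hPw_iff : ∀ w : (ZMod q')ˣ, w ∈ Pw ↔ ∃ y : ZMod q', (w : ZMod q') = y ^ p := by
    intro w
    constructor
    · rintro ⟨v, rfl⟩
      exact ⟨(v : ZMod q'), by rw [powMonoidHom_apply, Units.val_pow_eq_pow_val]⟩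
    · rintro ⟨y, hy⟩
      have hy0 : y ≠ 0 := by
        rintro rfl
        rw [zero_pow hp.ne_zero] at hy
        exact w.ne_zero hy
      refine ⟨Units.mk0 y hy0, Units.ext ?_⟩
      rw [powMonoidHom_apply, Units.val_pow_eq_pow_val, Units.val_mk0, hy]
  have huPw : u ∉ Pw := fun h => hu₀ ((hPw_iff u).mp h)
  have hdvd : ∀ k : ℤ, u ^ k ∈ Pw → (p : ℤ) ∣ k :=
    fun k hk => h17_dvd_of_zpow_mem_range hp huPw hk
  have hupPw : ∀ k : ℤ, (p : ℤ) ∣ k → u ^ k ∈ Pw := by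
    rintro k ⟨j, rfl⟩
    refine ⟨u ^ j, ?_⟩
    rw [powMonoidHom_apply, ← zpow_natCast, ← zpow_mul, mul_comm]
  -- the isomorphism `Ψ`
  let Ψ : Γ →* G × (ZMod q')ˣ := Ψ₁.prod Ψ₂
  have hΨ1 : ∀ γ, (Ψ γ).1 = Ψ₁ γ := fun γ => rfl
  have hΨ2 : ∀ γ, (Ψ γ).2 = Ψ₂ γ := fun γ => rfl
  have hΨinj : Function.Injective Ψ := by
    rw [injective_iff_map_eq_one]
    intro γ hγ
    exact hinj γ (congrArg Prod.fst hγ) (congrArg Prod.snd hγ)
  have hcardU : Nat.card (ZMod q')ˣ = q' - 1 := by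
    rw [Nat.card_eq_fintype_card, ZMod.card_units]
  have hΨbij : Function.Bijective Ψ := by
    apply hΨinj.bijective_of_nat_card_le
    rw [Nat.card_prod, hG, hcardU, hcard]
  have hΨsurj : Function.Surjective Ψ := hΨbij.2
  refine ⟨?_, ?_⟩
  · intro a b
    apply hΨinj
    rw [map_mul, map_mul]
    refine Prod.ext (hGcomm _ _) (mul_comm _ _)
  -- the subgroup `Z'` of `G × U`
  let Z' : Subgroup (G × (ZMod q')ˣ) :=
    { carrier := {x | ∃ k : ℤ, x.1 = σ₀ ^ k ∧ x.2 * (u ^ k)⁻¹ ∈ Pw}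
      mul_mem' := by
        rintro x y ⟨k, hk1, hk2⟩ ⟨l, hl1, hl2⟩
        refine ⟨k + l, ?_, ?_⟩
        · rw [Prod.fst_mul, hk1, hl1, zpow_add]
        · have e : (x * y).2 * (u ^ (k + l))⁻¹ = (x.2 * (u ^ k)⁻¹) * (y.2 * (u ^ l)⁻¹) := by
            rw [Prod.snd_mul, zpow_add, mul_inv, mul_mul_mul_comm]
          rw [e]
          exact mul_mem hk2 hl2
      one_mem' := ⟨0, by simp, by simp⟩
      inv_mem' := by
        rintro x ⟨k, hk1, hk2⟩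
        refine ⟨-k, ?_, ?_⟩
        · rw [Prod.fst_inv, hk1, zpow_neg]
        · have e : (x⁻¹).2 * (u ^ (-k))⁻¹ = (x.2 * (u ^ k)⁻¹)⁻¹ := by
            rw [Prod.snd_inv, zpow_neg, mul_inv]
          rw [e]
          exact inv_mem hk2 }
  have hZ'mem : ∀ x : G × (ZMod q')ˣ, x ∈ Z' ↔ ∃ k : ℤ, x.1 = σ₀ ^ k ∧ x.2 * (u ^ k)⁻¹ ∈ Pw :=
    fun x => Iff.rfl
  let N' : Subgroup (G × (ZMod q')ˣ) := Subgroup.prod ⊥ Pw
  have hN'mem : ∀ x : G × (ZMod q')ˣ, x ∈ N' ↔ x.1 = 1 ∧ x.2 ∈ Pw := by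
    intro x
    rw [Subgroup.mem_prod, Subgroup.mem_bot]
  have hN'Z' : N' ≤ Z' := by
    intro x hx
    obtain ⟨h1, h2⟩ := (hN'mem x).mp hx
    exact ⟨0, by rw [h1, zpow_zero], by simpa using h2⟩
  -- indices
  have hpdvd : p ∣ q' - 1 := by
    have h1 : q' = p * (q' / p) + 1 := by
      have := Nat.div_add_mod q' p
      omega
    exact ⟨q' / p, by omega⟩
  have hPwidx : Pw.index = p := by
    rw [hPw, IsCyclic.index_powMonoidHom_range, hcardU]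
    exact Nat.gcd_eq_right hpdvd
  have hN'idx : N'.index = p * p := by
    rw [Subgroup.index_prod, Subgroup.index_bot, hG, hPwidx]
  have hZ'ne : Z' ≠ ⊤ := by
    intro htop
    have h1 : ((1 : G), u) ∈ Z' := htop ▸ Subgroup.mem_top _
    obtain ⟨k, hk1, hk2⟩ := (hZ'mem _).mp h1
    have hk : (p : ℤ) ∣ k := (hσpow k).mp hk1.symm
    have h2 : u ^ (1 - k) ∈ Pw := by
      have e : u ^ (1 - k) = u * (u ^ k)⁻¹ := by rw [zpow_sub, zpow_one]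
      rw [e]
      exact hk2
    have h3 : (p : ℤ) ∣ 1 - k := hdvd _ h2
    have h4 : (p : ℤ) ∣ 1 := by
      have := dvd_add h3 hk
      simpa using this
    have h5 : p ∣ 1 := by exact_mod_cast h4
    exact hp.one_lt.ne' (Nat.dvd_one.mp h5)
  have hZ'nle : ¬ Z' ≤ N' := by
    intro hle
    have h1 : (σ₀, u) ∈ Z' := ⟨1, by simp, by simp⟩
    exact hσ₀ ((hN'mem _).mp (hle h1)).1
  have hZ'idx : Z'.index = p := by
    have h1 := Subgroup.relIndex_mul_index hN'Z'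
    rw [hN'idx] at h1
    have h2 : Z'.index ≠ 1 := fun h => hZ'ne (Subgroup.index_eq_one.mp h)
    have h3 : N'.relIndex Z' ≠ 1 := fun h => hZ'nle (Subgroup.relIndex_eq_one.mp h)
    have h4 : Z'.index ∣ p * p := Dvd.intro_left _ h1
    rw [← sq, Nat.dvd_prime_pow hp] at h4
    obtain ⟨i, hi, hi'⟩ := h4
    interval_cases i
    · exact absurd (by simpa using hi') h2
    · simpa using hi'
    · exfalso
      rw [hi', ← sq] at h1
      have h5 : 0 < p ^ 2 := pow_pos hp.pos 2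
      exact h3 (Nat.eq_of_mul_eq_mul_right h5 (by rw [h1, one_mul]))
  refine ⟨Z'.comap Ψ, N'.comap Ψ, Subgroup.comap_mono hN'Z', ?_, ?_, ?_, ?_, ?_, ?_⟩
  · rw [Subgroup.index_comap_of_surjective _ hΨsurj, hZ'idx]
  · rw [Subgroup.index_comap_of_surjective _ hΨsurj, hN'idx]
  · intro γ hγ
    exact ((hN'mem _).mp (Subgroup.mem_comap.mp hγ)).1
  · intro γ hγ
    rw [Subgroup.mem_comap, hN'mem, hΨ1, hΨ2, ← hPw_iff]
    constructor
    · exact fun h => h.2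
    · intro h
      refine ⟨?_, h⟩
      obtain ⟨k, hk1, hk2⟩ := (hZ'mem _).mp (Subgroup.mem_comap.mp hγ)
      rw [hΨ1] at hk1
      rw [hΨ2] at hk2
      have h2 : u ^ k ∈ Pw := by
        have e : u ^ k = (Ψ₂ γ * (u ^ k)⁻¹)⁻¹ * Ψ₂ γ := by
          rw [mul_inv, inv_inv, mul_comm (Ψ₂ γ)⁻¹, mul_assoc, inv_mul_cancel, mul_one]
        rw [e]
        exact mul_mem (inv_mem hk2) h
      rw [hk1]
      exact (hσpow k).mpr (hdvd k h2)
  · intro γ k y h1 h2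
    rw [Subgroup.mem_comap, hZ'mem]
    refine ⟨(k : ℤ), ?_, ?_⟩
    · rw [hΨ1, h1, zpow_natCast]
    · rw [hΨ2, hPw_iff]
      refine ⟨y, ?_⟩
      rw [Units.val_mul, h2, zpow_natCast, Units.val_inv_eq_inv_val, Units.val_pow_eq_pow_val]
      have hne : ((u : ZMod q')) ^ k ≠ 0 := pow_ne_zero _ u.ne_zero
      field_simp
  · intro γ
    obtain ⟨k, hk⟩ := hgen (Ψ₁ γ)
    obtain ⟨z, hz⟩ := hΨsurj (σ₀ ^ k, u ^ k)
    refine ⟨z, ?_, ?_⟩
    · rw [Subgroup.mem_comap, hZ'mem, hz]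
      exact ⟨k, rfl, by simp⟩
    · have hz1 : Ψ₁ z = σ₀ ^ k := by rw [← hΨ1, hz]
      rw [map_mul, map_inv, hz1, hk, inv_mul_cancel]

end Fermat.Agent.S14
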