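import Mathlib
import Fermat.Agent.S14.Defs

/-!
Package FLD of project S14, part FLD-N: norm residues.
-/

set_option autoImplicit false

namespace Fermat.Agent.S14

open NumberField
open scoped nonZeroDivisors Pointwise

/-- If the inertia group of `𝔔` is the whole Galois group, then the norm of any integer is
congruent to an `[M : k]`-th power of an integer of `k` modulo `𝔔 ∩ 𝓞 k`. -/
theorem fldN_norm_sub_pow_mem {k M : Type*} [Field k] [NumberField k] [Field M] [NumberField M]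
    [Algebra k M] [IsGalois k M] (𝔔 : Ideal (𝓞 M)) [𝔔.IsPrime] (h0 : 𝔔 ≠ ⊥)
    (hI : ∀ (g : M ≃ₐ[k] M) (x : 𝓞 M), g • x - x ∈ 𝔔) (γ : 𝓞 M) :
    ∃ y : 𝓞 k, RingOfIntegers.norm k γ - y ^ Module.finrank k M ∈ 𝔔.under (𝓞 k) := by
  classical
  have hinertia : 𝔔.inertia (M ≃ₐ[k] M) = ⊤ := by
    ext g
    simp only [Subgroup.mem_top, iff_true]
    exact fun x => hI g x
  have H := Ideal.ncard_primesOver_mul_card_inertia_mul_finrank (G := M ≃ₐ[k] M)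
    (𝔔.under (𝓞 k)) 𝔔
  rw [hinertia, Subgroup.card_top] at H
  have hNpos : 0 < Nat.card (M ≃ₐ[k] M) := Nat.card_pos
  have hf : 𝔔.inertiaDeg (𝓞 k) = 1 := by
    have h1 : ((𝔔.under (𝓞 k)).primesOver (𝓞 M)).ncard * 𝔔.inertiaDeg (𝓞 k) = 1 := by
      have h2 : ((𝔔.under (𝓞 k)).primesOver (𝓞 M)).ncard * 𝔔.inertiaDeg (𝓞 k) *
          Nat.card (M ≃ₐ[k] M) = 1 * Nat.card (M ≃ₐ[k] M) := by
        calc ((𝔔.under (𝓞 k)).primesOver (𝓞 M)).ncard * 𝔔.inertiaDeg (𝓞 k) *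
              Nat.card (M ≃ₐ[k] M)
            = ((𝔔.under (𝓞 k)).primesOver (𝓞 M)).ncard * Nat.card (M ≃ₐ[k] M) *
              𝔔.inertiaDeg (𝓞 k) := by ring
          _ = Nat.card (M ≃ₐ[k] M) := H
          _ = 1 * Nat.card (M ≃ₐ[k] M) := (one_mul _).symm
      exact Nat.eq_of_mul_eq_mul_right hNpos h2
    exact Nat.eq_one_of_mul_eq_one_left h1
  have hQmax : 𝔔.IsMaximal := Ideal.IsPrime.isMaximal inferInstance h0
  have hqmax : (𝔔.under (𝓞 k)).IsMaximal := inferInstance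
  rw [Ideal.inertiaDeg_eq_of_isMaximal (𝔔.under (𝓞 k)) 𝔔] at hf
  let _ : Field (𝓞 k ⧸ 𝔔.under (𝓞 k)) := Ideal.Quotient.field _
  have hbij := Algebra.finrank_eq_one_iff_bijective_algebraMap.mp hf
  obtain ⟨ybar, hybar⟩ := hbij.2 (Ideal.Quotient.mk 𝔔 γ)
  obtain ⟨y, rfl⟩ := Ideal.Quotient.mk_surjective ybar
  refine ⟨y, ?_⟩
  rw [Ideal.Quotient.algebraMap_mk_of_liesOver] at hybar
  -- the norm as a product over the automorphisms, in `𝓞 M`
  have hnorm : algebraMap (𝓞 k) (𝓞 M) (RingOfIntegers.norm k γ) =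
      ∏ g : M ≃ₐ[k] M, g • γ := by
    apply RingOfIntegers.ext
    rw [RingOfIntegers.coe_algebraMap_norm, Algebra.norm_eq_prod_automorphisms]
    have h3 : ((∏ g : M ≃ₐ[k] M, g • γ : 𝓞 M) : M) = ∏ g : M ≃ₐ[k] M, g (γ : M) := by
      rw [RingOfIntegers.coe_eq_algebraMap, map_prod]
      rfl
    rw [h3]
  have hmk : Ideal.Quotient.mk 𝔔 (algebraMap (𝓞 k) (𝓞 M) (RingOfIntegers.norm k γ)) =
      Ideal.Quotient.mk 𝔔 (algebraMap (𝓞 k) (𝓞 M) (y ^ Module.finrank k M)) := by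
    rw [hnorm, map_prod, map_pow, map_pow]
    have hconst : ∀ g : M ≃ₐ[k] M, Ideal.Quotient.mk 𝔔 (g • γ) =
        Ideal.Quotient.mk 𝔔 (algebraMap (𝓞 k) (𝓞 M) y) := by
      intro g
      rw [hybar]
      exact Ideal.Quotient.eq.mpr (hI g γ)
    rw [Finset.prod_congr rfl (fun g _ => hconst g), Finset.prod_const, Finset.card_univ,
      ← Nat.card_eq_fintype_card, IsGalois.card_aut_eq_finrank]
  rw [Ideal.under_def, Ideal.mem_comap, map_sub]
  exact Ideal.Quotient.eq.mp hmk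

/-- Transitivity of the norm: the absolute norm of a principal ideal through an intermediate
field. -/
theorem fldN_absNorm_span {k M : Type*} [Field k] [NumberField k] [Field M] [NumberField M]
    [Algebra k M] (γ : 𝓞 M) :
    Ideal.absNorm (Ideal.span {γ}) = (Algebra.norm ℤ (RingOfIntegers.norm k γ)).natAbs := by
  rw [Ideal.absNorm_span_singleton]
  congr 1
  have h : ((Algebra.norm ℤ γ : ℤ) : ℚ) = ((Algebra.norm ℤ (RingOfIntegers.norm k γ) : ℤ) : ℚ) := by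
    rw [Algebra.coe_norm_int, Algebra.coe_norm_int, RingOfIntegers.coe_norm, Algebra.norm_norm]
  exact_mod_cast h

theorem fldN_absNorm_eq (p : ℕ) [Fact p.Prime] (K : Type) [Field K] [NumberField K]
    [IsCyclotomicExtension {p} ℚ K] (q' : ℕ) (hq' : q'.Prime) (hq'p : q' % p = 1)
    (𝔮 : Ideal (𝓞 K)) (h𝔮 : 𝔮.IsPrime) (hq : (q' : 𝓞 K) ∈ 𝔮) : Ideal.absNorm 𝔮 = q' := by
  have hp : p.Prime := Fact.out
  have : Fact q'.Prime := ⟨hq'⟩
  have : NeZero p := ⟨hp.ne_zero⟩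
  have hlies : 𝔮.LiesOver (Ideal.span {(q' : ℤ)}) := by
    constructor
    have hmax : (Ideal.span {(q' : ℤ)}).IsMaximal :=
      (Ideal.span_singleton_prime (by exact_mod_cast hq'.ne_zero)).mpr
        (Nat.prime_iff_prime_int.mp hq') |>.isMaximal (by simpa using hq'.ne_zero)
    have hle : Ideal.span {(q' : ℤ)} ≤ 𝔮.under ℤ := by
      rw [Ideal.span_singleton_le_iff_mem, Ideal.mem_comap]
      simpa using hq
    have hne : 𝔮.under ℤ ≠ ⊤ := (Ideal.comap_isPrime _ _).ne_top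
    exact (hmax.eq_of_le hne hle)
  have hnd : ¬ q' ∣ p := by
    intro hdvd
    have h1 : q' = p := (Nat.prime_dvd_prime_iff_eq hq' hp).mp hdvd
    rw [h1, Nat.mod_self] at hq'p
    exact zero_ne_one hq'p
  have hdeg := IsCyclotomicExtension.Rat.inertiaDeg_eq_of_not_dvd q' K 𝔮 (m := p) hnd
  have hord : orderOf ((q' : ℕ) : ZMod p) = 1 := by
    rw [orderOf_eq_one_iff]
    have : ((q' : ℕ) : ZMod p) = ((q' % p : ℕ) : ZMod p) := by
      rw [ZMod.natCast_mod]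
    rw [this, hq'p, Nat.cast_one]
  have h := Ideal.natAbs_pow_inertiaDeg (q' : ℤ) 𝔮
  rw [hdeg, hord, pow_one, Int.natAbs_natCast] at h
  exact h.symm

theorem fldN_norm_pow_residue (p : ℕ) [Fact p.Prime] (K : Type) [Field K] [NumberField K]
    [IsCyclotomicExtension {p} ℚ K] (q' : ℕ) (hq' : q'.Prime) (hq'p : q' % p = 1) (n : ℕ)
    (β : 𝓞 K)
    (h : ∀ 𝔮 : Ideal (𝓞 K), 𝔮.IsPrime → (q' : 𝓞 K) ∈ 𝔮 → ∃ y : 𝓞 K, β - y ^ n ∈ 𝔮) :
    ∃ y : ZMod q', ((Algebra.norm ℤ β : ℤ) : ZMod q') = y ^ n := by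
  have : Fact q'.Prime := ⟨hq'⟩
  have hgal : IsGalois ℚ K := IsCyclotomicExtension.isGalois {p} ℚ K
  have hprime : (Ideal.span {(q' : ℤ)}).IsPrime :=
    (Ideal.span_singleton_prime (by exact_mod_cast hq'.ne_zero)).mpr
      (Nat.prime_iff_prime_int.mp hq')
  -- a prime over `q'`
  obtain ⟨⟨𝔮₁, h𝔮₁, hlies⟩⟩ := (Ideal.span {(q' : ℤ)}).nonempty_primesOver (S := 𝓞 K)
  have hq𝔮₁ : (q' : 𝓞 K) ∈ 𝔮₁ := by
    have hmem : (q' : ℤ) ∈ 𝔮₁.under ℤ := by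
      rw [← hlies.over]; exact Ideal.mem_span_singleton_self _
    simpa [Ideal.mem_comap] using hmem
  have hcard : Ideal.absNorm 𝔮₁ = q' := fldN_absNorm_eq p K q' hq' hq'p 𝔮₁ h𝔮₁ hq𝔮₁
  have hchar : CharP (𝓞 K ⧸ 𝔮₁) q' := by
    have h0 : ((q' : ℕ) : 𝓞 K ⧸ 𝔮₁) = 0 := by
      have := Ideal.Quotient.eq_zero_iff_mem.mpr hq𝔮₁
      simpa using this
    exact (CharP.charP_iff_prime_eq_zero hq').mpr h0
  let φ : ZMod q' →+* (𝓞 K ⧸ 𝔮₁) := ZMod.castHom (dvd_refl q') (𝓞 K ⧸ 𝔮₁)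
  have hφinj : Function.Injective φ := φ.injective
  have hcF : Nat.card (𝓞 K ⧸ 𝔮₁) = q' := by
    rw [← hcard, Ideal.absNorm_apply, Submodule.cardQuot_apply]
  have hfin : Finite (𝓞 K ⧸ 𝔮₁) := Nat.finite_of_card_ne_zero (by rw [hcF]; exact hq'.ne_zero)
  have hφsurj : Function.Surjective φ :=
    (Function.Injective.bijective_of_nat_card_le hφinj (by rw [hcF, Nat.card_zmod])).2
  -- the norm as a product over the automorphisms, in `𝓞 K`
  have hnorm : algebraMap ℤ (𝓞 K) (Algebra.norm ℤ β) =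
      ∏ s : K ≃ₐ[ℚ] K, RingOfIntegers.mapRingHom (s : K →+* K) β := by
    apply RingOfIntegers.ext
    have h1 := Algebra.norm_eq_prod_automorphisms ℚ (β : K)
    rw [← Algebra.coe_norm_int] at h1
    have h3 : ((∏ s : K ≃ₐ[ℚ] K, RingOfIntegers.mapRingHom (s : K →+* K) β : 𝓞 K) : K) =
        ∏ s : K ≃ₐ[ℚ] K, s (β : K) := by
      rw [RingOfIntegers.coe_eq_algebraMap, map_prod]
      rfl
    rw [h3, ← h1]
    simp
  -- each factor is an `n`-th power modulo `𝔮₁`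
  have hfac : ∀ s : K ≃ₐ[ℚ] K, ∃ y : 𝓞 K,
      RingOfIntegers.mapRingHom (s : K →+* K) β - y ^ n ∈ 𝔮₁ := by
    intro s
    obtain ⟨y, hy⟩ := h (Ideal.comap (RingOfIntegers.mapRingHom (s : K →+* K)) 𝔮₁)
      (Ideal.comap_isPrime _ 𝔮₁) (by rw [Ideal.mem_comap, map_natCast]; exact hq𝔮₁)
    refine ⟨RingOfIntegers.mapRingHom (s : K →+* K) y, ?_⟩
    rw [Ideal.mem_comap, map_sub, map_pow] at hy
    exact hy
  choose ys hys using hfac
  obtain ⟨y, hy⟩ := hφsurj (Ideal.Quotient.mk 𝔮₁ (∏ s, ys s))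
  refine ⟨y, hφinj ?_⟩
  rw [map_pow, hy, map_intCast]
  have h2 : ((Algebra.norm ℤ β : ℤ) : 𝓞 K ⧸ 𝔮₁) =
      Ideal.Quotient.mk 𝔮₁ (algebraMap ℤ (𝓞 K) (Algebra.norm ℤ β)) := by simp
  rw [h2, hnorm, map_prod, map_prod, ← Finset.prod_pow]
  refine Finset.prod_congr rfl (fun s _ => ?_)
  rw [← map_pow]
  exact Ideal.Quotient.eq.mpr (hys s)

end Fermat.Agent.S14
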