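import Mathlib

/-!
# S14, package FLD, part 1 : the Galois structure of `Ω = L(ζ_q')` over `K`
-/

set_option autoImplicit false

namespace Fermat.Agent.S14

open NumberField Polynomial

section

variable (K L : Type) [Field K] [NumberField K] [Field L] [NumberField L] [Algebra K L]
  [IsGalois K L] (q' : ℕ) [NeZero q'] (Ω : Type) [Field Ω] [NumberField Ω] [Algebra K Ω]
  [Algebra L Ω] [IsScalarTower K L Ω] [IsCyclotomicExtension {q'} L Ω]

include L q' in
/-- `Ω = L(ζ_q')` is Galois over `K`. -/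
theorem h33_isGalois_omega : IsGalois K Ω := by
  obtain ⟨g, hg0, hg⟩ : ∃ g : K[X], g ≠ 0 ∧ g.IsSplittingField K L := by
    obtain ⟨g, hg⟩ := Normal.exists_isSplittingField K L
    by_cases h0 : g = 0
    · subst h0
      refine ⟨1, one_ne_zero, ⟨?_, ?_⟩⟩
      · simp
      · have := hg.adjoin_rootSet
        simpa using this
    · exact ⟨g, h0, hg⟩
  have h1 : ((X ^ q' - 1 : K[X]).map (algebraMap K L)).IsSplittingField L Ω := by
    have := IsCyclotomicExtension.isSplittingField_X_pow_sub_one q' L Ω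
    simpa using this
  have hX : (X ^ q' - 1 : K[X]) ≠ 0 := X_pow_sub_C_ne_zero (Nat.pos_of_ne_zero (NeZero.ne q')) 1
  have h2 : (g * (X ^ q' - 1)).IsSplittingField K Ω :=
    IsSplittingField.mul (F := K) (K := L) Ω g _ hg0 hX
  have : Normal K Ω := Normal.of_isSplittingField (g * (X ^ q' - 1))
  exact ⟨⟩

variable {K L q' Ω}

omit [NumberField K] [NumberField L] [Algebra K L] [IsGalois K L] [NumberField Ω]
  [IsScalarTower K L Ω] in
/-- A `K`-automorphism of `Ω = L(ζ)` fixing `L` and `ζ` is trivial. -/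
theorem h33_eq_one_of_fix {ζ : Ω} (hζ : IsPrimitiveRoot ζ q') (σ : Ω ≃ₐ[K] Ω)
    (h1 : ∀ x : L, σ (algebraMap L Ω x) = algebraMap L Ω x) (h2 : σ ζ = ζ) : σ = 1 := by
  let σ' : Ω →ₐ[L] Ω := { (σ : Ω →+* Ω) with commutes' := h1 }
  have hσ' : σ' = AlgHom.id L Ω := by
    have htop := IsCyclotomicExtension.adjoin_primitive_root_eq_top (n := q') (A := L) (B := Ω) hζ
    apply AlgHom.ext_of_adjoin_eq_top htop
    intro x hx
    rw [Set.mem_singleton_iff] at hx
    subst hx
    exact h2
  ext x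
  have := congrArg (fun f : Ω →ₐ[L] Ω => f x) hσ'
  exact this

end

end Fermat.Agent.S14
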