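import Mathlib
import Fermat.Agent.S14.Defs
import Fermat.Agent.S14.h33_FLD1
import Fermat.Agent.S14.FLD_Toolkit
import Fermat.Agent.S14.FLD_Norm
import Fermat.Agent.S14.FLD_Group
import Fermat.Agent.S14.FLD_Arith

/-!
# S14, package FLD : the auxiliary fields `F ⊆ N` inside `Ω = L(ζ_q')`  (assembly)
-/

set_option autoImplicit false
set_option linter.unusedSectionVars false
set_option linter.style.haveILetI false

namespace Fermat.Agent.S14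

open NumberField
open scoped nonZeroDivisors Pointwise

/-! ### generic helpers -/

section Helpers

variable {k E M : Type} [Field k] [NumberField k] [Field E] [NumberField E] [Field M]
  [NumberField M] [Algebra k E] [Algebra E M] [Algebra k M] [IsScalarTower k E M]

theorem h33_natCast_mem_under (n : ℕ) (𝔓 : Ideal (𝓞 M)) :
    (n : 𝓞 E) ∈ 𝔓.under (𝓞 E) ↔ (n : 𝓞 M) ∈ 𝔓 := by
  rw [Ideal.under_def, Ideal.mem_comap, map_natCast]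

theorem h33_ne_bot_of_under_ne_bot (𝔓 : Ideal (𝓞 M)) (h : 𝔓.under (𝓞 E) ≠ ⊥) : 𝔓 ≠ ⊥ := by
  rintro rfl
  apply h
  rw [Ideal.under_def]
  exact Ideal.comap_bot_of_injective _ (FaithfulSMul.algebraMap_injective (𝓞 E) (𝓞 M))

/-- A nonzero prime `Q` of `E` not containing `n` lies under a nonzero prime of `M` not
containing `n`. -/
theorem h33_exists_over (n : ℕ) (Q : Ideal (𝓞 E)) (hQ : Q.IsPrime) (hQ0 : Q ≠ ⊥)
    (hn : (n : 𝓞 E) ∉ Q) :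
    ∃ 𝔓 : Ideal (𝓞 M), 𝔓.IsPrime ∧ 𝔓.under (𝓞 E) = Q ∧ 𝔓 ≠ ⊥ ∧ (n : 𝓞 M) ∉ 𝔓 := by
  haveI := hQ
  obtain ⟨𝔓, h𝔓, h𝔓Q⟩ := fldT_exists_over (E := E) (M := M) Q
  refine ⟨𝔓, h𝔓, h𝔓Q, h33_ne_bot_of_under_ne_bot 𝔓 (h𝔓Q ▸ hQ0), ?_⟩
  rw [← h33_natCast_mem_under (E := E), h𝔓Q]
  exact hn

end Helpers

/-! ### The properties (B0)-(B4) for abstract `F ⊆ N ⊆ Ω` -/

section B

variable {K L Ω F N : Type} [Field K] [NumberField K] [Field L] [NumberField L] [Field Ω]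
  [NumberField Ω] [Field F] [NumberField F] [Field N] [NumberField N]
  [Algebra K L] [Algebra K Ω] [Algebra L Ω] [IsScalarTower K L Ω]
  [Algebra K F] [Algebra F N] [Algebra K N] [IsScalarTower K F N]
  [Algebra L N] [IsScalarTower K L N]
  [Algebra F Ω] [Algebra N Ω] [IsScalarTower K F Ω] [IsScalarTower K N Ω] [IsScalarTower F N Ω]
  [IsGalois K L] [IsGalois K Ω] [IsGalois K F] [IsGalois K N] [IsGalois F N] [IsGalois F Ω]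

/-- (B0) `N / F` is unramified outside `q'`. -/
theorem h33_B0 (q' : ℕ)
    (hA2 : ∀ 𝔓 : Ideal (𝓞 Ω), 𝔓.IsPrime → 𝔓 ≠ ⊥ → (q' : 𝓞 Ω) ∉ 𝔓 →
      𝔓.ramificationIdx (𝓞 K) = 1)
    (Q : Ideal (𝓞 N)) (hQ : Q.IsPrime) (hQ0 : Q ≠ ⊥) (hq : (q' : 𝓞 N) ∉ Q) :
    Q.ramificationIdx (𝓞 F) = 1 := by
  haveI := hQ
  obtain ⟨𝔓, h𝔓, h𝔓Q, h𝔓0, hq𝔓⟩ := h33_exists_over (E := N) (M := Ω) q' Q hQ hQ0 hq
  haveI := h𝔓
  have h1 := hA2 𝔓 h𝔓 h𝔓0 hq𝔓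
  have h2 := (fldT_ramificationIdx_tower (k := K) (E := N) (M := Ω) 𝔓 h1).2
  rw [h𝔓Q] at h2
  exact (fldT_ramificationIdx_tower (k := K) (E := F) (M := N) Q h2).1

/-- The cyclotomic character of a Frobenius element is the norm of the prime below. -/
theorem h33_chi_frob {k : Type} [Field k] [NumberField k] [Algebra k Ω] [IsGalois k Ω]
    (q' : ℕ) [NeZero q'] {ζ : Ω} (hζ : IsPrimitiveRoot ζ q')
    (𝔓 : Ideal (𝓞 Ω)) (h𝔓 : 𝔓.IsPrime) (h𝔓0 : 𝔓 ≠ ⊥) (hq𝔓 : (q' : 𝓞 Ω) ∉ 𝔓)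
    (ψ : Ω ≃ₐ[k] Ω) (hψ : IsArithFrobAt (𝓞 k) ψ 𝔓) (γ : Ω ≃ₐ[K] Ω) (hγ : ∀ x, γ x = ψ x) :
    ((hζ.autToPow K γ : (ZMod q')ˣ) : ZMod q') = ((Ideal.absNorm (𝔓.under (𝓞 k)) : ℕ) : ZMod q') := by
  haveI := h𝔓
  have h1 := fldT_frob_zeta (k := k) (M := Ω) 𝔓 h𝔓0 ψ hψ q' hq𝔓 ζ hζ.pow_eq_one
  have h2 := hζ.autToPow_spec K γ
  rw [hγ, h1] at h2
  set a := ((hζ.autToPow K γ : (ZMod q')ˣ) : ZMod q').val with ha
  set b := Ideal.absNorm (𝔓.under (𝓞 k)) with hb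
  have hq0 : 0 < q' := Nat.pos_of_ne_zero (NeZero.ne q')
  have hbmod : ζ ^ b = ζ ^ (b % q') := by
    conv_lhs => rw [← Nat.div_add_mod b q', pow_add, pow_mul, hζ.pow_eq_one, one_pow, one_mul]
  rw [hbmod] at h2
  have h3 : a = b % q' := hζ.pow_inj (ZMod.val_lt _) (Nat.mod_lt _ hq0) h2
  have h4 : ((a : ℕ) : ZMod q') = ((b : ℕ) : ZMod q') := by
    rw [h3, ZMod.natCast_mod]
  rw [ha, ZMod.natCast_zmod_val] at h4
  exact h4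

/-- (B1) -/
theorem h33_B1 (p q' : ℕ) [NeZero q'] {ζ : Ω} (hζ : IsPrimitiveRoot ζ q')
    (Z NN : Subgroup (Ω ≃ₐ[K] Ω))
    (hF : ∀ σ : Ω ≃ₐ[K] Ω, (∀ x : F, σ (algebraMap F Ω x) = algebraMap F Ω x) → σ ∈ Z)
    (hN : ∀ σ : Ω ≃ₐ[K] Ω, σ ∈ NN ↔ ∀ x : N, σ (algebraMap N Ω x) = algebraMap N Ω x)
    (hZNN : ∀ γ ∈ Z, (γ ∈ NN ↔
      ∃ y : ZMod q', ((hζ.autToPow K γ : (ZMod q')ˣ) : ZMod q') = y ^ p))
    (hA2 : ∀ 𝔓 : Ideal (𝓞 Ω), 𝔓.IsPrime → 𝔓 ≠ ⊥ → (q' : 𝓞 Ω) ∉ 𝔓 →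
      𝔓.ramificationIdx (𝓞 K) = 1)
    (P : Ideal (𝓞 F)) (hP : P.IsPrime) (hP0 : P ≠ ⊥) (hq : (q' : 𝓞 F) ∉ P) :
    SplitsCompletely (𝓞 F) (𝓞 N) P ↔
      ∃ y : ZMod q', ((Ideal.absNorm P : ℕ) : ZMod q') = y ^ p := by
  haveI := hP
  obtain ⟨𝔓, h𝔓, h𝔓P, h𝔓0, hq𝔓⟩ := h33_exists_over (E := F) (M := Ω) q' P hP hP0 hq
  haveI := h𝔓
  have h1 := hA2 𝔓 h𝔓 h𝔓0 hq𝔓
  have hunr := (fldT_ramificationIdx_tower (k := K) (E := F) (M := Ω) 𝔓 h1).1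
  haveI : Finite (𝓞 Ω ⧸ 𝔓) := Ideal.finiteQuotientOfFreeOfNeBot 𝔓 h𝔓0
  obtain ⟨ψ, hψ⟩ := IsArithFrobAt.exists_of_isInvariant (𝓞 F) (Ω ≃ₐ[F] Ω) 𝔓
  have key := fldT_splitsCompletely_iff (k := F) (E := N) (M := Ω) 𝔓 h𝔓0 hunr ψ hψ
  rw [h𝔓P] at key
  let γ : Ω ≃ₐ[K] Ω := ψ.restrictScalars K
  have hγ : ∀ x, γ x = ψ x := fun x => rfl
  have hγZ : γ ∈ Z := hF γ (fun x => by rw [hγ]; exact ψ.commutes x)
  have hχ := h33_chi_frob (K := K) (k := F) q' hζ 𝔓 h𝔓 h𝔓0 hq𝔓 ψ hψ γ hγ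
  rw [h𝔓P] at hχ
  rw [key, ← hχ, ← hZNN γ hγZ, hN γ]
  exact Iff.rfl

/-- (B2) -/
theorem h33_B2 (p q' : ℕ) [NeZero q'] {ζ : Ω} (hζ : IsPrimitiveRoot ζ q')
    (Z : Subgroup (Ω ≃ₐ[K] Ω)) (σ₀ : L ≃ₐ[K] L) (u₀ : ZMod q')
    (hFZ : ∀ σ ∈ Z, ∀ x : F, σ (algebraMap F Ω x) = algebraMap F Ω x)
    (hZmem : ∀ (γ : Ω ≃ₐ[K] Ω) (k : ℕ) (y : ZMod q'),
      AlgEquiv.restrictNormalHom L γ = σ₀ ^ k →
      ((hζ.autToPow K γ : (ZMod q')ˣ) : ZMod q') = u₀ ^ k * y ^ p → γ ∈ Z)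
    (hunrL : ∀ Q : Ideal (𝓞 L), Q.IsPrime → Q ≠ ⊥ → Q.ramificationIdx (𝓞 K) = 1)
    (hA2 : ∀ 𝔓 : Ideal (𝓞 Ω), 𝔓.IsPrime → 𝔓 ≠ ⊥ → (q' : 𝓞 Ω) ∉ 𝔓 →
      𝔓.ramificationIdx (𝓞 K) = 1)
    (P : Ideal (𝓞 K)) (R : Ideal (𝓞 L)) (σ : L ≃ₐ[K] L) (k : ℕ) (y : ZMod q')
    (_hP : P.IsPrime) (hP0 : P ≠ ⊥) (hq : (q' : 𝓞 K) ∉ P) (hR : R.IsPrime)
    (hRP : R.LiesOver P) (hσ : IsArithFrobAt (𝓞 K) σ R) (hσk : σ = σ₀ ^ k)
    (hNP : ((Ideal.absNorm P : ℕ) : ZMod q') = u₀ ^ k * y ^ p) :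
    SplitsCompletely (𝓞 K) (𝓞 F) P := by
  haveI := hR
  have hRP' : R.under (𝓞 K) = P := (Ideal.over_def R P).symm
  have hR0 : R ≠ ⊥ := h33_ne_bot_of_under_ne_bot (E := K) R (hRP' ▸ hP0)
  have hqR : (q' : 𝓞 L) ∉ R := by
    rw [← h33_natCast_mem_under (E := K), hRP']
    exact hq
  obtain ⟨𝔓, h𝔓, h𝔓R, h𝔓0, hq𝔓⟩ := h33_exists_over (E := L) (M := Ω) q' R hR hR0 hqR
  haveI := h𝔓
  have h𝔓P : 𝔓.under (𝓞 K) = P := by
    rw [← hRP', ← h𝔓R, Ideal.under_under]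
  haveI : Finite (𝓞 Ω ⧸ 𝔓) := Ideal.finiteQuotientOfFreeOfNeBot 𝔓 h𝔓0
  obtain ⟨φ, hφ⟩ := IsArithFrobAt.exists_of_isInvariant (𝓞 K) (Ω ≃ₐ[K] Ω) 𝔓
  have hres := fldT_frob_restrict (k := K) (E := L) (M := Ω) 𝔓 h𝔓0 φ hφ
    (by rw [h𝔓R]; exact hunrL R hR hR0) σ (by rw [h𝔓R]; exact hσ)
  have hφL : AlgEquiv.restrictNormalHom L φ = σ₀ ^ k := by
    rw [← hσk]
    ext x
    apply (algebraMap L Ω).injective
    rw [← hres x]
    exact AlgEquiv.restrictNormal_commutes φ L x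
  have hχ := h33_chi_frob (K := K) (k := K) q' hζ 𝔓 h𝔓 h𝔓0 hq𝔓 φ hφ φ (fun _ => rfl)
  rw [h𝔓P, hNP] at hχ
  have hφZ : φ ∈ Z := hZmem φ k y hφL hχ
  have key := fldT_splitsCompletely_iff (k := K) (E := F) (M := Ω) 𝔓 h𝔓0
    (hA2 𝔓 h𝔓 h𝔓0 hq𝔓) φ hφ
  rw [h𝔓P] at key
  exact key.mpr (hFZ φ hφZ)

/-- (B3) -/
theorem h33_B3 (p q' : ℕ) [Fact p.Prime] (hp2 : p ≠ 2) [IsCyclotomicExtension {p} ℚ K]
    (hq' : q'.Prime) (hq'p : q' % p = 1) (hdegF : Module.finrank K F = p)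
    (Z : Subgroup (Ω ≃ₐ[K] Ω))
    (hFZ : ∀ σ ∈ Z, ∀ x : F, σ (algebraMap F Ω x) = algebraMap F Ω x)
    (hZI : ∀ γ : Ω ≃ₐ[K] Ω, ∃ z ∈ Z, AlgEquiv.restrictNormalHom L (z⁻¹ * γ) = 1)
    (hA3 : ∀ 𝔓 : Ideal (𝓞 Ω), 𝔓.IsPrime → (q' : 𝓞 Ω) ∈ 𝔓 → ∀ σ : Ω ≃ₐ[K] Ω,
      (∀ x : L, σ (algebraMap L Ω x) = algebraMap L Ω x) → ∀ x : 𝓞 Ω, σ • x - x ∈ 𝔓)
    (γ : 𝓞 F) :
    ∃ y : ZMod q', ((Ideal.absNorm (Ideal.span {γ}) : ℕ) : ZMod q') = y ^ p := by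
  have hq'0 : (q' : 𝓞 F) ≠ 0 := by exact_mod_cast hq'.ne_zero
  -- the congruence modulo every prime of `K` over `q'`
  have hcong : ∀ 𝔮 : Ideal (𝓞 K), 𝔮.IsPrime → (q' : 𝓞 K) ∈ 𝔮 →
      ∃ y : 𝓞 K, RingOfIntegers.norm K γ - y ^ p ∈ 𝔮 := by
    intro 𝔮 h𝔮 hq𝔮
    haveI := h𝔮
    obtain ⟨𝔓, h𝔓, h𝔓𝔮⟩ := fldT_exists_over (E := K) (M := Ω) 𝔮
    haveI := h𝔓
    have hq𝔓 : (q' : 𝓞 Ω) ∈ 𝔓 := by
      rw [← h33_natCast_mem_under (E := K), h𝔓𝔮]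
      exact hq𝔮
    set 𝔔 : Ideal (𝓞 F) := 𝔓.under (𝓞 F) with h𝔔
    have hq𝔔 : (q' : 𝓞 F) ∈ 𝔔 := (h33_natCast_mem_under (E := F) q' 𝔓).mpr hq𝔓
    have h𝔔0 : 𝔔 ≠ ⊥ := by
      intro h
      rw [h] at hq𝔔
      exact hq'0 hq𝔔
    have h𝔔𝔮 : 𝔔.under (𝓞 K) = 𝔮 := by
      rw [h𝔔, Ideal.under_under, h𝔓𝔮]
    have hI : ∀ (g : F ≃ₐ[K] F) (x : 𝓞 F), g • x - x ∈ 𝔔 := by
      intro g x
      obtain ⟨γ', rfl⟩ := AlgEquiv.restrictNormalHom_surjective Ω g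
      obtain ⟨z, hz, hzi⟩ := hZI γ'
      set i : Ω ≃ₐ[K] Ω := z⁻¹ * γ' with hi
      have hiL : ∀ x : L, i (algebraMap L Ω x) = algebraMap L Ω x := by
        intro x
        have := AlgEquiv.restrictNormal_commutes i L x
        rw [← this]
        have h1 : i.restrictNormal L = 1 := hzi
        rw [h1]
        rfl
      have hmem := hA3 𝔓 h𝔓 hq𝔓 i hiL (algebraMap (𝓞 F) (𝓞 Ω) x)
      rw [h𝔔, Ideal.under_def, Ideal.mem_comap]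
      have hγ' : γ' = z * i := by rw [hi, mul_inv_cancel_left]
      have heq : algebraMap (𝓞 F) (𝓞 Ω) (AlgEquiv.restrictNormalHom F γ' • x - x) =
          i • (algebraMap (𝓞 F) (𝓞 Ω) x) - algebraMap (𝓞 F) (𝓞 Ω) x := by
        rw [map_sub, sub_left_inj]
        apply RingOfIntegers.ext
        show algebraMap F Ω ((γ'.restrictNormal F) (x : F)) = i (algebraMap F Ω (x : F))
        rw [AlgEquiv.restrictNormal_commutes, hγ']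
        show z (i (algebraMap F Ω (x : F))) = i (algebraMap F Ω (x : F))
        rw [← AlgEquiv.restrictNormal_commutes i F]
        exact hFZ z hz _
      rw [heq]
      exact hmem
    haveI : 𝔔.IsPrime := by rw [h𝔔]; infer_instance
    obtain ⟨y, hy⟩ := fldN_norm_sub_pow_mem (k := K) (M := F) 𝔔 h𝔔0 hI γ
    rw [h𝔔𝔮, hdegF] at hy
    exact ⟨y, hy⟩
  obtain ⟨y, hy⟩ := fldN_norm_pow_residue p K q' hq' hq'p p (RingOfIntegers.norm K γ) hcong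
  rw [fldN_absNorm_span (k := K) (M := F) γ]
  rcases Int.natAbs_eq (Algebra.norm ℤ (RingOfIntegers.norm K γ)) with h | h
  · refine ⟨y, ?_⟩
    rw [← hy]
    conv_rhs => rw [h]
    simp
  · refine ⟨-y, ?_⟩
    have hodd : Odd p := (Fact.out : p.Prime).odd_of_ne_two hp2
    rw [hodd.neg_pow, ← hy]
    conv_rhs => rw [h]
    simp

/-- (B4) -/
theorem h33_B4 (q' : ℕ)
    (hA2 : ∀ 𝔓 : Ideal (𝓞 Ω), 𝔓.IsPrime → 𝔓 ≠ ⊥ → (q' : 𝓞 Ω) ∉ 𝔓 →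
      𝔓.ramificationIdx (𝓞 K) = 1)
    (P : Ideal (𝓞 F)) (hP : P.IsPrime) (hP0 : P ≠ ⊥) (hq : (q' : 𝓞 F) ∉ P)
    (hf : P.inertiaDeg (𝓞 K) = 1) (hs : SplitsCompletely (𝓞 F) (𝓞 N) P) :
    SplitsCompletely (𝓞 K) (𝓞 L) (P.under (𝓞 K)) := by
  haveI := hP
  obtain ⟨𝔓, h𝔓, h𝔓P, h𝔓0, hq𝔓⟩ := h33_exists_over (E := F) (M := Ω) q' P hP hP0 hq
  haveI := h𝔓
  have h1 := hA2 𝔓 h𝔓 h𝔓0 hq𝔓
  have he := (fldT_ramificationIdx_tower (k := K) (E := F) (M := Ω) 𝔓 h1).2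
  rw [h𝔓P] at he
  exact fldT_splits_of_splits_above (k := K) (E := F) (M := N) (E' := L) P hP0 he hf hs

end B

/-! ### The fixed fields as Types -/

section Fixed

variable {K L Ω : Type} [Field K] [NumberField K] [Field L] [NumberField L] [Field Ω]
  [NumberField Ω] [Algebra K L] [Algebra K Ω] [Algebra L Ω] [IsScalarTower K L Ω]
  [IsGalois K L] [IsGalois K Ω]

theorem h33_finrank_fixedField (Z : Subgroup (Ω ≃ₐ[K] Ω)) :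
    Module.finrank K (IntermediateField.fixedField Z) = Z.index := by
  have h1 := IntermediateField.finrank_fixedField_eq_card Z
  have h2 := Module.finrank_mul_finrank K (IntermediateField.fixedField Z) Ω
  have h3 := IsGalois.card_aut_eq_finrank K Ω
  have h4 := Z.card_mul_index
  have hpos : 0 < Nat.card Z := Nat.card_pos
  rw [h1, ← h3, ← h4, mul_comm] at h2
  exact Nat.eq_of_mul_eq_mul_left hpos h2

theorem h33_exists_fields_of_subgroups (p : ℕ) [Fact p.Prime] (hp2 : p ≠ 2)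
    [IsCyclotomicExtension {p} ℚ K]
    (hunr : ∀ Q : Ideal (𝓞 L), Q.IsPrime → Q ≠ ⊥ → Q.ramificationIdx (𝓞 K) = 1)
    (q' : ℕ) (hq' : q'.Prime) (hq'p : q' % p = 1)
    (σ₀ : L ≃ₐ[K] L) (u₀ : ZMod q') {ζ : Ω} (hζ : IsPrimitiveRoot ζ q')
    (hcomm : ∀ a b : Ω ≃ₐ[K] Ω, a * b = b * a)
    (Z NN : Subgroup (Ω ≃ₐ[K] Ω)) (hle : NN ≤ Z) (hZidx : Z.index = p)
    (hNNidx : NN.index = p * p)
    (hNN1 : ∀ γ ∈ NN, AlgEquiv.restrictNormalHom L γ = 1)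
    (hZNN : haveI : NeZero q' := ⟨hq'.ne_zero⟩; ∀ γ ∈ Z, (γ ∈ NN ↔
      ∃ y : ZMod q', ((hζ.autToPow K γ : (ZMod q')ˣ) : ZMod q') = y ^ p))
    (hZmem : haveI : NeZero q' := ⟨hq'.ne_zero⟩; ∀ (γ : Ω ≃ₐ[K] Ω) (k : ℕ) (y : ZMod q'),
      AlgEquiv.restrictNormalHom L γ = σ₀ ^ k →
      ((hζ.autToPow K γ : (ZMod q')ˣ) : ZMod q') = u₀ ^ k * y ^ p → γ ∈ Z)
    (hZI : ∀ γ : Ω ≃ₐ[K] Ω, ∃ z ∈ Z, AlgEquiv.restrictNormalHom L (z⁻¹ * γ) = 1)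
    (hA2 : ∀ 𝔓 : Ideal (𝓞 Ω), 𝔓.IsPrime → 𝔓 ≠ ⊥ → (q' : 𝓞 Ω) ∉ 𝔓 →
      𝔓.ramificationIdx (𝓞 K) = 1)
    (hA3 : ∀ 𝔓 : Ideal (𝓞 Ω), 𝔓.IsPrime → (q' : 𝓞 Ω) ∈ 𝔓 → ∀ σ : Ω ≃ₐ[K] Ω,
      (∀ x : L, σ (algebraMap L Ω x) = algebraMap L Ω x) → ∀ x : 𝓞 Ω, σ • x - x ∈ 𝔓) :
    ∃ (F N : Type) (_ : Field F) (_ : NumberField F) (_ : Field N) (_ : NumberField N)
      (_ : Algebra K F) (_ : Algebra F N) (_ : Algebra L N) (_ : Algebra K N)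
      (_ : IsScalarTower K F N) (_ : IsScalarTower K L N) (_ : IsGalois F N) (_ : IsGalois K F),
      Module.finrank F N = p ∧ Module.finrank K F = p ∧
      (∀ Q : Ideal (𝓞 N), Q.IsPrime → Q ≠ ⊥ → (q' : 𝓞 N) ∉ Q → Q.ramificationIdx (𝓞 F) = 1) ∧
      (∀ P : Ideal (𝓞 F), P.IsPrime → P ≠ ⊥ → (q' : 𝓞 F) ∉ P →
        (SplitsCompletely (𝓞 F) (𝓞 N) P ↔
          ∃ y : ZMod q', ((Ideal.absNorm P : ℕ) : ZMod q') = y ^ p)) ∧
      (∀ (P : Ideal (𝓞 K)) (R : Ideal (𝓞 L)) (σ : L ≃ₐ[K] L) (k : ℕ) (y : ZMod q'),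
        P.IsPrime → P ≠ ⊥ → (q' : 𝓞 K) ∉ P → R.IsPrime → R.LiesOver P →
        IsArithFrobAt (𝓞 K) σ R → σ = σ₀ ^ k →
        ((Ideal.absNorm P : ℕ) : ZMod q') = u₀ ^ k * y ^ p → SplitsCompletely (𝓞 K) (𝓞 F) P) ∧
      (∀ γ : 𝓞 F, γ ≠ 0 → IsCoprime (Ideal.span {γ}) (Ideal.span {(q' : 𝓞 F)}) →
        ∃ y : ZMod q', ((Ideal.absNorm (Ideal.span {γ}) : ℕ) : ZMod q') = y ^ p) ∧
      (∀ P : Ideal (𝓞 F), P.IsPrime → P ≠ ⊥ → (q' : 𝓞 F) ∉ P → P.inertiaDeg (𝓞 K) = 1 →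
        SplitsCompletely (𝓞 F) (𝓞 N) P → SplitsCompletely (𝓞 K) (𝓞 L) (P.under (𝓞 K))) := by
  haveI : NeZero q' := ⟨hq'.ne_zero⟩
  have hFN : IntermediateField.fixedField Z ≤ IntermediateField.fixedField NN :=
    IntermediateField.fixedField_le hle
  letI algFN : Algebra (IntermediateField.fixedField Z) (IntermediateField.fixedField NN) :=
    (IntermediateField.inclusion hFN).toRingHom.toAlgebra
  haveI : IsScalarTower K (IntermediateField.fixedField Z) (IntermediateField.fixedField NN) :=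
    IsScalarTower.of_algebraMap_eq (fun x => rfl)
  haveI : IsScalarTower (IntermediateField.fixedField Z) (IntermediateField.fixedField NN) Ω :=
    IsScalarTower.of_algebraMap_eq (fun x => rfl)
  have hLN : ∀ x : L, algebraMap L Ω x ∈ (IntermediateField.fixedField NN).toSubalgebra := by
    intro x
    show algebraMap L Ω x ∈ IntermediateField.fixedField NN
    rw [IntermediateField.mem_fixedField_iff]
    intro γ hγ
    have h1 := AlgEquiv.restrictNormal_commutes γ L x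
    rw [← h1]
    have h2 : γ.restrictNormal L = 1 := hNN1 γ hγ
    rw [h2]
    rfl
  let fLN : L →ₐ[K] (IntermediateField.fixedField NN) :=
    (IsScalarTower.toAlgHom K L Ω).codRestrict (IntermediateField.fixedField NN).toSubalgebra hLN
  letI algLN : Algebra L (IntermediateField.fixedField NN) := fLN.toRingHom.toAlgebra
  haveI : IsScalarTower K L (IntermediateField.fixedField NN) :=
    IsScalarTower.of_algebraMap_eq (fun x => (fLN.commutes x).symm)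
  haveI : Z.Normal := ⟨fun n hn g => by rw [hcomm g n, mul_inv_cancel_right]; exact hn⟩
  haveI : NN.Normal := ⟨fun n hn g => by rw [hcomm g n, mul_inv_cancel_right]; exact hn⟩
  haveI : IsGalois K (IntermediateField.fixedField Z) := IsGalois.of_fixedField_normal_subgroup Z
  haveI : IsGalois K (IntermediateField.fixedField NN) :=
    IsGalois.of_fixedField_normal_subgroup NN
  haveI : IsGalois (IntermediateField.fixedField Z) (IntermediateField.fixedField NN) :=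
    IsGalois.tower_top_of_isGalois K _ _
  have hdegF : Module.finrank K (IntermediateField.fixedField Z) = p := by
    rw [h33_finrank_fixedField, hZidx]
  have hdegN : Module.finrank K (IntermediateField.fixedField NN) = p * p := by
    rw [h33_finrank_fixedField, hNNidx]
  have hdegFN : Module.finrank (IntermediateField.fixedField Z)
      (IntermediateField.fixedField NN) = p := by
    have h := Module.finrank_mul_finrank K (IntermediateField.fixedField Z)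
      (IntermediateField.fixedField NN)
    rw [hdegF, hdegN] at h
    exact Nat.eq_of_mul_eq_mul_left (Fact.out : p.Prime).pos h
  -- membership dictionaries
  have hFZ : ∀ σ ∈ Z, ∀ x : IntermediateField.fixedField Z,
      σ (algebraMap (IntermediateField.fixedField Z) Ω x) =
        algebraMap (IntermediateField.fixedField Z) Ω x := by
    intro σ hσ x
    exact (IntermediateField.mem_fixedField_iff Z _).mp x.2 σ hσ
  have hF : ∀ σ : Ω ≃ₐ[K] Ω, (∀ x : IntermediateField.fixedField Z,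
      σ (algebraMap (IntermediateField.fixedField Z) Ω x) =
        algebraMap (IntermediateField.fixedField Z) Ω x) → σ ∈ Z := by
    intro σ hσ
    rw [← IntermediateField.fixingSubgroup_fixedField Z, IntermediateField.mem_fixingSubgroup_iff]
    intro x hx
    exact hσ ⟨x, hx⟩
  have hN : ∀ σ : Ω ≃ₐ[K] Ω, σ ∈ NN ↔ ∀ x : IntermediateField.fixedField NN,
      σ (algebraMap (IntermediateField.fixedField NN) Ω x) =
        algebraMap (IntermediateField.fixedField NN) Ω x := by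
    intro σ
    constructor
    · intro hσ x
      exact (IntermediateField.mem_fixedField_iff NN _).mp x.2 σ hσ
    · intro hσ
      rw [← IntermediateField.fixingSubgroup_fixedField NN,
        IntermediateField.mem_fixingSubgroup_iff]
      intro x hx
      exact hσ ⟨x, hx⟩
  refine ⟨IntermediateField.fixedField Z, IntermediateField.fixedField NN, inferInstance,
    inferInstance, inferInstance, inferInstance, inferInstance, algFN, algLN, inferInstance,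
    inferInstance, inferInstance, inferInstance, inferInstance, hdegFN, hdegF, ?_, ?_, ?_, ?_, ?_⟩
  · exact fun Q hQ hQ0 hq => h33_B0 (K := K) (Ω := Ω) q' hA2 Q hQ hQ0 hq
  · exact fun P hP hP0 hq =>
      h33_B1 (K := K) (Ω := Ω) p q' hζ Z NN hF hN hZNN hA2 P hP hP0 hq
  · exact fun P R σ k y hP hP0 hq hR hRP hσ hσk hNP =>
      h33_B2 (K := K) (L := L) (Ω := Ω) p q' hζ Z σ₀ u₀
        hFZ hZmem hunr hA2 P R σ k y hP hP0 hq hR hRP hσ hσk hNP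
  · exact fun γ _ _ =>
      h33_B3 (K := K) (L := L) (Ω := Ω) p q' hp2 hq' hq'p
        hdegF Z hFZ hZI hA3 γ
  · exact fun P hP hP0 hq hf hs =>
      h33_B4 (K := K) (L := L) (Ω := Ω) q' hA2 P hP hP0 hq hf hs

end Fixed

/-! ### The statement for an abstract `Ω = L(ζ_q')`, and the final theorem -/

theorem h33_exists_fields_omega (p : ℕ) [Fact p.Prime] (hp2 : p ≠ 2)
    (K L : Type) [Field K] [NumberField K] [Field L] [NumberField L] [Algebra K L] [IsGalois K L]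
    [IsCyclotomicExtension {p} ℚ K] (hdeg : Module.finrank K L = p)
    (hunr : ∀ Q : Ideal (𝓞 L), Q.IsPrime → Q ≠ ⊥ → Q.ramificationIdx (𝓞 K) = 1)
    (q' : ℕ) (hq' : q'.Prime) (hq'p : q' % p = 1)
    (σ₀ : L ≃ₐ[K] L) (hσ₀ : σ₀ ≠ 1) (u₀ : ZMod q') (hu₀ : ¬ ∃ y : ZMod q', u₀ = y ^ p)
    (Ω : Type) [Field Ω] [NumberField Ω] [Algebra K Ω] [Algebra L Ω] [IsScalarTower K L Ω]
    [IsCyclotomicExtension {q'} L Ω] :
    ∃ (F N : Type) (_ : Field F) (_ : NumberField F) (_ : Field N) (_ : NumberField N)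
      (_ : Algebra K F) (_ : Algebra F N) (_ : Algebra L N) (_ : Algebra K N)
      (_ : IsScalarTower K F N) (_ : IsScalarTower K L N) (_ : IsGalois F N) (_ : IsGalois K F),
      Module.finrank F N = p ∧ Module.finrank K F = p ∧
      (∀ Q : Ideal (𝓞 N), Q.IsPrime → Q ≠ ⊥ → (q' : 𝓞 N) ∉ Q → Q.ramificationIdx (𝓞 F) = 1) ∧
      (∀ P : Ideal (𝓞 F), P.IsPrime → P ≠ ⊥ → (q' : 𝓞 F) ∉ P →
        (SplitsCompletely (𝓞 F) (𝓞 N) P ↔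
          ∃ y : ZMod q', ((Ideal.absNorm P : ℕ) : ZMod q') = y ^ p)) ∧
      (∀ (P : Ideal (𝓞 K)) (R : Ideal (𝓞 L)) (σ : L ≃ₐ[K] L) (k : ℕ) (y : ZMod q'),
        P.IsPrime → P ≠ ⊥ → (q' : 𝓞 K) ∉ P → R.IsPrime → R.LiesOver P →
        IsArithFrobAt (𝓞 K) σ R → σ = σ₀ ^ k →
        ((Ideal.absNorm P : ℕ) : ZMod q') = u₀ ^ k * y ^ p → SplitsCompletely (𝓞 K) (𝓞 F) P) ∧
      (∀ γ : 𝓞 F, γ ≠ 0 → IsCoprime (Ideal.span {γ}) (Ideal.span {(q' : 𝓞 F)}) →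
        ∃ y : ZMod q', ((Ideal.absNorm (Ideal.span {γ}) : ℕ) : ZMod q') = y ^ p) ∧
      (∀ P : Ideal (𝓞 F), P.IsPrime → P ≠ ⊥ → (q' : 𝓞 F) ∉ P → P.inertiaDeg (𝓞 K) = 1 →
        SplitsCompletely (𝓞 F) (𝓞 N) P → SplitsCompletely (𝓞 K) (𝓞 L) (P.under (𝓞 K))) := by
  haveI : Fact q'.Prime := ⟨hq'⟩
  haveI : NeZero q' := ⟨hq'.ne_zero⟩
  have hp1 : 1 < p := (Fact.out : p.Prime).one_lt
  have hqp : q' ≠ p := by
    rintro rfl
    rw [Nat.mod_self] at hq'p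
    exact absurd hq'p (by norm_num)
  haveI : IsGalois K Ω := h33_isGalois_omega K L q' Ω
  obtain ⟨ζ, hζ⟩ := IsCyclotomicExtension.exists_isPrimitiveRoot L Ω (Set.mem_singleton q')
    (NeZero.ne q')
  have hG : Nat.card (L ≃ₐ[K] L) = p := by
    rw [IsGalois.card_aut_eq_finrank, hdeg]
  have hinj : ∀ γ : Ω ≃ₐ[K] Ω, AlgEquiv.restrictNormalHom L γ = 1 → hζ.autToPow K γ = 1 →
      γ = 1 := by
    intro γ h1 h2
    apply h33_eq_one_of_fix (L := L) hζ γ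
    · intro x
      have := AlgEquiv.restrictNormal_commutes γ L x
      rw [← this]
      have h1' : γ.restrictNormal L = 1 := h1
      rw [h1']
      rfl
    · have := hζ.autToPow_spec K γ
      rw [h2] at this
      rw [← this]
      have hv : ((1 : (ZMod q')ˣ) : ZMod q').val = 1 := by
        rw [Units.val_one]
        haveI : Fact (1 < q') := ⟨hq'.one_lt⟩
        exact ZMod.val_one q'
      rw [hv, pow_one]
  have hcard : Nat.card (Ω ≃ₐ[K] Ω) = p * (q' - 1) := by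
    rw [IsGalois.card_aut_eq_finrank, ← Module.finrank_mul_finrank K L Ω, hdeg,
      fldA_finrank p K L q' Ω hqp hunr]
  obtain ⟨hcomm, Z, NN, hle, hZidx, hNNidx, hNN1, hZNN, hZmem, hZI⟩ :=
    fldG_exists_subgroups p q' hq'p hG σ₀ hσ₀ u₀ hu₀ (AlgEquiv.restrictNormalHom L)
      (hζ.autToPow K) hinj hcard
  exact h33_exists_fields_of_subgroups p hp2 hunr q' hq' hq'p σ₀ u₀ hζ hcomm Z NN hle hZidx
    hNNidx hNN1 hZNN hZmem hZI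
    (fun 𝔓 h𝔓 h0 hq => fldA_unramified K L q' Ω hunr 𝔓 h𝔓 h0 hq)
    (fun 𝔓 h𝔓 hq σ hσ x => fldA_inertia p K L q' Ω hqp hunr 𝔓 h𝔓 hq σ hσ x)

theorem exists_fields (p : ℕ) [Fact p.Prime] (hp2 : p ≠ 2)
    (K L : Type) [Field K] [NumberField K] [Field L] [NumberField L] [Algebra K L] [IsGalois K L]
    [IsCyclotomicExtension {p} ℚ K] (hdeg : Module.finrank K L = p)
    (hunr : ∀ Q : Ideal (𝓞 L), Q.IsPrime → Q ≠ ⊥ → Q.ramificationIdx (𝓞 K) = 1)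
    (q' : ℕ) (hq' : q'.Prime) (hq'p : q' % p = 1)
    (σ₀ : L ≃ₐ[K] L) (hσ₀ : σ₀ ≠ 1) (u₀ : ZMod q') (hu₀ : ¬ ∃ y : ZMod q', u₀ = y ^ p) :
    ∃ (F N : Type) (_ : Field F) (_ : NumberField F) (_ : Field N) (_ : NumberField N)
      (_ : Algebra K F) (_ : Algebra F N) (_ : Algebra L N) (_ : Algebra K N)
      (_ : IsScalarTower K F N) (_ : IsScalarTower K L N) (_ : IsGalois F N) (_ : IsGalois K F),
      Module.finrank F N = p ∧ Module.finrank K F = p ∧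
      (∀ Q : Ideal (𝓞 N), Q.IsPrime → Q ≠ ⊥ → (q' : 𝓞 N) ∉ Q → Q.ramificationIdx (𝓞 F) = 1) ∧
      (∀ P : Ideal (𝓞 F), P.IsPrime → P ≠ ⊥ → (q' : 𝓞 F) ∉ P →
        (SplitsCompletely (𝓞 F) (𝓞 N) P ↔
          ∃ y : ZMod q', ((Ideal.absNorm P : ℕ) : ZMod q') = y ^ p)) ∧
      (∀ (P : Ideal (𝓞 K)) (R : Ideal (𝓞 L)) (σ : L ≃ₐ[K] L) (k : ℕ) (y : ZMod q'),
        P.IsPrime → P ≠ ⊥ → (q' : 𝓞 K) ∉ P → R.IsPrime → R.LiesOver P →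
        IsArithFrobAt (𝓞 K) σ R → σ = σ₀ ^ k →
        ((Ideal.absNorm P : ℕ) : ZMod q') = u₀ ^ k * y ^ p → SplitsCompletely (𝓞 K) (𝓞 F) P) ∧
      (∀ γ : 𝓞 F, γ ≠ 0 → IsCoprime (Ideal.span {γ}) (Ideal.span {(q' : 𝓞 F)}) →
        ∃ y : ZMod q', ((Ideal.absNorm (Ideal.span {γ}) : ℕ) : ZMod q') = y ^ p) ∧
      (∀ P : Ideal (𝓞 F), P.IsPrime → P ≠ ⊥ → (q' : 𝓞 F) ∉ P → P.inertiaDeg (𝓞 K) = 1 →
        SplitsCompletely (𝓞 F) (𝓞 N) P → SplitsCompletely (𝓞 K) (𝓞 L) (P.under (𝓞 K))) := by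
  haveI : NeZero q' := ⟨hq'.ne_zero⟩
  exact h33_exists_fields_omega p hp2 K L hdeg hunr q' hq' hq'p σ₀ hσ₀ u₀ hu₀
    (CyclotomicField q' L)

end Fermat.Agent.S14
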