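import Mathlib

set_option autoImplicit false
set_option linter.unusedSectionVars false

namespace Fermat.Agent.S14

open IsDedekindDomain nonZeroDivisors Filter Topology

open scoped Classical

noncomputable section

section EulerDedekind

variable {R : Type*} [CommRing R] [IsDedekindDomain R]

/-- A height one prime as a nonzero ideal. -/
def h13_toIdl (𝔭 : HeightOneSpectrum R) : (Ideal R)⁰ :=
  ⟨𝔭.asIdeal, mem_nonZeroDivisors_iff_ne_zero.mpr 𝔭.ne_bot⟩

@[simp] theorem h13_toIdl_coe (𝔭 : HeightOneSpectrum R) :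
    ((h13_toIdl 𝔭 : (Ideal R)⁰) : Ideal R) = 𝔭.asIdeal := rfl

theorem h13_idl_ne_zero (I : (Ideal R)⁰) : (I : Ideal R) ≠ 0 :=
  mem_nonZeroDivisors_iff_ne_zero.mp I.2

/-- Nonzero ideals all of whose prime factors lie in `s`. -/
def h13_supp (s : Finset (HeightOneSpectrum R)) : Set (Ideal R)⁰ :=
  {I | ∀ 𝔮 : HeightOneSpectrum R, 𝔮.asIdeal ∣ (I : Ideal R) → 𝔮 ∈ s}

theorem h13_mem_supp {s : Finset (HeightOneSpectrum R)} {I : (Ideal R)⁰} :
    I ∈ h13_supp s ↔ ∀ 𝔮 : HeightOneSpectrum R, 𝔮.asIdeal ∣ (I : Ideal R) → 𝔮 ∈ s := Iff.rfl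

theorem h13_dvd_prime_iff {𝔮 𝔭 : HeightOneSpectrum R} : 𝔮.asIdeal ∣ 𝔭.asIdeal ↔ 𝔮 = 𝔭 := by
  constructor
  · intro h
    have hle : 𝔭.asIdeal ≤ 𝔮.asIdeal := Ideal.dvd_iff_le.mp h
    exact HeightOneSpectrum.ext (𝔭.isMaximal.eq_of_le 𝔮.isPrime.ne_top hle).symm
  · rintro rfl
    exact dvd_rfl

theorem h13_supp_empty (I : (Ideal R)⁰) : I ∈ h13_supp (∅ : Finset (HeightOneSpectrum R)) ↔ I = 1 := by
  constructor
  · intro h
    by_contra hI
    have hI' : (I : Ideal R) ≠ ⊤ := fun h1 => hI (Subtype.ext (by simpa using h1))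
    obtain ⟨M, hM, hle⟩ := Ideal.exists_le_maximal _ hI'
    have hM0 : M ≠ ⊥ := fun h0 => h13_idl_ne_zero I (le_bot_iff.mp (h0 ▸ hle))
    have := h ⟨M, hM.isPrime, hM0⟩ (Ideal.dvd_iff_le.mpr hle)
    simp at this
  · rintro rfl 𝔮 h𝔮
    exfalso
    have : (𝔮.asIdeal : Ideal R) = ⊤ := by
      have h1 : 𝔮.asIdeal ∣ (1 : Ideal R) := by simpa using h𝔮
      exact Ideal.isUnit_iff.mp (isUnit_of_dvd_one h1)
    exact 𝔮.isPrime.ne_top this

theorem h13_pow_mul_mem_supp {s : Finset (HeightOneSpectrum R)} (𝔭 : HeightOneSpectrum R) (e : ℕ)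
    {I : (Ideal R)⁰} (hI : I ∈ h13_supp s) : h13_toIdl 𝔭 ^ e * I ∈ h13_supp (insert 𝔭 s) := by
  intro 𝔮 h𝔮
  have h1 : 𝔮.asIdeal ∣ 𝔭.asIdeal ^ e * (I : Ideal R) := by simpa using h𝔮
  rcases 𝔮.prime.dvd_or_dvd h1 with h | h
  · exact Finset.mem_insert.mpr (Or.inl (h13_dvd_prime_iff.mp (𝔮.prime.dvd_of_dvd_pow h)))
  · exact Finset.mem_insert.mpr (Or.inr (hI 𝔮 h))

/-- The map `(e, I) ↦ 𝔭 ^ e * I` on ideals supported on `s`. -/
def h13_ins (s : Finset (HeightOneSpectrum R)) (𝔭 : HeightOneSpectrum R) :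
    ℕ × h13_supp s → h13_supp (insert 𝔭 s) :=
  fun x => ⟨h13_toIdl 𝔭 ^ x.1 * x.2.1, h13_pow_mul_mem_supp 𝔭 x.1 x.2.2⟩

theorem h13_ins_bijective (s : Finset (HeightOneSpectrum R)) (𝔭 : HeightOneSpectrum R)
    (h𝔭 : 𝔭 ∉ s) : Function.Bijective (h13_ins s 𝔭) := by
  have hnd : ∀ I : h13_supp s, ¬ 𝔭.asIdeal ∣ ((I : (Ideal R)⁰) : Ideal R) := fun I h => h𝔭 (I.2 𝔭 h)
  constructor
  · -- injective
    have key : ∀ (e e' : ℕ) (I I' : h13_supp s), e ≤ e' →
        𝔭.asIdeal ^ e * ((I : (Ideal R)⁰) : Ideal R) = 𝔭.asIdeal ^ e' * ((I' : (Ideal R)⁰) : Ideal R) →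
        e = e' ∧ I = I' := by
      intro e e' I I' hle h
      obtain ⟨d, rfl⟩ := Nat.exists_eq_add_of_le hle
      rw [pow_add, mul_assoc] at h
      have h2 : ((I : (Ideal R)⁰) : Ideal R) = 𝔭.asIdeal ^ d * ((I' : (Ideal R)⁰) : Ideal R) :=
        mul_left_cancel₀ (pow_ne_zero e 𝔭.ne_bot) h
      have hd : d = 0 := by
        by_contra hd
        apply hnd I
        rw [h2]
        exact Dvd.dvd.mul_right (dvd_pow_self _ hd) _
      subst hd
      refine ⟨rfl, Subtype.ext (Subtype.ext ?_)⟩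
      simpa using h2
    rintro ⟨e, I⟩ ⟨e', I'⟩ h
    have h' : 𝔭.asIdeal ^ e * ((I : (Ideal R)⁰) : Ideal R) =
        𝔭.asIdeal ^ e' * ((I' : (Ideal R)⁰) : Ideal R) := by
      have := congrArg (fun x : h13_supp (insert 𝔭 s) => ((x : (Ideal R)⁰) : Ideal R)) h
      simpa [h13_ins] using this
    rcases le_total e e' with hle | hle
    · obtain ⟨h1, h2⟩ := key e e' I I' hle h'
      rw [h1, h2]
    · obtain ⟨h1, h2⟩ := key e' e I' I hle h'.symm
      rw [h1, h2]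
  · -- surjective
    rintro ⟨J, hJ⟩
    have hfin : FiniteMultiplicity 𝔭.asIdeal (J : Ideal R) :=
      FiniteMultiplicity.of_not_isUnit 𝔭.irreducible.not_isUnit (h13_idl_ne_zero J)
    obtain ⟨c, hc, hnc⟩ := hfin.exists_eq_pow_mul_and_not_dvd
    have hc0 : c ≠ 0 := by
      rintro rfl
      exact h13_idl_ne_zero J (by rw [hc, mul_zero])
    let I : (Ideal R)⁰ := ⟨c, mem_nonZeroDivisors_iff_ne_zero.mpr hc0⟩
    have hI : I ∈ h13_supp s := by
      intro 𝔮 h𝔮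
      have h1 : 𝔮.asIdeal ∣ (J : Ideal R) := by
        rw [hc]
        exact Dvd.dvd.mul_left h𝔮 _
      rcases Finset.mem_insert.mp (hJ 𝔮 h1) with h | h
      · exact absurd (h ▸ h𝔮) hnc
      · exact h
    refine ⟨(multiplicity 𝔭.asIdeal (J : Ideal R), ⟨I, hI⟩), ?_⟩
    apply Subtype.ext
    apply Subtype.ext
    simp only [h13_ins, Submonoid.coe_mul, SubmonoidClass.coe_pow, h13_toIdl_coe]
    exact hc.symm

variable {𝕜 : Type*} [NormedField 𝕜] [CompleteSpace 𝕜]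

theorem h13_toIdl_pow_injective (𝔭 : HeightOneSpectrum R) :
    Function.Injective fun k : ℕ => (h13_toIdl 𝔭 : (Ideal R)⁰) ^ k := by
  intro m n h
  have h' : 𝔭.asIdeal ^ m = 𝔭.asIdeal ^ n := by
    have := congrArg (fun x : (Ideal R)⁰ => (x : Ideal R)) h
    simpa using this
  exact (pow_inj_of_not_isUnit 𝔭.irreducible.not_isUnit 𝔭.ne_bot).mp h'

theorem h13_norm_lt_one (f : (Ideal R)⁰ →* 𝕜) (hsum : Summable fun I => ‖f I‖)
    (𝔭 : HeightOneSpectrum R) : ‖f (h13_toIdl 𝔭)‖ < 1 := by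
  have h1 : Summable fun k : ℕ => ‖f (h13_toIdl 𝔭 ^ k)‖ :=
    hsum.comp_injective (h13_toIdl_pow_injective 𝔭)
  have h2 : Summable fun k : ℕ => ‖f (h13_toIdl 𝔭)‖ ^ k := by
    refine h1.congr fun k => ?_
    rw [map_pow, norm_pow]
  have h3 := summable_geometric_iff_norm_lt_one.mp h2
  rwa [norm_norm] at h3

theorem h13_hasSum_supp (f : (Ideal R)⁰ →* 𝕜) (hsum : Summable fun I => ‖f I‖)
    (s : Finset (HeightOneSpectrum R)) :
    HasSum (fun I : h13_supp s => f I) (∏ 𝔭 ∈ s, (1 - f (h13_toIdl 𝔭))⁻¹) := by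
  induction s using Finset.induction_on with
  | empty =>
    have h1 : (1 : (Ideal R)⁰) ∈ h13_supp (∅ : Finset (HeightOneSpectrum R)) :=
      (h13_supp_empty 1).mpr rfl
    have h2 := hasSum_single (f := fun I : h13_supp (∅ : Finset (HeightOneSpectrum R)) => f I)
      ⟨1, h1⟩ (fun b hb => absurd (Subtype.ext ((h13_supp_empty b.1).mp b.2)) hb)
    simpa using h2
  | insert 𝔭 s h𝔭 ih =>
    have hgeo : HasSum (fun k : ℕ => f (h13_toIdl 𝔭) ^ k) (1 - f (h13_toIdl 𝔭))⁻¹ :=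
      hasSum_geometric_of_norm_lt_one (h13_norm_lt_one f hsum 𝔭)
    have hn1 : Summable fun k : ℕ => ‖f (h13_toIdl 𝔭) ^ k‖ := by
      have := summable_geometric_iff_norm_lt_one.mpr
        (by rw [norm_norm]; exact h13_norm_lt_one f hsum 𝔭 : ‖‖f (h13_toIdl 𝔭)‖‖ < 1)
      refine this.congr fun k => ?_
      rw [norm_pow]
    have hn2 : Summable fun I : h13_supp s => ‖f I‖ := hsum.subtype _
    have hprod : Summable fun x : ℕ × h13_supp s => f (h13_toIdl 𝔭) ^ x.1 * f x.2 :=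
      (Summable.mul_norm hn1 hn2).of_norm
    have h3 := hgeo.mul ih hprod
    rw [Finset.prod_insert h𝔭]
    refine ((Equiv.ofBijective _ (h13_ins_bijective s 𝔭 h𝔭)).hasSum_iff).mp ?_
    have hfun : (fun I : h13_supp (insert 𝔭 s) => f I) ∘
        (Equiv.ofBijective _ (h13_ins_bijective s 𝔭 h𝔭)) =
        fun x : ℕ × h13_supp s => f (h13_toIdl 𝔭) ^ x.1 * f x.2 := by
      funext x
      simp only [Function.comp_apply, Equiv.ofBijective_apply, h13_ins, map_mul, map_pow]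
    rw [hfun]
    exact h3

/-- **Euler product** for a completely multiplicative function on the nonzero ideals of a
Dedekind domain. -/
theorem h13_euler (f : (Ideal R)⁰ →* 𝕜) (hsum : Summable fun I => ‖f I‖) :
    HasProd (fun 𝔭 : HeightOneSpectrum R => (1 - f (h13_toIdl 𝔭))⁻¹) (∑' I, f I) := by
  have key : Tendsto (fun s : Finset (HeightOneSpectrum R) =>
      ∑' I, (h13_supp s).indicator (fun I => f I) I) atTop (𝓝 (∑' I, f I)) := by
    refine tendsto_tsum_of_dominated_convergence (bound := fun I => ‖f I‖) hsum ?_ ?_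
    · intro I
      refine tendsto_atTop_of_eventually_const
        (i₀ := (Ideal.finite_factors (h13_idl_ne_zero I)).toFinset) fun s hs => ?_
      refine Set.indicator_of_mem ?_ _
      intro 𝔮 h𝔮
      exact hs ((Set.Finite.mem_toFinset _).mpr h𝔮)
    · refine Eventually.of_forall fun s I => ?_
      by_cases hI : I ∈ h13_supp s
      · rw [Set.indicator_of_mem hI]
      · rw [Set.indicator_of_notMem hI, norm_zero]
        exact norm_nonneg _
  unfold HasProd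
  rw [SummationFilter.unconditional_filter]
  refine key.congr fun s => ?_
  rw [← tsum_subtype (h13_supp s) fun I => f I]
  exact (h13_hasSum_supp f hsum s).tsum_eq

end EulerDedekind

end

end Fermat.Agent.S14
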