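import Mathlib
import Fermat.Agent.S14.Defs
import Fermat.Agent.S14.h13_Euler
import Fermat.Agent.S14.h35_Zeta

/-!
# Package ZB of project S14: sums over ideals and the Dedekind zeta function

The six interface statements of the S14 skeleton, verbatim.  (Underlying files:
`h35_Euler.lean`, `h35_Zeta.lean` and helper13's `h13_Euler.lean`.)
-/

namespace Fermat.Agent.S14

open NumberField Filter Topology
open scoped nonZeroDivisors

/-- Sums over the nonzero ideals agree with sums over all ideals when the zero ideal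
contributes `0`. -/
theorem h35_tsum_nonZeroDivisors {F : Type*} [Field F] [NumberField F] {α : Type*}
    [AddCommMonoid α] [TopologicalSpace α] (φ : Ideal (𝓞 F) → α) (h0 : φ ⊥ = 0) :
    ∑' I : (Ideal (𝓞 F))⁰, φ (I : Ideal (𝓞 F)) = ∑' I : Ideal (𝓞 F), φ I := by
  refine tsum_subtype_eq_of_support_subset (s := ((Ideal (𝓞 F))⁰ : Set (Ideal (𝓞 F)))) ?_
  intro I hI
  refine mem_nonZeroDivisors_of_ne_zero ?_
  rintro rfl
  exact hI h0

theorem summable_absNorm_rpow (F : Type*) [Field F] [NumberField F] {s : ℝ} (hs : 1 < s) :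
    Summable fun I : (Ideal (𝓞 F))⁰ => (Ideal.absNorm (I : Ideal (𝓞 F)) : ℝ) ^ (-s) :=
  (h35_summable_absNorm_rpow F hs).comp_injective Subtype.val_injective

theorem idealSum_one_eq (F : Type*) [Field F] [NumberField F] {s : ℝ} (hs : 1 < s) :
    idealSum F (fun _ => 1) s = dedekindZeta F s := by
  have hs0 : -s ≠ 0 := neg_ne_zero.mpr (zero_lt_one.trans hs).ne'
  rw [idealSum, h35_dedekindZeta_ofReal F hs, Complex.ofReal_tsum]
  simp only [one_mul]
  exact h35_tsum_nonZeroDivisors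
    (fun I : Ideal (𝓞 F) => (((Ideal.absNorm I : ℝ) ^ (-s) : ℝ) : ℂ))
    (by simp [Real.zero_rpow hs0])

theorem tendsto_sub_one_mul_idealSum (F : Type*) [Field F] [NumberField F] :
    Tendsto (fun s : ℝ => (s - 1) * ∑' I : (Ideal (𝓞 F))⁰,
      (Ideal.absNorm (I : Ideal (𝓞 F)) : ℝ) ^ (-s)) (𝓝[>] 1) (𝓝 (dedekindZeta_residue F)) := by
  refine (h35_tendsto_sub_one_mul_zeta F).congr' ?_
  filter_upwards [self_mem_nhdsWithin] with s hs
  have hs0 : -s ≠ 0 := neg_ne_zero.mpr (zero_lt_one.trans (Set.mem_Ioi.mp hs)).ne'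
  rw [h35_zeta, h35_tsum_nonZeroDivisors
    (fun I : Ideal (𝓞 F) => (Ideal.absNorm I : ℝ) ^ (-s)) (by simp [Real.zero_rpow hs0])]

/-- the nonzero ideal attached to a height-one prime -/
noncomputable def primeIdeal {F : Type*} [Field F] [NumberField F]
    (v : IsDedekindDomain.HeightOneSpectrum (𝓞 F)) : (Ideal (𝓞 F))⁰ :=
  ⟨v.asIdeal, mem_nonZeroDivisors_of_ne_zero v.ne_bot⟩

theorem idealSum_summable (F : Type*) [Field F] [NumberField F]
    (g : (Ideal (𝓞 F))⁰ → ℂ) (hg : ∀ I, ‖g I‖ ≤ 1) {s : ℝ} (hs : 1 < s) :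
    Summable fun I : (Ideal (𝓞 F))⁰ =>
      g I * (((Ideal.absNorm (I : Ideal (𝓞 F)) : ℝ) ^ (-s) : ℝ) : ℂ) := by
  refine Summable.of_norm_bounded (summable_absNorm_rpow F hs) (fun I => ?_)
  rw [norm_mul, Complex.norm_real, Real.norm_of_nonneg (Real.rpow_nonneg (Nat.cast_nonneg _) _)]
  exact mul_le_of_le_one_left (Real.rpow_nonneg (Nat.cast_nonneg _) _) (hg I)

/-- The multiplicative function `I ↦ N(I)^(-s)` on nonzero ideals. -/
noncomputable def h35_normHom (F : Type*) [Field F] [NumberField F] (s : ℝ) :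
    (Ideal (𝓞 F))⁰ →* ℂ where
  toFun I := (((Ideal.absNorm (I : Ideal (𝓞 F)) : ℝ) ^ (-s) : ℝ) : ℂ)
  map_one' := by simp
  map_mul' I J := by
    rw [Submonoid.coe_mul, map_mul, Nat.cast_mul,
      Real.mul_rpow (Nat.cast_nonneg _) (Nat.cast_nonneg _), Complex.ofReal_mul]

/-- Euler product of a completely multiplicative bounded function on ideals. -/
theorem idealSum_hasProd (F : Type*) [Field F] [NumberField F]
    (g : (Ideal (𝓞 F))⁰ →* ℂ) (hg : ∀ I, ‖g I‖ ≤ 1) {s : ℝ} (hs : 1 < s) :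
    HasProd (fun v : IsDedekindDomain.HeightOneSpectrum (𝓞 F) =>
      (1 - g (primeIdeal v) * (((Ideal.absNorm v.asIdeal : ℝ) ^ (-s) : ℝ) : ℂ))⁻¹)
      (idealSum F g s) := by
  have hsum : Summable fun I : (Ideal (𝓞 F))⁰ => ‖(g * h35_normHom F s) I‖ :=
    (idealSum_summable F g hg hs).norm
  exact h13_euler (g * h35_normHom F s) hsum

end Fermat.Agent.S14
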