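import Mathlib

set_option autoImplicit false

open NumberField NumberField.InfinitePlace NumberField.mixedEmbedding NumberField.Units
  NumberField.Units.dirichletUnitTheorem Module

namespace Fermat.Agent.S14

noncomputable section

/-! ### The tent function and a partition of unity on `ℤ^r` -/

/-- The tent function `max 0 (1 - |t|)`. -/
def h93_tent (t : ℝ) : ℝ := max 0 (1 - |t|)

lemma h93_tent_nonneg (t : ℝ) : 0 ≤ h93_tent t := le_max_left _ _

lemma h93_tent_le_one (t : ℝ) : h93_tent t ≤ 1 := by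
  unfold h93_tent
  exact max_le zero_le_one (by linarith [abs_nonneg t])

lemma h93_tent_eq_zero {t : ℝ} (ht : 1 ≤ |t|) : h93_tent t = 0 := by
  unfold h93_tent
  exact max_eq_left (by linarith)

lemma h93_tent_of_abs_le {t : ℝ} (ht : |t| ≤ 1) : h93_tent t = 1 - |t| := by
  unfold h93_tent
  exact max_eq_right (by linarith)

lemma h93_tent_lipschitz (t t' : ℝ) : |h93_tent t - h93_tent t'| ≤ |t - t'| := by
  unfold h93_tent
  have h1 : |max 0 (1 - |t|) - max 0 (1 - |t'|)| ≤ |(1 - |t|) - (1 - |t'|)| := by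
    rw [max_comm 0 (1 - |t|), max_comm 0 (1 - |t'|)]
    exact abs_max_sub_max_le_abs _ _ _
  refine h1.trans ?_
  have : (1 - |t|) - (1 - |t'|) = |t'| - |t| := by ring
  rw [this]
  have := abs_abs_sub_abs_le_abs_sub t' t
  rw [abs_sub_comm t' t] at this
  exact this

lemma h93_tent_add_int_sum (t : ℝ) :
    h93_tent (t + ((-⌊t⌋ : ℤ) : ℝ)) + h93_tent (t + ((-⌊t⌋ - 1 : ℤ) : ℝ)) = 1 := by
  have h0 := Int.fract_nonneg t
  have h1 := Int.fract_lt_one t
  have e1 : t + ((-⌊t⌋ : ℤ) : ℝ) = Int.fract t := by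
    rw [Int.fract]; push_cast; ring
  have e2 : t + ((-⌊t⌋ - 1 : ℤ) : ℝ) = Int.fract t - 1 := by
    rw [Int.fract]; push_cast; ring
  rw [e1, e2, h93_tent_of_abs_le (by rw [abs_of_nonneg h0]; exact h1.le),
    h93_tent_of_abs_le (by rw [abs_of_nonpos (by linarith)]; linarith),
    abs_of_nonneg h0, abs_of_nonpos (by linarith)]
  ring

lemma h93_tent_add_int_eq_zero (t : ℝ) (m : ℤ) (h1 : m ≠ -⌊t⌋) (h2 : m ≠ -⌊t⌋ - 1) :
    h93_tent (t + (m : ℝ)) = 0 := by
  apply h93_tent_eq_zero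
  have h0 := Int.fract_nonneg t
  have h1' := Int.fract_lt_one t
  have e : t + (m : ℝ) = Int.fract t + ((m + ⌊t⌋ : ℤ) : ℝ) := by
    rw [Int.fract]; push_cast; ring
  rw [e]
  rcases lt_trichotomy (m + ⌊t⌋) 0 with h | h | h
  · have h3 : m + ⌊t⌋ ≤ -2 := by
      rcases (show m + ⌊t⌋ ≤ -1 by omega).lt_or_eq with h4 | h4
      · omega
      · exfalso; apply h2; omega
    have h4 : ((m + ⌊t⌋ : ℤ) : ℝ) ≤ -2 := by exact_mod_cast h3
    rw [abs_of_nonpos (by linarith)]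
    linarith
  · exfalso; apply h1; omega
  · have h4 : (1 : ℝ) ≤ ((m + ⌊t⌋ : ℤ) : ℝ) := by exact_mod_cast h
    rw [abs_of_nonneg (by linarith)]
    linarith

/-- Partition of unity in several variables: `∑_{m ∈ ℤ^ι} ∏_i tent (t_i + m_i) = 1` (in `ℝ≥0∞`). -/
lemma h93_tsum_prod_tent {ι : Type*} [Fintype ι] [DecidableEq ι] (t : ι → ℝ) :
    ∑' m : ι → ℤ, ENNReal.ofReal (∏ i, h93_tent (t i + (m i : ℝ))) = 1 := by
  classical
  let S : ι → Finset ℤ := fun i => {-⌊t i⌋, -⌊t i⌋ - 1}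
  rw [tsum_eq_sum (s := Fintype.piFinset S)]
  · have h1 : ∀ m : ι → ℤ, ENNReal.ofReal (∏ i, h93_tent (t i + (m i : ℝ))) =
        ∏ i, ENNReal.ofReal (h93_tent (t i + (m i : ℝ))) := fun m =>
      ENNReal.ofReal_prod_of_nonneg (fun i _ => h93_tent_nonneg _)
    simp_rw [h1]
    rw [← Finset.prod_univ_sum (fun i => S i) (fun i (j : ℤ) => ENNReal.ofReal (h93_tent (t i + (j : ℝ))))]
    apply Finset.prod_eq_one
    intro i _
    have hne : (-⌊t i⌋ : ℤ) ≠ -⌊t i⌋ - 1 := by omega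
    show ∑ j ∈ ({-⌊t i⌋, -⌊t i⌋ - 1} : Finset ℤ), _ = 1
    rw [Finset.sum_pair hne, ← ENNReal.ofReal_add (h93_tent_nonneg _) (h93_tent_nonneg _),
      h93_tent_add_int_sum, ENNReal.ofReal_one]
  · intro m hm
    rw [Fintype.mem_piFinset] at hm
    push Not at hm
    obtain ⟨i, hi⟩ := hm
    have hi' : m i ≠ -⌊t i⌋ ∧ m i ≠ -⌊t i⌋ - 1 := by
      simpa [S] using hi
    have : ∏ j, h93_tent (t j + (m j : ℝ)) = 0 :=
      Finset.prod_eq_zero (Finset.mem_univ i) (h93_tent_add_int_eq_zero _ _ hi'.1 hi'.2)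
    rw [this, ENNReal.ofReal_zero]

/-! ### Elementary real inequalities -/

lemma h93_log_sub_le {a a' t : ℝ} (ha : 0 < a) (ht0 : 0 ≤ t) (ht : t ≤ 1 / 2)
    (h : |a' - a| ≤ t * a) : 0 < a' ∧ |Real.log a' - Real.log a| ≤ 2 * t := by
  have h1 := abs_le.mp h
  have ha' : 0 < a' := by nlinarith [h1.1]
  refine ⟨ha', ?_⟩
  rw [← Real.log_div ha'.ne' ha.ne', abs_le]
  have hq : 0 < a' / a := div_pos ha' ha
  constructor
  · have h2 := Real.one_sub_inv_le_log_of_pos hq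
    have h3 : (a' / a)⁻¹ = a / a' := by rw [inv_div]
    have h4 : a / a' ≤ 1 + 2 * t := by
      rw [div_le_iff₀ ha']
      nlinarith [h1.1]
    rw [h3] at h2
    linarith
  · have h2 := Real.log_le_sub_one_of_pos hq
    have h3 : a' / a ≤ 1 + t := by
      rw [div_le_iff₀ ha]
      nlinarith [h1.2]
    linarith

lemma h93_abs_exp_sub_one_le (y : ℝ) : |Real.exp y - 1| ≤ |y| * Real.exp |y| := by
  rcases le_total 0 y with hy | hy
  · rw [abs_of_nonneg hy, abs_of_nonneg (by linarith [Real.add_one_le_exp y])]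
    have h1 := Real.add_one_le_exp (-y)
    have h2 : Real.exp (-y) * Real.exp y = 1 := by rw [← Real.exp_add]; simp
    nlinarith [Real.exp_pos y, Real.exp_pos (-y)]
  · rw [abs_of_nonpos hy, abs_of_nonpos (by linarith [Real.exp_le_one_iff.mpr hy])]
    have h1 := Real.add_one_le_exp y
    have h2 : (1 : ℝ) ≤ Real.exp (-y) := Real.one_le_exp (by linarith)
    nlinarith

lemma h93_abs_prod_sub_prod_le {ι : Type*} (s : Finset ι) (a b : ι → ℝ)
    (ha : ∀ i ∈ s, 0 ≤ a i ∧ a i ≤ 1) (hb : ∀ i ∈ s, 0 ≤ b i ∧ b i ≤ 1) :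
    |∏ i ∈ s, a i - ∏ i ∈ s, b i| ≤ ∑ i ∈ s, |a i - b i| := by
  classical
  induction s using Finset.induction_on with
  | empty => simp
  | insert j s hj ih =>
    rw [Finset.prod_insert hj, Finset.prod_insert hj, Finset.sum_insert hj]
    have ha' : ∀ i ∈ s, 0 ≤ a i ∧ a i ≤ 1 := fun i hi => ha i (Finset.mem_insert_of_mem hi)
    have hb' : ∀ i ∈ s, 0 ≤ b i ∧ b i ≤ 1 := fun i hi => hb i (Finset.mem_insert_of_mem hi)
    have ih' := ih ha' hb'
    have hA : 0 ≤ ∏ i ∈ s, a i ∧ ∏ i ∈ s, a i ≤ 1 :=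
      ⟨Finset.prod_nonneg fun i hi => (ha' i hi).1,
        Finset.prod_le_one (fun i hi => (ha' i hi).1) (fun i hi => (ha' i hi).2)⟩
    have hbj := hb j (Finset.mem_insert_self j s)
    have e : a j * ∏ i ∈ s, a i - b j * ∏ i ∈ s, b i =
        (a j - b j) * ∏ i ∈ s, a i + b j * (∏ i ∈ s, a i - ∏ i ∈ s, b i) := by ring
    rw [e]
    refine (abs_add_le _ _).trans ?_
    rw [abs_mul, abs_mul, abs_of_nonneg hA.1, abs_of_nonneg hbj.1]
    have h1 : |a j - b j| * ∏ i ∈ s, a i ≤ |a j - b j| :=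
      mul_le_of_le_one_right (abs_nonneg _) hA.2
    have h2 : b j * |∏ i ∈ s, a i - ∏ i ∈ s, b i| ≤ |∏ i ∈ s, a i - ∏ i ∈ s, b i| :=
      mul_le_of_le_one_left (abs_nonneg _) hbj.2
    linarith

/-- `∑_k k^(-1-δ) ≤ 1 + 1/δ`. -/
lemma h93_tsum_nat_rpow_le {δ : ℝ} (hδ : 0 < δ) :
    Summable (fun k : ℕ => (k : ℝ) ^ (-1 - δ)) ∧ ∑' k : ℕ, (k : ℝ) ^ (-1 - δ) ≤ 1 + 1 / δ := by
  have hsum : Summable (fun k : ℕ => (k : ℝ) ^ (-1 - δ)) :=
    Real.summable_nat_rpow.mpr (by linarith)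
  refine ⟨hsum, ?_⟩
  -- telescoping bound
  have key : ∀ k : ℕ, 1 ≤ k → δ * ((k : ℝ) + 1) ^ (-1 - δ) ≤ (k : ℝ) ^ (-δ) - ((k : ℝ) + 1) ^ (-δ) := by
    intro k hk
    have hk0 : (0 : ℝ) < k := by exact_mod_cast hk
    have hk1 : (0 : ℝ) < (k : ℝ) + 1 := by linarith
    set y : ℝ := 1 / ((k : ℝ) + 1) with hy
    have hy0 : 0 < y := by positivity
    have hy1 : y < 1 := by
      rw [hy, div_lt_one hk1]; linarith
    have h1 : (k : ℝ) = ((k : ℝ) + 1) * (1 - y) := by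
      rw [hy]; field_simp; ring
    have h2 : (k : ℝ) ^ (-δ) = ((k : ℝ) + 1) ^ (-δ) * (1 - y) ^ (-δ) := by
      conv_lhs => rw [h1]
      rw [Real.mul_rpow hk1.le (by linarith)]
    have h3 : 1 + δ * y ≤ (1 - y) ^ (-δ) := by
      rw [Real.rpow_def_of_pos (by linarith)]
      have h4 : Real.log (1 - y) ≤ -y := by
        have := Real.log_le_sub_one_of_pos (show 0 < 1 - y by linarith)
        linarith
      have h5 : δ * y ≤ Real.log (1 - y) * -δ := by nlinarith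
      linarith [Real.add_one_le_exp (Real.log (1 - y) * -δ)]
    have h6 : ((k : ℝ) + 1) ^ (-1 - δ) = ((k : ℝ) + 1) ^ (-δ) * y := by
      rw [hy, show (-1 - δ) = -δ - 1 by ring, Real.rpow_sub_one hk1.ne']
      ring
    have hpos : 0 < ((k : ℝ) + 1) ^ (-δ) := Real.rpow_pos_of_pos hk1 _
    rw [h2, h6]
    nlinarith
  have hpart : ∀ n : ℕ, δ * ∑ k ∈ Finset.range (n + 2), (k : ℝ) ^ (-1 - δ) ≤
      δ + 1 - ((n : ℝ) + 1) ^ (-δ) := by
    intro n
    induction n with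
    | zero =>
      have h0 : (0 : ℝ) ^ (-1 - δ) = 0 := Real.zero_rpow (by linarith)
      simp [Finset.sum_range_succ, h0]
    | succ n ih =>
      rw [Finset.sum_range_succ, mul_add]
      have := key (n + 1) (by omega)
      push_cast at this ⊢
      have e : ((n : ℝ) + 1 + 1) = ((n : ℝ) + 2) := by ring
      rw [e] at this
      have e2 : ((n : ℝ) + 1 + 1) ^ (-δ) = ((n : ℝ) + 2) ^ (-δ) := by rw [e]
      linarith
  have hbound : ∀ n : ℕ, ∑ k ∈ Finset.range n, (k : ℝ) ^ (-1 - δ) ≤ 1 + 1 / δ := by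
    intro n
    have hmono : ∑ k ∈ Finset.range n, (k : ℝ) ^ (-1 - δ) ≤
        ∑ k ∈ Finset.range (n + 2), (k : ℝ) ^ (-1 - δ) :=
      Finset.sum_le_sum_of_subset_of_nonneg (Finset.range_mono (by omega))
        (fun k _ _ => Real.rpow_nonneg (Nat.cast_nonneg k) _)
    have h1 := hpart n
    have h2 : 0 ≤ ((n : ℝ) + 1) ^ (-δ) := Real.rpow_nonneg (by positivity) _
    have h3 : ∑ k ∈ Finset.range (n + 2), (k : ℝ) ^ (-1 - δ) ≤ (δ + 1) / δ := by
      rw [le_div_iff₀ hδ]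
      linarith
    have h4 : (δ + 1) / δ = 1 + 1 / δ := by field_simp
    linarith
  exact Real.tsum_le_of_sum_range_le (fun k => Real.rpow_nonneg (Nat.cast_nonneg k) _) hbound

/-! ### A Lipschitz partition of unity on the logarithmic space -/

open scoped Classical

variable (F : Type*) [Field F] [NumberField F]

/-- The real basis of the logarithmic space coming from the unit lattice. -/
def h93_B : Basis (Fin (rank F)) ℝ (logSpace F) :=
  (basisUnitLattice F).ofZLatticeBasis ℝ (unitLattice F)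

/-- The weight function on the logarithmic space: product of tents in the coordinates of the
unit lattice basis. -/
def h93_rho (y : logSpace F) : ℝ := ∏ i, h93_tent ((h93_B F).repr y i)

lemma h93_rho_nonneg (y : logSpace F) : 0 ≤ h93_rho F y :=
  Finset.prod_nonneg fun _ _ => h93_tent_nonneg _

lemma h93_rho_le_one (y : logSpace F) : h93_rho F y ≤ 1 :=
  Finset.prod_le_one (fun _ _ => h93_tent_nonneg _) (fun _ _ => h93_tent_le_one _)

/-- The unit group is `torsion × ℤ^r`. -/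
def h93_unitsEquiv : (torsion F × (Fin (rank F) → ℤ)) ≃ (𝓞 F)ˣ :=
  Equiv.ofBijective (fun ζe => (ζe.1 : (𝓞 F)ˣ) * ∏ i, (fundSystem F i) ^ (ζe.2 i)) (by
    rw [Function.bijective_iff_existsUnique]
    intro x
    obtain ⟨ζe, h1, h2⟩ := exist_unique_eq_mul_prod F x
    exact ⟨ζe, h1.symm, fun y hy => h2 y hy.symm⟩)

lemma h93_logEmbedding_unitsEquiv (ζe : torsion F × (Fin (rank F) → ℤ)) :
    logEmbedding F (Additive.ofMul (h93_unitsEquiv F ζe)) =
      ∑ i, (ζe.2 i : ℝ) • (h93_B F i) := by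
  have h0 : logEmbedding F (Additive.ofMul (ζe.1 : (𝓞 F)ˣ)) = 0 :=
    logEmbedding_eq_zero_iff.mpr ζe.1.2
  show logEmbedding F (Additive.ofMul ((ζe.1 : (𝓞 F)ˣ) * ∏ i, (fundSystem F i) ^ (ζe.2 i))) = _
  rw [ofMul_mul, map_add, h0, zero_add, ofMul_prod, map_sum]
  refine Finset.sum_congr rfl fun i _ => ?_
  rw [ofMul_zpow, map_zsmul, logEmbedding_fundSystem, h93_B, Basis.ofZLatticeBasis_apply]
  norm_cast

lemma h93_repr_add (ζe : torsion F × (Fin (rank F) → ℤ)) (y : logSpace F) (j : Fin (rank F)) :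
    (h93_B F).repr (logEmbedding F (Additive.ofMul (h93_unitsEquiv F ζe)) + y) j =
      (h93_B F).repr y j + (ζe.2 j : ℝ) := by
  classical
  rw [h93_logEmbedding_unitsEquiv, map_add, map_sum]
  simp only [map_smul, Basis.repr_self, Finsupp.coe_add, Finsupp.coe_finsetSum, Pi.add_apply,
    Finset.sum_apply, Finsupp.smul_apply, smul_eq_mul, Finsupp.single_apply]
  simp [add_comm]

/-- The sum of the weights over a unit orbit is the number of roots of unity. -/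
lemma h93_tsum_units_rho (y : logSpace F) :
    ∑' u : (𝓞 F)ˣ, ENNReal.ofReal (h93_rho F (logEmbedding F (Additive.ofMul u) + y)) =
      (torsionOrder F : ENNReal) := by
  classical
  rw [← (h93_unitsEquiv F).tsum_eq, ENNReal.tsum_prod']
  have h1 : ∀ ζ : torsion F, ∑' m : Fin (rank F) → ℤ, ENNReal.ofReal (h93_rho F
      (logEmbedding F (Additive.ofMul (h93_unitsEquiv F (ζ, m))) + y)) = 1 := by
    intro ζ
    have h2 : ∀ m : Fin (rank F) → ℤ, h93_rho F
        (logEmbedding F (Additive.ofMul (h93_unitsEquiv F (ζ, m))) + y) =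
        ∏ i, h93_tent ((h93_B F).repr y i + (m i : ℝ)) := by
      intro m
      unfold h93_rho
      refine Finset.prod_congr rfl fun i _ => ?_
      rw [h93_repr_add]
    simp_rw [h2]
    exact h93_tsum_prod_tent _
  simp_rw [h1]
  have : Fintype (torsion F) := Fintype.ofFinite _
  rw [tsum_fintype, Finset.sum_const, Finset.card_univ, nsmul_eq_mul, mul_one, torsionOrder,
    Nat.card_eq_fintype_card]

/-- The weight function vanishes outside a bounded set. -/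
lemma h93_rho_support : ∃ R : ℝ, 0 ≤ R ∧ ∀ y : logSpace F, h93_rho F y ≠ 0 → ‖y‖ ≤ R := by
  refine ⟨∑ i, ‖h93_B F i‖, Finset.sum_nonneg fun _ _ => norm_nonneg _, fun y hy => ?_⟩
  have h1 : ∀ i, |(h93_B F).repr y i| ≤ 1 := by
    intro i
    by_contra hcon
    push Not at hcon
    apply hy
    unfold h93_rho
    exact Finset.prod_eq_zero (Finset.mem_univ i) (h93_tent_eq_zero hcon.le)
  calc ‖y‖ = ‖∑ i, (h93_B F).repr y i • h93_B F i‖ := by rw [(h93_B F).sum_repr]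
    _ ≤ ∑ i, ‖(h93_B F).repr y i • h93_B F i‖ := norm_sum_le _ _
    _ ≤ ∑ i, ‖h93_B F i‖ := by
        refine Finset.sum_le_sum fun i _ => ?_
        rw [_root_.norm_smul, Real.norm_eq_abs]
        exact mul_le_of_le_one_left (norm_nonneg _) (h1 i)

/-- The weight function is Lipschitz. -/
lemma h93_rho_lipschitz :
    ∃ L : ℝ, 0 ≤ L ∧ ∀ y y' : logSpace F, |h93_rho F y - h93_rho F y'| ≤ L * ‖y - y'‖ := by
  refine ⟨∑ i, ‖LinearMap.toContinuousLinearMap ((h93_B F).coord i)‖,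
    Finset.sum_nonneg fun _ _ => norm_nonneg _, fun y y' => ?_⟩
  unfold h93_rho
  refine (h93_abs_prod_sub_prod_le _ _ _ (fun i _ => ⟨h93_tent_nonneg _, h93_tent_le_one _⟩)
    (fun i _ => ⟨h93_tent_nonneg _, h93_tent_le_one _⟩)).trans ?_
  rw [Finset.sum_mul]
  refine Finset.sum_le_sum fun i _ => ?_
  refine (h93_tent_lipschitz _ _).trans ?_
  have h1 : (h93_B F).repr y i - (h93_B F).repr y' i =
      LinearMap.toContinuousLinearMap ((h93_B F).coord i) (y - y') := by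
    simp [Basis.coord_apply]
  rw [h1, ← Real.norm_eq_abs]
  exact ContinuousLinearMap.le_opNorm _ _

/-- On the support of the weight, every place is comparable to the sup norm. -/
lemma h93_normAtPlace_ge : ∃ c : ℝ, 0 < c ∧ c ≤ 1 ∧ ∀ x : mixedSpace F,
    mixedEmbedding.norm x ≠ 0 → h93_rho F (logMap x) ≠ 0 →
    ∀ w : InfinitePlace F, c * ‖x‖ ≤ normAtPlace w x := by
  obtain ⟨R, hR0, hR⟩ := h93_rho_support F
  set κ : ℝ := (Fintype.card (InfinitePlace F) : ℝ) * R with hκ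
  have hcard : (1 : ℝ) ≤ Fintype.card (InfinitePlace F) := by
    exact_mod_cast Fintype.card_pos
  have hκ0 : 0 ≤ κ := by positivity
  have hRκ : R ≤ κ := by nlinarith
  refine ⟨Real.exp (-2 * κ), Real.exp_pos _, Real.exp_le_one_iff.mpr (by linarith),
    fun x hx hρ w => ?_⟩
  have hy := hR _ hρ
  have hpos : ∀ v, 0 < normAtPlace v x := fun v =>
    lt_of_le_of_ne (normAtPlace_nonneg v x) (Ne.symm (mixedEmbedding.norm_ne_zero_iff.mp hx v))
  set m : ℝ := Real.log (mixedEmbedding.norm x) * (finrank ℚ F : ℝ)⁻¹ with hm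
  have hmult : ∀ v : InfinitePlace F, (1 : ℝ) ≤ (mult v : ℝ) := fun v => by
    exact_mod_cast InfinitePlace.one_le_mult
  have hcomp' : ∀ v : {v : InfinitePlace F // v ≠ w₀},
      |(mult v.1 : ℝ) * (Real.log (normAtPlace v.1 x) - m)| ≤ R := by
    intro v
    have h1 : ‖logMap x v‖ ≤ R := (norm_le_pi_norm (logMap x) v).trans hy
    rw [Real.norm_eq_abs, logMap_apply] at h1
    exact h1
  have hcomp : ∀ v : {v : InfinitePlace F // v ≠ w₀},
      |Real.log (normAtPlace v.1 x) - m| ≤ R := by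
    intro v
    have h1 := hcomp' v
    rw [abs_mul, abs_of_nonneg (by linarith [hmult v.1])] at h1
    nlinarith [abs_nonneg (Real.log (normAtPlace v.1 x) - m), hmult v.1]
  have hsum : ∑ v, (mult v : ℝ) * (Real.log (normAtPlace v x) - m) = 0 := by
    have h1 : Real.log (mixedEmbedding.norm x) =
        ∑ v, (mult v : ℝ) * Real.log (normAtPlace v x) := by
      rw [mixedEmbedding.norm_apply, Real.log_prod (fun v _ => pow_ne_zero _ (hpos v).ne')]
      exact Finset.sum_congr rfl fun v _ => Real.log_pow _ _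
    have h2 : ∑ v : InfinitePlace F, (mult v : ℝ) = (finrank ℚ F : ℝ) := by
      exact_mod_cast (sum_mult_eq (K := F))
    have h3 : (finrank ℚ F : ℝ) ≠ 0 := Nat.cast_ne_zero.mpr finrank_pos.ne'
    simp_rw [mul_sub]
    rw [Finset.sum_sub_distrib, ← Finset.sum_mul, h2, ← h1, hm]
    field_simp
    ring
  have hw0 : |Real.log (normAtPlace w₀ x) - m| ≤ κ := by
    rw [Fintype.sum_eq_add_sum_subtype_ne _ w₀] at hsum
    have h1 : (mult (w₀ : InfinitePlace F) : ℝ) * (Real.log (normAtPlace w₀ x) - m) =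
        -∑ v : {v : InfinitePlace F // v ≠ w₀},
          (mult v.1 : ℝ) * (Real.log (normAtPlace v.1 x) - m) := by linarith
    have h2 : |∑ v : {v : InfinitePlace F // v ≠ w₀},
        (mult v.1 : ℝ) * (Real.log (normAtPlace v.1 x) - m)| ≤
        (Fintype.card {v : InfinitePlace F // v ≠ w₀} : ℝ) * R := by
      refine (Finset.abs_sum_le_sum_abs _ _).trans ?_
      refine (Finset.sum_le_sum fun v _ => hcomp' v).trans ?_
      rw [Finset.sum_const, Finset.card_univ, nsmul_eq_mul]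
    have h3 : (Fintype.card {v : InfinitePlace F // v ≠ w₀} : ℝ) ≤
        (Fintype.card (InfinitePlace F) : ℝ) := by
      exact_mod_cast Fintype.card_subtype_le _
    have h4 : |(mult (w₀ : InfinitePlace F) : ℝ) * (Real.log (normAtPlace w₀ x) - m)| ≤ κ := by
      rw [h1, abs_neg]
      exact h2.trans (mul_le_mul_of_nonneg_right h3 hR0)
    rw [abs_mul, abs_of_nonneg (by linarith [hmult (w₀ : InfinitePlace F)])] at h4
    nlinarith [abs_nonneg (Real.log (normAtPlace w₀ x) - m), hmult (w₀ : InfinitePlace F)]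
  have hall : ∀ v : InfinitePlace F, |Real.log (normAtPlace v x) - m| ≤ κ := by
    intro v
    by_cases hv : v = w₀
    · rw [hv]; exact hw0
    · exact (hcomp ⟨v, hv⟩).trans hRκ
  have hnorm : ‖x‖ ≤ Real.exp (m + κ) := by
    rw [norm_eq_sup'_normAtPlace]
    apply Finset.sup'_le
    intro v _
    rw [← Real.exp_log (hpos v)]
    apply Real.exp_le_exp.mpr
    linarith [(abs_le.mp (hall v)).2]
  calc Real.exp (-2 * κ) * ‖x‖ ≤ Real.exp (-2 * κ) * Real.exp (m + κ) :=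
        mul_le_mul_of_nonneg_left hnorm (Real.exp_pos _).le
    _ = Real.exp (m - κ) := by rw [← Real.exp_add]; ring_nf
    _ ≤ normAtPlace w x := by
        rw [← Real.exp_log (hpos w)]
        apply Real.exp_le_exp.mpr
        linarith [(abs_le.mp (hall w)).1]

lemma h93_log_norm {x : mixedSpace F} (hx : ∀ w, 0 < normAtPlace w x) :
    Real.log (mixedEmbedding.norm x) = ∑ w, (mult w : ℝ) * Real.log (normAtPlace w x) := by
  rw [mixedEmbedding.norm_apply, Real.log_prod (fun v _ => pow_ne_zero _ (hx v).ne')]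
  exact Finset.sum_congr rfl fun v _ => Real.log_pow _ _

lemma h93_norm_pos {x : mixedSpace F} (hx : ∀ w, 0 < normAtPlace w x) :
    0 < mixedEmbedding.norm x := by
  rw [mixedEmbedding.norm_apply]
  exact Finset.prod_pos fun v _ => pow_pos (hx v) _

lemma h93_sum_mult : ∑ v : InfinitePlace F, (mult v : ℝ) = (finrank ℚ F : ℝ) := by
  exact_mod_cast (sum_mult_eq (K := F))

/-- Perturbation estimate for the logarithmic coordinates. -/
lemma h93_logMap_sub_le {x x' : mixedSpace F} {t : ℝ} (ht0 : 0 ≤ t) (ht : t ≤ 1 / 2)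
    (hx : ∀ w, 0 < normAtPlace w x)
    (h : ∀ w, |normAtPlace w x' - normAtPlace w x| ≤ t * normAtPlace w x) :
    (∀ w, 0 < normAtPlace w x') ∧
    |Real.log (mixedEmbedding.norm x') - Real.log (mixedEmbedding.norm x)| ≤
      2 * (finrank ℚ F : ℝ) * t ∧
    ‖logMap x' - logMap x‖ ≤ 8 * t := by
  have h1 : ∀ w, 0 < normAtPlace w x' ∧
      |Real.log (normAtPlace w x') - Real.log (normAtPlace w x)| ≤ 2 * t :=
    fun w => h93_log_sub_le (hx w) ht0 ht (h w)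
  have hx' : ∀ w, 0 < normAtPlace w x' := fun w => (h1 w).1
  have hn : (0 : ℝ) < (finrank ℚ F : ℝ) := Nat.cast_pos.mpr finrank_pos
  have hN : |Real.log (mixedEmbedding.norm x') - Real.log (mixedEmbedding.norm x)| ≤
      2 * (finrank ℚ F : ℝ) * t := by
    rw [h93_log_norm F hx, h93_log_norm F hx', ← Finset.sum_sub_distrib]
    refine (Finset.abs_sum_le_sum_abs _ _).trans ?_
    have h2 : ∀ w ∈ (Finset.univ : Finset (InfinitePlace F)),
        |(mult w : ℝ) * Real.log (normAtPlace w x') - (mult w : ℝ) * Real.log (normAtPlace w x)|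
          ≤ (mult w : ℝ) * (2 * t) := by
      intro w _
      rw [← mul_sub, abs_mul, abs_of_nonneg (Nat.cast_nonneg _)]
      exact mul_le_mul_of_nonneg_left (h1 w).2 (Nat.cast_nonneg _)
    refine (Finset.sum_le_sum h2).trans ?_
    rw [← Finset.sum_mul, h93_sum_mult]
    linarith
  refine ⟨hx', hN, ?_⟩
  rw [pi_norm_le_iff_of_nonneg (by linarith)]
  intro v
  rw [Real.norm_eq_abs, Pi.sub_apply, logMap_apply, logMap_apply, ← mul_sub, abs_mul,
    abs_of_nonneg (Nat.cast_nonneg _)]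
  have hm : ((mult v.1 : ℕ) : ℝ) ≤ 2 := by
    have : mult v.1 ≤ 2 := by
      unfold InfinitePlace.mult
      split_ifs <;> norm_num
    exact_mod_cast this
  have h3 : |Real.log (normAtPlace v.1 x') -
      Real.log (mixedEmbedding.norm x') * (finrank ℚ F : ℝ)⁻¹ -
      (Real.log (normAtPlace v.1 x) - Real.log (mixedEmbedding.norm x) * (finrank ℚ F : ℝ)⁻¹)|
      ≤ 4 * t := by
    have e : Real.log (normAtPlace v.1 x') -
        Real.log (mixedEmbedding.norm x') * (finrank ℚ F : ℝ)⁻¹ -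
        (Real.log (normAtPlace v.1 x) - Real.log (mixedEmbedding.norm x) * (finrank ℚ F : ℝ)⁻¹)
        = (Real.log (normAtPlace v.1 x') - Real.log (normAtPlace v.1 x)) -
          (Real.log (mixedEmbedding.norm x') - Real.log (mixedEmbedding.norm x)) *
            (finrank ℚ F : ℝ)⁻¹ := by ring
    rw [e]
    refine (abs_sub _ _).trans ?_
    rw [abs_mul, abs_of_nonneg (inv_nonneg.mpr hn.le)]
    have h4 : |Real.log (mixedEmbedding.norm x') - Real.log (mixedEmbedding.norm x)| *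
        (finrank ℚ F : ℝ)⁻¹ ≤ 2 * t := by
      rw [← div_eq_mul_inv, div_le_iff₀ hn]
      linarith
    linarith [(h1 v.1).2]
  calc ((mult v.1 : ℕ) : ℝ) * _ ≤ 2 * (4 * t) :=
        mul_le_mul hm h3 (abs_nonneg _) (by norm_num)
    _ = 8 * t := by ring

/-- The smooth weight times `norm ^ (-s)` on the mixed space. -/
def h93_gM (s : ℝ) (x : mixedSpace F) : ℝ :=
  h93_rho F (logMap x) * (mixedEmbedding.norm x) ^ (-s)

lemma h93_normAtPlace_le_norm (w : InfinitePlace F) (x : mixedSpace F) :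
    normAtPlace w x ≤ ‖x‖ := by
  rw [norm_eq_sup'_normAtPlace]
  exact Finset.le_sup' (fun w => normAtPlace w x) (Finset.mem_univ w)

lemma h93_abs_normAtPlace_sub (w : InfinitePlace F) (x x' : mixedSpace F) :
    |normAtPlace w x' - normAtPlace w x| ≤ ‖x' - x‖ := by
  have h1 : normAtPlace w x' ≤ normAtPlace w x + normAtPlace w (x' - x) := by
    have := normAtPlace_add_le w x (x' - x)
    simpa using this
  have h2 : normAtPlace w x ≤ normAtPlace w x' + normAtPlace w (x' - x) := by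
    have := normAtPlace_add_le w x' (-(x' - x))
    rw [normAtPlace_neg] at this
    simpa using this
  have h3 := h93_normAtPlace_le_norm F w (x' - x)
  rw [abs_le]
  constructor <;> linarith

/-- The key estimate: the weighted norm power varies slowly. -/
lemma h93_key_estimate : ∃ c : ℝ, 0 < c ∧ c ≤ 1 ∧ ∃ C₁ : ℝ, 0 ≤ C₁ ∧
    ∀ (x x' : mixedSpace F) (s : ℝ), 1 ≤ s → s ≤ 2 → mixedEmbedding.norm x ≠ 0 →
    h93_rho F (logMap x) ≠ 0 → 2 * ‖x' - x‖ ≤ c * ‖x‖ → 1 ≤ c * ‖x‖ →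
    |h93_gM F s x' - h93_gM F s x| ≤ C₁ * ‖x' - x‖ * (‖x‖ ^ (finrank ℚ F + 1))⁻¹ := by
  obtain ⟨c, hc0, hc1, hc⟩ := h93_normAtPlace_ge F
  obtain ⟨L, hL0, hL⟩ := h93_rho_lipschitz F
  set n : ℕ := finrank ℚ F with hn
  have hn0 : (0 : ℝ) ≤ (n : ℝ) := Nat.cast_nonneg _
  refine ⟨c, hc0, hc1, Real.exp (2 * (n : ℝ)) * (8 * L + 4 * (n : ℝ)) * (c ^ (n + 1))⁻¹,
    by positivity, ?_⟩
  intro x x' s hs1 hs2 hx hρ h2 h1
  have hxn : 0 < ‖x‖ := by
    by_contra hcon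
    have : ‖x‖ = 0 := le_antisymm (not_lt.mp hcon) (norm_nonneg _)
    rw [this] at h1
    linarith
  have hcx : 0 < c * ‖x‖ := by positivity
  set t : ℝ := ‖x' - x‖ / (c * ‖x‖) with ht
  have ht0 : 0 ≤ t := by positivity
  have ht2 : t ≤ 1 / 2 := by
    rw [ht, div_le_iff₀ hcx]
    linarith
  have hge : ∀ w, c * ‖x‖ ≤ normAtPlace w x := hc x hx hρ
  have hpos : ∀ w, 0 < normAtPlace w x := fun w => lt_of_lt_of_le hcx (hge w)
  have htx : ‖x' - x‖ = t * (c * ‖x‖) := by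
    rw [ht]; field_simp
  have hpert : ∀ w, |normAtPlace w x' - normAtPlace w x| ≤ t * normAtPlace w x := by
    intro w
    refine (h93_abs_normAtPlace_sub F w x x').trans ?_
    rw [htx]
    exact mul_le_mul_of_nonneg_left (hge w) ht0
  obtain ⟨hpos', hd, hlog⟩ := h93_logMap_sub_le F ht0 ht2 hpos hpert
  have hN : 0 < mixedEmbedding.norm x := h93_norm_pos F hpos
  have hN' : 0 < mixedEmbedding.norm x' := h93_norm_pos F hpos'
  set d : ℝ := Real.log (mixedEmbedding.norm x') - Real.log (mixedEmbedding.norm x) with hdd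
  have hNs : (mixedEmbedding.norm x') ^ (-s) =
      (mixedEmbedding.norm x) ^ (-s) * Real.exp (-s * d) := by
    rw [Real.rpow_def_of_pos hN', Real.rpow_def_of_pos hN, ← Real.exp_add]
    congr 1
    rw [hdd]; ring
  have hρ' : |h93_rho F (logMap x') - h93_rho F (logMap x)| ≤ L * (8 * t) :=
    (hL _ _).trans (mul_le_mul_of_nonneg_left hlog hL0)
  have hsd : |(-s * d)| ≤ 4 * (n : ℝ) * t := by
    rw [abs_mul, abs_neg, abs_of_nonneg (by linarith : (0 : ℝ) ≤ s)]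
    calc s * |d| ≤ 2 * (2 * (n : ℝ) * t) :=
          mul_le_mul hs2 hd (abs_nonneg _) (by norm_num)
      _ = 4 * (n : ℝ) * t := by ring
  have hsd2 : |(-s * d)| ≤ 2 * (n : ℝ) := by
    refine hsd.trans ?_
    nlinarith
  have hexp1 : Real.exp (-s * d) ≤ Real.exp (2 * (n : ℝ)) :=
    Real.exp_le_exp.mpr ((le_abs_self _).trans hsd2)
  have hexp2 : |Real.exp (-s * d) - 1| ≤ 4 * (n : ℝ) * t * Real.exp (2 * (n : ℝ)) := by
    refine (h93_abs_exp_sub_one_le _).trans ?_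
    exact mul_le_mul hsd (Real.exp_le_exp.mpr hsd2) (Real.exp_pos _).le (by positivity)
  have hNnn : 0 ≤ (mixedEmbedding.norm x) ^ (-s) := Real.rpow_nonneg hN.le _
  have hmain : |h93_gM F s x' - h93_gM F s x| ≤
      (mixedEmbedding.norm x) ^ (-s) *
        (Real.exp (2 * (n : ℝ)) * (8 * L + 4 * (n : ℝ)) * t) := by
    unfold h93_gM
    rw [hNs]
    have e : h93_rho F (logMap x') * ((mixedEmbedding.norm x) ^ (-s) * Real.exp (-s * d)) -
        h93_rho F (logMap x) * (mixedEmbedding.norm x) ^ (-s) =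
        (mixedEmbedding.norm x) ^ (-s) *
          ((h93_rho F (logMap x') - h93_rho F (logMap x)) * Real.exp (-s * d)
            + h93_rho F (logMap x) * (Real.exp (-s * d) - 1)) := by ring
    rw [e, abs_mul, abs_of_nonneg hNnn]
    refine mul_le_mul_of_nonneg_left ?_ hNnn
    refine (abs_add_le _ _).trans ?_
    rw [abs_mul, abs_mul, abs_of_nonneg (Real.exp_pos _).le,
      abs_of_nonneg (h93_rho_nonneg F _)]
    have h3 : |h93_rho F (logMap x') - h93_rho F (logMap x)| * Real.exp (-s * d) ≤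
        L * (8 * t) * Real.exp (2 * (n : ℝ)) :=
      mul_le_mul hρ' hexp1 (Real.exp_pos _).le (by positivity)
    have h4 : h93_rho F (logMap x) * |Real.exp (-s * d) - 1| ≤
        1 * (4 * (n : ℝ) * t * Real.exp (2 * (n : ℝ))) :=
      mul_le_mul (h93_rho_le_one F _) hexp2 (abs_nonneg _) zero_le_one
    have e2 : Real.exp (2 * (n : ℝ)) * (8 * L + 4 * (n : ℝ)) * t =
        L * (8 * t) * Real.exp (2 * (n : ℝ)) + 1 * (4 * (n : ℝ) * t * Real.exp (2 * (n : ℝ))) := by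
      ring
    rw [e2]
    exact add_le_add h3 h4
  have hNge : (c * ‖x‖) ^ n ≤ mixedEmbedding.norm x := by
    rw [mixedEmbedding.norm_apply]
    calc (c * ‖x‖) ^ n = ∏ w : InfinitePlace F, (c * ‖x‖) ^ mult w := by
          rw [Finset.prod_pow_eq_pow_sum, sum_mult_eq]
      _ ≤ ∏ w, normAtPlace w x ^ mult w :=
          Finset.prod_le_prod (fun w _ => by positivity)
            (fun w _ => pow_le_pow_left₀ hcx.le (hge w) _)
  have hNone : 1 ≤ mixedEmbedding.norm x := (one_le_pow₀ h1).trans hNge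
  have hNs1 : (mixedEmbedding.norm x) ^ (-s) ≤ ((c * ‖x‖) ^ n)⁻¹ := by
    calc (mixedEmbedding.norm x) ^ (-s) ≤ (mixedEmbedding.norm x) ^ (-1 : ℝ) :=
          Real.rpow_le_rpow_of_exponent_le hNone (by linarith)
      _ = (mixedEmbedding.norm x)⁻¹ := Real.rpow_neg_one _
      _ ≤ ((c * ‖x‖) ^ n)⁻¹ := inv_anti₀ (by positivity) hNge
  refine hmain.trans ?_
  calc (mixedEmbedding.norm x) ^ (-s) * (Real.exp (2 * (n : ℝ)) * (8 * L + 4 * (n : ℝ)) * t)
      ≤ ((c * ‖x‖) ^ n)⁻¹ * (Real.exp (2 * (n : ℝ)) * (8 * L + 4 * (n : ℝ)) * t) :=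
        mul_le_mul_of_nonneg_right hNs1 (by positivity)
    _ = Real.exp (2 * (n : ℝ)) * (8 * L + 4 * (n : ℝ)) * (c ^ (n + 1))⁻¹ * ‖x' - x‖ *
          (‖x‖ ^ (n + 1))⁻¹ := by
        rw [ht]
        field_simp
        rw [mul_pow, pow_succ, pow_succ]
        ring

/-! ### The weight on algebraic integers -/

/-- The weight on algebraic integers. -/
def h93_G (s : ℝ) (β : 𝓞 F) : ℝ := h93_gM F s (mixedEmbedding F (β : F))

lemma h93_norm_mixed (β : 𝓞 F) :
    mixedEmbedding.norm (mixedEmbedding F (β : F)) = (Ideal.absNorm (Ideal.span {β}) : ℝ) := by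
  rw [mixedEmbedding.norm_eq_norm, Ideal.absNorm_span_singleton, ← Algebra.coe_norm_int,
    Nat.cast_natAbs]
  push_cast
  rfl

lemma h93_norm_mixed_ge_one {β : 𝓞 F} (hβ : β ≠ 0) :
    1 ≤ mixedEmbedding.norm (mixedEmbedding F (β : F)) := by
  rw [h93_norm_mixed]
  have h : Ideal.absNorm (Ideal.span {β}) ≠ 0 := by
    rw [Ne, Ideal.absNorm_eq_zero_iff, Ideal.span_singleton_eq_bot]
    exact hβ
  exact_mod_cast Nat.one_le_iff_ne_zero.mpr h

lemma h93_G_nonneg (s : ℝ) (β : 𝓞 F) : 0 ≤ h93_G F s β :=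
  mul_nonneg (h93_rho_nonneg F _) (Real.rpow_nonneg (mixedEmbedding.norm_nonneg _) _)

lemma h93_G_zero {s : ℝ} (hs : 0 < s) : h93_G F s 0 = 0 := by
  unfold h93_G h93_gM
  simp [Real.zero_rpow (neg_ne_zero.mpr hs.ne')]

lemma h93_G_le_one {s : ℝ} (hs : 0 < s) (β : 𝓞 F) : h93_G F s β ≤ 1 := by
  by_cases hβ : β = 0
  · rw [hβ, h93_G_zero F hs]; exact zero_le_one
  · unfold h93_G h93_gM
    have h1 := h93_norm_mixed_ge_one F hβ
    have h2 : mixedEmbedding.norm (mixedEmbedding F (β : F)) ^ (-s) ≤ 1 :=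
      Real.rpow_le_one_of_one_le_of_nonpos h1 (by linarith)
    calc _ ≤ 1 * 1 := mul_le_mul (h93_rho_le_one F _) h2
          (Real.rpow_nonneg (mixedEmbedding.norm_nonneg _) _) zero_le_one
      _ = 1 := one_mul 1

lemma h93_abs_sub_le_one {a b : ℝ} (ha0 : 0 ≤ a) (ha1 : a ≤ 1) (hb0 : 0 ≤ b) (hb1 : b ≤ 1) :
    |a - b| ≤ 1 := by
  rw [abs_le]; constructor <;> linarith

/-- Translating by a fixed vector changes the weight by a summable amount (mixed space). -/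
lemma h93_diff_aux (ρr : ℝ) (hρr0 : 0 ≤ ρr) : ∃ K : ℝ, 0 ≤ K ∧ ∀ (s : ℝ), 1 ≤ s → s ≤ 2 →
    ∀ x x' : mixedSpace F, x ≠ 0 → mixedEmbedding.norm x ≠ 0 →
    (x' ≠ 0 → mixedEmbedding.norm x' ≠ 0) → ‖x' - x‖ = ρr →
    |h93_gM F s x' - h93_gM F s x| ≤ 1 →
    |h93_gM F s x' - h93_gM F s x| ≤ K * (‖x‖ ^ (finrank ℚ F + 1))⁻¹ := by
  obtain ⟨c, hc0, hc1, C₁, hC₁, hkey⟩ := h93_key_estimate F
  generalize finrank ℚ F = n at hkey ⊢
  set T : ℝ := (3 * ρr + 2) / c with hT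
  have hT0 : 0 < T := by positivity
  refine ⟨C₁ * ρr * 2 ^ (n + 1) + T ^ (n + 1), by positivity, ?_⟩
  intro s hs1 hs2 x x' hxne hnx hnx' hd hle1
  have hd' : ‖x - x'‖ = ρr := by rw [norm_sub_rev, hd]
  have hxpos : 0 < ‖x‖ := norm_pos_iff.mpr hxne
  have hpow : 0 < ‖x‖ ^ (n + 1) := pow_pos hxpos _
  by_cases hbig : 3 * ρr + 2 ≤ c * ‖x‖
  · have hcx : c * ‖x‖ ≤ ‖x‖ := by nlinarith
    by_cases h1 : h93_rho F (logMap x) ≠ 0
    · have := hkey x x' s hs1 hs2 hnx h1 (by rw [hd]; linarith) (by linarith)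
      rw [hd] at this
      calc |h93_gM F s x' - h93_gM F s x| ≤ C₁ * ρr * (‖x‖ ^ (n + 1))⁻¹ := this
        _ ≤ (C₁ * ρr * 2 ^ (n + 1) + T ^ (n + 1)) * (‖x‖ ^ (n + 1))⁻¹ := by
          apply mul_le_mul_of_nonneg_right _ (by positivity)
          have : C₁ * ρr * 1 ≤ C₁ * ρr * 2 ^ (n + 1) :=
            mul_le_mul_of_nonneg_left (one_le_pow₀ (by norm_num)) (by positivity)
          have : 0 ≤ T ^ (n + 1) := by positivity
          linarith
    · have h1 := not_not.mp h1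
      by_cases h2 : h93_rho F (logMap x') ≠ 0
      · have hx'ge : ‖x‖ - ρr ≤ ‖x'‖ := by
          have := norm_sub_norm_le x x'
          rw [hd'] at this
          linarith
        have hcx' : 2 * ρr + 2 ≤ c * ‖x'‖ := by nlinarith
        have hx'pos : 0 < ‖x'‖ := by nlinarith
        have hnx'' : mixedEmbedding.norm x' ≠ 0 := hnx' (norm_pos_iff.mp hx'pos)
        have := hkey x' x s hs1 hs2 hnx'' h2 (by rw [hd']; linarith) (by linarith)
        rw [hd', abs_sub_comm] at this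
        have hhalf : ‖x‖ / 2 ≤ ‖x'‖ := by nlinarith
        have hinv : (‖x'‖ ^ (n + 1))⁻¹ ≤ 2 ^ (n + 1) * (‖x‖ ^ (n + 1))⁻¹ := by
          have h3 : (‖x‖ / 2) ^ (n + 1) ≤ ‖x'‖ ^ (n + 1) :=
            pow_le_pow_left₀ (by positivity) hhalf _
          have h4 : (‖x'‖ ^ (n + 1))⁻¹ ≤ ((‖x‖ / 2) ^ (n + 1))⁻¹ :=
            inv_anti₀ (by positivity) h3
          have h5 : ((‖x‖ / 2) ^ (n + 1))⁻¹ = 2 ^ (n + 1) * (‖x‖ ^ (n + 1))⁻¹ := by
            rw [div_pow]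
            field_simp
          linarith
        calc |h93_gM F s x' - h93_gM F s x| ≤ C₁ * ρr * (‖x'‖ ^ (n + 1))⁻¹ := this
          _ ≤ C₁ * ρr * (2 ^ (n + 1) * (‖x‖ ^ (n + 1))⁻¹) :=
            mul_le_mul_of_nonneg_left hinv (by positivity)
          _ ≤ (C₁ * ρr * 2 ^ (n + 1) + T ^ (n + 1)) * (‖x‖ ^ (n + 1))⁻¹ := by
            have : 0 ≤ T ^ (n + 1) * (‖x‖ ^ (n + 1))⁻¹ := by positivity
            nlinarith
      · have h2 := not_not.mp h2
        have e1 : h93_gM F s x' = 0 := by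
          unfold h93_gM
          rw [h2, zero_mul]
        have e2 : h93_gM F s x = 0 := by
          unfold h93_gM
          rw [h1, zero_mul]
        rw [e1, e2, sub_zero, abs_zero]
        positivity
  · have hbig := not_le.mp hbig
    have hxT : ‖x‖ < T := by
      rw [hT, lt_div_iff₀ hc0]
      linarith
    have h1 : 1 ≤ T ^ (n + 1) * (‖x‖ ^ (n + 1))⁻¹ := by
      rw [← div_eq_mul_inv, le_div_iff₀ hpow, one_mul]
      exact pow_le_pow_left₀ hxpos.le hxT.le _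
    have h2 : 0 ≤ C₁ * ρr * 2 ^ (n + 1) * (‖x‖ ^ (n + 1))⁻¹ := by positivity
    calc |h93_gM F s x' - h93_gM F s x| ≤ 1 := hle1
      _ ≤ (C₁ * ρr * 2 ^ (n + 1) + T ^ (n + 1)) * (‖x‖ ^ (n + 1))⁻¹ := by nlinarith

/-- Translating by a fixed integer changes the weight by a summable amount. -/
lemma h93_diff_bound (r : 𝓞 F) : ∃ K : ℝ, 0 ≤ K ∧ ∀ (s : ℝ), 1 ≤ s → s ≤ 2 → ∀ α : 𝓞 F,
    |h93_G F s (r + α) - h93_G F s α| ≤
      K * (‖mixedEmbedding F (α : F)‖ ^ (finrank ℚ F + 1))⁻¹ + (if α = 0 then 1 else 0) := by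
  obtain ⟨K, hK0, hK⟩ := h93_diff_aux F ‖mixedEmbedding F (r : F)‖ (norm_nonneg _)
  refine ⟨K, hK0, ?_⟩
  intro s hs1 hs2 α
  have hs0 : 0 < s := by linarith
  have hle1 : |h93_G F s (r + α) - h93_G F s α| ≤ 1 :=
    h93_abs_sub_le_one (h93_G_nonneg F s _) (h93_G_le_one F hs0 _) (h93_G_nonneg F s _)
      (h93_G_le_one F hs0 _)
  by_cases hα : α = 0
  · rw [if_pos hα]
    have : 0 ≤ K * (‖mixedEmbedding F (α : F)‖ ^ (finrank ℚ F + 1))⁻¹ := by positivity
    linarith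
  rw [if_neg hα, add_zero]
  refine hK s hs1 hs2 (mixedEmbedding F (α : F)) (mixedEmbedding F ((r + α : 𝓞 F) : F)) ?_ ?_ ?_ ?_
    hle1
  · rw [Ne, map_eq_zero]
    exact_mod_cast hα
  · have := h93_norm_mixed_ge_one F hα
    linarith
  · intro h0
    have hrα : r + α ≠ 0 := by
      intro h
      apply h0
      rw [h]; simp
    have := h93_norm_mixed_ge_one F hrα
    linarith
  · congr 1
    push_cast
    rw [map_add]
    abel

lemma h93_summable_lattice :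
    Summable fun α : 𝓞 F => (‖mixedEmbedding F (α : F)‖ ^ (finrank ℚ F + 1))⁻¹ := by
  have h1 : Module.finrank ℤ (mixedEmbedding.integerLattice F) = finrank ℚ F := by
    rw [ZLattice.rank ℝ, mixedEmbedding.finrank]
  have h2 := ZLattice.summable_norm_pow_inv (L := mixedEmbedding.integerLattice F)
    (finrank ℚ F + 1) (by omega)
  let e : 𝓞 F → mixedEmbedding.integerLattice F :=
    fun α => ⟨mixedEmbedding F (α : F), ⟨α, rfl⟩⟩
  have he : Function.Injective e := by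
    intro a b hab
    have : mixedEmbedding F (a : F) = mixedEmbedding F (b : F) := congrArg Subtype.val hab
    exact_mod_cast (mixedEmbedding F).injective this
  have h3 := h2.comp_injective he
  refine h3.congr fun α => ?_
  simp only [Function.comp_apply, inv_pow]
  rfl

/-! ### Comparing the sum over the integers with the sum over an ideal -/

/-- The weighted sum over an ideal (extended non-negative reals). -/
def h93_A (s : ℝ) (𝔞 : Ideal (𝓞 F)) : ENNReal :=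
  ∑' α : 𝔞, ENNReal.ofReal (h93_G F s (α : 𝓞 F))

/-- Decomposition of the ring of integers into cosets of an ideal. -/
def h93_cosetEquiv (𝔞 : Ideal (𝓞 F)) : ((𝓞 F ⧸ 𝔞) × 𝔞) ≃ 𝓞 F where
  toFun := fun cα => Quotient.out cα.1 + (cα.2 : 𝓞 F)
  invFun := fun β => (Ideal.Quotient.mk 𝔞 β, ⟨β - Quotient.out (Ideal.Quotient.mk 𝔞 β), by
    rw [← Ideal.Quotient.eq]; exact (Ideal.Quotient.mk_out _).symm⟩)
  left_inv := by
    rintro ⟨c, α⟩
    have h1 : Ideal.Quotient.mk 𝔞 (Quotient.out c + (α : 𝓞 F)) = c := by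
      rw [map_add, Ideal.Quotient.mk_out, Ideal.Quotient.eq_zero_iff_mem.mpr α.2, add_zero]
    refine Prod.ext h1 (Subtype.ext ?_)
    show Quotient.out c + (α : 𝓞 F) - Quotient.out (Ideal.Quotient.mk 𝔞 (Quotient.out c + (α : 𝓞 F)))
      = α
    rw [h1]
    ring
  right_inv := by
    intro β
    show Quotient.out (Ideal.Quotient.mk 𝔞 β) + (β - Quotient.out (Ideal.Quotient.mk 𝔞 β)) = β
    ring

lemma h93_tsum_ofReal_le_add {ι : Type*} (f g h : ι → ℝ) (hfg : ∀ i, f i ≤ g i + h i) :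
    ∑' i, ENNReal.ofReal (f i) ≤ ∑' i, ENNReal.ofReal (g i) + ∑' i, ENNReal.ofReal (h i) := by
  rw [← ENNReal.tsum_add]
  exact ENNReal.tsum_le_tsum fun i =>
    (ENNReal.ofReal_le_ofReal (hfg i)).trans ENNReal.ofReal_add_le

lemma h93_A_top (s : ℝ) : h93_A F s ⊤ = ∑' β : 𝓞 F, ENNReal.ofReal (h93_G F s β) :=
  (Submodule.topEquiv (R := 𝓞 F) (M := 𝓞 F)).toEquiv.tsum_eq
    (fun β => ENNReal.ofReal (h93_G F s β))

lemma h93_coset_compare (𝔞 : Ideal (𝓞 F)) (h𝔞 : 𝔞 ≠ ⊥) :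
    ∃ D : ℝ, 0 ≤ D ∧ ∀ s : ℝ, 1 ≤ s → s ≤ 2 →
      h93_A F s ⊤ ≤ (Ideal.absNorm 𝔞 : ENNReal) * h93_A F s 𝔞 + ENNReal.ofReal D ∧
      (Ideal.absNorm 𝔞 : ENNReal) * h93_A F s 𝔞 ≤ h93_A F s ⊤ + ENNReal.ofReal D := by
  have hfin : Finite (𝓞 F ⧸ 𝔞) := Ideal.finiteQuotientOfFreeOfNeBot 𝔞 h𝔞
  let _ : Fintype (𝓞 F ⧸ 𝔞) := Fintype.ofFinite _
  have hcard : Fintype.card (𝓞 F ⧸ 𝔞) = Ideal.absNorm 𝔞 := by
    rw [Ideal.absNorm_apply, Submodule.cardQuot_apply, Nat.card_eq_fintype_card]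
  choose K hK0 hK using h93_diff_bound F
  set b : 𝓞 F → ℝ := fun α => (‖mixedEmbedding F (α : F)‖ ^ (finrank ℚ F + 1))⁻¹ with hb
  have hbs : Summable b := h93_summable_lattice F
  have hb0 : ∀ α, 0 ≤ b α := fun α => by rw [hb]; positivity
  set e : 𝓞 F → ℝ := fun α => if α = 0 then 1 else 0 with he
  have he0 : ∀ α, 0 ≤ e α := fun α => by rw [he]; positivity
  have hes : Summable e := by
    refine summable_of_ne_finset_zero (s := {0}) fun α hα => ?_
    rw [he]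
    simp only [Finset.mem_singleton] at hα
    simp [hα]
  have hetsum : ∑' α, e α = 1 := by
    rw [tsum_eq_single 0 (fun α hα => by rw [he]; simp [hα])]
    simp [he]
  -- the error term for a coset
  set Dc : (𝓞 F ⧸ 𝔞) → ℝ := fun c => K (Quotient.out c) * ∑' α, b α + 1 with hDc
  have hDc0 : ∀ c, 0 ≤ Dc c := fun c => by
    have : 0 ≤ ∑' α, b α := tsum_nonneg hb0
    have := hK0 (Quotient.out c)
    rw [hDc]; positivity
  have herr : ∀ c : 𝓞 F ⧸ 𝔞, ∑' α : 𝔞, ENNReal.ofReal (K (Quotient.out c) * b (α : 𝓞 F) + e (α : 𝓞 F))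
      ≤ ENNReal.ofReal (Dc c) := by
    intro c
    have h1 : Summable fun α : 𝓞 F => K (Quotient.out c) * b α + e α :=
      (hbs.mul_left _).add hes
    have h2 : ∑' α : 𝓞 F, (K (Quotient.out c) * b α + e α) = Dc c := by
      rw [(hbs.mul_left _).tsum_add hes, tsum_mul_left, hetsum]
    calc ∑' α : 𝔞, ENNReal.ofReal (K (Quotient.out c) * b (α : 𝓞 F) + e (α : 𝓞 F))
        ≤ ∑' α : 𝓞 F, ENNReal.ofReal (K (Quotient.out c) * b α + e α) :=
          ENNReal.tsum_comp_le_tsum_of_injective Subtype.val_injective _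
      _ = ENNReal.ofReal (∑' α : 𝓞 F, (K (Quotient.out c) * b α + e α)) :=
          (ENNReal.ofReal_tsum_of_nonneg (fun α =>
            add_nonneg (mul_nonneg (hK0 _) (hb0 α)) (he0 α)) h1).symm
      _ = ENNReal.ofReal (Dc c) := by rw [h2]
  refine ⟨∑ c, Dc c, Finset.sum_nonneg fun c _ => hDc0 c, ?_⟩
  intro s hs1 hs2
  have hsplit : h93_A F s ⊤ = ∑ c : 𝓞 F ⧸ 𝔞, ∑' α : 𝔞,
      ENNReal.ofReal (h93_G F s (Quotient.out c + (α : 𝓞 F))) := by
    rw [h93_A_top, ← (h93_cosetEquiv F 𝔞).tsum_eq, ENNReal.tsum_prod', tsum_fintype]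
    rfl
  have hD : ENNReal.ofReal (∑ c, Dc c) = ∑ c, ENNReal.ofReal (Dc c) :=
    ENNReal.ofReal_sum_of_nonneg fun c _ => hDc0 c
  have hconst : (Ideal.absNorm 𝔞 : ENNReal) * h93_A F s 𝔞 = ∑ _c : 𝓞 F ⧸ 𝔞, h93_A F s 𝔞 := by
    rw [Finset.sum_const, Finset.card_univ, hcard, nsmul_eq_mul]
  rw [hconst, hsplit, hD, ← Finset.sum_add_distrib, ← Finset.sum_add_distrib]
  constructor
  · refine Finset.sum_le_sum fun c _ => ?_
    refine le_trans (h93_tsum_ofReal_le_add _ (fun α : 𝔞 => h93_G F s (α : 𝓞 F))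
      (fun α : 𝔞 => K (Quotient.out c) * b (α : 𝓞 F) + e (α : 𝓞 F)) fun α => ?_)
      (add_le_add le_rfl (herr c))
    have := (abs_le.mp (hK (Quotient.out c) s hs1 hs2 (α : 𝓞 F))).2
    linarith
  · refine Finset.sum_le_sum fun c _ => ?_
    refine le_trans (h93_tsum_ofReal_le_add _
      (fun α : 𝔞 => h93_G F s (Quotient.out c + (α : 𝓞 F)))
      (fun α : 𝔞 => K (Quotient.out c) * b (α : 𝓞 F) + e (α : 𝓞 F)) fun α => ?_)
      (add_le_add le_rfl (herr c))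
    have := (abs_le.mp (hK (Quotient.out c) s hs1 hs2 (α : 𝓞 F))).1
    linarith

open scoped nonZeroDivisors

/-! ### Unit orbits -/

lemma h93_G_unit_mul (s : ℝ) (u : (𝓞 F)ˣ) {β : 𝓞 F} (hβ : β ≠ 0) :
    h93_G F s ((u : 𝓞 F) * β) =
      h93_rho F (logEmbedding F (Additive.ofMul u) + logMap (mixedEmbedding F (β : F))) *
        (mixedEmbedding.norm (mixedEmbedding F (β : F))) ^ (-s) := by
  have h1 : mixedEmbedding F (((u : 𝓞 F) * β : 𝓞 F) : F) = u • mixedEmbedding F (β : F) := by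
    rw [unitSMul_smul]
    push_cast
    rw [map_mul]
  have hn : mixedEmbedding.norm (mixedEmbedding F (β : F)) ≠ 0 := by
    have := h93_norm_mixed_ge_one F hβ
    linarith
  unfold h93_G h93_gM
  rw [h1, logMap_unit_smul u hn, norm_unit_smul]

lemma h93_tsum_units_G (s : ℝ) {β : 𝓞 F} (hβ : β ≠ 0) :
    ∑' u : (𝓞 F)ˣ, ENNReal.ofReal (h93_G F s ((u : 𝓞 F) * β)) =
      (torsionOrder F : ENNReal) *
        ENNReal.ofReal ((Ideal.absNorm (Ideal.span {β}) : ℝ) ^ (-s)) := by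
  simp_rw [h93_G_unit_mul F s _ hβ, ENNReal.ofReal_mul (h93_rho_nonneg F _)]
  rw [ENNReal.tsum_mul_right, h93_tsum_units_rho, h93_norm_mixed]

/-! ### Ideals in a class and principal ideals inside a fixed ideal -/

lemma h93_exists_gen (𝔞 : (Ideal (𝓞 F))⁰)
    (I : {I : (Ideal (𝓞 F))⁰ // ClassGroup.mk0 I = (ClassGroup.mk0 𝔞)⁻¹}) :
    ∃ β : 𝓞 F, (𝔞 : Ideal (𝓞 F)) * (I.1 : Ideal (𝓞 F)) = Ideal.span {β} := by
  have h : ClassGroup.mk0 (𝔞 * I.1) = 1 := by rw [map_mul, I.2, mul_inv_cancel]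
  rw [ClassGroup.mk0_eq_one_iff] at h
  obtain ⟨β, hβ⟩ := h
  exact ⟨β, hβ⟩

/-- A generator of `𝔞 * I` for `I` in the class inverse to that of `𝔞`. -/
def h93_gen (𝔞 : (Ideal (𝓞 F))⁰)
    (I : {I : (Ideal (𝓞 F))⁰ // ClassGroup.mk0 I = (ClassGroup.mk0 𝔞)⁻¹}) : 𝓞 F :=
  (h93_exists_gen F 𝔞 I).choose

lemma h93_gen_spec (𝔞 : (Ideal (𝓞 F))⁰)
    (I : {I : (Ideal (𝓞 F))⁰ // ClassGroup.mk0 I = (ClassGroup.mk0 𝔞)⁻¹}) :
    (𝔞 : Ideal (𝓞 F)) * (I.1 : Ideal (𝓞 F)) = Ideal.span {h93_gen F 𝔞 I} :=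
  (h93_exists_gen F 𝔞 I).choose_spec

lemma h93_gen_ne_zero (𝔞 : (Ideal (𝓞 F))⁰)
    (I : {I : (Ideal (𝓞 F))⁰ // ClassGroup.mk0 I = (ClassGroup.mk0 𝔞)⁻¹}) :
    h93_gen F 𝔞 I ≠ 0 := by
  intro h
  have h1 := h93_gen_spec F 𝔞 I
  rw [h, Ideal.span_singleton_eq_bot.mpr rfl] at h1
  have h2 : (𝔞 : Ideal (𝓞 F)) ≠ ⊥ := nonZeroDivisors.coe_ne_zero 𝔞
  have h3 : (I.1 : Ideal (𝓞 F)) ≠ ⊥ := nonZeroDivisors.coe_ne_zero I.1
  exact mul_ne_zero h2 h3 h1

lemma h93_gen_mem (𝔞 : (Ideal (𝓞 F))⁰)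
    (I : {I : (Ideal (𝓞 F))⁰ // ClassGroup.mk0 I = (ClassGroup.mk0 𝔞)⁻¹}) :
    h93_gen F 𝔞 I ∈ (𝔞 : Ideal (𝓞 F)) := by
  have h1 : Ideal.span {h93_gen F 𝔞 I} ≤ (𝔞 : Ideal (𝓞 F)) := by
    rw [← h93_gen_spec]
    exact Ideal.mul_le_left (I := (𝔞 : Ideal (𝓞 F))) (J := (I.1 : Ideal (𝓞 F)))
  exact h1 (Ideal.mem_span_singleton_self _)

/-- The nonzero elements of `𝔞` are the unit multiples of the chosen generators. -/
def h93_orbitMap (𝔞 : (Ideal (𝓞 F))⁰) :
    ({I : (Ideal (𝓞 F))⁰ // ClassGroup.mk0 I = (ClassGroup.mk0 𝔞)⁻¹} × (𝓞 F)ˣ) →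
      {α : (𝔞 : Ideal (𝓞 F)) // α ≠ 0} :=
  fun Iu => ⟨⟨(Iu.2 : 𝓞 F) * h93_gen F 𝔞 Iu.1,
    Ideal.mul_mem_left _ _ (h93_gen_mem F 𝔞 Iu.1)⟩, by
      intro h
      have h1 : (Iu.2 : 𝓞 F) * h93_gen F 𝔞 Iu.1 = 0 := congrArg Subtype.val h
      rcases mul_eq_zero.mp h1 with h2 | h2
      · exact Iu.2.ne_zero h2
      · exact h93_gen_ne_zero F 𝔞 Iu.1 h2⟩

lemma h93_orbitMap_bijective (𝔞 : (Ideal (𝓞 F))⁰) : Function.Bijective (h93_orbitMap F 𝔞) := by
  have h𝔞 : (𝔞 : Ideal (𝓞 F)) ≠ ⊥ := nonZeroDivisors.coe_ne_zero 𝔞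
  constructor
  · rintro ⟨I, u⟩ ⟨I', u'⟩ h
    have h1 : (u : 𝓞 F) * h93_gen F 𝔞 I = (u' : 𝓞 F) * h93_gen F 𝔞 I' :=
      congrArg (fun x => ((x : {α : (𝔞 : Ideal (𝓞 F)) // α ≠ 0}) : 𝓞 F)) h
    have h2 : Ideal.span {h93_gen F 𝔞 I} = Ideal.span {h93_gen F 𝔞 I'} := by
      rw [← Ideal.span_singleton_mul_left_unit u.isUnit, h1,
        Ideal.span_singleton_mul_left_unit u'.isUnit]
    rw [← h93_gen_spec, ← h93_gen_spec] at h2
    have h3 : (I.1 : Ideal (𝓞 F)) = (I'.1 : Ideal (𝓞 F)) := mul_left_cancel₀ h𝔞 h2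
    have h4 : I = I' := Subtype.ext (Subtype.ext h3)
    subst h4
    have h5 : (u : 𝓞 F) = (u' : 𝓞 F) := mul_right_cancel₀ (h93_gen_ne_zero F 𝔞 I) h1
    rw [Units.ext h5]
  · rintro ⟨⟨α, hα⟩, hα0⟩
    have hα0' : α ≠ 0 := fun h => hα0 (Subtype.ext h)
    have h1 : (𝔞 : Ideal (𝓞 F)) ∣ Ideal.span {α} := by
      rw [Ideal.dvd_iff_le, Ideal.span_singleton_le_iff_mem]
      exact hα
    obtain ⟨J, hJ⟩ := h1
    have hJ0 : J ≠ ⊥ := by
      intro h
      rw [h, Ideal.mul_bot, Ideal.span_singleton_eq_bot] at hJ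
      exact hα0' hJ
    set J' : (Ideal (𝓞 F))⁰ := ⟨J, mem_nonZeroDivisors_of_ne_zero hJ0⟩ with hJ'
    have h2 : ClassGroup.mk0 (𝔞 * J') = 1 := by
      rw [ClassGroup.mk0_eq_one_iff]
      show ((𝔞 : Ideal (𝓞 F)) * J).IsPrincipal
      rw [← hJ]
      exact ⟨α, rfl⟩
    rw [map_mul] at h2
    have h3 : ClassGroup.mk0 J' = (ClassGroup.mk0 𝔞)⁻¹ := eq_inv_of_mul_eq_one_right h2
    set I : {I : (Ideal (𝓞 F))⁰ // ClassGroup.mk0 I = (ClassGroup.mk0 𝔞)⁻¹} := ⟨J', h3⟩ with hI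
    have h4 : Ideal.span {h93_gen F 𝔞 I} = Ideal.span {α} := by
      rw [← h93_gen_spec, hJ]
    rw [Ideal.span_singleton_eq_span_singleton] at h4
    obtain ⟨u, hu⟩ := h4
    refine ⟨(I, u), ?_⟩
    apply Subtype.ext
    apply Subtype.ext
    show (u : 𝓞 F) * h93_gen F 𝔞 I = α
    rw [mul_comm]; exact hu

lemma h93_A_eq (𝔞 : (Ideal (𝓞 F))⁰) {s : ℝ} (hs : 0 < s) :
    h93_A F s (𝔞 : Ideal (𝓞 F)) = (torsionOrder F : ENNReal) *
      ∑' I : {I : (Ideal (𝓞 F))⁰ // ClassGroup.mk0 I = (ClassGroup.mk0 𝔞)⁻¹},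
        ENNReal.ofReal (((Ideal.absNorm (𝔞 : Ideal (𝓞 F)) : ℝ) *
          (Ideal.absNorm (I.1 : Ideal (𝓞 F)) : ℝ)) ^ (-s)) := by
  unfold h93_A
  have h1 : ∑' α : (𝔞 : Ideal (𝓞 F)), ENNReal.ofReal (h93_G F s (α : 𝓞 F)) =
      ∑' α : {α : (𝔞 : Ideal (𝓞 F)) // α ≠ 0}, ENNReal.ofReal (h93_G F s ((α : (𝔞 : Ideal (𝓞 F))) : 𝓞 F)) := by
    symm
    refine tsum_subtype_eq_of_support_subset (f := fun α : (𝔞 : Ideal (𝓞 F)) =>
      ENNReal.ofReal (h93_G F s (α : 𝓞 F))) (s := {α | α ≠ 0}) fun α hα => ?_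
    simp only [Function.mem_support, ne_eq, ENNReal.ofReal_eq_zero, not_le] at hα
    intro h
    rw [h] at hα
    simp [h93_G_zero F hs] at hα
  rw [h1, ← (Equiv.ofBijective _ (h93_orbitMap_bijective F 𝔞)).tsum_eq, ENNReal.tsum_prod',
    ← ENNReal.tsum_mul_left]
  refine tsum_congr fun I => ?_
  have h2 := h93_tsum_units_G F s (h93_gen_ne_zero F 𝔞 I)
  rw [← h93_gen_spec, map_mul] at h2
  rw [← Nat.cast_mul, ← h2]
  rfl

end

end Fermat.Agent.S14
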