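import Mathlib
import Fermat.Agent.S14.Defs
import Fermat.Agent.S14.ZB
import Fermat.Agent.S14.h93_LBD

/-!
# Package LBD of project S14: class L-series are bounded on `(1, 2]`

`classLSeries_bounded` (skeleton statement, verbatim): for a nontrivial character `χ` of the
ideal class group, `∑ χ(I) N(I)^(-s)` is bounded for real `s ∈ (1, 2]`.

Route: the partial zeta functions of two ideal classes differ by a bounded amount
(`h93_classZeta_sub_bounded`), proved in `h93_LBD.lean` by comparing, coset by coset, the sum of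
a weight function over the lattice of integers and over an ideal.
-/

set_option autoImplicit false

open NumberField NumberField.InfinitePlace NumberField.mixedEmbedding NumberField.Units
  NumberField.Units.dirichletUnitTheorem Module

namespace Fermat.Agent.S14

noncomputable section
open scoped Classical nonZeroDivisors

variable (F : Type*) [Field F] [NumberField F]

/-! ### Partial zeta functions of ideal classes -/

/-- The partial zeta function of an ideal class. -/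
def h93_classZeta (C : ClassGroup (𝓞 F)) (s : ℝ) : ℝ :=
  ∑' I : {I : (Ideal (𝓞 F))⁰ // ClassGroup.mk0 I = C},
    (Ideal.absNorm (I.1 : Ideal (𝓞 F)) : ℝ) ^ (-s)

lemma h93_classZeta_summable (C : ClassGroup (𝓞 F)) {s : ℝ} (hs : 1 < s) :
    Summable fun I : {I : (Ideal (𝓞 F))⁰ // ClassGroup.mk0 I = C} =>
      (Ideal.absNorm (I.1 : Ideal (𝓞 F)) : ℝ) ^ (-s) :=
  (summable_absNorm_rpow F hs).subtype _

lemma h93_classZeta_nonneg (C : ClassGroup (𝓞 F)) (s : ℝ) : 0 ≤ h93_classZeta F C s :=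
  tsum_nonneg fun _ => Real.rpow_nonneg (Nat.cast_nonneg _) _

lemma h93_classZeta_le (C : ClassGroup (𝓞 F)) {s : ℝ} (hs : 1 < s) :
    h93_classZeta F C s ≤
      ∑' I : (Ideal (𝓞 F))⁰, (Ideal.absNorm (I : Ideal (𝓞 F)) : ℝ) ^ (-s) :=
  Summable.tsum_subtype_le _ {I | ClassGroup.mk0 I = C}
    (fun _ => Real.rpow_nonneg (Nat.cast_nonneg _) _) (summable_absNorm_rpow F hs)

lemma h93_one_le_absNorm (I : (Ideal (𝓞 F))⁰) : (1 : ℝ) ≤ (Ideal.absNorm (I : Ideal (𝓞 F)) : ℝ) := by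
  exact_mod_cast Nat.one_le_iff_ne_zero.mpr (Ideal.absNorm_ne_zero_of_nonZeroDivisors I)

lemma h93_zeta_bound : ∃ M : ℝ, ∀ s : ℝ, 1 < s → s ≤ 2 →
    (s - 1) * ∑' I : (Ideal (𝓞 F))⁰, (Ideal.absNorm (I : Ideal (𝓞 F)) : ℝ) ^ (-s) ≤ M := by
  have ht := tendsto_sub_one_mul_idealSum F
  have hev := ht.eventually_lt_const (lt_add_one (dedekindZeta_residue F))
  rw [Filter.Eventually, mem_nhdsGT_iff_exists_Ioo_subset] at hev
  obtain ⟨u, hu1, hu⟩ := hev
  have hu1' : (1 : ℝ) < u := hu1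
  set s₀ : ℝ := min u 2 with hs₀
  have hs₀1 : 1 < s₀ := lt_min hu1' (by norm_num)
  refine ⟨max (dedekindZeta_residue F + 1)
    (∑' I : (Ideal (𝓞 F))⁰, (Ideal.absNorm (I : Ideal (𝓞 F)) : ℝ) ^ (-s₀)), fun s hs1 hs2 => ?_⟩
  by_cases h : s < u
  · exact le_max_of_le_left (le_of_lt (hu ⟨hs1, h⟩))
  · have hs0 : s₀ ≤ s := (min_le_left _ _).trans (not_lt.mp h)
    have h1 : ∑' I : (Ideal (𝓞 F))⁰, (Ideal.absNorm (I : Ideal (𝓞 F)) : ℝ) ^ (-s) ≤
        ∑' I : (Ideal (𝓞 F))⁰, (Ideal.absNorm (I : Ideal (𝓞 F)) : ℝ) ^ (-s₀) :=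
      (summable_absNorm_rpow F hs1).tsum_le_tsum (fun I =>
        Real.rpow_le_rpow_of_exponent_le (h93_one_le_absNorm F I) (neg_le_neg hs0))
        (summable_absNorm_rpow F hs₀1)
    have h2 : 0 ≤ ∑' I : (Ideal (𝓞 F))⁰, (Ideal.absNorm (I : Ideal (𝓞 F)) : ℝ) ^ (-s) :=
      tsum_nonneg fun _ => Real.rpow_nonneg (Nat.cast_nonneg _) _
    refine le_max_of_le_right ?_
    calc (s - 1) * ∑' I : (Ideal (𝓞 F))⁰, (Ideal.absNorm (I : Ideal (𝓞 F)) : ℝ) ^ (-s)
        ≤ 1 * ∑' I : (Ideal (𝓞 F))⁰, (Ideal.absNorm (I : Ideal (𝓞 F)) : ℝ) ^ (-s) :=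
          mul_le_mul_of_nonneg_right (by linarith) h2
      _ ≤ _ := by rw [one_mul]; exact h1

lemma h93_A_eq' (𝔞 : (Ideal (𝓞 F))⁰) {s : ℝ} (hs : 1 < s) :
    h93_A F s (𝔞 : Ideal (𝓞 F)) = ENNReal.ofReal ((torsionOrder F : ℝ) *
      ((Ideal.absNorm (𝔞 : Ideal (𝓞 F)) : ℝ) ^ (-s) *
        h93_classZeta F (ClassGroup.mk0 𝔞)⁻¹ s)) := by
  rw [h93_A_eq F 𝔞 (by linarith), ENNReal.ofReal_mul (Nat.cast_nonneg _), ENNReal.ofReal_natCast]
  congr 1
  rw [h93_classZeta, ← tsum_mul_left, ENNReal.ofReal_tsum_of_nonneg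
    (fun I => mul_nonneg (Real.rpow_nonneg (Nat.cast_nonneg _) _)
      (Real.rpow_nonneg (Nat.cast_nonneg _) _))
    ((h93_classZeta_summable F _ hs).mul_left _)]
  refine tsum_congr fun I => ?_
  rw [Real.mul_rpow (Nat.cast_nonneg _) (Nat.cast_nonneg _)]

lemma h93_A_top_eq {s : ℝ} (hs : 1 < s) :
    h93_A F s ⊤ = ENNReal.ofReal ((torsionOrder F : ℝ) * h93_classZeta F 1 s) := by
  have h := h93_A_eq' F (1 : (Ideal (𝓞 F))⁰) hs
  have h1 : (((1 : (Ideal (𝓞 F))⁰) : Ideal (𝓞 F))) = ⊤ := by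
    rw [Submonoid.coe_one, Ideal.one_eq_top]
  rw [h1, Ideal.absNorm_top, Nat.cast_one, Real.one_rpow, one_mul, map_one, inv_one] at h
  exact h

/-- The partial zeta function of any class differs from that of the trivial class by a
bounded amount on `(1, 2]`. -/
lemma h93_classZeta_sub_one_bounded (C : ClassGroup (𝓞 F)) : ∃ B : ℝ, ∀ s : ℝ, 1 < s → s ≤ 2 →
    |h93_classZeta F C s - h93_classZeta F 1 s| ≤ B := by
  obtain ⟨𝔞, h𝔞⟩ := ClassGroup.mk0_surjective (C⁻¹)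
  have hC : (ClassGroup.mk0 𝔞)⁻¹ = C := by rw [h𝔞, inv_inv]
  obtain ⟨D, hD0, hD⟩ := h93_coset_compare F (𝔞 : Ideal (𝓞 F)) (nonZeroDivisors.coe_ne_zero 𝔞)
  obtain ⟨M, hM⟩ := h93_zeta_bound F
  set a : ℝ := (Ideal.absNorm (𝔞 : Ideal (𝓞 F)) : ℝ) with ha
  have ha1 : 1 ≤ a := h93_one_le_absNorm F 𝔞
  have ha0 : 0 < a := by linarith
  have hlog : 0 ≤ Real.log a := Real.log_nonneg ha1
  set w : ℝ := (torsionOrder F : ℝ) with hw
  have hw1 : 1 ≤ w := by
    rw [hw]; exact_mod_cast (torsionOrder_pos F)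
  refine ⟨D + Real.log a * M, fun s hs1 hs2 => ?_⟩
  obtain ⟨h1, h2⟩ := hD s hs1.le hs2
  set zC : ℝ := h93_classZeta F C s with hzC
  set z1 : ℝ := h93_classZeta F 1 s with hz1
  have hzC0 : 0 ≤ zC := h93_classZeta_nonneg F C s
  have hz10 : 0 ≤ z1 := h93_classZeta_nonneg F 1 s
  have hrp : 0 ≤ a ^ (-s) := Real.rpow_nonneg ha0.le _
  have e1 : h93_A F s ⊤ = ENNReal.ofReal (w * z1) := h93_A_top_eq F hs1
  have e2 : (Ideal.absNorm (𝔞 : Ideal (𝓞 F)) : ENNReal) * h93_A F s (𝔞 : Ideal (𝓞 F)) =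
      ENNReal.ofReal (a * (w * (a ^ (-s) * zC))) := by
    rw [h93_A_eq' F 𝔞 hs1, hC, ENNReal.ofReal_mul ha0.le, ha, ENNReal.ofReal_natCast]
  rw [e1, e2, ← ENNReal.ofReal_add (by positivity) hD0,
    ENNReal.ofReal_le_ofReal_iff (by positivity)] at h1
  rw [e1, e2, ← ENNReal.ofReal_add (by positivity) hD0,
    ENNReal.ofReal_le_ofReal_iff (by positivity)] at h2
  -- the factor `t = a^(1-s)`
  set t : ℝ := a * a ^ (-s) with ht
  have ht_eq : t = Real.exp (-((s - 1) * Real.log a)) := by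
    rw [ht, Real.rpow_def_of_pos ha0, ← Real.exp_log ha0, ← Real.exp_add, Real.log_exp]
    congr 1
    ring
  have ht1 : t ≤ 1 := by
    rw [ht_eq, Real.exp_le_one_iff]
    have : 0 ≤ (s - 1) * Real.log a := mul_nonneg (by linarith) hlog
    linarith
  have ht0 : 0 ≤ t := by rw [ht]; positivity
  have ht2 : 1 - t ≤ (s - 1) * Real.log a := by
    have := Real.one_sub_le_exp_neg ((s - 1) * Real.log a)
    rw [← ht_eq] at this
    linarith
  have h1' : w * (z1 - t * zC) ≤ D := by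
    have : a * (w * (a ^ (-s) * zC)) = w * (t * zC) := by rw [ht]; ring
    rw [this] at h1
    linarith
  have h2' : w * (t * zC - z1) ≤ D := by
    have : a * (w * (a ^ (-s) * zC)) = w * (t * zC) := by rw [ht]; ring
    rw [this] at h2
    linarith
  have h3 : |z1 - t * zC| ≤ D := by
    rw [abs_le]
    constructor
    · by_contra hcon
      have hcon := not_le.mp hcon
      have : t * zC - z1 ≤ w * (t * zC - z1) := by nlinarith
      linarith
    · by_contra hcon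
      have hcon := not_le.mp hcon
      have : z1 - t * zC ≤ w * (z1 - t * zC) := by nlinarith
      linarith
  have h4 : (s - 1) * zC ≤ M :=
    le_trans (mul_le_mul_of_nonneg_left (h93_classZeta_le F C hs1) (by linarith)) (hM s hs1 hs2)
  have h5 : (1 - t) * zC ≤ Real.log a * M := by
    calc (1 - t) * zC ≤ ((s - 1) * Real.log a) * zC := mul_le_mul_of_nonneg_right ht2 hzC0
      _ = Real.log a * ((s - 1) * zC) := by ring
      _ ≤ Real.log a * M := mul_le_mul_of_nonneg_left h4 hlog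
  have h6 := abs_le.mp h3
  rw [abs_le]
  constructor <;> nlinarith

theorem h93_classZeta_sub_bounded (C C' : ClassGroup (𝓞 F)) : ∃ B : ℝ, ∀ s : ℝ, 1 < s → s ≤ 2 →
    |h93_classZeta F C s - h93_classZeta F C' s| ≤ B := by
  obtain ⟨B, hB⟩ := h93_classZeta_sub_one_bounded F C
  obtain ⟨B', hB'⟩ := h93_classZeta_sub_one_bounded F C'
  refine ⟨B + B', fun s hs1 hs2 => ?_⟩
  have h1 := abs_le.mp (hB s hs1 hs2)
  have h2 := abs_le.mp (hB' s hs1 hs2)
  rw [abs_le]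
  constructor <;> linarith

end

open Filter Topology
open scoped nonZeroDivisors Pointwise

theorem h93_norm_classChar {F : Type*} [Field F] [NumberField F]
    (χ : ClassGroup (𝓞 F) →* ℂˣ) (C : ClassGroup (𝓞 F)) : ‖((χ C : ℂˣ) : ℂ)‖ = 1 := by
  have h1 : χ C ^ Fintype.card (ClassGroup (𝓞 F)) = 1 := by
    rw [← map_pow, pow_card_eq_one, map_one]
  have h2 : ((χ C : ℂˣ) : ℂ) ^ Fintype.card (ClassGroup (𝓞 F)) = 1 := by
    rw [← Units.val_pow_eq_pow_val, h1, Units.val_one]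
  exact Complex.norm_eq_one_of_pow_eq_one h2 Fintype.card_ne_zero

theorem classLSeries_bounded (F : Type*) [Field F] [NumberField F]
    (χ : ClassGroup (𝓞 F) →* ℂˣ) (hχ : χ ≠ 1) :
    ∃ B : ℝ, ∀ s : ℝ, 1 < s → s ≤ 2 →
      ‖idealSum F (fun I => (χ (ClassGroup.mk0 I) : ℂ)) s‖ ≤ B := by
  classical
  choose B hB using fun C => h93_classZeta_sub_one_bounded F C
  refine ⟨∑ C, B C, fun s hs1 hs2 => ?_⟩
  have hsum : Summable fun I : (Ideal (𝓞 F))⁰ => ((χ (ClassGroup.mk0 I) : ℂˣ) : ℂ) *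
      (((Ideal.absNorm (I : Ideal (𝓞 F)) : ℝ) ^ (-s) : ℝ) : ℂ) :=
    idealSum_summable F _ (fun I => (h93_norm_classChar χ _).le) hs1
  have hfib := hsum.hasSum.tsum_fiberwise (fun I : (Ideal (𝓞 F))⁰ => ClassGroup.mk0 I)
  have hfin := hfib.unique (hasSum_fintype _)
  have hC : ∀ C : ClassGroup (𝓞 F),
      ∑' I : ((fun I : (Ideal (𝓞 F))⁰ => ClassGroup.mk0 I) ⁻¹' {C}),
        ((χ (ClassGroup.mk0 (I : (Ideal (𝓞 F))⁰)) : ℂˣ) : ℂ) *
          (((Ideal.absNorm ((I : (Ideal (𝓞 F))⁰) : Ideal (𝓞 F)) : ℝ) ^ (-s) : ℝ) : ℂ) =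
      ((χ C : ℂˣ) : ℂ) * ((h93_classZeta F C s : ℝ) : ℂ) := by
    intro C
    rw [h93_classZeta, Complex.ofReal_tsum, ← tsum_mul_left]
    refine tsum_congr fun I => ?_
    have hI : ClassGroup.mk0 (I : (Ideal (𝓞 F))⁰) = C := I.2
    rw [hI]
  have hzero : ∑ C : ClassGroup (𝓞 F), ((χ C : ℂˣ) : ℂ) = 0 := by
    have h := sum_hom_units_eq_zero ((Units.coeHom ℂ).comp χ) (by
      intro h
      apply hχ
      ext C
      have := DFunLike.congr_fun h C
      simpa using this)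
    simpa using h
  have hmain : idealSum F (fun I => (χ (ClassGroup.mk0 I) : ℂ)) s =
      ∑ C : ClassGroup (𝓞 F), ((χ C : ℂˣ) : ℂ) *
        (((h93_classZeta F C s - h93_classZeta F 1 s : ℝ)) : ℂ) := by
    have e1 : ∀ C : ClassGroup (𝓞 F), ((χ C : ℂˣ) : ℂ) *
        (((h93_classZeta F C s - h93_classZeta F 1 s : ℝ)) : ℂ) =
        ((χ C : ℂˣ) : ℂ) * ((h93_classZeta F C s : ℝ) : ℂ) -
          ((χ C : ℂˣ) : ℂ) * ((h93_classZeta F 1 s : ℝ) : ℂ) := by
      intro C; push_cast; ring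
    simp_rw [e1]
    rw [Finset.sum_sub_distrib, ← Finset.sum_mul, hzero, zero_mul, sub_zero]
    unfold idealSum
    rw [hfin]
    exact Finset.sum_congr rfl fun C _ => hC C
  rw [hmain]
  refine (norm_sum_le _ _).trans (Finset.sum_le_sum fun C _ => ?_)
  rw [norm_mul, h93_norm_classChar, one_mul, Complex.norm_real, Real.norm_eq_abs]
  exact hB C s hs1 hs2

end Fermat.Agent.S14
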