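import Mathlib
import Fermat.Agent.S14.Defs
import Fermat.Agent.S14.CLS
import Fermat.Agent.S14.h84_Split

/-!
# S14, package KEY (core): the Artin trick, with the auxiliary prime and the auxiliary
fields taken as hypotheses.
-/

set_option autoImplicit false

namespace Fermat.Agent.S14

open NumberField
open scoped nonZeroDivisors

/-- a character of `(ZMod q')ˣ` whose kernel is exactly the group of `p`-th powers -/
theorem h13_exists_char (q' p : ℕ) (hq' : q'.Prime) (hp : p.Prime) (hq'p : q' % p = 1) :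
    ∃ ψ : (ZMod q')ˣ →* ℂˣ, ∀ u : (ZMod q')ˣ, (ψ u = 1 ↔ ∃ v : (ZMod q')ˣ, u = v ^ p) := by
  have : Fact q'.Prime := ⟨hq'⟩
  obtain ⟨g, hg⟩ := IsCyclic.exists_generator (α := (ZMod q')ˣ)
  have hord : orderOf g = q' - 1 := by
    rw [orderOf_eq_card_of_forall_mem_zpowers hg, Nat.card_eq_fintype_card, ZMod.card_units]
  have hω := Complex.isPrimitiveRoot_exp p hp.ne_zero
  obtain ⟨ω, hωe⟩ := hω.isUnit hp.ne_zero
  have hω' : IsPrimitiveRoot ω p := IsPrimitiveRoot.coe_units_iff.mp (by rw [hωe]; exact hω)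
  have hdvd : orderOf ω ∣ orderOf g := by
    rw [← hω'.eq_orderOf, hord]
    have := Nat.dvd_sub_mod (n := p) q'
    rwa [hq'p] at this
  refine ⟨monoidHomOfForallMemZpowers hg hdvd, fun u => ?_⟩
  have hgen : monoidHomOfForallMemZpowers hg hdvd g = ω :=
    monoidHomOfForallMemZpowers_apply_gen hg hdvd
  constructor
  · intro h
    obtain ⟨k, rfl⟩ := Subgroup.mem_zpowers_iff.mp (hg u)
    rw [map_zpow, hgen, hω'.zpow_eq_one_iff_dvd] at h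
    obtain ⟨j, rfl⟩ := h
    exact ⟨g ^ j, by rw [← zpow_natCast, ← zpow_mul, mul_comm]⟩
  · rintro ⟨v, rfl⟩
    obtain ⟨j, rfl⟩ := Subgroup.mem_zpowers_iff.mp (hg v)
    rw [map_pow, map_zpow, hgen, ← zpow_natCast, ← zpow_mul, mul_comm, zpow_mul, zpow_natCast,
      hω'.pow_eq_one, one_zpow]

/-- the character of `h13_exists_char` extended by `1` at `0` -/
theorem h13_exists_Psi (q' p : ℕ) (hq' : q'.Prime) (hp : p.Prime) (hq'p : q' % p = 1) :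
    ∃ Ψ : ZMod q' → ℂˣ,
      (∀ x y, x ≠ 0 → y ≠ 0 → Ψ (x * y) = Ψ x * Ψ y) ∧
      (∀ x, x ≠ 0 → (Ψ x = 1 ↔ ∃ y, x = y ^ p)) ∧ (∀ x, (∃ y, x = y ^ p) → Ψ x = 1) := by
  have : Fact q'.Prime := ⟨hq'⟩
  obtain ⟨ψ, hψ⟩ := h13_exists_char q' p hq' hp hq'p
  classical
  have key : ∀ x : ZMod q', ∀ hx : x ≠ 0, (ψ (Units.mk0 x hx) = 1 ↔ ∃ y, x = y ^ p) := by
    intro x hx
    rw [hψ]
    constructor
    · rintro ⟨v, hv⟩
      exact ⟨(v : ZMod q'), by rw [← Units.val_pow_eq_pow_val, ← hv]; rfl⟩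
    · rintro ⟨y, rfl⟩
      have hy : y ≠ 0 := by
        rintro rfl
        exact hx (zero_pow hp.ne_zero)
      exact ⟨Units.mk0 y hy, Units.ext (by simp)⟩
  refine ⟨fun x => if h : x = 0 then 1 else ψ (Units.mk0 x h), ?_, ?_, ?_⟩
  · intro x y hx hy
    simp only [hx, hy, mul_ne_zero hx hy, dif_neg, not_false_eq_true]
    rw [← map_mul, Units.mk0_mul]
  · intro x hx
    simp only [hx, dif_neg, not_false_eq_true]
    exact key x hx
  · rintro x hxy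
    by_cases hx : x = 0
    · simp [hx]
    · simp only [hx, dif_neg, not_false_eq_true]
      exact (key x hx).mpr hxy

/-- a nonzero ideal coprime to `q'` has norm prime to `q'` -/
theorem h13_absNorm_ne_zero {F : Type*} [Field F] [NumberField F] (q' : ℕ) (hq' : q'.Prime)
    (I : Ideal (𝓞 F)) (hI : I ≠ ⊥) (h : IsCoprime I (Ideal.span {(q' : 𝓞 F)})) :
    ((Ideal.absNorm I : ℕ) : ZMod q') ≠ 0 := by
  have : Fact q'.Prime := ⟨hq'⟩
  intro h0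
  rw [ZMod.natCast_eq_zero_iff] at h0
  have hne : Ideal.absNorm I ≠ 0 := by
    rwa [Ne, Ideal.absNorm_eq_zero_iff]
  rw [Ideal.absNorm_apply, Submodule.cardQuot_apply] at h0 hne
  have : Finite (𝓞 F ⧸ I) := Nat.finite_of_card_ne_zero hne
  obtain ⟨x, hx⟩ := exists_prime_addOrderOf_dvd_card' (G := 𝓞 F ⧸ I) q' h0
  obtain ⟨i, hi, j, hj, hij⟩ := Ideal.isCoprime_iff_exists.mp h
  obtain ⟨t, rfl⟩ := Ideal.mem_span_singleton'.mp hj
  have h1 : (Ideal.Quotient.mk I (t * (q' : 𝓞 F))) = 1 := by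
    rw [← map_one (Ideal.Quotient.mk I), ← hij, map_add, Ideal.Quotient.eq_zero_iff_mem.mpr hi,
      zero_add]
  have h2 : q' • x = 0 := by
    rw [← hx]
    exact addOrderOf_nsmul_eq_zero x
  have h3 : x = 0 := by
    calc x = x * 1 := (mul_one x).symm
      _ = x * (Ideal.Quotient.mk I (t * (q' : 𝓞 F))) := by rw [h1]
      _ = (q' • x) * Ideal.Quotient.mk I t := by
        rw [map_mul, map_natCast, nsmul_eq_mul]
        ring
      _ = 0 := by rw [h2, zero_mul]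
  rw [h3, addOrderOf_zero] at hx
  exact hq'.one_lt.ne hx

/-- a nonzero prime not containing `x` is coprime to `(x)` -/
theorem h13_isCoprime_of_notMem {F : Type*} [Field F] [NumberField F]
    (P : Ideal (𝓞 F)) (hP : P.IsPrime) (hP0 : P ≠ ⊥) (x : 𝓞 F) (hx : x ∉ P) :
    IsCoprime P (Ideal.span {x}) := by
  have hmax : P.IsMaximal := hP.isMaximal hP0
  rw [Ideal.isCoprime_iff_sup_eq]
  by_contra hne
  have := hmax.eq_of_le hne le_sup_left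
  apply hx
  rw [this]
  exact Ideal.mem_sup_right (Ideal.mem_span_singleton_self x)

/-- a prime ideal whose norm is a prime `q ≠ q'` does not contain `q'` -/
theorem h13_notMem_of_absNorm {F : Type*} [Field F] [NumberField F] (q q' : ℕ) (hq : q.Prime)
    (hq' : q'.Prime) (hne : q' ≠ q) (P : Ideal (𝓞 F)) (hP : P.IsPrime)
    (hN : Ideal.absNorm P = q) : (q' : 𝓞 F) ∉ P := by
  intro hmem
  have hqmem : (q : 𝓞 F) ∈ P := by
    rw [← hN]
    exact Ideal.absNorm_mem P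
  have hcop : Nat.Coprime q' q := (Nat.coprime_primes hq' hq).mpr hne
  obtain ⟨a, b, hab⟩ := (Nat.isCoprime_iff_coprime.mpr hcop)
  have h1 : (1 : 𝓞 F) ∈ P := by
    have : ((a * (q' : ℤ) + b * (q : ℤ) : ℤ) : 𝓞 F) = 1 := by
      rw [hab]; simp
    rw [← this]
    push_cast
    exact P.add_mem (P.mul_mem_left _ hmem) (P.mul_mem_left _ hqmem)
  exact hP.ne_top ((Ideal.eq_top_iff_one P).mpr h1)

/-- the residue degree divides the degree in a Galois extension -/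
theorem h13_inertiaDeg_dvd {K F : Type*} [Field K] [NumberField K] [Field F] [NumberField F]
    [Algebra K F] [IsGalois K F] (P : Ideal (𝓞 F)) (hP : P.IsPrime) :
    P.inertiaDeg (𝓞 K) ∣ Module.finrank K F := by
  have key := Ideal.ncard_primesOver_mul_ramificationIdxIn_mul_inertiaDegIn (P.under (𝓞 K)) (𝓞 F)
    Gal(F/K)
  rw [IsGalois.card_aut_eq_finrank] at key
  have : P.LiesOver (P.under (𝓞 K)) := ⟨rfl⟩
  rw [Ideal.inertiaDegIn_eq_inertiaDeg (P.under (𝓞 K)) P Gal(F/K)] at key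
  rw [← key, ← mul_assoc]
  exact Dvd.intro_left _ rfl

/-- **The Artin trick, core form.**  `Spl` stands for "splits completely in `N`". -/
theorem h13_key_core (p : ℕ) [Fact p.Prime]
    (K L : Type) [Field K] [NumberField K] [Field L] [NumberField L] [Algebra K L]
    (c : ClassGroup (𝓞 K) →* ℂˣ) (hcp : ∀ x, c x ^ p = 1)
    (hcs : ∀ P : (Ideal (𝓞 K))⁰, (P : Ideal (𝓞 K)).IsPrime →
      SplitsCompletely (𝓞 K) (𝓞 L) (P : Ideal (𝓞 K)) → c (ClassGroup.mk0 P) = 1)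
    (Q Q₀ : (Ideal (𝓞 K))⁰) (hQ : (Q : Ideal (𝓞 K)).IsPrime) (hQ₀ : (Q₀ : Ideal (𝓞 K)).IsPrime)
    (q q₀ : ℕ) (hq : q.Prime) (hq₀ : q₀.Prime)
    (hNQ : Ideal.absNorm (Q : Ideal (𝓞 K)) = q) (hNQ₀ : Ideal.absNorm (Q₀ : Ideal (𝓞 K)) = q₀)
    (a : ℕ) (q' : ℕ) (hq' : q'.Prime) (hq'p : q' % p = 1) (hq'q : q' ≠ q) (hq'q₀ : q' ≠ q₀)
    (y : ZMod q') (hy : (q : ZMod q') = (q₀ : ZMod q') ^ a * y ^ p)
    (F : Type) [Field F] [NumberField F] [Algebra K F] [IsGalois K F]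
    (hKF : Module.finrank K F = p) (Spl : Ideal (𝓞 F) → Prop)
    (hFI : ∀ θ c' : ClassGroup (𝓞 F) →* ℂˣ,
      (∀ P : (Ideal (𝓞 F))⁰, (P : Ideal (𝓞 F)).IsPrime → (q' : 𝓞 F) ∉ (P : Ideal (𝓞 F)) →
        (θ (ClassGroup.mk0 P) = 1 ↔ Spl (P : Ideal (𝓞 F))) ∧ θ (ClassGroup.mk0 P) ^ p = 1) →
      (∀ P : (Ideal (𝓞 F))⁰, (P : Ideal (𝓞 F)).IsPrime → (q' : 𝓞 F) ∉ (P : Ideal (𝓞 F)) →
        (Spl (P : Ideal (𝓞 F)) → c' (ClassGroup.mk0 P) = 1) ∧ c' (ClassGroup.mk0 P) ^ p = 1) →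
      ∃ k : ℕ, c' = θ ^ k)
    (B1 : ∀ P : Ideal (𝓞 F), P.IsPrime → P ≠ ⊥ → (q' : 𝓞 F) ∉ P →
      (Spl P ↔ ∃ y : ZMod q', ((Ideal.absNorm P : ℕ) : ZMod q') = y ^ p))
    (B2 : SplitsCompletely (𝓞 K) (𝓞 F) (Q : Ideal (𝓞 K)))
    (B2₀ : SplitsCompletely (𝓞 K) (𝓞 F) (Q₀ : Ideal (𝓞 K)))
    (B3 : ∀ γ : 𝓞 F, γ ≠ 0 → IsCoprime (Ideal.span {γ}) (Ideal.span {(q' : 𝓞 F)}) →
      ∃ y : ZMod q', ((Ideal.absNorm (Ideal.span {γ}) : ℕ) : ZMod q') = y ^ p)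
    (B4 : ∀ P : Ideal (𝓞 F), P.IsPrime → P ≠ ⊥ → (q' : 𝓞 F) ∉ P → P.inertiaDeg (𝓞 K) = 1 →
      Spl P → SplitsCompletely (𝓞 K) (𝓞 L) (P.under (𝓞 K))) :
    c (ClassGroup.mk0 Q) = c (ClassGroup.mk0 Q₀) ^ a := by
  classical
  have hp : p.Prime := Fact.out
  have : Fact q'.Prime := ⟨hq'⟩
  obtain ⟨Ψ, hΨmul, hΨiff, hΨone⟩ := h13_exists_Psi q' p hq' hp hq'p
  have hΨ1 : Ψ 1 = 1 := hΨone 1 ⟨1, (one_pow p).symm⟩
  have hΨpow : ∀ (x : ZMod q') (n : ℕ), x ≠ 0 → Ψ (x ^ n) = Ψ x ^ n := by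
    intro x n hx
    induction n with
    | zero => simp [hΨ1]
    | succ n ih => rw [pow_succ, hΨmul _ _ (pow_ne_zero n hx) hx, ih, pow_succ]
  have hΨp : ∀ x : ZMod q', Ψ x ^ p = 1 := by
    intro x
    by_cases hx : x = 0
    · rw [hx, hΨone 0 ⟨0, (zero_pow hp.ne_zero).symm⟩, one_pow]
    · rw [← hΨpow x p hx]
      exact hΨone _ ⟨x, rfl⟩
  -- the class character `θ`
  obtain ⟨θ, hθ⟩ := exists_classChar F q' hq'.ne_zero
    (fun I => Ψ ((Ideal.absNorm I : ℕ) : ZMod q'))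
    (fun I J hI hJ hIc hJc => by
      show Ψ ((Ideal.absNorm (I * J) : ℕ) : ZMod q') = _
      rw [map_mul, Nat.cast_mul]
      exact hΨmul _ _ (h13_absNorm_ne_zero q' hq' I hI hIc) (h13_absNorm_ne_zero q' hq' J hJ hJc))
    (fun x hx hxc => hΨone _ (B3 x hx hxc))
  -- the class character `c'`
  have hrel : ∀ I : Ideal (𝓞 F), I ≠ ⊥ → Ideal.relNorm (𝓞 K) I ∈ (Ideal (𝓞 K))⁰ := fun I hI =>
    mem_nonZeroDivisors_of_ne_zero (by rwa [Ne, Ideal.zero_eq_bot, Ideal.relNorm_eq_bot_iff])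
  obtain ⟨c', hc'⟩ := exists_classChar F 1 one_ne_zero
    (fun I => if h : I = ⊥ then 1 else c (ClassGroup.mk0 ⟨Ideal.relNorm (𝓞 K) I, hrel I h⟩))
    (fun I J hI hJ _ _ => by
      have hIJ : I * J ≠ ⊥ := mul_ne_zero hI hJ
      simp only [hI, hJ, hIJ, dif_neg, not_false_eq_true]
      rw [← map_mul, ← map_mul]
      congr 2
      exact Subtype.ext (map_mul _ I J))
    (fun x hx _ => by
      have hx' : Ideal.span {x} ≠ (⊥ : Ideal (𝓞 F)) := by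
        rwa [Ne, Ideal.span_singleton_eq_bot]
      simp only [hx', dif_neg, not_false_eq_true]
      have : ClassGroup.mk0 ⟨Ideal.relNorm (𝓞 K) (Ideal.span {x}), hrel _ hx'⟩ = 1 := by
        rw [ClassGroup.mk0_eq_one_iff]
        show (Ideal.relNorm (𝓞 K) (Ideal.span {x})).IsPrincipal
        rw [Ideal.relNorm_singleton]
        exact ⟨⟨_, rfl⟩⟩
      rw [this, map_one])
  have htop : ∀ I : Ideal (𝓞 F), IsCoprime I (Ideal.span {((1 : ℕ) : 𝓞 F)}) := by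
    intro I
    rw [Nat.cast_one, Ideal.span_singleton_one, Ideal.isCoprime_iff_sup_eq]
    exact sup_top_eq I
  have hc'eq : ∀ I : (Ideal (𝓞 F))⁰, c' (ClassGroup.mk0 I) =
      c (ClassGroup.mk0 ⟨Ideal.relNorm (𝓞 K) (I : Ideal (𝓞 F)),
        hrel _ (nonZeroDivisors.coe_ne_zero I)⟩) := by
    intro I
    rw [hc' I (htop _)]
    have : (I : Ideal (𝓞 F)) ≠ ⊥ := nonZeroDivisors.coe_ne_zero I
    simp only [this, dif_neg, not_false_eq_true]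
  -- value of `c'` at a prime
  have hc'prime : ∀ P : (Ideal (𝓞 F))⁰, (P : Ideal (𝓞 F)).IsPrime →
      ∀ hP0 : (P : Ideal (𝓞 F)).under (𝓞 K) ∈ (Ideal (𝓞 K))⁰,
      c' (ClassGroup.mk0 P) = c (ClassGroup.mk0 ⟨(P : Ideal (𝓞 F)).under (𝓞 K), hP0⟩) ^
        (P : Ideal (𝓞 F)).inertiaDeg (𝓞 K) := by
    intro P hP hP0
    have hPne : (P : Ideal (𝓞 F)) ≠ ⊥ := nonZeroDivisors.coe_ne_zero P
    have hPmax : (P : Ideal (𝓞 F)).IsMaximal := hP.isMaximal hPne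
    have hu0 : (P : Ideal (𝓞 F)).under (𝓞 K) ≠ ⊥ := nonZeroDivisors.ne_zero hP0
    have hup : ((P : Ideal (𝓞 F)).under (𝓞 K)).IsPrime := Ideal.IsPrime.under (𝓞 K) _
    have humax : ((P : Ideal (𝓞 F)).under (𝓞 K)).IsMaximal := hup.isMaximal hu0
    have hlo : (P : Ideal (𝓞 F)).LiesOver ((P : Ideal (𝓞 F)).under (𝓞 K)) := ⟨rfl⟩
    rw [hc'eq, ← map_pow, ← map_pow]
    congr 2
    exact Subtype.ext (Ideal.relNorm_eq_pow_of_isMaximal (P : Ideal (𝓞 F))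
      ((P : Ideal (𝓞 F)).under (𝓞 K)))
  have hunder : ∀ P : (Ideal (𝓞 F))⁰, (P : Ideal (𝓞 F)).IsPrime →
      (P : Ideal (𝓞 F)).under (𝓞 K) ∈ (Ideal (𝓞 K))⁰ := by
    intro P hP
    exact mem_nonZeroDivisors_of_ne_zero
      (Ideal.under_ne_bot (𝓞 K) (nonZeroDivisors.coe_ne_zero P))
  -- hypotheses of the first inequality
  obtain ⟨k, hk⟩ := hFI θ c'
    (fun P hP hPq => by
      have hPne : (P : Ideal (𝓞 F)) ≠ ⊥ := nonZeroDivisors.coe_ne_zero P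
      have hcop := h13_isCoprime_of_notMem (P : Ideal (𝓞 F)) hP hPne _ hPq
      rw [hθ P hcop]
      refine ⟨?_, hΨp _⟩
      rw [hΨiff _ (h13_absNorm_ne_zero q' hq' _ hPne hcop)]
      exact (B1 _ hP hPne hPq).symm)
    (fun P hP hPq => by
      have hPne : (P : Ideal (𝓞 F)) ≠ ⊥ := nonZeroDivisors.coe_ne_zero P
      refine ⟨fun hspl => ?_, ?_⟩
      · rw [hc'prime P hP (hunder P hP)]
        have hdvd := h13_inertiaDeg_dvd (K := K) (P : Ideal (𝓞 F)) hP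
        rw [hKF] at hdvd
        rcases (Nat.dvd_prime hp).mp hdvd with h1 | h1
        · rw [h1, pow_one]
          exact hcs _ (Ideal.IsPrime.under (𝓞 K) _) (B4 _ hP hPne hPq h1 hspl)
        · rw [h1]
          exact hcp _
      · rw [hc'eq]
        exact hcp _)
  -- a prime of `F` over a completely split prime of `K` of prime norm
  have hval : ∀ (Q₁ : (Ideal (𝓞 K))⁰) (q₁ : ℕ), (Q₁ : Ideal (𝓞 K)).IsPrime → q₁.Prime →
      q' ≠ q₁ → Ideal.absNorm (Q₁ : Ideal (𝓞 K)) = q₁ →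
      SplitsCompletely (𝓞 K) (𝓞 F) (Q₁ : Ideal (𝓞 K)) →
      c (ClassGroup.mk0 Q₁) = Ψ (q₁ : ZMod q') ^ k := by
    intro Q₁ q₁ hQ₁ hq₁ hne hN hspl
    have hQ₁ne : (Q₁ : Ideal (𝓞 K)) ≠ ⊥ := nonZeroDivisors.coe_ne_zero Q₁
    have hQ₁max : (Q₁ : Ideal (𝓞 K)).IsMaximal := hQ₁.isMaximal hQ₁ne
    obtain ⟨P, hPmax, hPlo⟩ :=
      Ideal.exists_maximal_ideal_liesOver_of_isIntegral (S := 𝓞 F) (Q₁ : Ideal (𝓞 K))
    have hP : P.IsPrime := hPmax.isPrime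
    have hPne : P ≠ ⊥ := h84_ne_bot_of_liesOver K F _ hQ₁ne P hPlo
    obtain ⟨-, hf⟩ := hspl P hP hPlo
    have hNP : Ideal.absNorm P = q₁ := by
      rw [h84_absNorm_eq_pow_ideal K F _ P hP hPne hPlo, hf, pow_one, hN]
    have hPq : (q' : 𝓞 F) ∉ P := h13_notMem_of_absNorm q₁ q' hq₁ hq' hne P hP hNP
    have hcop := h13_isCoprime_of_notMem P hP hPne _ hPq
    have hPmem : P ∈ (Ideal (𝓞 F))⁰ := mem_nonZeroDivisors_of_ne_zero hPne
    have h1 : c' (ClassGroup.mk0 ⟨P, hPmem⟩) = c (ClassGroup.mk0 Q₁) := by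
      rw [hc'eq]
      congr 2
      apply Subtype.ext
      show Ideal.relNorm (𝓞 K) P = (Q₁ : Ideal (𝓞 K))
      rw [Ideal.relNorm_eq_pow_of_isMaximal P (Q₁ : Ideal (𝓞 K)), hf, pow_one]
    rw [← h1, hk, MonoidHom.pow_apply, hθ ⟨P, hPmem⟩ hcop]
    show Ψ ((Ideal.absNorm P : ℕ) : ZMod q') ^ k = _
    rw [hNP]
  rw [hval Q q hQ hq hq'q hNQ B2, hval Q₀ q₀ hQ₀ hq₀ hq'q₀ hNQ₀ B2₀]
  have hq0 : (q : ZMod q') ≠ 0 := by
    rw [Ne, ZMod.natCast_eq_zero_iff]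
    exact fun h => hq'q ((Nat.prime_dvd_prime_iff_eq hq' hq).mp h)
  have hq₀0 : (q₀ : ZMod q') ≠ 0 := by
    rw [Ne, ZMod.natCast_eq_zero_iff]
    exact fun h => hq'q₀ ((Nat.prime_dvd_prime_iff_eq hq' hq₀).mp h)
  have hy0 : y ≠ 0 := by
    rintro rfl
    rw [zero_pow hp.ne_zero, mul_zero] at hy
    exact hq0 hy
  rw [hy, hΨmul _ _ (pow_ne_zero a hq₀0) (pow_ne_zero p hy0), hΨpow _ a hq₀0,
    hΨone (y ^ p) ⟨y, rfl⟩, mul_one, ← pow_mul, ← pow_mul, mul_comm]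

end Fermat.Agent.S14
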