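import Mathlib
import Fermat.Agent.S14.Defs

/-!
Package FI of project S14: the first inequality in character form, with the three inputs
from packages ZB and LBD taken as explicit hypotheses (`h85_char_eq_pow_of`).
-/

namespace Fermat.Agent.S14

open NumberField Filter Topology IsDedekindDomain
open scoped nonZeroDivisors Pointwise

section chars

variable {F : Type*} [Field F] [NumberField F]

/-- the nonzero ideal attached to a height-one prime -/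
noncomputable def h85_pI (v : HeightOneSpectrum (𝓞 F)) : (Ideal (𝓞 F))⁰ :=
  ⟨v.asIdeal, mem_nonZeroDivisors_of_ne_zero v.ne_bot⟩

/-- input from ZB: Euler product of a bounded completely multiplicative function -/
def h85_HypProd (F : Type*) [Field F] [NumberField F] : Prop :=
  ∀ (g : (Ideal (𝓞 F))⁰ →* ℂ), (∀ I, ‖g I‖ ≤ 1) → ∀ s : ℝ, 1 < s →
    HasProd (fun v : HeightOneSpectrum (𝓞 F) =>
      (1 - g (h85_pI v) * (((Ideal.absNorm v.asIdeal : ℝ) ^ (-s) : ℝ) : ℂ))⁻¹)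
      (idealSum F g s)

/-- input from ZB: the sum over all ideals is the Dedekind zeta function -/
def h85_HypOne (F : Type*) [Field F] [NumberField F] : Prop :=
  ∀ s : ℝ, 1 < s → idealSum F (fun _ => 1) s = dedekindZeta F s

/-- input from LBD: the series of a nontrivial class character is bounded on `(1, 2]` -/
def h85_HypBdd (F : Type*) [Field F] [NumberField F] : Prop :=
  ∀ χ : ClassGroup (𝓞 F) →* ℂˣ, χ ≠ 1 → ∃ B : ℝ, ∀ s : ℝ, 1 < s → s ≤ 2 →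
    ‖idealSum F (fun I => (χ (ClassGroup.mk0 I) : ℂ)) s‖ ≤ B

/-- a class character, read on nonzero ideals, as a monoid hom to `ℂ` -/
noncomputable def h85_chiHom (χ : ClassGroup (𝓞 F) →* ℂˣ) : (Ideal (𝓞 F))⁰ →* ℂ :=
  (Units.coeHom ℂ).comp (χ.comp ClassGroup.mk0)

theorem h85_chiHom_apply (χ : ClassGroup (𝓞 F) →* ℂˣ) (I : (Ideal (𝓞 F))⁰) :
    h85_chiHom χ I = (χ (ClassGroup.mk0 I) : ℂ) := rfl

theorem h85_char_pow_card (χ : ClassGroup (𝓞 F) →* ℂˣ) (x : ClassGroup (𝓞 F)) :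
    χ x ^ Fintype.card (ClassGroup (𝓞 F)) = 1 := by
  rw [← map_pow, pow_card_eq_one, map_one]

theorem h85_char_norm (χ : ClassGroup (𝓞 F) →* ℂˣ) (x : ClassGroup (𝓞 F)) :
    ‖((χ x : ℂˣ) : ℂ)‖ = 1 := by
  have h : ((χ x : ℂˣ) : ℂ) ^ Fintype.card (ClassGroup (𝓞 F)) = 1 := by
    rw [← Units.val_pow_eq_pow_val, h85_char_pow_card, Units.val_one]
  exact Complex.norm_eq_one_of_pow_eq_one h Fintype.card_ne_zero

theorem h85_chiHom_norm_le (χ : ClassGroup (𝓞 F) →* ℂˣ) (I : (Ideal (𝓞 F))⁰) :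
    ‖h85_chiHom χ I‖ ≤ 1 := by
  rw [h85_chiHom_apply, h85_char_norm]

theorem h85_mul_pow_ne_one (θ c : ClassGroup (𝓞 F) →* ℂˣ) (hall : ∀ k : ℕ, c ≠ θ ^ k) (j : ℕ) :
    c * θ ^ j ≠ 1 := by
  intro h
  refine hall (j * (Fintype.card (ClassGroup (𝓞 F)) - 1)) (MonoidHom.ext fun x => ?_)
  have hx : c x * θ x ^ j = 1 := DFunLike.congr_fun h x
  have hcard : θ x ^ Fintype.card (ClassGroup (𝓞 F)) = 1 := h85_char_pow_card θ x
  obtain ⟨n, hn⟩ : ∃ n, Fintype.card (ClassGroup (𝓞 F)) = n + 1 :=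
    ⟨_, (Nat.succ_pred_eq_of_pos Fintype.card_pos).symm⟩
  rw [hn] at hcard
  show c x = θ x ^ (j * (Fintype.card (ClassGroup (𝓞 F)) - 1))
  rw [hn, Nat.add_sub_cancel]
  have h2 : θ x ^ j * θ x ^ (j * n) = 1 := by
    rw [← pow_add, show j + j * n = (n + 1) * j by ring, pow_mul, hcard, one_pow]
  calc c x = c x * (θ x ^ j * θ x ^ (j * n)) := by rw [h2, mul_one]
    _ = (c x * θ x ^ j) * θ x ^ (j * n) := by rw [mul_assoc]
    _ = θ x ^ (j * n) := by rw [hx, one_mul]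

end chars

section fibres

variable {F N : Type*} [Field F] [NumberField F] [Field N] [NumberField N] [Algebra F N]

/-- the primes of `N` above a prime `v` of `F`, as a fibre of `under` -/
noncomputable def h85_fibreEquiv (v : HeightOneSpectrum (𝓞 F)) :
    {w : HeightOneSpectrum (𝓞 N) // w.under (𝓞 F) = v} ≃ v.asIdeal.primesOver (𝓞 N) where
  toFun w := ⟨w.1.asIdeal, w.1.isPrime, ⟨(congrArg HeightOneSpectrum.asIdeal w.2).symm⟩⟩
  invFun Q := ⟨⟨Q.1, Q.2.1, Ideal.ne_bot_of_mem_primesOver v.ne_bot Q.2⟩,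
    HeightOneSpectrum.ext (Q.2.2.over).symm⟩
  left_inv w := by ext; rfl
  right_inv Q := by ext; rfl

theorem h85_fibreFinite (v : HeightOneSpectrum (𝓞 F)) :
    Finite {w : HeightOneSpectrum (𝓞 N) // w.under (𝓞 F) = v} := by
  have := v.isMaximal
  exact Finite.of_equiv _ (h85_fibreEquiv (N := N) v).symm

/-- split / inert dichotomy at an unramified prime of a Galois extension of prime degree -/
theorem h85_dichotomy [IsGalois F N] {p : ℕ} (hp : p.Prime) (hdeg : Module.finrank F N = p)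
    (v : HeightOneSpectrum (𝓞 F))
    (hunr : ∀ Q : Ideal (𝓞 N), Q.IsPrime → Q.LiesOver v.asIdeal → Q.ramificationIdx (𝓞 F) = 1) :
    (SplitsCompletely (𝓞 F) (𝓞 N) v.asIdeal ∧ (v.asIdeal.primesOver (𝓞 N)).ncard = p ∧
      ∀ Q ∈ v.asIdeal.primesOver (𝓞 N), Ideal.absNorm Q = Ideal.absNorm v.asIdeal) ∨
    (¬ SplitsCompletely (𝓞 F) (𝓞 N) v.asIdeal ∧ (v.asIdeal.primesOver (𝓞 N)).ncard = 1 ∧
      ∀ Q ∈ v.asIdeal.primesOver (𝓞 N), Ideal.absNorm Q = Ideal.absNorm v.asIdeal ^ p) := by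
  have := v.isPrime
  have := v.isMaximal
  have hfund := Ideal.ncard_primesOver_mul_ramificationIdxIn_mul_inertiaDegIn v.asIdeal (𝓞 N)
    Gal(N/F)
  rw [IsGalois.card_aut_eq_finrank, hdeg] at hfund
  obtain ⟨⟨Q₀, hQ₀p, hQ₀o⟩⟩ : Nonempty (v.asIdeal.primesOver (𝓞 N)) := inferInstance
  have he : v.asIdeal.ramificationIdxIn (𝓞 N) = 1 := by
    rw [Ideal.ramificationIdxIn_eq_ramificationIdx v.asIdeal Q₀ Gal(N/F)]
    exact hunr Q₀ hQ₀p hQ₀o
  rw [he, one_mul] at hfund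
  have hfQ : ∀ Q ∈ v.asIdeal.primesOver (𝓞 N),
      Q.inertiaDeg (𝓞 F) = v.asIdeal.inertiaDegIn (𝓞 N) := by
    intro Q hQ
    have := hQ.1
    have := hQ.2
    exact (Ideal.inertiaDegIn_eq_inertiaDeg v.asIdeal Q Gal(N/F)).symm
  have hnorm : ∀ Q ∈ v.asIdeal.primesOver (𝓞 N),
      Ideal.absNorm Q = Ideal.absNorm v.asIdeal ^ v.asIdeal.inertiaDegIn (𝓞 N) := by
    intro Q hQ
    have := hQ.1
    have := hQ.2
    rw [← hfQ Q hQ]
    exact (Ideal.absNorm_pow_inertiaDeg v.asIdeal Q).symm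
  have hdvd : v.asIdeal.inertiaDegIn (𝓞 N) ∣ p := Dvd.intro_left _ hfund
  rcases (Nat.dvd_prime hp).mp hdvd with h1 | h1
  · left
    rw [h1, mul_one] at hfund
    refine ⟨fun Q hQp hQo => ⟨hunr Q hQp hQo, ?_⟩, hfund, fun Q hQ => ?_⟩
    · rw [hfQ Q ⟨hQp, hQo⟩, h1]
    · rw [hnorm Q hQ, h1, pow_one]
  · right
    rw [h1] at hfund
    refine ⟨fun hs => ?_, ?_, fun Q hQ => ?_⟩
    · have := (hs Q₀ hQ₀p hQ₀o).2
      rw [hfQ Q₀ ⟨hQ₀p, hQ₀o⟩, h1] at this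
      exact hp.one_lt.ne' this
    · have hp0 : 0 < p := hp.pos
      exact Nat.eq_of_mul_eq_mul_right hp0 (by rw [hfund, one_mul])
    · rw [hnorm Q hQ, h1]

/-- a `Fintype` structure on the fibre (local instance in this file only) -/
@[reducible] noncomputable def h85_fibreFintype (v : HeightOneSpectrum (𝓞 F)) :
    Fintype {w : HeightOneSpectrum (𝓞 N) // w.under (𝓞 F) = v} :=
  have := h85_fibreFinite (N := N) v
  Fintype.ofFinite _

attribute [local instance] h85_fibreFintype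

theorem h85_rpow_pow (a p : ℕ) (s : ℝ) :
    (((a ^ p : ℕ) : ℝ)) ^ (-s) = ((a : ℝ) ^ (-s)) ^ p := by
  rw [Nat.cast_pow, ← Real.rpow_natCast_mul (Nat.cast_nonneg a),
    ← Real.rpow_mul_natCast (Nat.cast_nonneg a), mul_comm]

theorem h85_prod_root {p : ℕ} (hp : p.Prime) (t c : ℂˣ) (ht : t ≠ 1) (htp : t ^ p = 1)
    (hcp : c ^ p = 1) (x : ℂ) :
    ∏ j ∈ Finset.range p, (1 - ((c * t ^ j : ℂˣ) : ℂ) * x) = 1 - x ^ p := by
  have hprim : IsPrimitiveRoot (t : ℂ) p := by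
    rw [IsPrimitiveRoot.coe_units_iff, ← orderOf_eq_prime (p := p) (hp := ⟨hp⟩) htp ht]
    exact IsPrimitiveRoot.orderOf t
  have hcp' : (c : ℂ) ^ p = 1 := by rw [← Units.val_pow_eq_pow_val, hcp, Units.val_one]
  have key := X_pow_sub_C_eq_prod hprim hp.pos (α := (c : ℂ) * x) (a := x ^ p)
    (by rw [mul_pow, hcp', one_mul])
  have key2 := congrArg (Polynomial.eval 1) key
  simp only [Polynomial.eval_sub, Polynomial.eval_pow, Polynomial.eval_X, one_pow,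
    Polynomial.eval_C, Polynomial.eval_prod] at key2
  rw [key2]
  refine Finset.prod_congr rfl fun j _ => ?_
  push_cast
  ring

theorem h85_local [IsGalois F N] {p : ℕ} (hp : p.Prime) (hdeg : Module.finrank F N = p)
    (v : HeightOneSpectrum (𝓞 F))
    (hunr : ∀ Q : Ideal (𝓞 N), Q.IsPrime → Q.LiesOver v.asIdeal → Q.ramificationIdx (𝓞 F) = 1)
    (t c : ℂˣ) (ht : t = 1 ↔ SplitsCompletely (𝓞 F) (𝓞 N) v.asIdeal) (htp : t ^ p = 1)
    (hc : SplitsCompletely (𝓞 F) (𝓞 N) v.asIdeal → c = 1) (hcp : c ^ p = 1) (s : ℝ) :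
    ∏ w : {w : HeightOneSpectrum (𝓞 N) // w.under (𝓞 F) = v},
        (1 - (((Ideal.absNorm w.1.asIdeal : ℝ) ^ (-s) : ℝ) : ℂ)) =
      ∏ j ∈ Finset.range p,
        (1 - ((c * t ^ j : ℂˣ) : ℂ) * (((Ideal.absNorm v.asIdeal : ℝ) ^ (-s) : ℝ) : ℂ)) := by
  have := v.isMaximal
  have e : ∏ w : {w : HeightOneSpectrum (𝓞 N) // w.under (𝓞 F) = v},
        (1 - (((Ideal.absNorm w.1.asIdeal : ℝ) ^ (-s) : ℝ) : ℂ)) =
      ∏ Q : v.asIdeal.primesOver (𝓞 N), (1 - (((Ideal.absNorm Q.1 : ℝ) ^ (-s) : ℝ) : ℂ)) :=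
    Fintype.prod_equiv (h85_fibreEquiv (N := N) v) _ _ (fun w => rfl)
  rw [e]
  have hcard : Fintype.card (v.asIdeal.primesOver (𝓞 N)) = (v.asIdeal.primesOver (𝓞 N)).ncard := by
    rw [← Nat.card_eq_fintype_card, Nat.card_coe_set_eq]
  rcases h85_dichotomy hp hdeg v hunr with ⟨hs, hn, hN⟩ | ⟨hs, hn, hN⟩
  · have ht1 : t = 1 := ht.mpr hs
    have hc1 : c = 1 := hc hs
    rw [Finset.prod_congr rfl (fun Q _ => by rw [hN Q.1 Q.2]), Finset.prod_const,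
      Finset.card_univ, hcard, hn]
    subst ht1 hc1
    simp
  · have ht1 : t ≠ 1 := fun h => hs (ht.mp h)
    rw [Finset.prod_congr rfl (fun Q _ => by rw [hN Q.1 Q.2]), Finset.prod_const,
      Finset.card_univ, hcard, hn, pow_one, h85_prod_root hp t c ht1 htp hcp, h85_rpow_pow]
    push_cast
    rfl

end fibres

section main

attribute [local instance] h85_fibreFintype

theorem h85_rpow_bounds {K : Type*} [Field K] [NumberField K] (v : HeightOneSpectrum (𝓞 K))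
    {s : ℝ} (hs : 1 < s) :
    0 ≤ (Ideal.absNorm v.asIdeal : ℝ) ^ (-s) ∧ (Ideal.absNorm v.asIdeal : ℝ) ^ (-s) ≤ 1 / 2 := by
  have h2 : (2 : ℝ) ≤ (Ideal.absNorm v.asIdeal : ℝ) := by
    have h0 : Ideal.absNorm v.asIdeal ≠ 0 := by
      rw [Ne, Ideal.absNorm_eq_zero_iff]; exact v.ne_bot
    have h1 : Ideal.absNorm v.asIdeal ≠ 1 := by
      rw [Ne, Ideal.absNorm_eq_one_iff]; exact v.isPrime.ne_top
    have : 2 ≤ Ideal.absNorm v.asIdeal := by omega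
    exact_mod_cast this
  have h0 : (0 : ℝ) ≤ (Ideal.absNorm v.asIdeal : ℝ) := by linarith
  refine ⟨Real.rpow_nonneg h0 _, ?_⟩
  rw [Real.rpow_neg h0]
  have h3 : (2 : ℝ) ≤ (Ideal.absNorm v.asIdeal : ℝ) ^ s := by
    calc (2 : ℝ) ≤ (Ideal.absNorm v.asIdeal : ℝ) := h2
      _ = (Ideal.absNorm v.asIdeal : ℝ) ^ (1 : ℝ) := (Real.rpow_one _).symm
      _ ≤ (Ideal.absNorm v.asIdeal : ℝ) ^ s :=
        Real.rpow_le_rpow_of_exponent_le (by linarith) hs.le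
  rw [one_div]
  exact inv_anti₀ (by norm_num) h3

theorem h85_factor_bounds (z : ℂ) (hz : ‖z‖ ≤ 1 / 2) :
    1 - z ≠ 0 ∧ ‖1 - z‖ ≤ 2 ∧ ‖(1 - z)⁻¹‖ ≤ 2 := by
  have h1 : 1 / 2 ≤ ‖1 - z‖ := by
    have := norm_sub_norm_le (1 : ℂ) z
    rw [norm_one] at this
    linarith
  have h2 : ‖1 - z‖ ≤ 2 := by
    have := norm_sub_le (1 : ℂ) z
    rw [norm_one] at this
    linarith
  refine ⟨fun h => ?_, h2, ?_⟩
  · rw [h, norm_zero] at h1
    norm_num at h1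
  · rw [norm_inv]
    calc ‖1 - z‖⁻¹ ≤ (1 / 2 : ℝ)⁻¹ := inv_anti₀ (by norm_num) h1
      _ = 2 := by norm_num

variable {F N : Type*} [Field F] [NumberField F] [Field N] [NumberField N] [Algebra F N]

theorem h85_finite_bad (m : ℕ) (hm : m ≠ 0) :
    {v : HeightOneSpectrum (𝓞 F) | (m : 𝓞 F) ∈ v.asIdeal}.Finite := by
  have h0 : Ideal.span {(m : 𝓞 F)} ≠ 0 := by
    rw [Ne, Ideal.zero_eq_bot, Ideal.span_singleton_eq_bot]
    exact_mod_cast hm
  refine (Ideal.finite_factors h0).subset fun v hv => ?_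
  exact Ideal.dvd_span_singleton.mpr hv

/-- the Euler factor of `ζ_N` over a prime `v` of `F` -/
noncomputable def h85_A (N : Type*) [Field N] [NumberField N] [Algebra F N] (s : ℝ)
    (v : HeightOneSpectrum (𝓞 F)) : ℂ :=
  ∏ w : {w : HeightOneSpectrum (𝓞 N) // w.under (𝓞 F) = v},
    (1 - (((Ideal.absNorm w.1.asIdeal : ℝ) ^ (-s) : ℝ) : ℂ))⁻¹

/-- the Euler factor of `∏_j L(s, c θ^j)` at a prime `v` of `F` -/
noncomputable def h85_B (p : ℕ) (θ c : ClassGroup (𝓞 F) →* ℂˣ) (s : ℝ)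
    (v : HeightOneSpectrum (𝓞 F)) : ℂ :=
  ∏ j ∈ Finset.range p, (1 - h85_chiHom (c * θ ^ j) (h85_pI v) *
    (((Ideal.absNorm v.asIdeal : ℝ) ^ (-s) : ℝ) : ℂ))⁻¹

theorem h85_hasProd_A (hN : h85_HypProd N) {s : ℝ} (hs : 1 < s) :
    HasProd (h85_A (F := F) N s) (idealSum N (fun _ => 1) s) := by
  have h0 := hN (1 : (Ideal (𝓞 N))⁰ →* ℂ) (fun I => by simp) s hs
  have h1 : HasProd (fun w : HeightOneSpectrum (𝓞 N) =>
      (1 - (((Ideal.absNorm w.asIdeal : ℝ) ^ (-s) : ℝ) : ℂ))⁻¹) (idealSum N (fun _ => 1) s) := by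
    have e : idealSum N (⇑(1 : (Ideal (𝓞 N))⁰ →* ℂ)) s = idealSum N (fun _ => 1) s := rfl
    rw [← e]
    simpa using h0
  have h2 := (Equiv.sigmaFiberEquiv (HeightOneSpectrum.under (𝓞 F) (B := 𝓞 N))).hasProd_iff.mpr h1
  exact HasProd.sigma h2 (fun v => hasProd_fintype _)

theorem h85_hasProd_B (hF : h85_HypProd F) (p : ℕ) (θ c : ClassGroup (𝓞 F) →* ℂˣ) {s : ℝ}
    (hs : 1 < s) :
    HasProd (h85_B p θ c s)
      (∏ j ∈ Finset.range p, idealSum F (h85_chiHom (c * θ ^ j)) s) :=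
  hasProd_prod fun j _ => hF (h85_chiHom (c * θ ^ j)) (h85_chiHom_norm_le _) s hs

theorem h85_B_term_norm (χ : ClassGroup (𝓞 F) →* ℂˣ) (v : HeightOneSpectrum (𝓞 F))
    {s : ℝ} (hs : 1 < s) :
    ‖h85_chiHom χ (h85_pI v) * (((Ideal.absNorm v.asIdeal : ℝ) ^ (-s) : ℝ) : ℂ)‖ ≤ 1 / 2 := by
  obtain ⟨h0, h1⟩ := h85_rpow_bounds v hs
  rw [norm_mul, h85_chiHom_apply, h85_char_norm, one_mul, Complex.norm_real, Real.norm_eq_abs,
    abs_of_nonneg h0]
  exact h1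

theorem h85_A_term_norm (w : HeightOneSpectrum (𝓞 N)) {s : ℝ} (hs : 1 < s) :
    ‖((((Ideal.absNorm w.asIdeal : ℝ) ^ (-s) : ℝ)) : ℂ)‖ ≤ 1 / 2 := by
  obtain ⟨h0, h1⟩ := h85_rpow_bounds w hs
  rw [Complex.norm_real, Real.norm_eq_abs, abs_of_nonneg h0]
  exact h1

theorem h85_B_ne_zero (p : ℕ) (θ c : ClassGroup (𝓞 F) →* ℂˣ) (v : HeightOneSpectrum (𝓞 F))
    {s : ℝ} (hs : 1 < s) : h85_B p θ c s v ≠ 0 := by
  unfold h85_B
  rw [Finset.prod_ne_zero_iff]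
  intro j _
  exact inv_ne_zero (h85_factor_bounds _ (h85_B_term_norm _ v hs)).1

theorem h85_B_inv_norm (p : ℕ) (θ c : ClassGroup (𝓞 F) →* ℂˣ) (v : HeightOneSpectrum (𝓞 F))
    {s : ℝ} (hs : 1 < s) : ‖(h85_B p θ c s v)⁻¹‖ ≤ 2 ^ p := by
  unfold h85_B
  rw [← Finset.prod_inv_distrib, norm_prod]
  calc ∏ j ∈ Finset.range p, ‖((1 - h85_chiHom (c * θ ^ j) (h85_pI v) *
        (((Ideal.absNorm v.asIdeal : ℝ) ^ (-s) : ℝ) : ℂ))⁻¹)⁻¹‖
      ≤ ∏ _j ∈ Finset.range p, (2 : ℝ) := by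
        refine Finset.prod_le_prod (fun _ _ => norm_nonneg _) fun j _ => ?_
        rw [inv_inv]
        exact (h85_factor_bounds _ (h85_B_term_norm _ v hs)).2.1
    _ = 2 ^ p := by rw [Finset.prod_const, Finset.card_range]

theorem h85_A_norm (v : HeightOneSpectrum (𝓞 F)) {s : ℝ} (hs : 1 < s) :
    ‖h85_A N s v‖ ≤
      2 ^ Fintype.card {w : HeightOneSpectrum (𝓞 N) // w.under (𝓞 F) = v} := by
  unfold h85_A
  rw [norm_prod]
  calc ∏ w : {w : HeightOneSpectrum (𝓞 N) // w.under (𝓞 F) = v},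
        ‖(1 - (((Ideal.absNorm w.1.asIdeal : ℝ) ^ (-s) : ℝ) : ℂ))⁻¹‖
      ≤ ∏ _w : {w : HeightOneSpectrum (𝓞 N) // w.under (𝓞 F) = v}, (2 : ℝ) := by
        refine Finset.prod_le_prod (fun _ _ => norm_nonneg _) fun w _ => ?_
        exact (h85_factor_bounds _ (h85_A_term_norm w.1 hs)).2.2
    _ = _ := by rw [Finset.prod_const, Finset.card_univ]

theorem h85_AB_eq [IsGalois F N] {p : ℕ} (hp : p.Prime) (hdeg : Module.finrank F N = p) (m : ℕ)
    (hunr : ∀ Q : Ideal (𝓞 N), Q.IsPrime → Q ≠ ⊥ → (m : 𝓞 N) ∉ Q → Q.ramificationIdx (𝓞 F) = 1)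
    (θ c : ClassGroup (𝓞 F) →* ℂˣ)
    (hθ : ∀ P : (Ideal (𝓞 F))⁰, (P : Ideal (𝓞 F)).IsPrime → (m : 𝓞 F) ∉ (P : Ideal (𝓞 F)) →
      (θ (ClassGroup.mk0 P) = 1 ↔ SplitsCompletely (𝓞 F) (𝓞 N) (P : Ideal (𝓞 F))) ∧
        θ (ClassGroup.mk0 P) ^ p = 1)
    (hc : ∀ P : (Ideal (𝓞 F))⁰, (P : Ideal (𝓞 F)).IsPrime → (m : 𝓞 F) ∉ (P : Ideal (𝓞 F)) →
      (SplitsCompletely (𝓞 F) (𝓞 N) (P : Ideal (𝓞 F)) → c (ClassGroup.mk0 P) = 1) ∧
        c (ClassGroup.mk0 P) ^ p = 1)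
    (s : ℝ) (v : HeightOneSpectrum (𝓞 F)) (hv : (m : 𝓞 F) ∉ v.asIdeal) :
    h85_A N s v = h85_B p θ c s v := by
  unfold h85_A h85_B
  rw [Finset.prod_inv_distrib, Finset.prod_inv_distrib]
  congr 1
  have hunr' : ∀ Q : Ideal (𝓞 N), Q.IsPrime → Q.LiesOver v.asIdeal →
      Q.ramificationIdx (𝓞 F) = 1 := by
    intro Q hQp hQo
    refine hunr Q hQp (Ideal.ne_bot_of_mem_primesOver v.ne_bot ⟨hQp, hQo⟩) fun hmQ => hv ?_
    rw [hQo.over, Ideal.under_def, Ideal.mem_comap, map_natCast]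
    exact hmQ
  obtain ⟨h1, h2⟩ := hθ (h85_pI v) v.isPrime hv
  obtain ⟨h3, h4⟩ := hc (h85_pI v) v.isPrime hv
  exact h85_local hp hdeg v hunr' _ _ h1 h2 h3 h4 s

end main

attribute [local instance] h85_fibreFintype

/-- **FI**: the first inequality, character form, from the ZB and LBD inputs. -/
theorem h85_char_eq_pow_of {p : ℕ} (hp : p.Prime)
    {F N : Type*} [Field F] [NumberField F] [Field N] [NumberField N] [Algebra F N] [IsGalois F N]
    (hF : h85_HypProd F) (hN : h85_HypProd N) (hone : h85_HypOne N) (hbdd : h85_HypBdd F)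
    (hdeg : Module.finrank F N = p) (m : ℕ) (hm : m ≠ 0)
    (hunr : ∀ Q : Ideal (𝓞 N), Q.IsPrime → Q ≠ ⊥ → (m : 𝓞 N) ∉ Q → Q.ramificationIdx (𝓞 F) = 1)
    (θ c : ClassGroup (𝓞 F) →* ℂˣ)
    (hθ : ∀ P : (Ideal (𝓞 F))⁰, (P : Ideal (𝓞 F)).IsPrime → (m : 𝓞 F) ∉ (P : Ideal (𝓞 F)) →
      (θ (ClassGroup.mk0 P) = 1 ↔ SplitsCompletely (𝓞 F) (𝓞 N) (P : Ideal (𝓞 F))) ∧
        θ (ClassGroup.mk0 P) ^ p = 1)
    (hc : ∀ P : (Ideal (𝓞 F))⁰, (P : Ideal (𝓞 F)).IsPrime → (m : 𝓞 F) ∉ (P : Ideal (𝓞 F)) →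
      (SplitsCompletely (𝓞 F) (𝓞 N) (P : Ideal (𝓞 F)) → c (ClassGroup.mk0 P) = 1) ∧
        c (ClassGroup.mk0 P) ^ p = 1) :
    ∃ k : ℕ, c = θ ^ k := by
  classical
  by_contra hcon
  rw [not_exists] at hcon
  have hB : ∀ j : ℕ, ∃ B : ℝ, ∀ s : ℝ, 1 < s → s ≤ 2 →
      ‖idealSum F (h85_chiHom (c * θ ^ j)) s‖ ≤ B :=
    fun j => hbdd (c * θ ^ j) (h85_mul_pow_ne_one θ c hcon j)
  choose Bd hBd using hB
  set S := (h85_finite_bad (F := F) m hm).toFinset with hS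
  set C : ℝ := (∏ j ∈ Finset.range p, Bd j) * ∏ v ∈ S,
    ((2 : ℝ) ^ Fintype.card {w : HeightOneSpectrum (𝓞 N) // w.under (𝓞 F) = v} * 2 ^ p) with hC
  have hbound : ∀ s : ℝ, 1 < s → s ≤ 2 → ‖dedekindZeta N s‖ ≤ C := by
    intro s hs hs2
    rw [← hone s hs]
    have hA := h85_hasProd_A (F := F) (N := N) hN hs
    have hBp := h85_hasProd_B hF p θ c hs
    have hr : HasProd (fun v => if v ∈ S then h85_A N s v * (h85_B p θ c s v)⁻¹ else 1)
        (∏ v ∈ S, h85_A N s v * (h85_B p θ c s v)⁻¹) := by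
      have h' : HasProd (fun v => if v ∈ S then h85_A N s v * (h85_B p θ c s v)⁻¹ else 1)
          (∏ v ∈ S, (if v ∈ S then h85_A N s v * (h85_B p θ c s v)⁻¹ else 1)) :=
        hasProd_prod_of_ne_finset_one (fun v hv => if_neg hv)
      rwa [Finset.prod_congr rfl (fun v hv => if_pos hv)] at h'
    have hmul := hBp.mul hr
    have heq : (fun v => h85_B p θ c s v *
        (if v ∈ S then h85_A N s v * (h85_B p θ c s v)⁻¹ else 1)) = h85_A N s := by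
      funext v
      by_cases hv : v ∈ S
      · rw [if_pos hv, mul_comm (h85_A N s v), ← mul_assoc,
          mul_inv_cancel₀ (h85_B_ne_zero p θ c v hs), one_mul]
      · rw [if_neg hv, mul_one]
        have hv' : (m : 𝓞 F) ∉ v.asIdeal := by simpa [hS] using hv
        exact (h85_AB_eq hp hdeg m hunr θ c hθ hc s v hv').symm
    rw [heq] at hmul
    rw [hA.unique hmul, norm_mul]
    refine mul_le_mul ?_ ?_ (norm_nonneg _) ?_
    · rw [norm_prod]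
      exact Finset.prod_le_prod (fun _ _ => norm_nonneg _) (fun j _ => hBd j s hs hs2)
    · rw [norm_prod]
      refine Finset.prod_le_prod (fun _ _ => norm_nonneg _) (fun v _ => ?_)
      rw [norm_mul]
      exact mul_le_mul (h85_A_norm v hs) (h85_B_inv_norm p θ c v hs) (norm_nonneg _)
        (by positivity)
    · exact Finset.prod_nonneg
        (fun j _ => le_trans (norm_nonneg _) (hBd j 2 (by norm_num) le_rfl))
  have hlim := NumberField.tendsto_sub_one_mul_dedekindZeta_nhdsGT N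
  have hzero : Tendsto (fun s : ℝ => ((s : ℂ) - 1) * dedekindZeta N s) (𝓝[>] 1) (𝓝 0) := by
    refine squeeze_zero_norm' (a := fun s : ℝ => |s - 1| * C) ?_ ?_
    · filter_upwards [Ioc_mem_nhdsGT (show (1 : ℝ) < 2 by norm_num)] with s hs
      rw [norm_mul]
      refine mul_le_mul ?_ (hbound s hs.1 hs.2) (norm_nonneg _) (abs_nonneg _)
      rw [← Complex.ofReal_one, ← Complex.ofReal_sub, Complex.norm_real, Real.norm_eq_abs]
    · have : Tendsto (fun s : ℝ => |s - 1| * C) (𝓝 1) (𝓝 (|(1 : ℝ) - 1| * C)) :=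
        ((continuous_id.sub continuous_const).abs.mul continuous_const).tendsto 1
      simp only [sub_self, abs_zero, zero_mul] at this
      exact this.mono_left nhdsWithin_le_nhds
  have := tendsto_nhds_unique hlim hzero
  exact dedekindZeta_residue_ne_zero N (by exact_mod_cast this)

end Fermat.Agent.S14
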