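import Mathlib
import Fermat.Agent.S14.Defs
import Fermat.Agent.S14.CLS
import Fermat.Agent.S14.ZB
import Fermat.Agent.S14.LBD
import Fermat.Agent.S14.h85_FI
import Fermat.Agent.S14.AuxPrime
import Fermat.Agent.S14.FLD
import Fermat.Agent.S14.h13_KeyCore

/-!
# S14, package KEY : the Artin trick (exact skeleton statement `key`).
The mathematics is in `h13_KeyCore.lean` (`h13_key_core`); the inputs are `exists_aux_prime`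
(AuxPrime), `exists_fields` (FLD), and the first inequality `h85_char_eq_pow_of` (h85_FI) fed
with ZB (`idealSum_hasProd`, `idealSum_one_eq`) and LBD (`classLSeries_bounded`).
-/

set_option autoImplicit false

namespace Fermat.Agent.S14

open NumberField
open scoped nonZeroDivisors

theorem key (p : ℕ) [Fact p.Prime] (hp2 : p ≠ 2)
    (K L : Type) [Field K] [NumberField K] [Field L] [NumberField L] [Algebra K L] [IsGalois K L]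
    [IsCyclotomicExtension {p} ℚ K] (hdeg : Module.finrank K L = p)
    (hunr : ∀ Q : Ideal (𝓞 L), Q.IsPrime → Q ≠ ⊥ → Q.ramificationIdx (𝓞 K) = 1)
    (c : ClassGroup (𝓞 K) →* ℂˣ) (hcp : ∀ x, c x ^ p = 1)
    (hcs : ∀ P : (Ideal (𝓞 K))⁰, (P : Ideal (𝓞 K)).IsPrime →
      SplitsCompletely (𝓞 K) (𝓞 L) (P : Ideal (𝓞 K)) → c (ClassGroup.mk0 P) = 1)
    (Q Q₀ : (Ideal (𝓞 K))⁰) (hQ : (Q : Ideal (𝓞 K)).IsPrime) (hQ₀ : (Q₀ : Ideal (𝓞 K)).IsPrime)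
    (q q₀ : ℕ) (hq : q.Prime) (hq₀ : q₀.Prime) (hne : q ≠ q₀) (hqp : q ≠ p) (hq₀p : q₀ ≠ p)
    (hNQ : Ideal.absNorm (Q : Ideal (𝓞 K)) = q) (hNQ₀ : Ideal.absNorm (Q₀ : Ideal (𝓞 K)) = q₀)
    (R R₀ : Ideal (𝓞 L)) (hR : R.IsPrime) (hR₀ : R₀.IsPrime)
    (hRQ : R.LiesOver (Q : Ideal (𝓞 K))) (hRQ₀ : R₀.LiesOver (Q₀ : Ideal (𝓞 K)))
    (σ σ₀ : L ≃ₐ[K] L) (hσ : IsArithFrobAt (𝓞 K) σ R) (hσ₀ : IsArithFrobAt (𝓞 K) σ₀ R₀)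
    (hσ₀1 : σ₀ ≠ 1) (a : ℕ) (ha : σ = σ₀ ^ a) :
    c (ClassGroup.mk0 Q) = c (ClassGroup.mk0 Q₀) ^ a := by
  obtain ⟨q', hq', hq'p, hq'S, ⟨y, hy⟩, hu₀⟩ :=
    exists_aux_prime p hp2 q q₀ hq hq₀ hne hqp hq₀p a {q, q₀}
  have hq'q : q' ≠ q := by
    rintro rfl
    exact hq'S (by simp)
  have hq'q₀ : q' ≠ q₀ := by
    rintro rfl
    exact hq'S (by simp)
  obtain ⟨F, N, _, _, _, _, _, _, _, _, _, _, _, _, hFN, hKF, B0, B1, B2, B3, B4⟩ :=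
    exists_fields p hp2 K L hdeg hunr q' hq' hq'p σ₀ hσ₀1 (q₀ : ZMod q') hu₀
  have hQne : (Q : Ideal (𝓞 K)) ≠ ⊥ := nonZeroDivisors.coe_ne_zero Q
  have hQ₀ne : (Q₀ : Ideal (𝓞 K)) ≠ ⊥ := nonZeroDivisors.coe_ne_zero Q₀
  have hQq' : (q' : 𝓞 K) ∉ (Q : Ideal (𝓞 K)) :=
    h13_notMem_of_absNorm q q' hq hq' hq'q _ hQ hNQ
  have hQ₀q' : (q' : 𝓞 K) ∉ (Q₀ : Ideal (𝓞 K)) :=
    h13_notMem_of_absNorm q₀ q' hq₀ hq' hq'q₀ _ hQ₀ hNQ₀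
  exact h13_key_core p K L c hcp hcs Q Q₀ hQ hQ₀ q q₀ hq hq₀ hNQ hNQ₀ a q' hq' hq'p hq'q hq'q₀
    y hy F hKF (fun P => SplitsCompletely (𝓞 F) (𝓞 N) P)
    (fun θ c' hθ hc => h85_char_eq_pow_of (Fact.out : p.Prime)
      (fun g hg _ hs => idealSum_hasProd F g hg hs) (fun g hg _ hs => idealSum_hasProd N g hg hs)
      (fun _ hs => idealSum_one_eq N hs) (fun χ hχ => classLSeries_bounded F χ hχ)
      hFN q' hq'.ne_zero B0 θ c' hθ hc)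
    B1
    (B2 (Q : Ideal (𝓞 K)) R σ a y hQ hQne hQq' hR hRQ hσ ha (by rw [hNQ]; exact hy))
    (B2 (Q₀ : Ideal (𝓞 K)) R₀ σ₀ 1 1 hQ₀ hQ₀ne hQ₀q' hR₀ hRQ₀ hσ₀ (pow_one σ₀).symm
      (by rw [hNQ₀]; simp))
    B3 B4

end Fermat.Agent.S14
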