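import Mathlib

/-!
# S14, package SI-A : the abstract counting argument behind the ambiguous class number bound.
-/

set_option autoImplicit false

namespace Fermat.Agent.S14

section Count

variable {CL CK E : Type*} [CommGroup CL] [CommGroup CK] [CommGroup E] [Finite CL] [Finite CK]

/-- Abstract form of `|N(Cl_L)| * p ≤ h_K`. -/
theorem h10_count (ν : CL →* CK) (sC : CL →* CL) (j : CK →* CL) (D N : E →* E) (p : ℕ)
    (h1 : ∀ a, ν (sC a) = ν a)
    (Φ : ∀ a : CL, sC a = a → E)
    (hΦD : ∀ a ha, D (Φ a ha) = 1)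
    (hΦmul : ∀ a b ha hb hab, ∃ u, Φ (a * b) hab = Φ a ha * Φ b hb * N u)
    (hΦker : ∀ a ha, (∃ u, Φ a ha = N u) → ∃ c, a = j c)
    (Ψ : ∀ u : E, N u = 1 → CK)
    (hΨj : ∀ u hu, j (Ψ u hu) = 1)
    (hΨinj : ∀ u v hu hv, Ψ u hu = Ψ v hv → ∃ w, u = v * D w)
    (hidx0 : (N.range).relIndex D.ker ≠ 0)
    (hidx : (D.range).relIndex N.ker = p * (N.range).relIndex D.ker) :
    Nat.card ν.range * p ≤ Nat.card CK := by
  classical
  -- the fixed classes
  let DC : CL →* CL := sC / MonoidHom.id CL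
  have hDC : ∀ a, DC a = sC a / a := fun a => rfl
  have hfix : ∀ a, a ∈ DC.ker ↔ sC a = a := by
    intro a
    rw [MonoidHom.mem_ker, hDC, div_eq_one]
  -- Step 1 : card ν.range ≤ card DC.ker
  have hle : DC.range ≤ ν.ker := by
    rintro _ ⟨a, rfl⟩
    rw [MonoidHom.mem_ker, hDC, map_div, h1, div_self']
  have c1 : Nat.card ν.ker * Nat.card ν.range = Nat.card CL := by
    rw [← Subgroup.index_ker]; exact Subgroup.card_mul_index _
  have c2 : Nat.card DC.ker * Nat.card DC.range = Nat.card CL := by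
    rw [← Subgroup.index_ker]; exact Subgroup.card_mul_index _
  have c3 : Nat.card DC.range ≤ Nat.card ν.ker := Subgroup.card_le_of_le hle
  have hkpos : 0 < Nat.card ν.ker := Nat.card_pos
  have step1 : Nat.card ν.range ≤ Nat.card DC.ker := by
    have h : Nat.card ν.ker * Nat.card ν.range ≤ Nat.card ν.ker * Nat.card DC.ker := by
      rw [c1, ← c2, mul_comm]
      exact Nat.mul_le_mul_right _ c3
    exact Nat.le_of_mul_le_mul_left h hkpos
  -- Step 2 : card DC.ker ≤ card j.range * h0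
  set h0 := (N.range).relIndex D.ker with hh0
  have hfinQ : Finite (D.ker ⧸ N.range.subgroupOf D.ker) := by
    apply Nat.finite_of_card_ne_zero
    exact hidx0
  have hcardQ : Nat.card (D.ker ⧸ N.range.subgroupOf D.ker) = h0 := rfl
  let Φ' : DC.ker → D.ker ⧸ N.range.subgroupOf D.ker := fun a =>
    QuotientGroup.mk ⟨Φ a.1 ((hfix a.1).mp a.2), (MonoidHom.mem_ker).mpr (hΦD _ _)⟩
  have hΦ'mul : ∀ a b : DC.ker, Φ' (a * b) = Φ' a * Φ' b := by
    intro a b
    obtain ⟨u, hu⟩ := hΦmul a.1 b.1 ((hfix a.1).mp a.2) ((hfix b.1).mp b.2)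
      ((hfix (a * b).1).mp (a * b).2)
    simp only [Φ']
    rw [← QuotientGroup.mk_mul, eq_comm, QuotientGroup.eq, Subgroup.mem_subgroupOf]
    simp only [Subgroup.coe_mul, InvMemClass.coe_inv]
    refine ⟨u, ?_⟩
    have hu' : Φ (a.1 * b.1) ((hfix (a * b).1).mp (a * b).2) =
        Φ a.1 ((hfix a.1).mp a.2) * Φ b.1 ((hfix b.1).mp b.2) * N u := hu
    rw [hu']
    group
  let Φh : DC.ker →* D.ker ⧸ N.range.subgroupOf D.ker := MonoidHom.mk' Φ' hΦ'mul
  have hker : ∀ a : DC.ker, a ∈ Φh.ker → (a : CL) ∈ j.range := by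
    intro a ha
    rw [MonoidHom.mem_ker] at ha
    have ha' : Φ' a = 1 := ha
    simp only [Φ'] at ha'
    rw [QuotientGroup.eq_one_iff, Subgroup.mem_subgroupOf] at ha'
    obtain ⟨u, hu⟩ := ha'
    obtain ⟨c, hc⟩ := hΦker a.1 ((hfix a.1).mp a.2) ⟨u, hu.symm⟩
    exact ⟨c, hc.symm⟩
  have c4 : Nat.card Φh.ker * Nat.card Φh.range = Nat.card DC.ker := by
    rw [← Subgroup.index_ker]; exact Subgroup.card_mul_index _
  have c5 : Nat.card Φh.ker ≤ Nat.card j.range := by
    refine Nat.card_le_card_of_injective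
      (fun a : Φh.ker => (⟨(a.1 : CL), hker a.1 a.2⟩ : j.range)) ?_
    intro a b hab
    have : (a.1 : CL) = (b.1 : CL) := by
      have h := congrArg (fun x : j.range => (x : CL)) hab
      exact h
    exact Subtype.ext (Subtype.ext this)
  have c6 : Nat.card Φh.range ≤ h0 := by
    rw [← hcardQ]
    exact Nat.card_le_card_of_injective (fun x : Φh.range => (x : D.ker ⧸ N.range.subgroupOf D.ker))
      Subtype.val_injective
  have step2 : Nat.card DC.ker ≤ Nat.card j.range * h0 := by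
    rw [← c4]
    exact Nat.mul_le_mul c5 c6
  -- Step 3 : [ker N : D E] ≤ card j.ker
  have step3 : (D.range).relIndex N.ker ≤ Nat.card j.ker := by
    change Nat.card (N.ker ⧸ D.range.subgroupOf N.ker) ≤ Nat.card j.ker
    refine Nat.card_le_card_of_injective
      (fun q : N.ker ⧸ D.range.subgroupOf N.ker =>
        (⟨Ψ (Quotient.out q : N.ker).1 ((MonoidHom.mem_ker).mp (Quotient.out q : N.ker).2),
          (MonoidHom.mem_ker).mpr (hΨj _ _)⟩ : j.ker)) ?_
    intro q₁ q₂ h12
    have h : Ψ (Quotient.out q₁ : N.ker).1 ((MonoidHom.mem_ker).mp (Quotient.out q₁ : N.ker).2) =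
        Ψ (Quotient.out q₂ : N.ker).1 ((MonoidHom.mem_ker).mp (Quotient.out q₂ : N.ker).2) :=
      congrArg Subtype.val h12
    obtain ⟨w, hw⟩ := hΨinj _ _ _ _ h
    have h3 : (QuotientGroup.mk (Quotient.out q₂ : N.ker) : N.ker ⧸ D.range.subgroupOf N.ker) =
        QuotientGroup.mk (Quotient.out q₁ : N.ker) := by
      rw [QuotientGroup.eq, Subgroup.mem_subgroupOf]
      simp only [Subgroup.coe_mul, InvMemClass.coe_inv]
      refine ⟨w, ?_⟩
      rw [hw]
      group
    have e1 : (QuotientGroup.mk (Quotient.out q₁ : N.ker) : N.ker ⧸ D.range.subgroupOf N.ker) = q₁ :=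
      Quotient.out_eq q₁
    have e2 : (QuotientGroup.mk (Quotient.out q₂ : N.ker) : N.ker ⧸ D.range.subgroupOf N.ker) = q₂ :=
      Quotient.out_eq q₂
    rw [← e1, ← e2, h3]
  -- Step 4
  have c7 : Nat.card j.ker * Nat.card j.range = Nat.card CK := by
    rw [← Subgroup.index_ker]; exact Subgroup.card_mul_index _
  -- combine
  have h0pos : 0 < h0 := Nat.pos_of_ne_zero hidx0
  have final : Nat.card ν.range * p * h0 ≤ Nat.card CK * h0 := by
    calc Nat.card ν.range * p * h0 ≤ Nat.card DC.ker * p * h0 :=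
          Nat.mul_le_mul_right _ (Nat.mul_le_mul_right _ step1)
      _ = Nat.card DC.ker * (D.range).relIndex N.ker := by rw [hidx, mul_assoc]
      _ ≤ (Nat.card j.range * h0) * Nat.card j.ker := Nat.mul_le_mul step2 step3
      _ = Nat.card CK * h0 := by rw [← c7]; ring
  exact Nat.le_of_mul_le_mul_right final h0pos

end Count

end Fermat.Agent.S14
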