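import Mathlib

/-!
# S14, package SI-A : ambiguous ideals of an unramified Galois extension are extended ideals.
-/

set_option autoImplicit false

namespace Fermat.Agent.S14

open NumberField
open scoped nonZeroDivisors Pointwise

section Amb

variable {K L : Type*} [Field K] [NumberField K] [Field L] [NumberField L] [Algebra K L]
  [IsGalois K L]

theorem h10_smul_map (τ : L ≃ₐ[K] L) (𝔞 : Ideal (𝓞 K)) :
    τ • (𝔞.map (algebraMap (𝓞 K) (𝓞 L))) = 𝔞.map (algebraMap (𝓞 K) (𝓞 L)) := by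
  rw [Ideal.pointwise_smul_def, Ideal.map_map]
  congr 1
  ext x
  simp

/-- An ideal of `𝓞 L` stable under the Galois group of an everywhere unramified extension `L/K`
is extended from `𝓞 K`. -/
theorem h10_ambiguous
    (hunr : ∀ Q : Ideal (𝓞 L), Q.IsPrime → Q ≠ ⊥ → Q.ramificationIdx (𝓞 K) = 1)
    (I : Ideal (𝓞 L)) (hI : I ≠ ⊥) (hamb : ∀ τ : L ≃ₐ[K] L, τ • I = I) :
    ∃ 𝔞 : Ideal (𝓞 K), 𝔞 ≠ ⊥ ∧ I = 𝔞.map (algebraMap (𝓞 K) (𝓞 L)) := by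
  classical
  revert hI hamb
  refine IsNoetherian.induction (P := fun I : Ideal (𝓞 L) => I ≠ ⊥ →
    (∀ τ : L ≃ₐ[K] L, τ • I = I) →
    ∃ 𝔞 : Ideal (𝓞 K), 𝔞 ≠ ⊥ ∧ I = 𝔞.map (algebraMap (𝓞 K) (𝓞 L))) ?_ I
  intro I IH hI hamb
  by_cases htop : I = ⊤
  · exact ⟨⊤, top_ne_bot, by rw [htop, Ideal.map_top]⟩
  obtain ⟨Q, hQmax, hIQ⟩ := Ideal.exists_le_maximal I htop
  have hQ0 : Q ≠ ⊥ := fun h => hI (le_bot_iff.mp (h ▸ hIQ))
  set P := Q.under (𝓞 K) with hP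
  have hQP : Q.LiesOver P := ⟨rfl⟩
  have hPmax : P.IsMaximal := Ideal.IsMaximal.under (𝓞 K) Q
  have hP0 : P ≠ ⊥ := by
    intro h
    exact hQ0 (Ideal.eq_bot_of_comap_eq_bot (R := 𝓞 K) h)
  have hmap : P.map (algebraMap (𝓞 K) (𝓞 L)) = ∏ Q' ∈ (P.primesOver (𝓞 L)).toFinset, Q' := by
    rw [Ideal.map_algebraMap_eq_finsetProd_pow hP0]
    refine Finset.prod_congr rfl fun Q' hQ' => ?_
    rw [Set.mem_toFinset] at hQ'
    have hQ'prime : Q'.IsPrime := hQ'.1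
    have hQ'over : Q'.LiesOver P := hQ'.2
    have hQ'0 : Q' ≠ ⊥ := Ideal.ne_bot_of_liesOver_of_ne_bot hP0 Q'
    rw [hunr Q' hQ'prime hQ'0, pow_one]
  have hdvd : P.map (algebraMap (𝓞 K) (𝓞 L)) ∣ I := by
    rw [hmap]
    apply Finset.prod_dvd_of_coprime
    · intro Q₁ hQ₁ Q₂ hQ₂ hne
      rw [Finset.mem_coe, Set.mem_toFinset] at hQ₁ hQ₂
      have h1 : Q₁.IsPrime := hQ₁.1
      have h2 : Q₂.IsPrime := hQ₂.1
      have h1o : Q₁.LiesOver P := hQ₁.2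
      have h2o : Q₂.LiesOver P := hQ₂.2
      have h1m : Q₁.IsMaximal := Ideal.IsMaximal.of_liesOver_isMaximal Q₁ P
      have h2m : Q₂.IsMaximal := Ideal.IsMaximal.of_liesOver_isMaximal Q₂ P
      change IsCoprime Q₁ Q₂
      rw [Ideal.isCoprime_iff_sup_eq]
      exact Ideal.IsMaximal.coprime_of_ne h1m h2m hne
    · intro Q' hQ'
      rw [Set.mem_toFinset] at hQ'
      have hQ'prime : Q'.IsPrime := hQ'.1
      have hQ'over : Q'.LiesOver P := hQ'.2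
      have hQprime : Q.IsPrime := hQmax.isPrime
      obtain ⟨τ, hτ⟩ := Ideal.exists_smul_eq_of_isGaloisGroup P Q Q' (L ≃ₐ[K] L)
      rw [Ideal.dvd_iff_le, ← hτ, ← hamb τ]
      exact smul_mono_right τ hIQ
  obtain ⟨I', hI'⟩ := hdvd
  have hI'0 : I' ≠ ⊥ := by
    rintro rfl
    apply hI
    rw [hI']
    simp
  have hPm0 : P.map (algebraMap (𝓞 K) (𝓞 L)) ≠ ⊥ := by
    intro h
    apply hI
    rw [hI', h]
    simp
  have hamb' : ∀ τ : L ≃ₐ[K] L, τ • I' = I' := by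
    intro τ
    have h := hamb τ
    rw [hI', smul_mul', h10_smul_map] at h
    exact mul_left_cancel₀ hPm0 h
  have hlt : I < I' := by
    refine lt_of_le_of_ne (hI' ▸ Ideal.mul_le_right) ?_
    intro h
    have h1 : P.map (algebraMap (𝓞 K) (𝓞 L)) * I = 1 * I := by
      rw [one_mul]
      conv_rhs => rw [hI']
      rw [← h]
    have h2 := mul_right_cancel₀ hI h1
    have h3 : P.map (algebraMap (𝓞 K) (𝓞 L)) ≤ Q := Ideal.map_le_iff_le_comap.mpr le_rfl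
    rw [h2, Ideal.one_eq_top] at h3
    exact hQmax.ne_top (top_le_iff.mp h3)
  obtain ⟨𝔞', h𝔞'0, h𝔞'⟩ := IH I' hlt hI'0 hamb'
  exact ⟨P * 𝔞', mul_ne_zero hP0 h𝔞'0, by rw [hI', h𝔞', Ideal.map_mul]⟩

end Amb

end Fermat.Agent.S14
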