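import Mathlib
import Fermat.Agent.S14.h33_ClassChar

/-!
# S14, package SI-A : the class of an integral ideal, and homomorphisms between class groups
induced by multiplicative maps on integral ideals.
-/

set_option autoImplicit false

namespace Fermat.Agent.S14

open scoped nonZeroDivisors

section Cl

variable {A : Type*} [CommRing A] [IsDedekindDomain A]

/-- The class of an integral ideal (junk value `1` for the zero ideal). -/
noncomputable def h10_cl (I : Ideal A) : ClassGroup A :=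
  if h : I ≠ ⊥ then ClassGroup.mk0 ⟨I, mem_nonZeroDivisors_of_ne_zero h⟩ else 1

theorem h10_cl_of_ne {I : Ideal A} (h : I ≠ ⊥) :
    h10_cl I = ClassGroup.mk0 ⟨I, mem_nonZeroDivisors_of_ne_zero h⟩ := dif_pos h

theorem h10_cl_mk0 (I : (Ideal A)⁰) : h10_cl (I : Ideal A) = ClassGroup.mk0 I := by
  rw [h10_cl_of_ne (mem_nonZeroDivisors_iff_ne_zero.mp I.2)]

theorem h10_cl_mul {I J : Ideal A} (hI : I ≠ ⊥) (hJ : J ≠ ⊥) :
    h10_cl (I * J) = h10_cl I * h10_cl J := by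
  rw [h10_cl_of_ne hI, h10_cl_of_ne hJ, h10_cl_of_ne (mul_ne_zero hI hJ), ← map_mul]
  rfl

theorem h10_cl_pow {I : Ideal A} (hI : I ≠ ⊥) (n : ℕ) : h10_cl (I ^ n) = h10_cl I ^ n := by
  induction n with
  | zero =>
    rw [pow_zero, pow_zero, h10_cl_of_ne (one_ne_zero)]
    exact map_one _
  | succ n ih =>
    rw [pow_succ, pow_succ, h10_cl_mul (pow_ne_zero n hI) hI, ih]

theorem h10_cl_span {x : A} (hx : x ≠ 0) : h10_cl (Ideal.span {x}) = 1 := by
  have h : Ideal.span {x} ≠ ⊥ := by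
    rwa [Ne, Ideal.span_singleton_eq_bot]
  rw [h10_cl_of_ne h, ClassGroup.mk0_eq_one_iff]
  exact ⟨⟨x, rfl⟩⟩

theorem h10_cl_surj (c : ClassGroup A) : ∃ I : Ideal A, I ≠ ⊥ ∧ h10_cl I = c := by
  obtain ⟨I, rfl⟩ := ClassGroup.mk0_surjective c
  exact ⟨I, mem_nonZeroDivisors_iff_ne_zero.mp I.2, h10_cl_mk0 I⟩

theorem h10_cl_eq_iff {I J : Ideal A} (hI : I ≠ ⊥) (hJ : J ≠ ⊥) :
    h10_cl I = h10_cl J ↔
      ∃ x y : A, x ≠ 0 ∧ y ≠ 0 ∧ Ideal.span {x} * I = Ideal.span {y} * J := by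
  rw [h10_cl_of_ne hI, h10_cl_of_ne hJ, ClassGroup.mk0_eq_mk0_iff]
  constructor
  · rintro ⟨x, y, hx, hy, h⟩
    exact ⟨x, y, hx, hy, h⟩
  · rintro ⟨x, y, hx, hy, h⟩
    exact ⟨x, y, hx, hy, h⟩

theorem h10_cl_mul_span {I : Ideal A} (hI : I ≠ ⊥) {x : A} (hx : x ≠ 0) :
    h10_cl (Ideal.span {x} * I) = h10_cl I := by
  have h : Ideal.span {x} ≠ ⊥ := by
    rwa [Ne, Ideal.span_singleton_eq_bot]
  rw [h10_cl_mul h hI, h10_cl_span hx, one_mul]

end Cl

section Hom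

variable {A B : Type*} [CommRing A] [IsDedekindDomain A] [CommRing B] [IsDedekindDomain B]

/-- A multiplicative map on ideals preserving nonzero and principal ideals induces a
homomorphism of class groups. -/
theorem h10_exists_hom (f : Ideal A → Ideal B) (h0 : ∀ I, I ≠ ⊥ → f I ≠ ⊥)
    (hmul : ∀ I J, f (I * J) = f I * f J)
    (hprinc : ∀ x : A, x ≠ 0 → ∃ y : B, y ≠ 0 ∧ f (Ideal.span {x}) = Ideal.span {y}) :
    ∃ θ : ClassGroup A →* ClassGroup B, ∀ I : Ideal A, I ≠ ⊥ → θ (h10_cl I) = h10_cl (f I) := by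
  obtain ⟨θ, hθ⟩ := h33_exists_classChar (⊤ : Ideal A) top_ne_bot (fun I => h10_cl (f I))
    (fun I J hI hJ _ _ => by
      rw [hmul, h10_cl_mul (h0 I hI) (h0 J hJ)])
    (fun x hx _ => by
      obtain ⟨y, hy, hxy⟩ := hprinc x hx
      rw [hxy, h10_cl_span hy])
  refine ⟨θ, fun I hI => ?_⟩
  rw [h10_cl_of_ne hI]
  refine hθ ⟨I, mem_nonZeroDivisors_of_ne_zero hI⟩ ?_
  rw [Ideal.isCoprime_iff_sup_eq]
  simp

end Hom

end Fermat.Agent.S14
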