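import Mathlib

/-!
# S14, package SI-A : Hilbert 90 for a cyclic extension (universe polymorphic), and the basic
facts about a generator of a Galois group of prime order.
-/

set_option autoImplicit false

namespace Fermat.Agent.S14

open NumberField

section H90field

variable {K L : Type*} [Field K] [Field L] [Algebra K L]

/-- Hilbert 90 (Lagrange resolvent proof): if `σ` has order `n` and the "naive norm"
`∏_{i<n} σ^i z` is `1`, then `z = β / σ β` for some `β ≠ 0`. -/
theorem h10_h90_field (n : ℕ) (σ : L ≃ₐ[K] L) (hord : orderOf σ = n) (hn : 0 < n) (z : L)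
    (hz : ∏ i ∈ Finset.range n, (σ ^ i) z = 1) : ∃ β : L, β ≠ 0 ∧ z * σ β = β := by
  classical
  set c : ℕ → L := fun i => ∏ j ∈ Finset.range i, (σ ^ j) z with hc
  have hc0 : c 0 = 1 := by simp [hc]
  have hcn : c n = 1 := hz
  have hcs : ∀ i, c (i + 1) = z * σ (c i) := by
    intro i
    simp only [hc]
    rw [Finset.prod_range_succ', map_prod, pow_zero, AlgEquiv.one_apply, mul_comm]
    congr 1
    refine Finset.prod_congr rfl fun j _ => ?_
    rw [pow_succ', AlgEquiv.mul_apply]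
  have hσn : σ ^ n = 1 := hord ▸ pow_orderOf_eq_one σ
  have key : ∀ θ : L, z * σ (∑ i ∈ Finset.range n, c i * (σ ^ i) θ) =
      ∑ i ∈ Finset.range n, c i * (σ ^ i) θ := by
    intro θ
    have h1 : z * σ (∑ i ∈ Finset.range n, c i * (σ ^ i) θ) =
        ∑ i ∈ Finset.range n, c (i + 1) * (σ ^ (i + 1)) θ := by
      rw [map_sum, Finset.mul_sum]
      refine Finset.sum_congr rfl fun i _ => ?_
      rw [map_mul, hcs, pow_succ', AlgEquiv.mul_apply, mul_assoc]
    have h2 : ∑ i ∈ Finset.range (n + 1), c i * (σ ^ i) θ =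
        ∑ i ∈ Finset.range n, c (i + 1) * (σ ^ (i + 1)) θ + c 0 * (σ ^ 0) θ :=
      Finset.sum_range_succ' _ _
    have h3 : ∑ i ∈ Finset.range (n + 1), c i * (σ ^ i) θ =
        ∑ i ∈ Finset.range n, c i * (σ ^ i) θ + c n * (σ ^ n) θ :=
      Finset.sum_range_succ _ _
    rw [h1]
    have h4 : c 0 * (σ ^ 0) θ = c n * (σ ^ n) θ := by
      rw [hc0, hcn, hσn, pow_zero]
    have h5 := h2.symm.trans h3
    rw [h4] at h5
    exact add_right_cancel h5
  by_contra hcon
  push Not at hcon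
  have hzero : ∀ θ : L, ∑ i ∈ Finset.range n, c i * (σ ^ i) θ = 0 := by
    intro θ
    by_contra hne
    exact hcon _ hne (key θ)
  have hli := linearIndependent_monoidHom L L
  let f : Fin n → (L →* L) := fun i => ((σ ^ (i : ℕ) : L ≃ₐ[K] L) : L →* L)
  have hf : Function.Injective f := by
    intro i j hij
    have h1 : σ ^ (i : ℕ) = σ ^ (j : ℕ) := by
      ext x
      exact DFunLike.congr_fun hij x
    have := pow_injOn_Iio_orderOf (x := σ) (by simp [hord] : (i : ℕ) ∈ Set.Iio (orderOf σ))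
      (by simp [hord] : (j : ℕ) ∈ Set.Iio (orderOf σ)) h1
    exact Fin.ext this
  have hli' := hli.comp f hf
  have h0 := Fintype.linearIndependent_iff.mp hli' (fun i => c i) (by
    funext θ
    have := hzero θ
    rw [← Fin.sum_univ_eq_sum_range (fun i => c i * (σ ^ i) θ) n] at this
    simpa [f] using this) ⟨0, hn⟩
  simp only at h0
  rw [hc0] at h0
  exact one_ne_zero h0

end H90field

section H90int

variable {K L : Type*} [Field K] [Field L] [NumberField L] [Algebra K L]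

/-- Integral form of Hilbert 90. -/
theorem h10_h90_int (n : ℕ) (σ : L ≃ₐ[K] L) (hord : orderOf σ = n) (hn : 0 < n) (z : L)
    (hz : ∏ i ∈ Finset.range n, (σ ^ i) z = 1) :
    ∃ c : 𝓞 L, c ≠ 0 ∧ z * σ (c : L) = (c : L) := by
  obtain ⟨β, hβ0, hβ⟩ := h10_h90_field n σ hord hn z hz
  have halg : IsAlgebraic ℤ β := by
    have : IsAlgebraic ℚ β := Algebra.IsAlgebraic.isAlgebraic β
    exact (IsFractionRing.isAlgebraic_iff ℤ ℚ L).mpr this
  obtain ⟨m, hm0, hm⟩ := halg.exists_integral_multiple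
  refine ⟨⟨m • β, hm⟩, ?_, ?_⟩
  · intro h0
    have h1 : m • β = 0 := congrArg (fun c : 𝓞 L => (c : L)) h0
    rcases smul_eq_zero.mp h1 with h | h
    · exact hm0 h
    · exact hβ0 h
  · change z * σ (m • β) = m • β
    rw [map_zsmul, mul_smul_comm, hβ]

end H90int

section Cyclic

variable {K L : Type*} [Field K] [Field L] [Algebra K L] [FiniteDimensional K L] [IsGalois K L]

theorem h10_orderOf {p : ℕ} (hp : p.Prime) (hdeg : Module.finrank K L = p) (σ : L ≃ₐ[K] L)
    (hσ : σ ≠ 1) : orderOf σ = p := by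
  have hcard : Nat.card (L ≃ₐ[K] L) = p := by
    rw [IsGalois.card_aut_eq_finrank, hdeg]
  have hdvd : orderOf σ ∣ p := hcard ▸ orderOf_dvd_natCard σ
  rcases (Nat.dvd_prime hp).mp hdvd with h | h
  · exact absurd (orderOf_eq_one_iff.mp h) hσ
  · exact h

theorem h10_univ_eq {p : ℕ} (hp : p.Prime) (hdeg : Module.finrank K L = p) (σ : L ≃ₐ[K] L)
    (hσ : σ ≠ 1) [DecidableEq (L ≃ₐ[K] L)] [Fintype (L ≃ₐ[K] L)] :
    (Finset.univ : Finset (L ≃ₐ[K] L)) = (Finset.range p).image (fun i => σ ^ i) := by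
  symm
  apply Finset.eq_univ_of_card
  rw [Finset.card_image_of_injOn, Finset.card_range, ← Nat.card_eq_fintype_card,
    IsGalois.card_aut_eq_finrank, hdeg]
  intro i hi j hj hij
  have ho := h10_orderOf hp hdeg σ hσ
  exact pow_injOn_Iio_orderOf (x := σ) (by simpa [ho] using hi) (by simpa [ho] using hj) hij

theorem h10_prod_aut {p : ℕ} (hp : p.Prime) (hdeg : Module.finrank K L = p) (σ : L ≃ₐ[K] L)
    (hσ : σ ≠ 1) {M : Type*} [CommMonoid M] (f : (L ≃ₐ[K] L) → M) [Fintype (L ≃ₐ[K] L)] :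
    ∏ τ : L ≃ₐ[K] L, f τ = ∏ i ∈ Finset.range p, f (σ ^ i) := by
  classical
  rw [h10_univ_eq hp hdeg σ hσ, Finset.prod_image]
  intro i hi j hj hij
  have ho := h10_orderOf hp hdeg σ hσ
  exact pow_injOn_Iio_orderOf (x := σ) (by simpa [ho] using hi) (by simpa [ho] using hj) hij

theorem h10_exists_pow {p : ℕ} (hp : p.Prime) (hdeg : Module.finrank K L = p) (σ : L ≃ₐ[K] L)
    (hσ : σ ≠ 1) (τ : L ≃ₐ[K] L) : ∃ i, τ = σ ^ i := by
  classical
  have := Fintype.ofFinite (L ≃ₐ[K] L)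
  have h := Finset.mem_univ τ
  rw [h10_univ_eq hp hdeg σ hσ, Finset.mem_image] at h
  obtain ⟨i, _, hi⟩ := h
  exact ⟨i, hi.symm⟩

end Cyclic

end Fermat.Agent.S14
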