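import Mathlib

set_option autoImplicit false

/-!
# Galois action on the unit group of `𝓞 L` (package SI of S14, shared definitions)

For `σ ∈ Gal(L/K)`: `h92_unitsMap σ` is the induced automorphism of `(𝓞 L)ˣ`,
`h92_unitsD σ` is `u ↦ σ u / u` and `h92_unitsN σ p` is `u ↦ ∏_{k<p} σ^k u`.
-/

namespace Fermat.Agent.S14

open NumberField Finset

variable {K L : Type*} [Field K] [Field L] [Algebra K L]

/-- `σ ∈ Gal(L/K)` acting on the unit group of `𝓞 L`. -/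
noncomputable def h92_unitsMap (σ : L ≃ₐ[K] L) : (𝓞 L)ˣ →* (𝓞 L)ˣ :=
  Units.map (MulDistribMulAction.toMonoidHom (𝓞 L) σ)

theorem h92_unitsMap_coe (σ : L ≃ₐ[K] L) (u : (𝓞 L)ˣ) :
    ((h92_unitsMap σ u : 𝓞 L) : L) = σ ((u : 𝓞 L) : L) := rfl

theorem h92_unitsMap_one : h92_unitsMap (1 : L ≃ₐ[K] L) = MonoidHom.id _ := by
  ext u
  simp [h92_unitsMap_coe]

theorem h92_unitsMap_mul (σ τ : L ≃ₐ[K] L) :
    h92_unitsMap (σ * τ) = (h92_unitsMap σ).comp (h92_unitsMap τ) := by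
  ext u
  simp [h92_unitsMap_coe]

/-- `u ↦ σ u / u` on units. -/
noncomputable def h92_unitsD (σ : L ≃ₐ[K] L) : (𝓞 L)ˣ →* (𝓞 L)ˣ :=
  h92_unitsMap σ / MonoidHom.id _

/-- `u ↦ ∏_{k<p} σ^k u` on units. -/
noncomputable def h92_unitsN (σ : L ≃ₐ[K] L) (p : ℕ) : (𝓞 L)ˣ →* (𝓞 L)ˣ :=
  ∏ k ∈ range p, h92_unitsMap (σ ^ k)

theorem h92_unitsD_apply (σ : L ≃ₐ[K] L) (u : (𝓞 L)ˣ) :
    h92_unitsD σ u = h92_unitsMap σ u / u := rfl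

theorem h92_unitsN_apply (σ : L ≃ₐ[K] L) (p : ℕ) (u : (𝓞 L)ˣ) :
    h92_unitsN σ p u = ∏ k ∈ range p, h92_unitsMap (σ ^ k) u := by
  simp [h92_unitsN]

theorem h92_unitsD_coe (σ : L ≃ₐ[K] L) (u : (𝓞 L)ˣ) :
    ((h92_unitsD σ u : 𝓞 L) : L) = σ ((u : 𝓞 L) : L) / ((u : 𝓞 L) : L) := by
  simp [h92_unitsD, h92_unitsMap_coe, div_eq_mul_inv]

theorem h92_unitsN_coe (σ : L ≃ₐ[K] L) (p : ℕ) (u : (𝓞 L)ˣ) :
    ((h92_unitsN σ p u : 𝓞 L) : L) = ∏ k ∈ range p, (σ ^ k) ((u : 𝓞 L) : L) := by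
  simp [h92_unitsN, h92_unitsMap_coe]

end Fermat.Agent.S14
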