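import Mathlib
import Fermat.Agent.S14.h92_UnitsDefs
import Fermat.Agent.S14.h10_H90

/-!
# S14, package SI-A : the naive norm `x ↦ ∏_{i<p} σ^i x` on `𝓞 L` and Hilbert 90 on `𝓞 L`.
-/

set_option autoImplicit false
set_option linter.unusedSectionVars false

namespace Fermat.Agent.S14

open NumberField
open scoped nonZeroDivisors Pointwise

section Nrm

variable {K L : Type*} [Field K] [Field L] [NumberField L] [Algebra K L]

/-- the naive norm on `𝓞 L` attached to `σ` and `p`. -/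
noncomputable def h10_nrm (σ : L ≃ₐ[K] L) (p : ℕ) (x : 𝓞 L) : 𝓞 L :=
  ∏ i ∈ Finset.range p, (σ ^ i) • x

theorem h10_nrm_coe (σ : L ≃ₐ[K] L) (p : ℕ) (x : 𝓞 L) :
    ((h10_nrm σ p x : 𝓞 L) : L) = ∏ i ∈ Finset.range p, (σ ^ i) (x : L) := by
  change algebraMap (𝓞 L) L (∏ i ∈ Finset.range p, (σ ^ i) • x) = _
  rw [map_prod]
  rfl

theorem h10_nrm_mul (σ : L ≃ₐ[K] L) (p : ℕ) (x y : 𝓞 L) :
    h10_nrm σ p (x * y) = h10_nrm σ p x * h10_nrm σ p y := by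
  simp only [h10_nrm, smul_mul']
  exact Finset.prod_mul_distrib

theorem h10_nrm_one (σ : L ≃ₐ[K] L) (p : ℕ) : h10_nrm σ p (1 : 𝓞 L) = 1 := by
  simp [h10_nrm]

theorem h10_nrm_ne_zero (σ : L ≃ₐ[K] L) (p : ℕ) {x : 𝓞 L} (hx : x ≠ 0) :
    h10_nrm σ p x ≠ 0 := by
  rw [h10_nrm, Finset.prod_ne_zero_iff]
  intro i _
  rwa [Ne, smul_eq_zero_iff_eq]

theorem h10_nrm_smul (σ : L ≃ₐ[K] L) (p : ℕ) (hσ : σ ^ p = 1) (x : 𝓞 L) :
    h10_nrm σ p (σ • x) = h10_nrm σ p x := by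
  by_cases hx : x = 0
  · rw [hx, smul_zero]
  have h1 : h10_nrm σ p (σ • x) = ∏ i ∈ Finset.range p, (σ ^ (i + 1)) • x := by
    simp only [h10_nrm]
    refine Finset.prod_congr rfl fun i _ => ?_
    rw [smul_smul, ← pow_succ]
  have h2 := Finset.prod_range_succ' (fun i => (σ ^ i) • x) p
  have h3 := Finset.prod_range_succ (fun i => (σ ^ i) • x) p
  have h4 : (σ ^ p) • x = (σ ^ 0) • x := by rw [hσ, pow_zero]
  rw [h4] at h3
  rw [h1, h10_nrm]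
  exact mul_right_cancel₀ (b := (σ ^ 0) • x) (by rwa [Ne, smul_eq_zero_iff_eq])
    (h2.symm.trans h3)

theorem h10_smul_nrm (σ : L ≃ₐ[K] L) (p : ℕ) (hσ : σ ^ p = 1) (x : 𝓞 L) :
    σ • h10_nrm σ p x = h10_nrm σ p x := by
  calc σ • h10_nrm σ p x = ∏ i ∈ Finset.range p, σ • ((σ ^ i) • x) := Finset.smul_prod' ..
    _ = ∏ i ∈ Finset.range p, (σ ^ i) • (σ • x) := by
      refine Finset.prod_congr rfl fun i _ => ?_
      rw [smul_smul, smul_smul, ← pow_succ', ← pow_succ]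
    _ = h10_nrm σ p (σ • x) := rfl
    _ = h10_nrm σ p x := h10_nrm_smul σ p hσ x

theorem h10_nrm_unit (σ : L ≃ₐ[K] L) (p : ℕ) (u : (𝓞 L)ˣ) :
    h10_nrm σ p (u : 𝓞 L) = ((h92_unitsN σ p u : (𝓞 L)ˣ) : 𝓞 L) := by
  apply RingOfIntegers.ext
  rw [h10_nrm_coe, h92_unitsN_coe]

theorem h10_unitsD_eq_one_iff (σ : L ≃ₐ[K] L) (u : (𝓞 L)ˣ) :
    h92_unitsD σ u = 1 ↔ σ • (u : 𝓞 L) = (u : 𝓞 L) := by
  have hu0 : ((u : 𝓞 L) : L) ≠ 0 := by
    have := u.ne_zero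
    exact fun h => this (RingOfIntegers.ext h)
  constructor
  · intro h
    apply RingOfIntegers.ext
    have h1 := h92_unitsD_coe σ u
    rw [h] at h1
    have h2 : σ ((u : 𝓞 L) : L) / ((u : 𝓞 L) : L) = 1 := by
      rw [← h1]; rfl
    rw [div_eq_one_iff_eq hu0] at h2
    exact h2
  · intro h
    apply Units.ext
    apply RingOfIntegers.ext
    rw [h92_unitsD_coe]
    have h2 : σ ((u : 𝓞 L) : L) = ((u : 𝓞 L) : L) := congrArg (fun y : 𝓞 L => (y : L)) h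
    rw [h2, div_self hu0]
    rfl

/-- Hilbert 90 on `𝓞 L`: two nonzero integers with the same naive norm differ by `σ c / c`. -/
theorem h10_h90_S (σ : L ≃ₐ[K] L) (p : ℕ) (hord : orderOf σ = p) (hp : 0 < p) (a b : 𝓞 L)
    (hb : b ≠ 0) (h : h10_nrm σ p a = h10_nrm σ p b) :
    ∃ c : 𝓞 L, c ≠ 0 ∧ a * σ • c = b * c := by
  have hb0 : (b : L) ≠ 0 := fun h0 => hb (RingOfIntegers.ext h0)
  have hnb : ∏ i ∈ Finset.range p, (σ ^ i) (b : L) ≠ 0 := by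
    rw [Finset.prod_ne_zero_iff]
    intro i _
    rw [Ne, map_eq_zero_iff _ (σ ^ i).injective]
    exact hb0
  have hz : ∏ i ∈ Finset.range p, (σ ^ i) ((a : L) / (b : L)) = 1 := by
    simp only [map_div₀]
    rw [Finset.prod_div_distrib, ← h10_nrm_coe, ← h10_nrm_coe, h, h10_nrm_coe]
    exact div_self hnb
  obtain ⟨c, hc0, hc⟩ := h10_h90_int p σ hord hp _ hz
  refine ⟨c, hc0, ?_⟩
  apply RingOfIntegers.ext
  have h1 : (a : L) * σ (c : L) = (b : L) * (c : L) := by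
    rw [div_mul_eq_mul_div, div_eq_iff hb0] at hc
    rw [hc, mul_comm]
  exact h1

end Nrm

end Fermat.Agent.S14
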