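import Mathlib
import Fermat.Agent.S14.h92_UnitsDefs
import Fermat.Agent.S14.h10_H90
import Fermat.Agent.S14.h10_Amb
import Fermat.Agent.S14.h10_Cl
import Fermat.Agent.S14.h10_Nrm

/-!
# S14, package SI-A : ideal-theoretic lemmas (fixed classes, Hilbert 90, ambiguous ideals).
-/

set_option autoImplicit false
set_option linter.unusedSectionVars false

namespace Fermat.Agent.S14

open NumberField
open scoped nonZeroDivisors Pointwise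

section Data

variable {K L : Type*} [Field K] [NumberField K] [Field L] [NumberField L] [Algebra K L]
  [IsGalois K L]

theorem h10_smul_span (σ : L ≃ₐ[K] L) (x : 𝓞 L) :
    σ • Ideal.span {x} = Ideal.span {σ • x} := by
  rw [Ideal.smul_closure, Set.smul_set_singleton]

theorem h10_span_ne_bot {x : 𝓞 L} (hx : x ≠ 0) : Ideal.span {x} ≠ ⊥ := by
  rwa [Ne, Ideal.span_singleton_eq_bot]

theorem h10_smul_ideal_ne_bot (σ : L ≃ₐ[K] L) {I : Ideal (𝓞 L)} (hI : I ≠ ⊥) : σ • I ≠ ⊥ := by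
  intro h
  apply hI
  have h2 : σ⁻¹ • σ • I = σ⁻¹ • (⊥ : Ideal (𝓞 L)) := by rw [h]
  rwa [inv_smul_smul, Ideal.smul_bot] at h2

theorem h10_nrm_eq_intNorm {p : ℕ} (hp : p.Prime) (hdeg : Module.finrank K L = p)
    (σ : L ≃ₐ[K] L) (hσ : σ ≠ 1) (x : 𝓞 L) :
    h10_nrm σ p x = algebraMap (𝓞 K) (𝓞 L) (Algebra.intNorm (𝓞 K) (𝓞 L) x) := by
  apply RingOfIntegers.ext
  rw [h10_nrm_coe]
  have h1 : ((algebraMap (𝓞 K) (𝓞 L) (Algebra.intNorm (𝓞 K) (𝓞 L) x) : 𝓞 L) : L) =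
      algebraMap K L (algebraMap (𝓞 K) K (Algebra.intNorm (𝓞 K) (𝓞 L) x)) := rfl
  rw [h1, Algebra.algebraMap_intNorm (L := L), Algebra.norm_eq_prod_automorphisms,
    h10_prod_aut hp hdeg σ hσ]

/-- Data attached to a `σ`-fixed ideal class: `(x) σ(I) = (y) I` and `N y = ε N x`. -/
def h10_IsData (σ : L ≃ₐ[K] L) (p : ℕ) (I : Ideal (𝓞 L)) (x y : 𝓞 L) (ε : (𝓞 L)ˣ) : Prop :=
  I ≠ ⊥ ∧ x ≠ 0 ∧ y ≠ 0 ∧ Ideal.span {x} * σ • I = Ideal.span {y} * I ∧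
    h10_nrm σ p y = (ε : 𝓞 L) * h10_nrm σ p x

theorem h10_exists_data {p : ℕ} (hp : p.Prime) (hdeg : Module.finrank K L = p)
    (σ : L ≃ₐ[K] L) (hσ : σ ≠ 1) (I : Ideal (𝓞 L)) (hI : I ≠ ⊥)
    (hcl : h10_cl (σ • I) = h10_cl I) :
    ∃ (x y : 𝓞 L) (ε : (𝓞 L)ˣ), h10_IsData σ p I x y ε := by
  have hσI : σ • I ≠ ⊥ := h10_smul_ideal_ne_bot σ hI
  obtain ⟨x, y, hx, hy, hxy⟩ := (h10_cl_eq_iff hσI hI).mp hcl
  have hrel := congrArg (Ideal.relNorm (𝓞 K)) hxy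
  rw [map_mul, map_mul, Ideal.relNorm_singleton, Ideal.relNorm_singleton,
    Ideal.relNorm_smul] at hrel
  have hN0 : Ideal.relNorm (𝓞 K) I ≠ ⊥ := by rwa [Ne, Ideal.relNorm_eq_bot_iff]
  have hspan := mul_right_cancel₀ hN0 hrel
  rw [Ideal.span_singleton_eq_span_singleton] at hspan
  obtain ⟨ε₀, hε₀⟩ := hspan
  refine ⟨x, y, Units.map (algebraMap (𝓞 K) (𝓞 L)).toMonoidHom ε₀, hI, hx, hy, hxy, ?_⟩
  rw [h10_nrm_eq_intNorm hp hdeg σ hσ, h10_nrm_eq_intNorm hp hdeg σ hσ, ← hε₀, map_mul, mul_comm]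
  rfl

theorem h10_data_fixed (σ : L ≃ₐ[K] L) (p : ℕ) (hσp : σ ^ p = 1) {I : Ideal (𝓞 L)}
    {x y : 𝓞 L} {ε : (𝓞 L)ˣ} (h : h10_IsData σ p I x y ε) : h92_unitsD σ ε = 1 := by
  rw [h10_unitsD_eq_one_iff]
  obtain ⟨_, hx, _, _, hn⟩ := h
  have h1 := congrArg (fun t => σ • t) hn
  simp only [smul_mul', h10_smul_nrm σ p hσp] at h1
  rw [hn] at h1
  exact (mul_right_cancel₀ (h10_nrm_ne_zero σ p hx) h1).symm

theorem h10_data_mul (σ : L ≃ₐ[K] L) (p : ℕ) {I₁ I₂ : Ideal (𝓞 L)} {x₁ y₁ x₂ y₂ : 𝓞 L}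
    {ε₁ ε₂ : (𝓞 L)ˣ} (h₁ : h10_IsData σ p I₁ x₁ y₁ ε₁) (h₂ : h10_IsData σ p I₂ x₂ y₂ ε₂) :
    h10_IsData σ p (I₁ * I₂) (x₁ * x₂) (y₁ * y₂) (ε₁ * ε₂) := by
  obtain ⟨hI₁, hx₁, hy₁, he₁, hn₁⟩ := h₁
  obtain ⟨hI₂, hx₂, hy₂, he₂, hn₂⟩ := h₂
  refine ⟨mul_ne_zero hI₁ hI₂, mul_ne_zero hx₁ hx₂, mul_ne_zero hy₁ hy₂, ?_, ?_⟩
  · rw [smul_mul', ← Ideal.span_singleton_mul_span_singleton,
      ← Ideal.span_singleton_mul_span_singleton]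
    calc Ideal.span {x₁} * Ideal.span {x₂} * (σ • I₁ * σ • I₂)
        = (Ideal.span {x₁} * σ • I₁) * (Ideal.span {x₂} * σ • I₂) := by ring
      _ = (Ideal.span {y₁} * I₁) * (Ideal.span {y₂} * I₂) := by rw [he₁, he₂]
      _ = Ideal.span {y₁} * Ideal.span {y₂} * (I₁ * I₂) := by ring
  · rw [h10_nrm_mul, h10_nrm_mul, hn₁, hn₂]
    push_cast
    ring

theorem h10_data_wd (σ : L ≃ₐ[K] L) (p : ℕ) (hσp : σ ^ p = 1) {I₁ I₂ : Ideal (𝓞 L)}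
    {x₁ y₁ x₂ y₂ : 𝓞 L} {ε₁ ε₂ : (𝓞 L)ˣ} (h₁ : h10_IsData σ p I₁ x₁ y₁ ε₁)
    (h₂ : h10_IsData σ p I₂ x₂ y₂ ε₂) (hcl : h10_cl I₁ = h10_cl I₂) :
    ∃ w : (𝓞 L)ˣ, ε₁ = ε₂ * h92_unitsN σ p w := by
  obtain ⟨hI₁, hx₁, hy₁, he₁, hn₁⟩ := h₁
  obtain ⟨hI₂, hx₂, hy₂, he₂, hn₂⟩ := h₂
  obtain ⟨g₁, g₂, hg₁, hg₂, hg⟩ := (h10_cl_eq_iff hI₁ hI₂).mp hcl
  have hσg : Ideal.span {σ • g₁} * σ • I₁ = Ideal.span {σ • g₂} * σ • I₂ := by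
    have h := congrArg (fun J => σ • J) hg
    simpa only [smul_mul', h10_smul_span] using h
  have hkey : Ideal.span {σ • g₁ * x₂ * y₁ * g₂} * (Ideal.span {g₁} * I₁) =
      Ideal.span {σ • g₂ * x₁ * y₂ * g₁} * (Ideal.span {g₁} * I₁) := by
    calc Ideal.span {σ • g₁ * x₂ * y₁ * g₂} * (Ideal.span {g₁} * I₁)
        = Ideal.span {x₂} * Ideal.span {g₂} * Ideal.span {g₁} * Ideal.span {σ • g₁} *
            (Ideal.span {y₁} * I₁) := by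
          simp only [← Ideal.span_singleton_mul_span_singleton]; ring
      _ = Ideal.span {x₂} * Ideal.span {g₂} * Ideal.span {g₁} * Ideal.span {σ • g₁} *
            (Ideal.span {x₁} * σ • I₁) := by rw [he₁]
      _ = Ideal.span {x₂} * Ideal.span {g₂} * Ideal.span {g₁} * Ideal.span {x₁} *
            (Ideal.span {σ • g₁} * σ • I₁) := by ring
      _ = Ideal.span {x₂} * Ideal.span {g₂} * Ideal.span {g₁} * Ideal.span {x₁} *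
            (Ideal.span {σ • g₂} * σ • I₂) := by rw [hσg]
      _ = Ideal.span {g₂} * Ideal.span {g₁} * Ideal.span {x₁} * Ideal.span {σ • g₂} *
            (Ideal.span {x₂} * σ • I₂) := by ring
      _ = Ideal.span {g₂} * Ideal.span {g₁} * Ideal.span {x₁} * Ideal.span {σ • g₂} *
            (Ideal.span {y₂} * I₂) := by rw [he₂]
      _ = Ideal.span {g₁} * Ideal.span {x₁} * Ideal.span {σ • g₂} * Ideal.span {y₂} *
            (Ideal.span {g₂} * I₂) := by ring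
      _ = Ideal.span {g₁} * Ideal.span {x₁} * Ideal.span {σ • g₂} * Ideal.span {y₂} *
            (Ideal.span {g₁} * I₁) := by rw [hg]
      _ = Ideal.span {σ • g₂ * x₁ * y₂ * g₁} * (Ideal.span {g₁} * I₁) := by
          simp only [← Ideal.span_singleton_mul_span_singleton]; ring
  have hne : Ideal.span {g₁} * I₁ ≠ ⊥ := mul_ne_zero (h10_span_ne_bot hg₁) hI₁
  have hspan := mul_right_cancel₀ hne hkey
  rw [Ideal.span_singleton_eq_span_singleton] at hspan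
  obtain ⟨w, hw⟩ := hspan
  have hnrm := congrArg (h10_nrm σ p) hw
  simp only [h10_nrm_mul, h10_nrm_smul σ p hσp, hn₁, hn₂, h10_nrm_unit] at hnrm
  refine ⟨w⁻¹, ?_⟩
  have hA : h10_nrm σ p g₁ * h10_nrm σ p g₂ * h10_nrm σ p x₁ * h10_nrm σ p x₂ ≠ 0 :=
    mul_ne_zero (mul_ne_zero (mul_ne_zero (h10_nrm_ne_zero σ p hg₁) (h10_nrm_ne_zero σ p hg₂))
      (h10_nrm_ne_zero σ p hx₁)) (h10_nrm_ne_zero σ p hx₂)
  have h2 : ((ε₁ * h92_unitsN σ p w : (𝓞 L)ˣ) : 𝓞 L) = (ε₂ : 𝓞 L) := by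
    apply mul_left_cancel₀ hA
    push_cast
    linear_combination hnrm
  have h3 : ε₁ * h92_unitsN σ p w = ε₂ := Units.ext h2
  rw [← h3, map_inv, mul_assoc, mul_inv_cancel, mul_one]

theorem h10_data_key {p : ℕ} (hp : p.Prime) (hdeg : Module.finrank K L = p)
    (σ : L ≃ₐ[K] L) (hσ : σ ≠ 1)
    (hunr : ∀ Q : Ideal (𝓞 L), Q.IsPrime → Q ≠ ⊥ → Q.ramificationIdx (𝓞 K) = 1)
    {I : Ideal (𝓞 L)} {x y : 𝓞 L} {ε : (𝓞 L)ˣ} (h : h10_IsData σ p I x y ε) (u : (𝓞 L)ˣ)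
    (hu : ε = h92_unitsN σ p u) :
    ∃ 𝔞 : Ideal (𝓞 K), 𝔞 ≠ ⊥ ∧ h10_cl I = h10_cl (𝔞.map (algebraMap (𝓞 K) (𝓞 L))) := by
  obtain ⟨hI, hx, hy, he, hn⟩ := h
  have hord := h10_orderOf hp hdeg σ hσ
  have hσp : σ ^ p = 1 := hord ▸ pow_orderOf_eq_one σ
  have hnorm : h10_nrm σ p y = h10_nrm σ p ((u : 𝓞 L) * x) := by
    rw [h10_nrm_mul, h10_nrm_unit, hn, hu]
  obtain ⟨c, hc0, hc⟩ := h10_h90_S σ p hord hp.pos y ((u : 𝓞 L) * x)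
    (mul_ne_zero u.ne_zero hx) hnorm
  set T := Ideal.span {c} * I with hT
  have hT0 : T ≠ ⊥ := mul_ne_zero (h10_span_ne_bot hc0) hI
  have hσT : σ • T = T := by
    apply mul_left_cancel₀ (h10_span_ne_bot hx)
    calc Ideal.span {x} * σ • T = Ideal.span {σ • c} * (Ideal.span {x} * σ • I) := by
          rw [hT, smul_mul', h10_smul_span]; ring
      _ = Ideal.span {σ • c} * (Ideal.span {y} * I) := by rw [he]
      _ = Ideal.span {y * σ • c} * I := by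
          rw [← Ideal.span_singleton_mul_span_singleton]; ring
      _ = Ideal.span {(u : 𝓞 L) * (x * c)} * I := by rw [hc, mul_assoc]
      _ = Ideal.span {x * c} * I := by rw [Ideal.span_singleton_mul_left_unit u.isUnit]
      _ = Ideal.span {x} * T := by
          rw [hT, ← Ideal.span_singleton_mul_span_singleton]; ring
  have hall : ∀ τ : L ≃ₐ[K] L, τ • T = T := by
    intro τ
    obtain ⟨i, rfl⟩ := h10_exists_pow hp hdeg σ hσ τ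
    induction i with
    | zero => simp
    | succ i ih => rw [pow_succ, mul_smul, hσT, ih]
  obtain ⟨𝔞, h𝔞0, h𝔞⟩ := h10_ambiguous hunr T hT0 hall
  exact ⟨𝔞, h𝔞0, by rw [← h𝔞, hT, h10_cl_mul_span hI hc0]⟩

theorem h10_exists_psi {p : ℕ} (hp : p.Prime) (hdeg : Module.finrank K L = p)
    (σ : L ≃ₐ[K] L) (hσ : σ ≠ 1)
    (hunr : ∀ Q : Ideal (𝓞 L), Q.IsPrime → Q ≠ ⊥ → Q.ramificationIdx (𝓞 K) = 1)
    (u : (𝓞 L)ˣ) (hu : h92_unitsN σ p u = 1) :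
    ∃ (β : 𝓞 L) (𝔞 : Ideal (𝓞 K)), β ≠ 0 ∧ 𝔞 ≠ ⊥ ∧ (u : 𝓞 L) * σ • β = β ∧
      Ideal.span {β} = 𝔞.map (algebraMap (𝓞 K) (𝓞 L)) := by
  have hord := h10_orderOf hp hdeg σ hσ
  have hnorm : h10_nrm σ p (u : 𝓞 L) = h10_nrm σ p 1 := by
    rw [h10_nrm_unit, hu, h10_nrm_one]; rfl
  obtain ⟨β, hβ0, hβ⟩ := h10_h90_S σ p hord hp.pos (u : 𝓞 L) 1 one_ne_zero hnorm
  rw [one_mul] at hβ
  have hσT : σ • Ideal.span {β} = Ideal.span {β} := by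
    rw [h10_smul_span]
    conv_rhs => rw [← hβ]
    rw [Ideal.span_singleton_mul_left_unit u.isUnit]
  have hall : ∀ τ : L ≃ₐ[K] L, τ • Ideal.span {β} = Ideal.span {β} := by
    intro τ
    obtain ⟨i, rfl⟩ := h10_exists_pow hp hdeg σ hσ τ
    induction i with
    | zero => simp
    | succ i ih => rw [pow_succ, mul_smul, hσT, ih]
  obtain ⟨𝔞, h𝔞0, h𝔞⟩ := h10_ambiguous hunr _ (h10_span_ne_bot hβ0) hall
  exact ⟨β, 𝔞, hβ0, h𝔞0, hβ, h𝔞⟩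

theorem h10_psi_inj (σ : L ≃ₐ[K] L) {u v : (𝓞 L)ˣ} {βu βv : 𝓞 L} {𝔞u 𝔞v : Ideal (𝓞 K)}
    (hβu : βu ≠ 0) (h𝔞u : 𝔞u ≠ ⊥) (h𝔞v : 𝔞v ≠ ⊥)
    (hu : (u : 𝓞 L) * σ • βu = βu) (hv : (v : 𝓞 L) * σ • βv = βv)
    (hsu : Ideal.span {βu} = 𝔞u.map (algebraMap (𝓞 K) (𝓞 L)))
    (hsv : Ideal.span {βv} = 𝔞v.map (algebraMap (𝓞 K) (𝓞 L)))
    (hcl : h10_cl 𝔞u = h10_cl 𝔞v) : ∃ w : (𝓞 L)ˣ, u = v * h92_unitsD σ w := by
  obtain ⟨k₁, k₂, hk₁, hk₂, hk⟩ := (h10_cl_eq_iff h𝔞u h𝔞v).mp hcl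
  have hm := congrArg (Ideal.map (algebraMap (𝓞 K) (𝓞 L))) hk
  rw [Ideal.map_mul, Ideal.map_mul, Ideal.map_span, Ideal.map_span, Set.image_singleton,
    Set.image_singleton, ← hsu, ← hsv, Ideal.span_singleton_mul_span_singleton,
    Ideal.span_singleton_mul_span_singleton, Ideal.span_singleton_eq_span_singleton] at hm
  obtain ⟨w, hw⟩ := hm
  have hσw := congrArg (fun t => σ • t) hw
  simp only [smul_mul', smul_algebraMap] at hσw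
  have hk₁' : algebraMap (𝓞 K) (𝓞 L) k₁ ≠ 0 := by
    rw [Ne, map_eq_zero_iff _ (FaithfulSMul.algebraMap_injective (𝓞 K) (𝓞 L))]
    exact hk₁
  have hσβu : σ • βu ≠ 0 := by rwa [Ne, smul_eq_zero_iff_eq]
  have hcore : (u : 𝓞 L) * (w : 𝓞 L) = (v : 𝓞 L) * σ • (w : 𝓞 L) := by
    apply mul_left_cancel₀ (mul_ne_zero hk₁' hσβu)
    calc algebraMap (𝓞 K) (𝓞 L) k₁ * σ • βu * ((u : 𝓞 L) * (w : 𝓞 L))
        = algebraMap (𝓞 K) (𝓞 L) k₁ * ((u : 𝓞 L) * σ • βu) * w := by ring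
      _ = algebraMap (𝓞 K) (𝓞 L) k₁ * βu * w := by rw [hu]
      _ = algebraMap (𝓞 K) (𝓞 L) k₂ * βv := hw
      _ = algebraMap (𝓞 K) (𝓞 L) k₂ * ((v : 𝓞 L) * σ • βv) := by rw [hv]
      _ = (v : 𝓞 L) * (algebraMap (𝓞 K) (𝓞 L) k₂ * σ • βv) := by ring
      _ = (v : 𝓞 L) * (algebraMap (𝓞 K) (𝓞 L) k₁ * σ • βu * σ • (w : 𝓞 L)) := by rw [hσw]
      _ = algebraMap (𝓞 K) (𝓞 L) k₁ * σ • βu * ((v : 𝓞 L) * σ • (w : 𝓞 L)) := by ring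
  refine ⟨w, ?_⟩
  apply Units.ext
  apply RingOfIntegers.ext
  have hw0 : ((w : 𝓞 L) : L) ≠ 0 := fun h => w.ne_zero (RingOfIntegers.ext h)
  have hcore' : ((u : 𝓞 L) : L) * ((w : 𝓞 L) : L) = ((v : 𝓞 L) : L) * σ ((w : 𝓞 L) : L) :=
    congrArg (fun t : 𝓞 L => (t : L)) hcore
  change ((u : 𝓞 L) : L) = ((v : 𝓞 L) : L) * (((h92_unitsD σ w : (𝓞 L)ˣ) : 𝓞 L) : L)
  rw [h92_unitsD_coe, mul_div_assoc', ← hcore', mul_div_assoc, div_self hw0, mul_one]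

end Data

end Fermat.Agent.S14
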