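import Mathlib
import Fermat.Agent.S14.Defs
import Fermat.Agent.S14.h92_UnitsDefs
import Fermat.Agent.S14.h10_Count
import Fermat.Agent.S14.h10_SIData

/-!
# S14, package SI-A : the norm map on class groups of an unramified cyclic extension of odd prime
degree is not onto, given the unit index statement `h92_units_index` as a hypothesis.
-/

set_option autoImplicit false

namespace Fermat.Agent.S14

open NumberField
open scoped nonZeroDivisors Pointwise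

section Main

variable {K L : Type*} [Field K] [NumberField K] [Field L] [NumberField L] [Algebra K L]
  [IsGalois K L]

/-- `exists_char_of_unramified`, with the unit index statement (`h92_units_index` for `σ`) as a
hypothesis. -/
theorem h10_exists_char_of_units_index {p : ℕ} (hp : p.Prime)
    (hdeg : Module.finrank K L = p)
    (hunr : ∀ Q : Ideal (𝓞 L), Q.IsPrime → Q ≠ ⊥ → Q.ramificationIdx (𝓞 K) = 1)
    (σ : L ≃ₐ[K] L) (hσ : σ ≠ 1)
    (hidx : (h92_unitsN σ p).range.relIndex (h92_unitsD σ).ker ≠ 0 ∧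
      (h92_unitsD σ).range.relIndex (h92_unitsN σ p).ker =
        p * (h92_unitsN σ p).range.relIndex (h92_unitsD σ).ker) :
    ∃ c : ClassGroup (𝓞 K) →* ℂˣ, c ≠ 1 ∧ (∀ x, c x ^ p = 1) ∧
      ∀ P : (Ideal (𝓞 K))⁰, (P : Ideal (𝓞 K)).IsPrime →
        SplitsCompletely (𝓞 K) (𝓞 L) (P : Ideal (𝓞 K)) → c (ClassGroup.mk0 P) = 1 := by
  classical
  have hord := h10_orderOf hp hdeg σ hσ
  have hσp : σ ^ p = 1 := hord ▸ pow_orderOf_eq_one σ
  have hinj : Function.Injective (algebraMap (𝓞 K) (𝓞 L)) :=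
    FaithfulSMul.algebraMap_injective (𝓞 K) (𝓞 L)
  -- the three homomorphisms
  obtain ⟨ν, hν⟩ := h10_exists_hom (A := 𝓞 L) (B := 𝓞 K) (fun I => Ideal.relNorm (𝓞 K) I)
    (fun I hI => by rwa [Ne, Ideal.relNorm_eq_bot_iff])
    (fun I J => map_mul _ I J)
    (fun x hx => ⟨Algebra.intNorm (𝓞 K) (𝓞 L) x, by rwa [Ne, Algebra.intNorm_eq_zero],
      Ideal.relNorm_singleton _ x⟩)
  obtain ⟨sC, hsC⟩ := h10_exists_hom (A := 𝓞 L) (B := 𝓞 L) (fun I => σ • I)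
    (fun I hI => h10_smul_ideal_ne_bot σ hI)
    (fun I J => smul_mul' σ I J)
    (fun x hx => ⟨σ • x, by rwa [Ne, smul_eq_zero_iff_eq], h10_smul_span σ x⟩)
  obtain ⟨j, hj⟩ := h10_exists_hom (A := 𝓞 K) (B := 𝓞 L)
    (fun 𝔞 => 𝔞.map (algebraMap (𝓞 K) (𝓞 L)))
    (fun 𝔞 h𝔞 => by rwa [Ne, Ideal.map_eq_bot_iff_of_injective hinj])
    (fun I J => Ideal.map_mul _ I J)
    (fun x hx => ⟨algebraMap (𝓞 K) (𝓞 L) x, by rwa [Ne, map_eq_zero_iff _ hinj],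
      by rw [Ideal.map_span, Set.image_singleton]⟩)
  have hmap0 : ∀ 𝔞 : Ideal (𝓞 K), 𝔞 ≠ ⊥ → 𝔞.map (algebraMap (𝓞 K) (𝓞 L)) ≠ ⊥ :=
    fun 𝔞 h𝔞 => by rwa [Ne, Ideal.map_eq_bot_iff_of_injective hinj]
  -- `ν ∘ sC = ν`
  have h1 : ∀ a, ν (sC a) = ν a := by
    intro a
    obtain ⟨I, hI, rfl⟩ := h10_cl_surj a
    rw [hsC I hI, hν _ (h10_smul_ideal_ne_bot σ hI), hν I hI]
    simp only [Ideal.relNorm_smul]
  -- `ν ∘ j = p`-th power
  have h2 : ∀ x, ν (j x) = x ^ p := by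
    intro x
    obtain ⟨𝔞, h𝔞, rfl⟩ := h10_cl_surj x
    rw [hj 𝔞 h𝔞, hν _ (hmap0 𝔞 h𝔞)]
    rw [Ideal.relNorm_algebraMap, ← IsFractionRing.finrank_eq (𝓞 K) K (𝓞 L) L, hdeg,
      h10_cl_pow h𝔞]
  -- data attached to the fixed classes
  have hdata : ∀ a : ClassGroup (𝓞 L), sC a = a → ∃ (I : Ideal (𝓞 L)) (x y : 𝓞 L)
      (ε : (𝓞 L)ˣ), h10_IsData σ p I x y ε ∧ h10_cl I = a := by
    intro a ha
    obtain ⟨I, hI, rfl⟩ := h10_cl_surj a
    rw [hsC I hI] at ha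
    obtain ⟨x, y, ε, h⟩ := h10_exists_data hp hdeg σ hσ I hI ha
    exact ⟨I, x, y, ε, h, rfl⟩
  choose dI dx dy dε hd hdcl using hdata
  have hpsi : ∀ u : (𝓞 L)ˣ, h92_unitsN σ p u = 1 → ∃ (β : 𝓞 L) (𝔞 : Ideal (𝓞 K)),
      β ≠ 0 ∧ 𝔞 ≠ ⊥ ∧ (u : 𝓞 L) * σ • β = β ∧
        Ideal.span {β} = 𝔞.map (algebraMap (𝓞 K) (𝓞 L)) :=
    fun u hu => h10_exists_psi hp hdeg σ hσ hunr u hu
  choose pβ p𝔞 hpβ0 hp𝔞0 hpu hpspan using hpsi
  have hcount := h10_count ν sC j (h92_unitsD σ) (h92_unitsN σ p) p h1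
    (fun a ha => dε a ha)
    (fun a ha => h10_data_fixed σ p hσp (hd a ha))
    (fun a b ha hb hab => by
      have hprod := h10_data_mul σ p (hd a ha) (hd b hb)
      have hcl : h10_cl (dI (a * b) hab) = h10_cl (dI a ha * dI b hb) := by
        rw [hdcl, h10_cl_mul (hd a ha).1 (hd b hb).1, hdcl, hdcl]
      exact h10_data_wd σ p hσp (hd (a * b) hab) hprod hcl)
    (fun a ha ⟨u, hu⟩ => by
      obtain ⟨𝔞, h𝔞0, h𝔞⟩ := h10_data_key hp hdeg σ hσ hunr (hd a ha) u hu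
      refine ⟨h10_cl 𝔞, ?_⟩
      rw [hj 𝔞 h𝔞0, ← h𝔞, hdcl])
    (fun u hu => h10_cl (p𝔞 u hu))
    (fun u hu => by
      rw [hj _ (hp𝔞0 u hu), ← hpspan u hu, h10_cl_span (hpβ0 u hu)])
    (fun u v hu hv h => h10_psi_inj σ (hpβ0 u hu) (hp𝔞0 u hu) (hp𝔞0 v hv) (hpu u hu)
      (hpu v hv) (hpspan u hu) (hpspan v hv) h)
    hidx.1 hidx.2
  -- `ν` is not onto
  have hne : ν.range ≠ ⊤ := by
    intro htop
    have hc : Nat.card ν.range = Nat.card (ClassGroup (𝓞 K)) := by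
      rw [htop]; exact Subgroup.card_top
    rw [hc] at hcount
    have hpos : 0 < Nat.card (ClassGroup (𝓞 K)) := Nat.card_pos
    have h3 : Nat.card (ClassGroup (𝓞 K)) * 2 ≤ Nat.card (ClassGroup (𝓞 K)) * p :=
      Nat.mul_le_mul_left _ hp.two_le
    omega
  obtain ⟨x₀, hx₀⟩ : ∃ x₀, x₀ ∉ ν.range := by
    by_contra hcon
    push Not at hcon
    exact hne (eq_top_iff.mpr fun x _ => hcon x)
  have hq : (QuotientGroup.mk x₀ : ClassGroup (𝓞 K) ⧸ ν.range) ≠ 1 := by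
    rwa [Ne, QuotientGroup.eq_one_iff]
  obtain ⟨χ, hχ⟩ := CommGroup.exists_apply_ne_one_of_hasEnoughRootsOfUnity
    (ClassGroup (𝓞 K) ⧸ ν.range) ℂ hq
  refine ⟨χ.comp (QuotientGroup.mk' ν.range), ?_, ?_, ?_⟩
  · intro h
    apply hχ
    have h4 := DFunLike.congr_fun h x₀
    simpa using h4
  · intro x
    rw [← map_pow, ← h2 x]
    have hmem : ν (j x) ∈ ν.range := ⟨j x, rfl⟩
    simp only [MonoidHom.comp_apply, QuotientGroup.mk'_apply]
    rw [(QuotientGroup.eq_one_iff _).mpr hmem, map_one]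
  · intro P hP hsplit
    have hP0 : (P : Ideal (𝓞 K)) ≠ ⊥ := mem_nonZeroDivisors_iff_ne_zero.mp P.2
    have hPmax : (P : Ideal (𝓞 K)).IsMaximal := hP.isMaximal hP0
    obtain ⟨Q, hQmax, hQover⟩ :=
      Ideal.exists_maximal_ideal_liesOver_of_isIntegral (S := 𝓞 L) (P : Ideal (𝓞 K))
    have hf := (hsplit Q hQmax.isPrime hQover).2
    have hrel : Ideal.relNorm (𝓞 K) Q = (P : Ideal (𝓞 K)) := by
      rw [Ideal.relNorm_eq_pow_of_isMaximal Q (P : Ideal (𝓞 K)), hf, pow_one]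
    have hQ0 : Q ≠ ⊥ := Ideal.ne_bot_of_liesOver_of_ne_bot hP0 Q
    have hmem : ClassGroup.mk0 P ∈ ν.range := by
      refine ⟨h10_cl Q, ?_⟩
      rw [hν Q hQ0]
      rw [hrel, h10_cl_mk0]
    simp only [MonoidHom.comp_apply, QuotientGroup.mk'_apply]
    rw [(QuotientGroup.eq_one_iff _).mpr hmem, map_one]

end Main

end Fermat.Agent.S14
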