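import Mathlib

/-!
# S14, package SI-U1: dominant families of units

`h92_dominant_family`: a family of units `η w` indexed by the infinite places of a number field
`L` such that `η w` is small (`< 1`) at every place different from `w` generates a subgroup of
finite index of the unit group, and its relations form an infinite cyclic group `ℤ κ`.
-/

set_option autoImplicit false

namespace Fermat.Agent.S14

open NumberField

/-- A real matrix with negative off-diagonal entries and zero column sums: a vector in its kernel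
with one zero coordinate is zero. -/
theorem h62_dominant_aux {ι : Type*} [Fintype ι] (A : ι → ι → ℝ)
    (hneg : ∀ i j, i ≠ j → A i j < 0) (hcol : ∀ j, ∑ i, A i j = 0)
    (x : ι → ℝ) (hx : ∀ i, ∑ j, A i j * x j = 0) (i0 : ι) (hx0 : x i0 = 0) : x = 0 := by
  classical
  set T : ι → ι → ℝ := fun i j => if i = j then 0 else -A i j with hTdef
  have hT0 : ∀ i j, 0 ≤ T i j := by
    intro i j
    simp only [hTdef]
    split_ifs with h
    · exact le_rfl
    · exact (neg_pos.2 (hneg i j h)).le
  have hdiag : ∀ j, A j j = ∑ i, T i j := by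
    intro j
    have h1 := hcol j
    rw [← Finset.add_sum_erase Finset.univ _ (Finset.mem_univ j)] at h1
    have h2 : ∑ i, T i j = ∑ i ∈ Finset.univ.erase j, -A i j := by
      rw [← Finset.add_sum_erase Finset.univ _ (Finset.mem_univ j)]
      simp only [hTdef, if_pos rfl, zero_add]
      apply Finset.sum_congr rfl
      intro i hi
      rw [if_neg (Finset.ne_of_mem_erase hi)]
    rw [h2, Finset.sum_neg_distrib]
    linarith
  have hrow : ∀ i, A i i * x i = ∑ j, T i j * x j := by
    intro i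
    have h1 := hx i
    rw [← Finset.add_sum_erase Finset.univ _ (Finset.mem_univ i)] at h1
    have h2 : ∑ j, T i j * x j = ∑ j ∈ Finset.univ.erase i, -(A i j * x j) := by
      rw [← Finset.add_sum_erase Finset.univ _ (Finset.mem_univ i)]
      simp only [hTdef, if_pos rfl, zero_mul, zero_add]
      apply Finset.sum_congr rfl
      intro j hj
      rw [if_neg (Finset.ne_of_mem_erase hj).symm]
      ring
    rw [h2, Finset.sum_neg_distrib]
    linarith
  have hineq : ∀ i, (∑ k, T k i) * |x i| ≤ ∑ j, T i j * |x j| := by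
    intro i
    have hnn : 0 ≤ ∑ k, T k i := Finset.sum_nonneg (fun k _ => hT0 k i)
    have h1 : (∑ k, T k i) * |x i| = |∑ j, T i j * x j| := by
      rw [← hrow i, abs_mul, hdiag i, abs_of_nonneg hnn]
    rw [h1]
    calc |∑ j, T i j * x j| ≤ ∑ j, |T i j * x j| := Finset.abs_sum_le_sum_abs _ _
      _ = ∑ j, T i j * |x j| := by
          apply Finset.sum_congr rfl
          intro j _
          rw [abs_mul, abs_of_nonneg (hT0 i j)]
  have hsum : ∑ i, (∑ k, T k i) * |x i| = ∑ i, ∑ j, T i j * |x j| := by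
    simp_rw [Finset.sum_mul]
    rw [Finset.sum_comm]
  have hd : ∀ i, ∑ j, T i j * |x j| - (∑ k, T k i) * |x i| = 0 := by
    have hnn : ∀ i ∈ Finset.univ, 0 ≤ ∑ j, T i j * |x j| - (∑ k, T k i) * |x i| :=
      fun i _ => sub_nonneg.2 (hineq i)
    have htot : ∑ i, (∑ j, T i j * |x j| - (∑ k, T k i) * |x i|) = 0 := by
      rw [Finset.sum_sub_distrib, hsum, sub_self]
    intro i
    exact (Finset.sum_eq_zero_iff_of_nonneg hnn).1 htot i (Finset.mem_univ i)
  have h0 := hd i0
  rw [hx0, abs_zero, mul_zero, sub_zero] at h0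
  have h1 := (Finset.sum_eq_zero_iff_of_nonneg
    (fun j _ => mul_nonneg (hT0 i0 j) (abs_nonneg (x j)))).1 h0
  funext j
  by_cases hj : j = i0
  · rw [hj, hx0]; rfl
  · have h2 := h1 j (Finset.mem_univ j)
    have hT : T i0 j = -A i0 j := by
      simp only [hTdef]
      rw [if_neg (Ne.symm hj)]
    have hpos : 0 < T i0 j := by
      rw [hT]
      exact neg_pos.2 (hneg i0 j (Ne.symm hj))
    have h3 : |x j| = 0 := by
      rcases mul_eq_zero.1 h2 with h | h
      · exact absurd h hpos.ne'
      · exact h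
    simpa using h3

section

variable {L : Type*} [Field L] [NumberField L]

set_option linter.unusedSectionVars false

/-- `log |u|_w` as an additive map on the units. -/
noncomputable def h62_logAt (w : InfinitePlace L) : Additive (𝓞 L)ˣ →+ ℝ where
  toFun u := Real.log (w (((Additive.toMul u : (𝓞 L)ˣ) : 𝓞 L) : L))
  map_zero' := by simp
  map_add' x y := by
    have hx : w (((Additive.toMul x : (𝓞 L)ˣ) : 𝓞 L) : L) ≠ 0 :=
      (InfinitePlace.pos_iff.2 (Units.coe_ne_zero _)).ne'
    have hy : w (((Additive.toMul y : (𝓞 L)ˣ) : 𝓞 L) : L) ≠ 0 :=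
      (InfinitePlace.pos_iff.2 (Units.coe_ne_zero _)).ne'
    show Real.log (w ((((Additive.toMul x : (𝓞 L)ˣ) : 𝓞 L) : L) *
      (((Additive.toMul y : (𝓞 L)ˣ) : 𝓞 L) : L))) = _
    rw [map_mul, Real.log_mul hx hy]

theorem h62_logAt_apply (w : InfinitePlace L) (u : (𝓞 L)ˣ) :
    h62_logAt w (Additive.ofMul u) = Real.log (w ((u : 𝓞 L) : L)) := rfl

/-- the linear map `a ↦ ∑ a w • θ w` -/
noncomputable def h62_comb (θ : InfinitePlace L → (𝓞 L)ˣ) :
    (InfinitePlace L → ℤ) →ₗ[ℤ] Additive (𝓞 L)ˣ :=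
  Fintype.linearCombination ℤ (fun w => Additive.ofMul (θ w))

theorem h62_comb_toMul (θ : InfinitePlace L → (𝓞 L)ˣ) (a : InfinitePlace L → ℤ) :
    Additive.toMul (h62_comb θ a) = ∏ w, θ w ^ a w := by
  simp [h62_comb, Fintype.linearCombination_apply, toMul_sum, toMul_zsmul]

theorem h62_comb_eq_zero_iff (θ : InfinitePlace L → (𝓞 L)ˣ) (a : InfinitePlace L → ℤ) :
    h62_comb θ a = 0 ↔ ∏ w, θ w ^ a w = 1 := by
  rw [← h62_comb_toMul]
  constructor
  · intro h; rw [h]; rfl
  · intro h
    exact Additive.toMul.injective (by rw [h]; rfl)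

/-- any family of units indexed by the infinite places satisfies a nontrivial relation -/
theorem h62_exists_relation (θ : InfinitePlace L → (𝓞 L)ˣ) :
    ∃ a : InfinitePlace L → ℤ, a ≠ 0 ∧ ∏ w, θ w ^ a w = 1 := by
  classical
  have hnot : ¬ Function.Injective (h62_comb θ) := by
    intro hinj
    have h1 := LinearMap.finrank_le_finrank_of_injective hinj
    rw [Module.finrank_fintype_fun_eq_card, Units.finrank_eq, Units.rank] at h1
    have : 0 < Fintype.card (InfinitePlace L) := Fintype.card_pos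
    omega
  rw [← LinearMap.ker_eq_bot, Submodule.eq_bot_iff] at hnot
  push Not at hnot
  obtain ⟨a, ha, ha0⟩ := hnot
  exact ⟨a, ha0, (h62_comb_eq_zero_iff θ a).1 ha⟩

/-- a relation of a dominant family with one zero exponent is trivial -/
theorem h62_relation_eq_zero (η : InfinitePlace L → (𝓞 L)ˣ)
    (hη : ∀ w w' : InfinitePlace L, w' ≠ w → w' ((η w : 𝓞 L) : L) < 1)
    (a : InfinitePlace L → ℤ) (ha : ∏ w, η w ^ a w = 1) (w0 : InfinitePlace L)
    (h0 : a w0 = 0) : a = 0 := by
  classical
  have key := h62_dominant_aux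
    (fun w' w : InfinitePlace L => (w'.mult : ℝ) * Real.log (w' ((η w : 𝓞 L) : L)))
    (by
      intro w' w hne
      have hpos : 0 < w' ((η w : 𝓞 L) : L) := InfinitePlace.pos_iff.2 (Units.coe_ne_zero _)
      have hlog : Real.log (w' ((η w : 𝓞 L) : L)) < 0 := Real.log_neg hpos (hη w w' hne)
      have hm : (0 : ℝ) < (w'.mult : ℝ) := by exact_mod_cast InfinitePlace.mult_pos
      exact mul_neg_of_pos_of_neg hm hlog)
    (fun w => Units.sum_mult_mul_log (η w))
    (fun w => (a w : ℝ))
    (by
      intro w'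
      have h1 : h62_logAt w' (h62_comb η a) = 0 := by
        rw [(h62_comb_eq_zero_iff η a).2 ha, map_zero]
      have h2 : h62_logAt w' (h62_comb η a)
          = ∑ w, (a w : ℝ) * Real.log (w' ((η w : 𝓞 L) : L)) := by
        rw [h62_comb, Fintype.linearCombination_apply, map_sum]
        apply Finset.sum_congr rfl
        intro w _
        rw [map_zsmul, h62_logAt_apply, zsmul_eq_mul]
      rw [h2] at h1
      have h3 : ∑ w, (w'.mult : ℝ) * Real.log (w' ((η w : 𝓞 L) : L)) * (a w : ℝ)
          = (w'.mult : ℝ) * ∑ w, (a w : ℝ) * Real.log (w' ((η w : 𝓞 L) : L)) := by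
        rw [Finset.mul_sum]
        apply Finset.sum_congr rfl
        intro w _
        ring
      rw [h3, h1, mul_zero])
    w0 (by simp [h0])
  funext w
  have := congrFun key w
  simpa using this

end

theorem h92_dominant_family (L : Type*) [Field L] [NumberField L]
    (η : InfinitePlace L → (𝓞 L)ˣ)
    (hη : ∀ w w' : InfinitePlace L, w' ≠ w → w' ((η w : 𝓞 L) : L) < 1) :
    (Subgroup.closure (Set.range η)).index ≠ 0 ∧
      ∃ κ : InfinitePlace L → ℤ, κ ≠ 0 ∧
        ∀ a : InfinitePlace L → ℤ, ∏ w, η w ^ a w = 1 ↔ ∃ m : ℤ, a = m • κ := by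
  classical
  obtain ⟨w0⟩ : Nonempty (InfinitePlace L) := inferInstance
  constructor
  · -- finite index: the quotient is finitely generated and torsion
    set H : Subgroup (𝓞 L)ˣ := Subgroup.closure (Set.range η) with hH
    have hmem : ∀ w, η w ∈ H := fun w => Subgroup.subset_closure ⟨w, rfl⟩
    have htors : ∀ u : (𝓞 L)ˣ, ∃ c : ℤ, c ≠ 0 ∧ u ^ c ∈ H := by
      intro u
      obtain ⟨a, ha0, ha⟩ := h62_exists_relation (Function.update η w0 u)
      have hsplit : ∏ w, (Function.update η w0 u) w ^ a w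
          = u ^ a w0 * ∏ w ∈ Finset.univ.erase w0, η w ^ a w := by
        rw [← Finset.mul_prod_erase Finset.univ _ (Finset.mem_univ w0), Function.update_self]
        congr 1
        apply Finset.prod_congr rfl
        intro w hw
        rw [Function.update_of_ne (Finset.ne_of_mem_erase hw)]
      rw [hsplit] at ha
      refine ⟨a w0, ?_, ?_⟩
      · intro h0
        rw [h0, zpow_zero, one_mul] at ha
        have ha' : ∏ w, η w ^ a w = 1 := by
          rw [← Finset.mul_prod_erase Finset.univ _ (Finset.mem_univ w0), h0, zpow_zero,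
            one_mul, ha]
        exact ha0 (h62_relation_eq_zero η hη a ha' w0 h0)
      · have h1 : u ^ a w0 = (∏ w ∈ Finset.univ.erase w0, η w ^ a w)⁻¹ :=
          eq_inv_of_mul_eq_one_left ha
        rw [h1]
        exact H.inv_mem (Subgroup.prod_mem H (fun w _ => H.zpow_mem (hmem w) _))
    have : Group.FG (𝓞 L)ˣ := Group.fg_iff_monoid_fg.2 inferInstance
    have hfin : Finite ((𝓞 L)ˣ ⧸ H) := by
      apply CommGroup.finite_of_fg_isMulTorsion
      intro q
      obtain ⟨u, rfl⟩ := QuotientGroup.mk_surjective q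
      obtain ⟨c, hc0, hc⟩ := htors u
      refine (isOfFinOrder_iff_zpow_eq_one (G := (𝓞 L)ˣ ⧸ H)).2 ⟨c, hc0, ?_⟩
      rw [← QuotientGroup.mk_zpow]
      exact (QuotientGroup.eq_one_iff _).2 hc
    exact Subgroup.index_ne_zero_of_finite
  · -- the relation lattice
    set Λ : AddSubgroup (InfinitePlace L → ℤ) := (LinearMap.ker (h62_comb η)).toAddSubgroup with hΛ
    have hΛmem : ∀ a, a ∈ Λ ↔ ∏ w, η w ^ a w = 1 := by
      intro a
      rw [hΛ, Submodule.mem_toAddSubgroup, LinearMap.mem_ker, h62_comb_eq_zero_iff]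
    obtain ⟨g, hg⟩ := Int.subgroup_cyclic (Λ.map (Pi.evalAddMonoidHom (fun _ => ℤ) w0))
    have hgmem : g ∈ Λ.map (Pi.evalAddMonoidHom (fun _ => ℤ) w0) := by
      rw [hg]; exact AddSubgroup.subset_closure rfl
    obtain ⟨κ, hκΛ, hκ⟩ := hgmem
    have hκ' : κ w0 = g := hκ
    have hdiv : ∀ a ∈ Λ, ∃ m : ℤ, a w0 = m * g := by
      intro a ha
      have h1 : a w0 ∈ Λ.map (Pi.evalAddMonoidHom (fun _ => ℤ) w0) := ⟨a, ha, rfl⟩
      rw [hg, ← AddSubgroup.zmultiples_eq_closure, Int.mem_zmultiples_iff] at h1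
      obtain ⟨m, hm⟩ := h1
      exact ⟨m, by rw [hm, mul_comm]⟩
    refine ⟨κ, ?_, ?_⟩
    · -- κ ≠ 0
      intro hκ0
      obtain ⟨a, ha0, ha⟩ := h62_exists_relation η
      obtain ⟨m, hm⟩ := hdiv a ((hΛmem a).2 ha)
      have hg0 : g = 0 := by rw [← hκ', hκ0]; rfl
      rw [hg0, mul_zero] at hm
      exact ha0 (h62_relation_eq_zero η hη a ha w0 hm)
    · intro a
      constructor
      · intro ha
        have haΛ : a ∈ Λ := (hΛmem a).2 ha
        obtain ⟨m, hm⟩ := hdiv a haΛ
        refine ⟨m, ?_⟩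
        have hb : a - m • κ ∈ Λ := Λ.sub_mem haΛ (Λ.zsmul_mem hκΛ m)
        have hb0 : (a - m • κ) w0 = 0 := by
          simp only [Pi.sub_apply, Pi.smul_apply, smul_eq_mul, hκ', hm, sub_self]
        have := h62_relation_eq_zero η hη (a - m • κ) ((hΛmem _).1 hb) w0 hb0
        exact sub_eq_zero.1 this
      · rintro ⟨m, rfl⟩
        exact (hΛmem _).1 (Λ.zsmul_mem hκΛ m)

end Fermat.Agent.S14
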