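import Mathlib

set_option autoImplicit false

/-!
# Herbrand quotient by index calculus (package SI of S14, abstract part)

`E` is an additive commutative group with two endomorphisms `f`, `g` such that `f ∘ g = 0` and
`g ∘ f = 0`.  For a subgroup `M` stable under `f` and `g` and of finite index we show that the
"Herbrand quotients" of `E` and of `M` agree (`h92_herbrand_index`).
-/

namespace Fermat.Agent.S14

section IndexCalculus

variable {E : Type*} [AddCommGroup E]

/-- `[E : M] = [f E : f M] * [ker f : ker f ∩ M]`. -/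
theorem h92_index_eq_map_relIndex_mul (f : E →+ E) (M : AddSubgroup E) :
    M.index = (M.map f).relIndex f.range * M.relIndex f.ker := by
  have h1 : (M.map f).relIndex f.range = (M ⊔ f.ker).index := by
    rw [AddMonoidHom.range_eq_map f, AddSubgroup.relIndex_map_map, top_sup_eq,
      AddSubgroup.relIndex_top_right]
  have h2 : M.relIndex (f.ker ⊔ M) = M.relIndex f.ker := AddSubgroup.relIndex_sup_right _ _
  have h3 : M.relIndex (M ⊔ f.ker) * (M ⊔ f.ker).index = M.index :=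
    AddSubgroup.relIndex_mul_index le_sup_left
  rw [h1, ← h2, sup_comm f.ker M, mul_comm, h3]

/-- Finite-index invariance of the Herbrand quotient, in index form. -/
theorem h92_herbrand_index (f g : E →+ E) (hfg : ∀ x, f (g x) = 0) (hgf : ∀ x, g (f x) = 0)
    (M : AddSubgroup E) (hfM : ∀ x ∈ M, f x ∈ M) (hgM : ∀ x ∈ M, g x ∈ M) (hM : M.index ≠ 0)
    (h1 : (M.map g).relIndex (M ⊓ f.ker) ≠ 0) (h2 : (M.map f).relIndex (M ⊓ g.ker) ≠ 0) :
    g.range.relIndex f.ker ≠ 0 ∧ f.range.relIndex g.ker ≠ 0 ∧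
      g.range.relIndex f.ker * (M.map f).relIndex (M ⊓ g.ker)
        = f.range.relIndex g.ker * (M.map g).relIndex (M ⊓ f.ker) := by
  -- inclusions
  have gM_le_Mf : M.map g ≤ M ⊓ f.ker := by
    rintro _ ⟨x, hx, rfl⟩
    exact ⟨hgM x hx, hfg x⟩
  have fM_le_Mg : M.map f ≤ M ⊓ g.ker := by
    rintro _ ⟨x, hx, rfl⟩
    exact ⟨hfM x hx, hgf x⟩
  have gE_le : g.range ≤ f.ker := by
    rintro _ ⟨x, rfl⟩
    exact hfg x
  have fE_le : f.range ≤ g.ker := by
    rintro _ ⟨x, rfl⟩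
    exact hgf x
  have gM_le_gE : M.map g ≤ g.range := by
    rintro _ ⟨x, _, rfl⟩
    exact ⟨x, rfl⟩
  have fM_le_fE : M.map f ≤ f.range := by
    rintro _ ⟨x, _, rfl⟩
    exact ⟨x, rfl⟩
  -- the two chains
  have c1 : (M.map g).relIndex g.range * g.range.relIndex f.ker
      = (M.map g).relIndex (M ⊓ f.ker) * (M ⊓ f.ker).relIndex f.ker := by
    rw [AddSubgroup.relIndex_mul_relIndex _ _ _ gM_le_gE gE_le,
      AddSubgroup.relIndex_mul_relIndex _ _ _ gM_le_Mf inf_le_right]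
  have c2 : (M.map f).relIndex f.range * f.range.relIndex g.ker
      = (M.map f).relIndex (M ⊓ g.ker) * (M ⊓ g.ker).relIndex g.ker := by
    rw [AddSubgroup.relIndex_mul_relIndex _ _ _ fM_le_fE fE_le,
      AddSubgroup.relIndex_mul_relIndex _ _ _ fM_le_Mg inf_le_right]
  have i1 : M.index = (M.map f).relIndex f.range * (M ⊓ f.ker).relIndex f.ker := by
    rw [AddSubgroup.inf_relIndex_right]; exact h92_index_eq_map_relIndex_mul f M
  have i2 : M.index = (M.map g).relIndex g.range * (M ⊓ g.ker).relIndex g.ker := by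
    rw [AddSubgroup.inf_relIndex_right]; exact h92_index_eq_map_relIndex_mul g M
  set X := g.range.relIndex f.ker
  set Y := f.range.relIndex g.ker
  set X' := (M.map g).relIndex (M ⊓ f.ker)
  set Y' := (M.map f).relIndex (M ⊓ g.ker)
  set u := (M.map g).relIndex g.range
  set v := (M ⊓ f.ker).relIndex f.ker
  set w := (M.map f).relIndex f.range
  set z := (M ⊓ g.ker).relIndex g.ker
  have hv : v ≠ 0 := fun h => hM (by rw [i1, h, mul_zero])
  have hw : w ≠ 0 := fun h => hM (by rw [i1, h, zero_mul])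
  have hu : u ≠ 0 := fun h => hM (by rw [i2, h, zero_mul])
  have hz : z ≠ 0 := fun h => hM (by rw [i2, h, mul_zero])
  have hX : X ≠ 0 := by
    intro h
    have : X' * v = 0 := by rw [← c1, h, mul_zero]
    rcases Nat.mul_eq_zero.mp this with h | h
    · exact h1 h
    · exact hv h
  have hY : Y ≠ 0 := by
    intro h
    have : Y' * z = 0 := by rw [← c2, h, mul_zero]
    rcases Nat.mul_eq_zero.mp this with h | h
    · exact h2 h
    · exact hz h
  refine ⟨hX, hY, ?_⟩
  have key : (X * Y') * M.index = (Y * X') * M.index := by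
    calc (X * Y') * M.index = (u * X) * (Y' * z) := by rw [i2]; ring
      _ = (X' * v) * (w * Y) := by rw [c1, c2]
      _ = (Y * X') * M.index := by rw [i1]; ring
  exact Nat.eq_of_mul_eq_mul_right (Nat.pos_of_ne_zero hM) key

end IndexCalculus

section Cyclic

open Finset

variable {E : Type*} [AddCommGroup E]

/-- The norm endomorphism `1 + σ + ⋯ + σ^(p-1)`. -/
def h92_N (σ : AddMonoid.End E) (p : ℕ) : AddMonoid.End E := ∑ k ∈ range p, σ ^ k

/-- The endomorphism `σ - 1`. -/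
def h92_D (σ : AddMonoid.End E) : AddMonoid.End E := σ - 1

theorem h92_End_sum_apply {α : Type*} (s : Finset α) (f : α → AddMonoid.End E) (x : E) :
    (∑ k ∈ s, f k) x = ∑ k ∈ s, f k x :=
  AddMonoidHom.finsetSum_apply f s x

theorem h92_End_mul_apply (f g : AddMonoid.End E) (x : E) : (f * g) x = f (g x) := rfl

theorem h92_End_sub_apply (f g : AddMonoid.End E) (x : E) : (f - g) x = f x - g x := rfl

theorem h92_End_one_apply (x : E) : (1 : AddMonoid.End E) x = x := rfl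

theorem h92_N_apply (σ : AddMonoid.End E) (p : ℕ) (x : E) :
    h92_N σ p x = ∑ k ∈ range p, (σ ^ k) x := by
  rw [h92_N, h92_End_sum_apply]

theorem h92_D_apply (σ : AddMonoid.End E) (x : E) : h92_D σ x = σ x - x := rfl

theorem h92_D_mul_N {σ : AddMonoid.End E} {p : ℕ} (hσ : σ ^ p = 1) :
    h92_D σ * h92_N σ p = 0 := by
  rw [h92_D, h92_N, mul_geom_sum, hσ, sub_self]

theorem h92_N_mul_D {σ : AddMonoid.End E} {p : ℕ} (hσ : σ ^ p = 1) :
    h92_N σ p * h92_D σ = 0 := by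
  rw [h92_D, h92_N, geom_sum_mul, hσ, sub_self]

theorem h92_D_N_apply {σ : AddMonoid.End E} {p : ℕ} (hσ : σ ^ p = 1) (x : E) :
    h92_D σ (h92_N σ p x) = 0 := by
  have := congrArg (fun f : AddMonoid.End E => f x) (h92_D_mul_N hσ)
  simpa using this

theorem h92_N_D_apply {σ : AddMonoid.End E} {p : ℕ} (hσ : σ ^ p = 1) (x : E) :
    h92_N σ p (h92_D σ x) = 0 := by
  have := congrArg (fun f : AddMonoid.End E => f x) (h92_N_mul_D hσ)
  simpa using this

theorem h92_N_mul_σ {σ : AddMonoid.End E} {p : ℕ} (hσ : σ ^ p = 1) :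
    h92_N σ p * σ = h92_N σ p := by
  have h := h92_N_mul_D hσ
  rw [h92_D, mul_sub, mul_one, sub_eq_zero] at h
  exact h

theorem h92_N_mul_pow {σ : AddMonoid.End E} {p : ℕ} (hσ : σ ^ p = 1) (k : ℕ) :
    h92_N σ p * σ ^ k = h92_N σ p := by
  induction k with
  | zero => simp
  | succ k ih => rw [pow_succ, ← mul_assoc, ih, h92_N_mul_σ hσ]

theorem h92_N_pow_apply {σ : AddMonoid.End E} {p : ℕ} (hσ : σ ^ p = 1) (k : ℕ) (x : E) :
    h92_N σ p ((σ ^ k) x) = h92_N σ p x := by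
  have := congrArg (fun f : AddMonoid.End E => f x) (h92_N_mul_pow hσ k)
  simpa using this

theorem h92_pow_mod {σ : AddMonoid.End E} {p : ℕ} (hσ : σ ^ p = 1) (n : ℕ) :
    σ ^ (n % p) = σ ^ n := by
  conv_rhs => rw [← Nat.mod_add_div n p, pow_add, pow_mul, hσ, one_pow, mul_one]

/-- `(σ ^ n - 1) x = (σ - 1) (∑_{k<n} σ^k x)`. -/
theorem h92_pow_sub_one_apply (σ : AddMonoid.End E) (n : ℕ) (x : E) :
    (σ ^ n) x - x = h92_D σ (∑ k ∈ range n, (σ ^ k) x) := by
  have h : σ ^ n - 1 = h92_D σ * ∑ k ∈ range n, σ ^ k := by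
    rw [h92_D, mul_geom_sum]
  have h2 := congrArg (fun f : AddMonoid.End E => f x) h
  simp only [h92_End_mul_apply, h92_End_sum_apply, h92_End_sub_apply, h92_End_one_apply] at h2
  exact h2

end Cyclic

section LemmaB

open Finset

variable {E : Type*} [AddCommGroup E]

theorem h92_sum_zmod_val {M : Type*} [AddCommMonoid M] (p : ℕ) [NeZero p] (f : ℕ → M) :
    ∑ i : ZMod p, f i.val = ∑ k ∈ range p, f k := by
  refine Finset.sum_bij (fun i _ => i.val) (fun i _ => mem_range.mpr (ZMod.val_lt i))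
    (fun i _ j _ h => ZMod.val_injective p h)
    (fun k hk => ⟨(k : ZMod p), mem_univ _, ZMod.val_cast_of_lt (mem_range.mp hk)⟩)
    (fun _ _ => rfl)

variable (σ : AddMonoid.End E) (p : ℕ) [NeZero p] {ι : Type*} [Fintype ι] (η : ι → E)

/-- `a ↦ ∑_{(v,i)} a (v,i) • σ^i (η v)`. -/
noncomputable def h92_phi : (ι × ZMod p → ℤ) →+ E where
  toFun a := ∑ j : ι × ZMod p, a j • (σ ^ j.2.val) (η j.1)
  map_zero' := by simp
  map_add' a b := by simp [add_smul, Finset.sum_add_distrib]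

theorem h92_phi_apply (a : ι × ZMod p → ℤ) :
    h92_phi σ p η a = ∑ j : ι × ZMod p, a j • (σ ^ j.2.val) (η j.1) := rfl

variable {σ p}

/-- shifting the exponent corresponds to applying `σ`. -/
theorem h92_phi_shift (hσ : σ ^ p = 1) (a : ι × ZMod p → ℤ) :
    h92_phi σ p η (fun j => a (j.1, j.2 - 1)) = σ (h92_phi σ p η a) := by
  rw [h92_phi_apply, h92_phi_apply, map_sum]
  rw [← Equiv.sum_comp ((Equiv.refl ι).prodCongr (Equiv.addRight (1 : ZMod p)))]
  refine Finset.sum_congr rfl fun j _ => ?_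
  have h1 : σ ^ (j.2 + 1).val = σ * σ ^ j.2.val := by
    rw [ZMod.val_add, h92_pow_mod hσ, pow_add]
    rcases Nat.lt_or_ge 1 p with hp | hp
    · have : Fact (1 < p) := ⟨hp⟩
      rw [ZMod.val_one, pow_one]
      exact (Commute.pow_self σ _).eq
    · have hp1 : p = 1 := le_antisymm hp (Nat.pos_of_ne_zero (NeZero.ne p))
      subst hp1
      rw [pow_one] at hσ
      simp [hσ]
  simp only [Equiv.prodCongr_apply, Equiv.coe_refl, Prod.map_fst, id_eq, Prod.map_snd,
    Equiv.coe_addRight, add_sub_cancel_right, map_zsmul]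
  rw [h1]
  rfl


/-- `σ^k (η v)` lies in the image of `φ`. -/
theorem h92_pow_mem_range (hσ : σ ^ p = 1) (v : ι) (k : ℕ) :
    (σ ^ k) (η v) ∈ (h92_phi σ p η).range := by
  classical
  refine ⟨Pi.single (v, (k : ZMod p)) 1, ?_⟩
  rw [h92_phi_apply, Finset.sum_eq_single (v, (k : ZMod p))]
  · simp [ZMod.val_natCast, h92_pow_mod hσ]
  · intro j _ hj
    simp [Pi.single_eq_of_ne hj]
  · intro h
    exact absurd (mem_univ _) h

theorem h92_mem_range (hσ : σ ^ p = 1) (v : ι) : η v ∈ (h92_phi σ p η).range := by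
  have := h92_pow_mem_range η hσ v 0
  rwa [pow_zero, h92_End_one_apply] at this

theorem h92_N_phi (hσ : σ ^ p = 1) (a : ι × ZMod p → ℤ) :
    h92_N σ p (h92_phi σ p η a) = ∑ v, (∑ i, a (v, i)) • h92_N σ p (η v) := by
  rw [h92_phi_apply, map_sum, Fintype.sum_prod_type]
  refine Finset.sum_congr rfl fun v _ => ?_
  rw [Finset.sum_smul]
  refine Finset.sum_congr rfl fun i _ => ?_
  rw [map_zsmul, h92_N_pow_apply hσ]

theorem h92_phi_const (c : ι → ℤ) :
    h92_phi σ p η (fun j => c j.1) = ∑ v, c v • h92_N σ p (η v) := by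
  rw [h92_phi_apply, Fintype.sum_prod_type]
  refine Finset.sum_congr rfl fun v _ => ?_
  dsimp only
  rw [← Finset.smul_sum, h92_N_apply]
  congr 1
  exact h92_sum_zmod_val p (fun k => (σ ^ k) (η v))

theorem h92_N_phi' (hσ : σ ^ p = 1) (a : ι × ZMod p → ℤ) :
    h92_N σ p (h92_phi σ p η a) = h92_phi σ p η (fun j => ∑ i, a (j.1, i)) := by
  rw [h92_N_phi η hσ, h92_phi_const η (fun v => ∑ i, a (v, i))]

theorem h92_D_phi (hσ : σ ^ p = 1) (a : ι × ZMod p → ℤ) :
    h92_D σ (h92_phi σ p η a) = h92_phi σ p η (fun j => a (j.1, j.2 - 1) - a j) := by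
  have h : (fun j : ι × ZMod p => a (j.1, j.2 - 1) - a j) = (fun j => a (j.1, j.2 - 1)) - a := rfl
  rw [h, map_sub, h92_phi_shift η hσ, h92_D_apply]

theorem h92_phi_sub_mem (hσ : σ ^ p = 1) (a : ι × ZMod p → ℤ) :
    h92_phi σ p η a - ∑ v, (∑ i, a (v, i)) • η v ∈ (h92_phi σ p η).range.map (h92_D σ) := by
  have h : h92_phi σ p η a - ∑ v, (∑ i, a (v, i)) • η v
      = h92_D σ (∑ j : ι × ZMod p, a j • ∑ k ∈ range j.2.val, (σ ^ k) (η j.1)) := by
    rw [map_sum, h92_phi_apply]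
    have h2 : ∑ v, (∑ i, a (v, i)) • η v = ∑ j : ι × ZMod p, a j • η j.1 := by
      rw [Fintype.sum_prod_type]
      exact Finset.sum_congr rfl fun v _ => Finset.sum_smul ..
    rw [h2, ← Finset.sum_sub_distrib]
    refine Finset.sum_congr rfl fun j _ => ?_
    rw [map_zsmul, ← h92_pow_sub_one_apply, smul_sub]
  rw [h]
  refine AddSubgroup.mem_map_of_mem _ ?_
  refine AddSubgroup.sum_mem _ fun j _ => ?_
  refine AddSubgroup.zsmul_mem _ ?_ _
  exact AddSubgroup.sum_mem _ fun k _ => h92_pow_mem_range η hσ j.1 k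

/-- if all the row sums of `b` vanish then `φ b ∈ (σ - 1) M'`. -/
theorem h92_phi_mem_of_sum_eq_zero (hσ : σ ^ p = 1) (b : ι × ZMod p → ℤ)
    (hb : ∀ v, ∑ i, b (v, i) = 0) :
    h92_phi σ p η b ∈ (h92_phi σ p η).range.map (h92_D σ) := by
  have h := h92_phi_sub_mem η hσ b
  simpa [hb] using h

omit [Fintype ι] in
theorem h92_const_of_shift {α : Type*} (a : ι × ZMod p → α)
    (h : ∀ j : ι × ZMod p, a (j.1, j.2 - 1) = a j) (j : ι × ZMod p) : a j = a (j.1, 0) := by
  have key : ∀ (k : ℕ) (j : ι × ZMod p), a (j.1, j.2 - k) = a j := by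
    intro k
    induction k with
    | zero => intro j; simp
    | succ k ih =>
      intro j
      have h3 := h (j.1, j.2 - k)
      simp only at h3
      rw [Nat.cast_succ, ← sub_sub, h3, ih]
  have h4 := key j.2.val j
  rw [ZMod.natCast_zmod_val, sub_self] at h4
  exact h4.symm

omit [Fintype ι] in
theorem h92_sum_shift (a : ι × ZMod p → ℤ) (v : ι) :
    ∑ i, a (v, i - 1) = ∑ i, a (v, i) :=
  Equiv.sum_comp (Equiv.subRight (1 : ZMod p)) (fun i => a (v, i))

theorem h92_kappa_shift (hσ : σ ^ p = 1) (hp : Odd p) (κ : ι × ZMod p → ℤ) (hκ0 : κ ≠ 0)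
    (hκ : ∀ a, h92_phi σ p η a = 0 ↔ ∃ m : ℤ, a = m • κ) :
    ∀ j : ι × ZMod p, κ (j.1, j.2 - 1) = κ j := by
  have h0 : h92_phi σ p η κ = 0 := (hκ κ).mpr ⟨1, (one_smul _ _).symm⟩
  have h1 : h92_phi σ p η (fun j => κ (j.1, j.2 - 1)) = 0 := by
    rw [h92_phi_shift η hσ, h0, map_zero]
  obtain ⟨m, hm⟩ := (hκ _).mp h1
  have hm' : ∀ j : ι × ZMod p, κ (j.1, j.2 - 1) = m * κ j := fun j => by
    have := congrFun hm j
    simpa using this
  have key : ∀ (k : ℕ) (j : ι × ZMod p), κ (j.1, j.2 - k) = m ^ k * κ j := by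
    intro k
    induction k with
    | zero => intro j; simp
    | succ k ih =>
      intro j
      have h3 := hm' (j.1, j.2 - k)
      simp only at h3
      rw [Nat.cast_succ, ← sub_sub, h3, ih, pow_succ]
      ring
  obtain ⟨j, hj⟩ : ∃ j, κ j ≠ 0 := by
    by_contra hcon
    push Not at hcon
    exact hκ0 (funext hcon)
  have hmp : m ^ p = 1 := by
    have h5 := key p j
    rw [ZMod.natCast_self, sub_zero] at h5
    have h2 : (m ^ p - 1) * κ j = 0 := by rw [sub_mul, one_mul, ← h5, sub_self]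
    rcases mul_eq_zero.mp h2 with h | h
    · exact sub_eq_zero.mp h
    · exact absurd h hj
  have hm1 : m = 1 := by
    rcases Int.isUnit_iff.mp (IsUnit.of_pow_eq_one hmp (NeZero.ne p)) with h | h
    · exact h
    · rw [h, Odd.neg_one_pow hp] at hmp
      norm_num at hmp
  intro j
  rw [hm' j, hm1, one_mul]

/-- **(B1)**: `M' ∩ ker (σ - 1) = N M'`. -/
theorem h92_lemmaB1 (hσ : σ ^ p = 1) (hp : Odd p) (κ : ι × ZMod p → ℤ) (hκ0 : κ ≠ 0)
    (hκ : ∀ a, h92_phi σ p η a = 0 ↔ ∃ m : ℤ, a = m • κ) :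
    ((h92_phi σ p η).range.map (h92_N σ p)).relIndex
      ((h92_phi σ p η).range ⊓ (h92_D σ : E →+ E).ker) = 1 := by
  rw [AddSubgroup.relIndex_eq_one]
  rintro x ⟨⟨a, rfl⟩, hx⟩
  have hx' : h92_D σ (h92_phi σ p η a) = 0 := hx
  rw [h92_D_phi η hσ] at hx'
  obtain ⟨m, hm⟩ := (hκ _).mp hx'
  have hκs := h92_kappa_shift η hσ hp κ hκ0 hκ
  have hκc := h92_const_of_shift κ hκs
  obtain ⟨v, hv⟩ : ∃ v, κ (v, 0) ≠ 0 := by
    by_contra hcon
    push Not at hcon
    exact hκ0 (funext fun j => by rw [hκc j]; exact hcon j.1)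
  have hm0 : m = 0 := by
    have h1 : ∑ i, (a (v, i - 1) - a (v, i)) = ∑ i : ZMod p, m * κ (v, 0) := by
      refine Finset.sum_congr rfl fun i _ => ?_
      have := congrFun hm (v, i)
      simp only [Pi.smul_apply, smul_eq_mul] at this
      rw [this, hκc (v, i)]
    rw [Finset.sum_sub_distrib, h92_sum_shift, sub_self, Finset.sum_const, Finset.card_univ,
      ZMod.card, nsmul_eq_mul] at h1
    have h2 : (p : ℤ) ≠ 0 := by exact_mod_cast NeZero.ne p
    rcases mul_eq_zero.mp h1.symm with h | h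
    · exact absurd h h2
    · rcases mul_eq_zero.mp h with h | h
      · exact h
      · exact absurd h hv
  have ha : ∀ j : ι × ZMod p, a (j.1, j.2 - 1) = a j := fun j => by
    have := congrFun hm j
    simp only [hm0, zero_smul, Pi.zero_apply] at this
    exact sub_eq_zero.mp this
  have hac : a = fun j => a (j.1, 0) := funext (h92_const_of_shift a ha)
  refine ⟨∑ v, a (v, 0) • η v, ?_, ?_⟩
  · exact AddSubgroup.sum_mem _ fun v _ => AddSubgroup.zsmul_mem _ (h92_mem_range η hσ v) _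
  · rw [hac, h92_phi_const η (fun v => a (v, 0))]
    change h92_N σ p (∑ v, a (v, 0) • η v) = _
    rw [map_sum]
    exact Finset.sum_congr rfl fun v _ => map_zsmul _ _ _

/-- **(B2)**: `[M' ∩ ker N : (σ - 1) M'] = p`. -/
theorem h92_lemmaB2 (hσ : σ ^ p = 1) (hp : Odd p) (κ : ι × ZMod p → ℤ) (hκ0 : κ ≠ 0)
    (hκ : ∀ a, h92_phi σ p η a = 0 ↔ ∃ m : ℤ, a = m • κ) :
    ((h92_phi σ p η).range.map (h92_D σ)).relIndex
      ((h92_phi σ p η).range ⊓ (h92_N σ p : E →+ E).ker) = p := by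
  classical
  have hκs := h92_kappa_shift η hσ hp κ hκ0 hκ
  have hκc := h92_const_of_shift κ hκs
  obtain ⟨v₀, hv₀⟩ : ∃ v, κ (v, 0) ≠ 0 := by
    by_contra hcon
    push Not at hcon
    exact hκ0 (funext fun j => by rw [hκc j]; exact hcon j.1)
  have hp0 : (p : ℤ) ≠ 0 := by exact_mod_cast NeZero.ne p
  have hκ00 : h92_phi σ p η κ = 0 := (hκ κ).mpr ⟨1, (one_smul _ _).symm⟩
  have hκsum : ∀ v, ∑ i, κ (v, i) = p * κ (v, 0) := fun v => by
    have h1 : ∀ i : ZMod p, κ (v, i) = κ (v, 0) := fun i => hκc (v, i)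
    rw [Finset.sum_congr rfl (fun i _ => h1 i), Finset.sum_const, Finset.card_univ,
      ZMod.card, nsmul_eq_mul]
  set as : ι × ZMod p → ℤ := fun j => if j.2 = 0 then κ (j.1, 0) else 0 with has
  have hassum : ∀ v, ∑ i, as (v, i) = κ (v, 0) := fun v => by
    simp [has]
  set xs := h92_phi σ p η as with hxs
  set H := (h92_phi σ p η).range.map (h92_D σ) with hH
  set Kk := (h92_phi σ p η).range ⊓ (h92_N σ p : E →+ E).ker with hKk
  have F0 : H ≤ Kk := by
    rintro _ ⟨_, ⟨d, rfl⟩, rfl⟩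
    refine ⟨?_, ?_⟩
    · change h92_D σ (h92_phi σ p η d) ∈ _
      rw [h92_D_phi η hσ]
      exact ⟨_, rfl⟩
    · exact h92_N_D_apply hσ _
  have F1 : xs ∈ Kk := by
    refine ⟨⟨as, rfl⟩, ?_⟩
    change h92_N σ p xs = 0
    rw [hxs, h92_N_phi' η hσ]
    have : (fun j : ι × ZMod p => ∑ i, as (j.1, i)) = κ := by
      funext j
      rw [hassum, ← hκc j]
    rw [this, hκ00]
  have F2 : ∀ x ∈ Kk, ∃ m : ℤ, x - m • xs ∈ H := by
    rintro _ ⟨⟨a, rfl⟩, hx⟩
    have hx' : h92_N σ p (h92_phi σ p η a) = 0 := hx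
    rw [h92_N_phi' η hσ] at hx'
    obtain ⟨m, hm⟩ := (hκ _).mp hx'
    refine ⟨m, ?_⟩
    rw [hxs, ← map_zsmul, ← map_sub]
    refine h92_phi_mem_of_sum_eq_zero η hσ _ fun v => ?_
    have h1 := congrFun hm (v, 0)
    simp only [Pi.smul_apply, smul_eq_mul] at h1
    simp only [Pi.sub_apply, Pi.smul_apply, smul_eq_mul, Finset.sum_sub_distrib,
      ← Finset.mul_sum, hassum, h1, sub_self]
  have F3 : ∀ m : ℤ, m • xs ∈ H ↔ (p : ℤ) ∣ m := by
    intro m
    constructor
    · rintro ⟨_, ⟨d, rfl⟩, hd⟩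
      have hd' : h92_D σ (h92_phi σ p η d) = m • xs := hd
      rw [h92_D_phi η hσ, hxs, ← map_zsmul, ← sub_eq_zero, ← map_sub] at hd'
      obtain ⟨n, hn⟩ := (hκ _).mp hd'
      have h1 : ∑ i, ((d (v₀, i - 1) - d (v₀, i)) - m * as (v₀, i)) = ∑ i, n * κ (v₀, i) := by
        refine Finset.sum_congr rfl fun i _ => ?_
        have := congrFun hn (v₀, i)
        simpa using this
      rw [Finset.sum_sub_distrib, Finset.sum_sub_distrib, h92_sum_shift, sub_self,
        ← Finset.mul_sum, ← Finset.mul_sum, hassum, hκsum] at h1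
      have h2 : (m + n * p) * κ (v₀, 0) = 0 := by linear_combination -h1
      rcases mul_eq_zero.mp h2 with h | h
      · exact ⟨-n, by linear_combination h⟩
      · exact absurd h hv₀
    · rintro ⟨n, rfl⟩
      have h1 : (p : ℤ) • xs ∈ H := by
        have h2 : (p : ℤ) • xs = h92_phi σ p η ((p : ℤ) • as - κ) := by
          rw [map_sub, map_zsmul, hκ00, sub_zero]
        rw [h2]
        refine h92_phi_mem_of_sum_eq_zero η hσ _ fun v => ?_
        simp only [Pi.sub_apply, Pi.smul_apply, smul_eq_mul, Finset.sum_sub_distrib,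
          ← Finset.mul_sum, hassum, hκsum, sub_self]
      rw [mul_comm, mul_smul]
      exact AddSubgroup.zsmul_mem _ h1 n
  have hK : Kk = H ⊔ AddSubgroup.zmultiples xs := by
    refine le_antisymm (fun x hx => ?_) (sup_le F0 (AddSubgroup.zmultiples_le_of_mem F1))
    obtain ⟨m, hm⟩ := F2 x hx
    rw [AddSubgroup.mem_sup]
    exact ⟨x - m • xs, hm, m • xs,
      AddSubgroup.zsmul_mem _ (AddSubgroup.mem_zmultiples xs) m, by abel⟩
  have hZ : AddSubgroup.zmultiples xs = (⊤ : AddSubgroup ℤ).map (zmultiplesHom E xs) := by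
    rw [← AddMonoidHom.range_eq_map, AddSubgroup.range_zmultiplesHom]
  have hC : H.comap (zmultiplesHom E xs) = AddSubgroup.zmultiples (p : ℤ) := by
    ext m
    rw [AddSubgroup.mem_comap, Int.mem_zmultiples_iff]
    exact F3 m
  rw [hK, AddSubgroup.relIndex_sup_left, hZ, ← AddSubgroup.relIndex_comap,
    AddSubgroup.relIndex_top_right, hC, Int.index_zmultiples]
  simp


/-- **Herbrand quotient of a cyclic module of odd prime order with an "almost free" finite-index
submodule**: if `M' = φ(ℤ[ι × ZMod p])` has finite index in `E` and `ker φ = ℤ κ`, `κ ≠ 0`, then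
`[ker N : (σ-1)E] = p * [ker (σ-1) : N E]`, both finite. -/
theorem h92_herbrand_cyclic (hσ : σ ^ p = 1) (hp : Odd p)
    (hfin : (h92_phi σ p η).range.index ≠ 0)
    (κ : ι × ZMod p → ℤ) (hκ0 : κ ≠ 0)
    (hκ : ∀ a, h92_phi σ p η a = 0 ↔ ∃ m : ℤ, a = m • κ) :
    (h92_N σ p : E →+ E).range.relIndex (h92_D σ : E →+ E).ker ≠ 0 ∧
      (h92_D σ : E →+ E).range.relIndex (h92_N σ p : E →+ E).ker
        = p * (h92_N σ p : E →+ E).range.relIndex (h92_D σ : E →+ E).ker := by
  have hB1 := h92_lemmaB1 η hσ hp κ hκ0 hκ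
  have hB2 := h92_lemmaB2 η hσ hp κ hκ0 hκ
  have hp0 : p ≠ 0 := NeZero.ne p
  obtain ⟨hX, -, hXY⟩ := h92_herbrand_index (h92_D σ : E →+ E) (h92_N σ p : E →+ E)
    (fun x => h92_D_N_apply hσ x) (fun x => h92_N_D_apply hσ x) (h92_phi σ p η).range
    (by
      rintro _ ⟨d, rfl⟩
      change h92_D σ (h92_phi σ p η d) ∈ _
      rw [h92_D_phi η hσ]
      exact ⟨_, rfl⟩)
    (by
      rintro _ ⟨d, rfl⟩
      change h92_N σ p (h92_phi σ p η d) ∈ _
      rw [h92_N_phi' η hσ]
      exact ⟨_, rfl⟩)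
    hfin (by rw [hB1]; exact one_ne_zero) (by rw [hB2]; exact hp0)
  refine ⟨hX, ?_⟩
  rw [hB1, hB2, mul_one] at hXY
  rw [← hXY, mul_comm]

end LemmaB

end Fermat.Agent.S14
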