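import Mathlib

set_option autoImplicit false

/-!
# Infinite places of a cyclic extension of odd prime degree (package SI of S14)

`Gal(L/K) = ⟨σ⟩` of odd prime order `p` acts freely on the infinite places of `L`, with the
fibres of the restriction map as orbits; hence `InfinitePlace L ≃ InfinitePlace K × ZMod p`
compatibly with `σ`.
-/

namespace Fermat.Agent.S14

open NumberField

theorem h92_pow_val_add_one {M : Type*} [Monoid M] {p : ℕ} [NeZero p] (g : M) (hg : g ^ p = 1)
    (i : ZMod p) : g ^ (i + 1).val = g * g ^ i.val := by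
  have hmod : ∀ n : ℕ, g ^ (n % p) = g ^ n := fun n => by
    conv_rhs => rw [← Nat.mod_add_div n p, pow_add, pow_mul, hg, one_pow, mul_one]
  rw [ZMod.val_add, hmod, pow_add]
  rcases Nat.lt_or_ge 1 p with hp | hp
  · have : Fact (1 < p) := ⟨hp⟩
    rw [ZMod.val_one, pow_one]
    exact (Commute.pow_self g _).eq
  · have hp1 : p = 1 := le_antisymm hp (Nat.pos_of_ne_zero (NeZero.ne p))
    subst hp1
    rw [pow_one] at hg
    simp [hg]

theorem h92_places_equiv {K L : Type*} [Field K] [NumberField K] [Field L] [NumberField L]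
    [Algebra K L] [IsGalois K L] {p : ℕ} (hp : p.Prime) (hp2 : p ≠ 2)
    (hdeg : Module.finrank K L = p) (σ : L ≃ₐ[K] L) (hσ : σ ≠ 1) :
    ∃ e : InfinitePlace K × ZMod p ≃ InfinitePlace L,
      ∀ (v : InfinitePlace K) (i : ZMod p), e (v, i + 1) = σ • e (v, i) := by
  classical
  have : Fact p.Prime := ⟨hp⟩
  have : NeZero p := ⟨hp.ne_zero⟩
  have hodd : Odd p := hp.odd_of_ne_two hp2
  have hcard : Nat.card (L ≃ₐ[K] L) = p := by rw [IsGalois.card_aut_eq_finrank, hdeg]
  have hσp : σ ^ p = 1 := by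
    rw [← hcard]
    exact pow_card_eq_one'
  have hord : orderOf σ = p := orderOf_eq_prime hσp hσ
  -- every place is unramified, so stabilizers are trivial
  have hstab : ∀ w : InfinitePlace L, MulAction.stabilizer (L ≃ₐ[K] L) w = ⊥ := by
    intro w
    apply InfinitePlace.IsUnramified.stabilizer_eq_bot
    by_contra h
    have h2 := InfinitePlace.even_finrank_of_not_isUnramified h
    rw [hdeg] at h2
    exact (Nat.not_even_iff_odd.mpr hodd) h2
  have hcomap : ∀ (τ : L ≃ₐ[K] L) (w : InfinitePlace L),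
      (τ • w).comap (algebraMap K L) = w.comap (algebraMap K L) := by
    intro τ w
    exact (InfinitePlace.mem_orbit_iff.mp ⟨τ, rfl⟩).symm
  choose w₀ hw₀ using fun v : InfinitePlace K =>
    InfinitePlace.comap_surjective (K := L) (k := K) v
  let f : InfinitePlace K × ZMod p → InfinitePlace L := fun j => σ ^ j.2.val • w₀ j.1
  have hinj : Function.Injective f := by
    rintro ⟨v, i⟩ ⟨v', i'⟩ h
    have hv : v = v' := by
      have h1 := congrArg (fun w : InfinitePlace L => w.comap (algebraMap K L)) h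
      simp only [f, hcomap, hw₀] at h1
      exact h1
    subst hv
    have h2 : (σ ^ i'.val)⁻¹ * σ ^ i.val ∈ MulAction.stabilizer (L ≃ₐ[K] L) (w₀ v) := by
      rw [MulAction.mem_stabilizer_iff, mul_smul]
      have : σ ^ i.val • w₀ v = σ ^ i'.val • w₀ v := h
      rw [this, inv_smul_smul]
    rw [hstab, Subgroup.mem_bot, inv_mul_eq_one] at h2
    have h3 := pow_inj_mod.mp h2
    rw [hord, Nat.mod_eq_of_lt (ZMod.val_lt i'), Nat.mod_eq_of_lt (ZMod.val_lt i)] at h3
    rw [ZMod.val_injective p h3]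
  have hsurj : Function.Surjective f := by
    intro w
    obtain ⟨τ, hτ⟩ := InfinitePlace.exists_smul_eq_of_comap_eq
      (w := w₀ (w.comap (algebraMap K L))) (w' := w) (hw₀ _)
    obtain ⟨k, hk⟩ := mem_powers_of_prime_card hcard hσ (g' := τ)
    have hk0 : σ ^ k = τ := hk
    refine ⟨(w.comap (algebraMap K L), (k : ZMod p)), ?_⟩
    have hk' : σ ^ (k : ZMod p).val = τ := by
      rw [ZMod.val_natCast, ← hk0]
      conv_rhs => rw [← Nat.mod_add_div k p, pow_add, pow_mul, hσp, one_pow, mul_one]
    simp only [f, hk', hτ]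
  refine ⟨Equiv.ofBijective f ⟨hinj, hsurj⟩, fun v i => ?_⟩
  change σ ^ (i + 1).val • w₀ v = σ • (σ ^ i.val • w₀ v)
  rw [h92_pow_val_add_one σ hσp i, mul_smul]

end Fermat.Agent.S14
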