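import Mathlib
import Fermat.Agent.S14.h92_UnitsDefs
import Fermat.Agent.S14.h92_Herbrand
import Fermat.Agent.S14.h92_Places
import Fermat.Agent.S14.h62_Dominant

set_option autoImplicit false

/-!
# The Herbrand quotient of the unit group (package SI of S14, final units statement)
-/

namespace Fermat.Agent.S14

open NumberField Finset

section

variable {K L : Type*} [Field K] [Field L] [Algebra K L]

/-- `σ` acting on the additive version of the unit group. -/
noncomputable def h92_unitsEnd (σ : L ≃ₐ[K] L) : AddMonoid.End (Additive (𝓞 L)ˣ) :=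
  MonoidHom.toAdditive (h92_unitsMap σ)

theorem h92_unitsEnd_apply (σ : L ≃ₐ[K] L) (u : Additive (𝓞 L)ˣ) :
    h92_unitsEnd σ u = Additive.ofMul (h92_unitsMap σ u.toMul) := rfl

theorem h92_unitsEnd_pow (σ : L ≃ₐ[K] L) (k : ℕ) : h92_unitsEnd σ ^ k = h92_unitsEnd (σ ^ k) := by
  induction k with
  | zero =>
    rw [pow_zero, pow_zero]
    refine DFunLike.ext _ _ fun u => ?_
    rw [h92_unitsEnd_apply, h92_unitsMap_one]
    rfl
  | succ k ih =>
    rw [pow_succ, ih, pow_succ]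
    refine DFunLike.ext _ _ fun u => ?_
    rw [h92_End_mul_apply, h92_unitsEnd_apply, h92_unitsEnd_apply, h92_unitsEnd_apply,
      h92_unitsMap_mul]
    rfl

theorem h92_D_unitsEnd (σ : L ≃ₐ[K] L) :
    h92_D (h92_unitsEnd σ) = MonoidHom.toAdditive (h92_unitsD σ) := by
  refine DFunLike.ext _ _ fun u => ?_
  rfl

theorem h92_N_unitsEnd (σ : L ≃ₐ[K] L) (p : ℕ) :
    h92_N (h92_unitsEnd σ) p = MonoidHom.toAdditive (h92_unitsN σ p) := by
  refine DFunLike.ext _ _ fun u => ?_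
  rw [h92_N_apply]
  simp only [h92_unitsEnd_pow, h92_unitsEnd_apply]
  change _ = Additive.ofMul (h92_unitsN σ p u.toMul)
  rw [h92_unitsN_apply, ofMul_prod]

end


theorem h92_unitsEnd_one {K L : Type*} [Field K] [Field L] [Algebra K L] :
    h92_unitsEnd (1 : L ≃ₐ[K] L) = 1 := by
  refine DFunLike.ext _ _ fun u => ?_
  rw [h92_unitsEnd_apply, h92_unitsMap_one]
  rfl

/-- **Herbrand quotient of the unit group** of a cyclic extension `L/K` of odd prime degree `p`:
`[ker N : (σ-1) E_L] = p * [E_L^σ : N E_L]`, both finite. -/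
theorem h92_units_index {K L : Type*} [Field K] [NumberField K] [Field L] [NumberField L]
    [Algebra K L] [IsGalois K L] {p : ℕ} (hp : p.Prime) (hp2 : p ≠ 2)
    (hdeg : Module.finrank K L = p) (σ : L ≃ₐ[K] L) (hσ : σ ≠ 1) :
    (h92_unitsN σ p).range.relIndex (h92_unitsD σ).ker ≠ 0 ∧
    (h92_unitsD σ).range.relIndex (h92_unitsN σ p).ker
      = p * (h92_unitsN σ p).range.relIndex (h92_unitsD σ).ker := by
  classical
  have : NeZero p := ⟨hp.ne_zero⟩
  have hodd : Odd p := hp.odd_of_ne_two hp2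
  have hσp : σ ^ p = 1 := by
    rw [← hdeg, ← IsGalois.card_aut_eq_finrank]
    exact pow_card_eq_one'
  obtain ⟨e, he⟩ := h92_places_equiv hp hp2 hdeg σ hσ
  have he' : ∀ (v : InfinitePlace K) (k : ℕ), e (v, (k : ZMod p)) = σ ^ k • e (v, 0) := by
    intro v k
    induction k with
    | zero => simp
    | succ k ih => rw [Nat.cast_succ, he, ih, pow_succ', mul_smul]
  choose η₀ hη₀ using fun v : InfinitePlace K =>
    NumberField.Units.dirichletUnitTheorem.exists_unit L (e (v, 0))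
  set ηW : InfinitePlace L → (𝓞 L)ˣ :=
    fun w => h92_unitsMap (σ ^ (e.symm w).2.val) (η₀ (e.symm w).1) with hηW
  have hη : ∀ w w' : InfinitePlace L, w' ≠ w → w' ((ηW w : 𝓞 L) : L) < 1 := by
    intro w w' hww'
    obtain ⟨⟨v, i⟩, rfl⟩ := e.surjective w
    simp only [hηW, Equiv.symm_apply_apply, h92_unitsMap_coe]
    have h1 : w' ((σ ^ i.val) ((η₀ v : 𝓞 L) : L))
        = ((σ ^ i.val)⁻¹ • w') ((η₀ v : 𝓞 L) : L) := by
      rw [InfinitePlace.smul_apply]
      rfl
    rw [h1]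
    have h2 : (σ ^ i.val)⁻¹ • w' ≠ e (v, 0) := by
      intro h
      apply hww'
      rw [← ZMod.natCast_zmod_val i, he' v i.val, ← h, smul_inv_smul]
    have h3 := hη₀ v _ h2
    exact (Real.log_neg_iff (NumberField.Units.pos_at_place _ _)).mp h3
  obtain ⟨hidx, κW, hκW0, hκW⟩ := h92_dominant_family L ηW hη
  have hσEp : h92_unitsEnd σ ^ p = 1 := by
    rw [h92_unitsEnd_pow, hσp, h92_unitsEnd_one]
  set ηE : InfinitePlace K → Additive (𝓞 L)ˣ := fun v => Additive.ofMul (η₀ v) with hηE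
  have hφ : ∀ a : InfinitePlace K × ZMod p → ℤ,
      h92_phi (h92_unitsEnd σ) p ηE a = Additive.ofMul (∏ w, ηW w ^ a (e.symm w)) := by
    intro a
    rw [h92_phi_apply, ← Equiv.prod_comp e (fun w => ηW w ^ a (e.symm w)), ofMul_prod]
    refine Finset.sum_congr rfl fun j _ => ?_
    simp only [Equiv.symm_apply_apply, hηW, h92_unitsEnd_pow, hηE]
    rfl
  have hκ : ∀ a, h92_phi (h92_unitsEnd σ) p ηE a = 0 ↔ ∃ m : ℤ, a = m • (κW ∘ e) := by
    intro a
    rw [hφ]
    have h1 : Additive.ofMul (∏ w, ηW w ^ a (e.symm w)) = 0 ↔ ∏ w, ηW w ^ a (e.symm w) = 1 :=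
      Iff.rfl
    rw [h1, hκW (fun w => a (e.symm w))]
    constructor
    · rintro ⟨m, hm⟩
      refine ⟨m, funext fun j => ?_⟩
      have := congrFun hm (e j)
      simpa using this
    · rintro ⟨m, rfl⟩
      exact ⟨m, funext fun w => by simp⟩
  have hκ0 : κW ∘ e ≠ 0 := by
    intro h
    apply hκW0
    funext w
    have := congrFun h (e.symm w)
    simpa using this
  have hfin : (h92_phi (h92_unitsEnd σ) p ηE).range.index ≠ 0 := by
    have hle : Subgroup.toAddSubgroup (Subgroup.closure (Set.range ηW))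
        ≤ (h92_phi (h92_unitsEnd σ) p ηE).range := by
      rw [Subgroup.toAddSubgroup_closure, AddSubgroup.closure_le]
      rintro _ ⟨w, rfl⟩
      have := h92_pow_mem_range ηE hσEp (e.symm w).1 (e.symm w).2.val
      rw [h92_unitsEnd_pow] at this
      exact this
    intro h0
    apply hidx
    have h1 := AddSubgroup.index_dvd_of_le hle
    rw [h0, Subgroup.index_toAddSubgroup] at h1
    exact Nat.eq_zero_of_zero_dvd h1
  obtain ⟨h1, h2⟩ := h92_herbrand_cyclic ηE hσEp hodd hfin (κW ∘ e) hκ0 hκ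
  rw [h92_N_unitsEnd, h92_D_unitsEnd] at h1 h2
  exact ⟨h1, h2⟩

/-- The same statement for any `D`, `N` given by their values in `L`. -/
theorem h92_units_index' {p : ℕ} (hp : p.Prime) (hp2 : p ≠ 2) {K L : Type*} [Field K]
    [NumberField K] [Field L] [NumberField L] [Algebra K L] [IsGalois K L]
    (hdeg : Module.finrank K L = p) (σ : L ≃ₐ[K] L) (hσ : σ ≠ 1)
    (D N : (𝓞 L)ˣ →* (𝓞 L)ˣ)
    (hD : ∀ u : (𝓞 L)ˣ, (((D u : (𝓞 L)ˣ) : 𝓞 L) : L) = σ ((u : 𝓞 L) : L) / ((u : 𝓞 L) : L))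
    (hN : ∀ u : (𝓞 L)ˣ, (((N u : (𝓞 L)ˣ) : 𝓞 L) : L)
      = ∏ i ∈ Finset.range p, (σ ^ i) ((u : 𝓞 L) : L)) :
    (N.range).relIndex D.ker ≠ 0 ∧ (D.range).relIndex N.ker = p * (N.range).relIndex D.ker := by
  have hD' : D = h92_unitsD σ := by
    refine MonoidHom.ext fun u => Units.ext (RingOfIntegers.ext ?_)
    rw [hD, h92_unitsD_coe]
  have hN' : N = h92_unitsN σ p := by
    refine MonoidHom.ext fun u => Units.ext (RingOfIntegers.ext ?_)
    rw [hN, h92_unitsN_coe]
  rw [hD', hN']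
  exact h92_units_index hp hp2 hdeg σ hσ

end Fermat.Agent.S14
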