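import Mathlib
import Fermat.Agent.S14.Defs
import Fermat.Agent.S14.h92_UnitsDefs
import Fermat.Agent.S14.h92_UnitsIndex
import Fermat.Agent.S14.h10_SIMain

/-!
# S14, package SI : the norm map on class groups of an unramified cyclic extension of odd prime
degree is not onto (exact skeleton statement `exists_char_of_unramified`).
-/

set_option autoImplicit false

namespace Fermat.Agent.S14

open NumberField
open scoped nonZeroDivisors Pointwise

theorem exists_char_of_unramified {p : ℕ} (hp : p.Prime) (hp2 : p ≠ 2)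
    {K L : Type*} [Field K] [NumberField K] [Field L] [NumberField L] [Algebra K L] [IsGalois K L]
    (hdeg : Module.finrank K L = p)
    (hunr : ∀ Q : Ideal (𝓞 L), Q.IsPrime → Q ≠ ⊥ → Q.ramificationIdx (𝓞 K) = 1) :
    ∃ c : ClassGroup (𝓞 K) →* ℂˣ, c ≠ 1 ∧ (∀ x, c x ^ p = 1) ∧
      ∀ P : (Ideal (𝓞 K))⁰, (P : Ideal (𝓞 K)).IsPrime →
        SplitsCompletely (𝓞 K) (𝓞 L) (P : Ideal (𝓞 K)) → c (ClassGroup.mk0 P) = 1 := by
  have hcard : Nat.card (L ≃ₐ[K] L) = p := by
    rw [IsGalois.card_aut_eq_finrank, hdeg]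
  have hnt : Nontrivial (L ≃ₐ[K] L) := by
    rw [← Finite.one_lt_card_iff_nontrivial, hcard]
    exact hp.one_lt
  obtain ⟨σ, hσ⟩ := exists_ne (1 : L ≃ₐ[K] L)
  exact h10_exists_char_of_units_index hp hdeg hunr σ hσ (h92_units_index hp hp2 hdeg σ hσ)

end Fermat.Agent.S14
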