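import Mathlib

set_option autoImplicit false
set_option linter.style.haveILetI false

namespace Fermat.Agent.S14

open Finset

section abstract

variable {R k : Type*} [CommRing R] [Field k] [Fintype k]

/-- `∑ x, x^m (1-x)^m` over a finite field vanishes if `2m < card k - 1`. -/
lemma h67_sum_pow_mul_one_sub_pow (m : ℕ) (hm : 2 * m < Fintype.card k - 1) :
    ∑ x : k, x ^ m * (1 - x) ^ m = 0 := by
  have key : ∀ x : k, x ^ m * (1 - x) ^ m =
      ∑ j ∈ range (m + 1), ((-1 : k) ^ j * (m.choose j : k)) * x ^ (m + j) := by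
    intro x
    rw [sub_eq_add_neg, add_comm, add_pow, Finset.mul_sum]
    refine Finset.sum_congr rfl fun j _ => ?_
    rw [one_pow, mul_one, neg_pow, pow_add]
    ring
  simp_rw [key]
  rw [Finset.sum_comm]
  refine Finset.sum_eq_zero fun j hj => ?_
  rw [← Finset.mul_sum, FiniteField.sum_pow_lt_card_sub_one, mul_zero]
  have := Finset.mem_range.mp hj
  omega

/-- Membership lemma: a twisted Jacobi sum reduces to `0`. -/
lemma h67_jacobi_map_eq_zero (π : R →+* k) (τ : R →+* R) (ψ : MulChar k R) (e t m : ℕ)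
    (hψ : ∀ x : k, π (ψ x) = x ^ e) (hτ : ∀ x : k, τ (ψ x) = ψ x ^ t)
    (hm : 2 * m < Fintype.card k - 1) (hpow : ∀ x : k, x ^ (e * t) = x ^ m) :
    π (τ (jacobiSum ψ ψ)) = 0 := by
  rw [jacobiSum, map_sum, map_sum, ← h67_sum_pow_mul_one_sub_pow m hm]
  refine Finset.sum_congr rfl fun x _ => ?_
  rw [map_mul, map_mul, hτ, hτ, map_pow, map_pow, hψ, hψ, ← pow_mul, ← pow_mul, hpow, hpow]

/-- Existence of the power residue character lifting `x ↦ x ^ m₀`. -/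
lemma h67_exists_char [DecidableEq k] [IsDomain R] (π : R →+* k) (p m₀ : ℕ) (hp : p ≠ 0) (hm₀ : m₀ ≠ 0)
    (hcard : Fintype.card k - 1 = m₀ * p) (ζ : R) (hζ : ζ ^ p = 1)
    (hz : IsPrimitiveRoot (π ζ) p) :
    ∃ χ : MulChar k R, (∀ x : k, π (χ x) = x ^ m₀) ∧
      (∀ x : k, χ x = 0 ∨ ∃ j : ℕ, χ x = ζ ^ j) := by
  have : NeZero p := ⟨hp⟩
  obtain ⟨g, hg⟩ := IsCyclic.exists_generator (α := kˣ)
  have hcardu : Fintype.card kˣ = m₀ * p := by rw [Fintype.card_units, hcard]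
  have hgp : ((g : k) ^ m₀) ^ p = 1 := by
    rw [← pow_mul, ← hcardu, ← Units.val_pow_eq_pow_val, pow_card_eq_one, Units.val_one]
  obtain ⟨i, -, hi⟩ := hz.eq_pow_of_pow_eq_one hgp
  let ζu : Rˣ := (Units.ofPowEqOne ζ p hζ hp) ^ i
  have hζu : (ζu : R) = ζ ^ i := by simp [ζu]
  have hmem : ζu ∈ rootsOfUnity (Fintype.card kˣ) R := by
    rw [mem_rootsOfUnity, hcardu]
    ext
    rw [Units.val_pow_eq_pow_val, hζu, Units.val_one, ← pow_mul, mul_comm, mul_comm m₀ p,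
      pow_mul, pow_mul, hζ, one_pow, one_pow]
  let χ : MulChar k R := MulChar.ofRootOfUnity hmem hg
  have hχg : χ (g : k) = ζ ^ i := by
    rw [← hζu]; exact MulChar.ofRootOfUnity_spec hmem hg
  have hunit : ∀ x : kˣ, ∃ n : ℕ, χ (x : k) = ζ ^ (i * n) ∧ (x : k) = (g : k) ^ n := by
    intro x
    have hx := (mem_powers_iff_mem_zpowers).mpr (hg x)
    obtain ⟨n, hn⟩ := (Submonoid.mem_powers_iff _ _).mp hx
    refine ⟨n, ?_, ?_⟩
    · rw [← hn, Units.val_pow_eq_pow_val, map_pow, hχg, ← pow_mul]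
    · rw [← hn, Units.val_pow_eq_pow_val]
  refine ⟨χ, fun x => ?_, fun x => ?_⟩
  · by_cases hx : x = 0
    · subst hx
      rw [MulChar.map_zero, map_zero, zero_pow hm₀]
    · obtain ⟨n, h1, h2⟩ := hunit (Units.mk0 x hx)
      rw [Units.val_mk0] at h1 h2
      rw [h1, map_pow, pow_mul, hi, h2, ← pow_mul, ← pow_mul, mul_comm]
  · by_cases hx : x = 0
    · left; subst hx; exact MulChar.map_zero χ
    · right
      obtain ⟨n, h1, -⟩ := hunit (Units.mk0 x hx)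
      rw [Units.val_mk0] at h1
      exact ⟨_, h1⟩

end abstract

section numberfield

open NumberField

lemma h67_absNorm_comap (K : Type*) [Field K] [NumberField K] (Q : Ideal (𝓞 K))
    (τ : 𝓞 K ≃+* 𝓞 K) :
    Ideal.absNorm (Q.comap (τ : 𝓞 K →+* 𝓞 K)) = Ideal.absNorm Q := by
  rw [Ideal.absNorm_apply, Ideal.absNorm_apply, Submodule.cardQuot_apply,
    Submodule.cardQuot_apply]
  exact Nat.card_congr (Ideal.quotientEquiv _ _ τ
    (Ideal.map_comap_of_surjective (τ : 𝓞 K →+* 𝓞 K) τ.surjective Q).symm).toEquiv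

lemma h67_absNorm_natCast (p : ℕ) [Fact p.Prime] (K : Type*) [Field K] [NumberField K]
    [IsCyclotomicExtension {p} ℚ K] (q : ℕ) :
    Ideal.absNorm (Ideal.span {(q : 𝓞 K)}) = q ^ (p - 1) := by
  have hp : p.Prime := Fact.out
  have : NeZero p := ⟨hp.ne_zero⟩
  rw [Ideal.absNorm_span_natCast, RingOfIntegers.rank, IsCyclotomicExtension.Rat.finrank p K,
    Nat.totient_prime hp]

/-- every element of a ring of prime cardinality is a natural number -/
lemma h67_exists_natCast {k : Type*} [Ring k] [Fintype k] {q : ℕ} (hq : q.Prime)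
    (hcard : Fintype.card k = q) (y : k) : ∃ n : ℕ, y = (n : k) := by
  let e := ZMod.ringEquivOfPrime k hq hcard
  have : NeZero q := ⟨hq.ne_zero⟩
  refine ⟨(e.symm y).val, ?_⟩
  have h1 : y = e (e.symm y) := (e.apply_symm_apply y).symm
  rw [h1]
  conv_lhs => rw [← ZMod.natCast_zmod_val (e.symm y)]
  rw [map_natCast, RingEquiv.symm_apply_apply]

theorem h67_main (p : ℕ) [Fact p.Prime] (hp2 : p ≠ 2)
    (K : Type*) [Field K] [NumberField K] [IsCyclotomicExtension {p} ℚ K]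
    (Q : Ideal (𝓞 K)) [Q.IsPrime] (q : ℕ) (hq : q.Prime) (hqp : q ≠ p)
    (hQ : Ideal.absNorm Q = q) (ζ : 𝓞 K) (hζ : IsPrimitiveRoot ζ p)
    (τ : ℕ → (𝓞 K ≃+* 𝓞 K)) (hτ : ∀ t, 0 < t → t < p → τ t ζ = ζ ^ t) :
    ∃ J : 𝓞 K, J ≠ 0 ∧ Ideal.span {J} =
      ∏ t ∈ (Finset.Icc 1 (p - 1)).filter (fun t => 2 * t < p),
        Q.comap (τ t : 𝓞 K →+* 𝓞 K) := by
  classical
  have hp : p.Prime := Fact.out
  have hp2' := hp.two_le
  have hpodd : p % 2 = 1 := hp.eq_two_or_odd.resolve_left hp2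
  have hQ0 : Q ≠ ⊥ := by
    rintro rfl
    rw [Ideal.absNorm_bot] at hQ
    exact hq.ne_zero hQ.symm
  haveI hQmax : Q.IsMaximal := Ideal.IsPrime.isMaximal inferInstance hQ0
  letI : Field (𝓞 K ⧸ Q) := Ideal.Quotient.field Q
  haveI : Finite (𝓞 K ⧸ Q) := Ideal.finiteQuotientOfFreeOfNeBot Q hQ0
  letI : Fintype (𝓞 K ⧸ Q) := Fintype.ofFinite _
  obtain ⟨π, hπ⟩ : ∃ π : 𝓞 K →+* 𝓞 K ⧸ Q, π = Ideal.Quotient.mk Q := ⟨_, rfl⟩
  have hcard : Fintype.card (𝓞 K ⧸ Q) = q := by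
    rw [← Nat.card_eq_fintype_card, ← hQ, Ideal.absNorm_apply, Submodule.cardQuot_apply]
  have hqk : (q : 𝓞 K ⧸ Q) = 0 := by
    rw [← hcard]; exact Nat.cast_card_eq_zero _
  have hpk : (p : 𝓞 K ⧸ Q) ≠ 0 := by
    intro h0
    have hcop : Nat.Coprime p q := (Nat.coprime_primes hp hq).mpr (Ne.symm hqp)
    obtain ⟨a, b, hab⟩ := Nat.isCoprime_iff_coprime.mpr hcop
    have h1 := congrArg (Int.cast : ℤ → 𝓞 K ⧸ Q) hab
    simp [h0, hqk] at h1
  haveI : NeZero (p : 𝓞 K ⧸ Q) := ⟨hpk⟩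
  have hz : IsPrimitiveRoot (π ζ) p := by
    rw [← Polynomial.isRoot_cyclotomic_iff, ← Polynomial.map_cyclotomic p π]
    exact (hζ.isRoot_cyclotomic hp.pos).map
  have hz0 : π ζ ≠ 0 := hz.ne_zero hp.ne_zero
  have hdvd : p ∣ q - 1 := by
    rw [hz.eq_orderOf]
    apply orderOf_dvd_of_pow_eq_one
    rw [← hcard]
    exact FiniteField.pow_card_sub_one_eq_one _ hz0
  obtain ⟨m₀, hm₀⟩ := hdvd
  have hq2 := hq.two_le
  have hm₀0 : m₀ ≠ 0 := by rintro rfl; omega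
  have hcard1 : Fintype.card (𝓞 K ⧸ Q) - 1 = m₀ * p := by rw [hcard, hm₀, mul_comm]
  obtain ⟨χ, hχπ, hχζ⟩ := h67_exists_char π p m₀ hp.ne_zero hm₀0 hcard1 ζ hζ.pow_eq_one hz
  -- x^(m₀ p) = 1
  have hpow1 : ∀ x : 𝓞 K ⧸ Q, x ≠ 0 → x ^ (m₀ * p) = 1 := by
    intro x hx
    rw [← hcard1]
    exact FiniteField.pow_card_sub_one_eq_one x hx
  -- automorphisms on values
  have hτχ : ∀ t, 0 < t → t < p → ∀ x : 𝓞 K ⧸ Q, τ t (χ x) = χ x ^ t := by
    intro t ht0 htp x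
    rcases hχζ x with h | ⟨j, h⟩
    · rw [h, map_zero, zero_pow ht0.ne']
    · rw [h, map_pow, hτ t ht0 htp, ← pow_mul, ← pow_mul, mul_comm]
  -- inverse character
  have hχinv : ∀ x : 𝓞 K ⧸ Q, χ⁻¹ x = χ x⁻¹ := fun x => MulChar.inv_apply' χ x
  have hχπ' : ∀ x : 𝓞 K ⧸ Q, π (χ⁻¹ x) = x ^ (m₀ * (p - 1)) := by
    intro x
    rw [hχinv, hχπ]
    by_cases hx : x = 0
    · subst hx
      rw [inv_zero, zero_pow hm₀0, zero_pow]
      exact Nat.mul_ne_zero hm₀0 (by omega)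
    · apply mul_right_cancel₀ (pow_ne_zero m₀ hx)
      rw [← mul_pow, inv_mul_cancel₀ hx, one_pow, ← pow_add]
      have : m₀ * (p - 1) + m₀ = m₀ * p := by
        obtain ⟨p', rfl⟩ : ∃ p', p = p' + 1 := ⟨p - 1, by omega⟩
        simp; ring
      rw [this, hpow1 x hx]
  have hτχ' : ∀ t, 0 < t → t < p → ∀ x : 𝓞 K ⧸ Q, τ t (χ⁻¹ x) = χ⁻¹ x ^ t := by
    intro t ht0 htp x
    rw [hχinv]
    exact hτχ t ht0 htp _
  obtain ⟨J, hJ⟩ : ∃ J : 𝓞 K, J = jacobiSum χ χ := ⟨_, rfl⟩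
  obtain ⟨J', hJ'⟩ : ∃ J' : 𝓞 K, J' = jacobiSum χ⁻¹ χ⁻¹ := ⟨_, rfl⟩
  -- membership
  have hmemA : ∀ t, 0 < t → 2 * t < p → π ((τ t : 𝓞 K →+* 𝓞 K) J) = 0 := by
    intro t ht0 ht2
    rw [hJ]
    exact h67_jacobi_map_eq_zero π (τ t : 𝓞 K →+* 𝓞 K) χ m₀ t (m₀ * t) hχπ
      (fun x => hτχ t ht0 (by omega) x)
      (by
        rw [hcard1]
        calc 2 * (m₀ * t) = m₀ * (2 * t) := by ring
          _ < m₀ * p := Nat.mul_lt_mul_of_pos_left ht2 (Nat.pos_of_ne_zero hm₀0))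
      (fun x => rfl)
  have hmemB : ∀ t, t < p → p < 2 * t → π ((τ t : 𝓞 K →+* 𝓞 K) J') = 0 := by
    intro t htp ht2
    have ht0 : 0 < t := by omega
    rw [hJ']
    exact h67_jacobi_map_eq_zero π (τ t : 𝓞 K →+* 𝓞 K) χ⁻¹ (m₀ * (p - 1)) t (m₀ * (p - t)) hχπ'
      (fun x => hτχ' t ht0 htp x)
      (by
        rw [hcard1]
        calc 2 * (m₀ * (p - t)) = m₀ * (2 * (p - t)) := by ring
          _ < m₀ * p := Nat.mul_lt_mul_of_pos_left (by omega) (Nat.pos_of_ne_zero hm₀0))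
      (fun x => by
        by_cases hx : x = 0
        · subst hx
          rw [zero_pow, zero_pow]
          · exact Nat.mul_ne_zero hm₀0 (by omega)
          · exact Nat.mul_ne_zero (Nat.mul_ne_zero hm₀0 (by omega)) ht0.ne'
        · apply mul_right_cancel₀ (pow_ne_zero (m₀ * t) hx)
          rw [← pow_add, ← pow_add]
          have e1 : m₀ * (p - 1) * t + m₀ * t = m₀ * p * t := by
            obtain ⟨p', rfl⟩ : ∃ p', p = p' + 1 := ⟨p - 1, by omega⟩
            simp; ring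
          have e2 : m₀ * (p - t) + m₀ * t = m₀ * p := by
            obtain ⟨d, rfl⟩ : ∃ d, p = t + d := ⟨p - t, by omega⟩
            simp; ring
          rw [e1, e2, pow_mul, hpow1 x hx, one_pow])
  -- J * J' = q
  have hJJ : J * J' = (q : 𝓞 K) := by
    have hinj : Function.Injective (algebraMap (𝓞 K) K) := RingOfIntegers.coe_injective
    apply hinj
    rw [map_mul, map_natCast, hJ, hJ', ← jacobiSum_ringHomComp, ← jacobiSum_ringHomComp,
      ← MulChar.ringHomComp_inv, ← hcard]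
    obtain ⟨g, hg⟩ := IsCyclic.exists_generator (α := (𝓞 K ⧸ Q)ˣ)
    have hord : orderOf g = m₀ * p := by
      rw [orderOf_eq_card_of_forall_mem_zpowers hg, Nat.card_eq_fintype_card, Fintype.card_units,
        hcard1]
    have hgpow : ∀ n, n ≠ 0 → n < m₀ * p → (g : 𝓞 K ⧸ Q) ^ n ≠ 1 := by
      intro n hn0 hn h
      have : g ^ n = 1 := by ext; rw [Units.val_pow_eq_pow_val, h, Units.val_one]
      exact pow_ne_one_of_lt_orderOf hn0 (hord ▸ hn) this
    have hm₀pos : 0 < m₀ := Nat.pos_of_ne_zero hm₀0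
    have hχ1 : χ.ringHomComp (algebraMap (𝓞 K) K) ≠ 1 := by
      rw [MulChar.ringHomComp_ne_one_iff hinj, MulChar.ne_one_iff]
      refine ⟨g, fun h => hgpow m₀ hm₀0 ?_ ?_⟩
      · calc m₀ = m₀ * 1 := (mul_one _).symm
          _ < m₀ * p := Nat.mul_lt_mul_of_pos_left (by omega) hm₀pos
      · rw [← hχπ, h, map_one]
    have hχ2 : χ.ringHomComp (algebraMap (𝓞 K) K) * χ.ringHomComp (algebraMap (𝓞 K) K) ≠ 1 := by
      rw [← MulChar.ringHomComp_mul, MulChar.ringHomComp_ne_one_iff hinj, MulChar.ne_one_iff]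
      refine ⟨g, fun h => hgpow (m₀ * 2) (by omega) ?_ ?_⟩
      · exact Nat.mul_lt_mul_of_pos_left (by omega) hm₀pos
      · rw [MulChar.mul_apply] at h
        rw [mul_two, pow_add, ← hχπ, ← map_mul, h, map_one]
    refine jacobiSum_mul_jacobiSum_inv ?_ hχ1 hχ1 hχ2
    rw [ringChar.eq_zero]
    exact (CharP.char_ne_zero_of_finite (𝓞 K ⧸ Q) (ringChar (𝓞 K ⧸ Q))).symm
  -- the conjugate primes
  obtain ⟨P, hP⟩ : ∃ P : ℕ → Ideal (𝓞 K), ∀ t, P t = Q.comap (τ t : 𝓞 K →+* 𝓞 K) :=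
    ⟨_, fun t => rfl⟩
  have hPmem : ∀ t (x : 𝓞 K), x ∈ P t ↔ π ((τ t : 𝓞 K →+* 𝓞 K) x) = 0 := by
    intro t x
    rw [hP, Ideal.mem_comap, hπ, Ideal.Quotient.eq_zero_iff_mem]
  have hPnorm : ∀ t, Ideal.absNorm (P t) = q := fun t => by
    rw [hP, h67_absNorm_comap, hQ]
  have hPmax : ∀ t, (P t).IsMaximal := by
    intro t
    have hprime : (P t).IsPrime := by rw [hP]; exact Ideal.comap_isPrime _ _
    refine Ideal.IsPrime.isMaximal hprime ?_
    intro h0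
    have := hPnorm t
    rw [h0, Ideal.absNorm_bot] at this
    exact hq.ne_zero this.symm
  have hPne : ∀ s t, 0 < s → s < p → 0 < t → t < p → s ≠ t → P s ≠ P t := by
    intro s t hs0 hsp ht0 htp hst hPst
    obtain ⟨n, hn⟩ := h67_exists_natCast hq hcard (π ζ ^ s)
    have h1 : ζ - (n : 𝓞 K) ∈ P s := by
      rw [hPmem, RingEquiv.coe_toRingHom, map_sub, map_natCast, hτ s hs0 hsp, map_sub, map_pow,
        map_natCast, hn, sub_self]
    rw [hPst, hPmem, RingEquiv.coe_toRingHom, map_sub, map_natCast, hτ t ht0 htp, map_sub,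
      map_pow, map_natCast, ← hn, sub_eq_zero] at h1
    exact hst (hz.pow_inj hsp htp h1.symm)
  obtain ⟨A, hA⟩ : ∃ A : Finset ℕ, A = (Finset.Icc 1 (p - 1)).filter (fun t => 2 * t < p) :=
    ⟨_, rfl⟩
  obtain ⟨B, hB⟩ : ∃ B : Finset ℕ, B = (Finset.Icc 1 (p - 1)).filter (fun t => ¬ 2 * t < p) :=
    ⟨_, rfl⟩
  have hAB : A.card + B.card = p - 1 := by
    rw [hA, hB, Finset.card_filter_add_card_filter_not, Nat.card_Icc]
    omega
  have hfac : ∀ (S : Finset ℕ), (∀ t ∈ S, 0 < t ∧ t < p) → ∀ (x : 𝓞 K), (∀ t ∈ S, x ∈ P t) →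
      ∃ I : Ideal (𝓞 K), Ideal.span {x} = (∏ t ∈ S, P t) * I := by
    intro S hS x hx
    have : (∏ t ∈ S, P t) ∣ Ideal.span {x} := by
      apply Finset.prod_dvd_of_coprime
      · intro s hs t ht hst
        show IsCoprime (P s) (P t)
        rw [Ideal.isCoprime_iff_sup_eq]
        exact Ideal.IsMaximal.coprime_of_ne (hPmax s) (hPmax t)
          (hPne s t (hS s hs).1 (hS s hs).2 (hS t ht).1 (hS t ht).2 hst)
      · intro t ht
        rw [Ideal.dvd_iff_le, Ideal.span_singleton_le_iff_mem]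
        exact hx t ht
    exact this
  obtain ⟨I₁, hI₁⟩ := hfac A
    (fun t ht => by rw [hA, Finset.mem_filter, Finset.mem_Icc] at ht; omega) J
    (fun t ht => by
      rw [hA, Finset.mem_filter, Finset.mem_Icc] at ht
      rw [hPmem]
      exact hmemA t (by omega) ht.2)
  obtain ⟨I₂, hI₂⟩ := hfac B
    (fun t ht => by rw [hB, Finset.mem_filter, Finset.mem_Icc] at ht; omega) J'
    (fun t ht => by
      rw [hB, Finset.mem_filter, Finset.mem_Icc] at ht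
      rw [hPmem]
      exact hmemB t (by omega) (by omega))
  have hnorm : Ideal.absNorm (Ideal.span {J}) * Ideal.absNorm (Ideal.span {J'}) = q ^ (p - 1) := by
    rw [← map_mul, Ideal.span_singleton_mul_span_singleton, hJJ, h67_absNorm_natCast p K q]
  rw [hI₁, hI₂, map_mul, map_mul, map_prod, map_prod] at hnorm
  simp only [hPnorm, Finset.prod_const] at hnorm
  have h1 : q ^ (p - 1) * (Ideal.absNorm I₁ * Ideal.absNorm I₂) = q ^ (p - 1) * 1 := by
    rw [mul_one]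
    conv_rhs => rw [← hnorm]
    rw [← hAB, pow_add]
    ring
  have h2 : Ideal.absNorm I₁ * Ideal.absNorm I₂ = 1 :=
    Nat.eq_of_mul_eq_mul_left (pow_pos hq.pos _) h1
  have h3 : Ideal.absNorm I₁ = 1 := Nat.eq_one_of_mul_eq_one_right h2
  rw [Ideal.absNorm_eq_one_iff] at h3
  refine ⟨J, ?_, ?_⟩
  · rintro rfl
    rw [zero_mul] at hJJ
    exact hq.ne_zero (Nat.cast_eq_zero.mp hJJ.symm)
  rw [hI₁, h3, Ideal.mul_top, hA]
  exact Finset.prod_congr rfl fun t _ => hP t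


open scoped Pointwise in
theorem h67_stickelberger_lite (p : ℕ) [Fact p.Prime] (hp2 : p ≠ 2)
    (K : Type*) [Field K] [NumberField K] [IsCyclotomicExtension {p} ℚ K]
    (Q : Ideal (𝓞 K)) [Q.IsPrime] (q : ℕ) (hq : q.Prime) (hqp : q ≠ p)
    (hQ : Ideal.absNorm Q = q) (ζ : K) (hζ : IsPrimitiveRoot ζ p)
    (s : ℕ → (K ≃ₐ[ℚ] K)) (hs : ∀ t, 0 < t → 2 * t < p → s t ζ = ζ ^ t) :
    ∃ J : 𝓞 K, J ≠ 0 ∧ Ideal.span {J} =
      ∏ t ∈ (Finset.range p).filter (fun t => 0 < t ∧ 2 * t < p), (s t)⁻¹ • Q := by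
  classical
  have hp : p.Prime := Fact.out
  have hp2' := hp.two_le
  have : NeZero p := ⟨hp.ne_zero⟩
  -- automorphisms for all exponents
  have hex : ∀ t, ∃ g : K ≃ₐ[ℚ] K, (0 < t → t < p → g ζ = ζ ^ t) ∧
      (0 < t → 2 * t < p → g = s t) := by
    intro t
    by_cases h1 : 0 < t ∧ 2 * t < p
    · exact ⟨s t, fun _ _ => hs t h1.1 h1.2, fun _ _ => rfl⟩
    · by_cases h2 : 0 < t ∧ t < p
      · have hz₀ := IsCyclotomicExtension.zeta_spec p ℚ K
        obtain ⟨j, -, hj⟩ := hz₀.eq_pow_of_pow_eq_one hζ.pow_eq_one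
        have hcop : Nat.Coprime t p :=
          Nat.Coprime.symm ((Nat.Prime.coprime_iff_not_dvd hp).mpr
            (Nat.not_dvd_of_pos_of_lt h2.1 h2.2))
        have hμ := hz₀.pow_of_coprime t hcop
        refine ⟨IsCyclotomicExtension.fromZetaAut hμ
          (Polynomial.cyclotomic.irreducible_rat hp.pos), fun _ _ => ?_, fun h3 h4 => ?_⟩
        · rw [← hj, map_pow, IsCyclotomicExtension.fromZetaAut_spec, ← pow_mul, ← pow_mul,
            mul_comm]
        · exact absurd ⟨h3, h4⟩ h1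
      · exact ⟨1, fun h3 h4 => absurd ⟨h3, h4⟩ h2, fun h3 h4 => absurd ⟨h3, h4⟩ h1⟩
  choose σ hσ1 hσ2 using hex
  obtain ⟨J, hJ0, hJ⟩ := h67_main p hp2 K Q q hq hqp hQ hζ.toInteger hζ.toInteger_isPrimitiveRoot
    (fun t => RingOfIntegers.mapRingEquiv (σ t : K ≃+* K))
    (fun t ht0 htp => by
      apply RingOfIntegers.ext
      rw [RingOfIntegers.mapRingEquiv_apply]
      show σ t ζ = algebraMap (𝓞 K) K (hζ.toInteger ^ t)
      rw [hσ1 t ht0 htp, map_pow]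
      rfl)
  refine ⟨J, hJ0, ?_⟩
  rw [hJ]
  have hset : (Finset.Icc 1 (p - 1)).filter (fun t => 2 * t < p) =
      (Finset.range p).filter (fun t => 0 < t ∧ 2 * t < p) := by
    ext t
    simp only [Finset.mem_filter, Finset.mem_Icc, Finset.mem_range]
    omega
  rw [hset]
  refine Finset.prod_congr rfl fun t ht => ?_
  rw [Finset.mem_filter] at ht
  rw [← hσ2 t ht.2.1 ht.2.2]
  ext x
  rw [Ideal.mem_comap, Ideal.mem_inv_pointwise_smul_iff]
  rfl

end numberfield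

end Fermat.Agent.S14
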