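import Mathlib
import Fermat.Agent.S14.h67_Jacobi

/-!
ST : Stickelberger-lite.  For a degree-one prime `Q` of `ℚ(ζ_p)` of residue characteristic
`q ≠ p`, the product of the conjugates `σ_t⁻¹ Q`, `0 < t < p / 2`, is the principal ideal
generated by a Jacobi sum.  (Proof in `h67_Jacobi.lean`.)
-/

namespace Fermat.Agent.S14

open NumberField
open scoped nonZeroDivisors Pointwise

theorem stickelberger_lite (p : ℕ) [Fact p.Prime] (hp2 : p ≠ 2)
    (K : Type) [Field K] [NumberField K] [IsCyclotomicExtension {p} ℚ K]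
    (Q : Ideal (𝓞 K)) [Q.IsPrime] (q : ℕ) (hq : q.Prime) (hqp : q ≠ p)
    (hQ : Ideal.absNorm Q = q) (ζ : K) (hζ : IsPrimitiveRoot ζ p)
    (s : ℕ → (K ≃ₐ[ℚ] K)) (hs : ∀ t, 0 < t → 2 * t < p → s t ζ = ζ ^ t) :
    ∃ J : 𝓞 K, J ≠ 0 ∧ Ideal.span {J} =
      ∏ t ∈ (Finset.range p).filter (fun t => 0 < t ∧ 2 * t < p), (s t)⁻¹ • Q :=
  h67_stickelberger_lite p hp2 K Q q hq hqp hQ ζ hζ s hs

end Fermat.Agent.S14
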