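import Mathlib
import Fermat.Agent.S14.Defs

/-!
S14, package STR: a prime of `K = ℚ(ζ_p)` which does not split completely in `L` has
degree one over `ℚ` and does not lie over `p`.
-/

namespace Fermat.Agent.S14

open NumberField
open scoped Pointwise

set_option maxHeartbeats 400000 in
theorem absNorm_prime_of_not_split (p : ℕ) [Fact p.Prime] (hp2 : p ≠ 2)
    (K L : Type) [Field K] [NumberField K] [Field L] [NumberField L] [Algebra K L]
    [IsCyclotomicExtension {p} ℚ K] [IsGalois ℚ L] (h : CoreData p K L)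
    (P : Ideal (𝓞 K)) (hP : P.IsPrime) (hP0 : P ≠ ⊥)
    (hns : ¬ SplitsCompletely (𝓞 K) (𝓞 L) P) :
    (Ideal.absNorm P).Prime ∧ Ideal.absNorm P ≠ p := by
  have hpp : p.Prime := Fact.out
  have : NeZero p := ⟨hpp.ne_zero⟩
  have : IsGalois K L := IsGalois.tower_top_of_isGalois ℚ K L
  have : NeZero P := ⟨hP0⟩
  -- the rational prime under `P`
  set ℓ : ℕ := Ideal.absNorm (Ideal.under ℤ P) with hℓdef
  have hℓ : ℓ.Prime := Nat.absNorm_under_prime P
  have : Fact ℓ.Prime := ⟨hℓ⟩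
  have hPl : P.LiesOver (Ideal.span {(ℓ : ℤ)}) := Int.liesOver_span_absNorm P
  -- `ℓ ≠ p`
  have hℓp : ℓ ≠ p := by
    intro hEq
    apply hns
    apply h.split_p P hP
    have := Int.absNorm_under_mem P
    rw [← hℓdef, hEq] at this
    exact this
  -- a prime `R` of `L` over `P` with `f ≠ 1`
  obtain ⟨R, hR, hRP, hRef⟩ : ∃ R : Ideal (𝓞 L), R.IsPrime ∧ R.LiesOver P ∧
      ¬ (R.ramificationIdx (𝓞 K) = 1 ∧ R.inertiaDeg (𝓞 K) = 1) := by
    by_contra hcon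
    push Not at hcon
    exact hns fun Q hQ hQP => hcon Q hQ hQP
  have hR0 : R ≠ ⊥ := Ideal.ne_bot_of_liesOver_of_ne_bot hP0 R
  have heR : R.ramificationIdx (𝓞 K) = 1 := h.unramified R hR hR0
  have hfR : R.inertiaDeg (𝓞 K) ≠ 1 := fun hf => hRef ⟨heR, hf⟩
  -- the decomposition group of `R` in `Gal(L/K)` is everything
  have hcardG : Nat.card (L ≃ₐ[K] L) = p := by
    rw [IsGalois.card_aut_eq_finrank, h.finrank_eq]
  have hstab : MulAction.stabilizer (L ≃ₐ[K] L) R = ⊤ := by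
    have h1 := Ideal.card_stabilizer_eq (G := L ≃ₐ[K] L) P R
    rw [Ideal.ramificationIdxIn_eq_ramificationIdx P R (L ≃ₐ[K] L),
      Ideal.inertiaDegIn_eq_inertiaDeg P R (L ≃ₐ[K] L), heR, one_mul] at h1
    have h2 := Subgroup.card_subgroup_dvd_card (MulAction.stabilizer (L ≃ₐ[K] L) R)
    rw [hcardG, h1] at h2
    apply Subgroup.eq_top_of_card_eq
    rw [h1, hcardG]
    exact ((Nat.dvd_prime hpp).mp h2).resolve_left hfR
  -- the Frobenius of `R` over `ℤ`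
  have : Finite (𝓞 L ⧸ R) := Ideal.finiteQuotientOfFreeOfNeBot R hR0
  obtain ⟨φ, hφ⟩ := IsArithFrobAt.exists_of_isInvariant ℤ (L ≃ₐ[ℚ] L) R
  have hRl : R.LiesOver (Ideal.span {(ℓ : ℤ)}) := Ideal.LiesOver.trans R P _
  have hunder : Ideal.under ℤ R = Ideal.under ℤ P := by
    rw [← Ideal.under_under (B := 𝓞 K) R, ← Ideal.over_def R P]
  have hcardℓ : Nat.card (ℤ ⧸ Ideal.under ℤ R) = ℓ := by
    rw [hunder, hℓdef, Ideal.absNorm_apply, Submodule.cardQuot_apply]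
  -- `φ ζ = ζ ^ ℓ`
  have hζ := IsCyclotomicExtension.zeta_spec p ℚ K
  set ζ : K := IsCyclotomicExtension.zeta p ℚ K with hζdef
  let z : 𝓞 L := algebraMap (𝓞 K) (𝓞 L) hζ.toInteger
  have hz : z ^ p = 1 := by
    rw [← map_pow, hζ.toInteger_isPrimitiveRoot.pow_eq_one, map_one]
  have hpR : (p : 𝓞 L) ∉ R := by
    intro hmem
    have h1 : ((p : ℤ) : 𝓞 L) ∈ R := by exact_mod_cast hmem
    rw [Int.cast_mem_ideal_iff, hunder, ← hℓdef, Int.natCast_dvd_natCast] at h1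
    exact hℓp ((Nat.prime_dvd_prime_iff_eq hℓ hpp).mp h1)
  have hφz := hφ.apply_of_pow_eq_one hz hpR
  rw [hcardℓ] at hφz
  have hφζ : φ (algebraMap K L ζ) = algebraMap K L ζ ^ ℓ := by
    have := congrArg (fun x : 𝓞 L => (x : L)) hφz
    exact this
  -- a generator `τ` of `Gal(L/K)`, viewed in `Gal(L/ℚ)`
  have : Nontrivial (L ≃ₐ[K] L) := by
    rw [← Finite.one_lt_card_iff_nontrivial, hcardG]
    exact hpp.one_lt
  obtain ⟨τ₀, hτ₀⟩ := exists_ne (1 : L ≃ₐ[K] L)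
  let τ : L ≃ₐ[ℚ] L := τ₀.restrictScalars ℚ
  have hτK : ∀ x : K, τ (algebraMap K L x) = algebraMap K L x := fun x => τ₀.commutes x
  have htwist : φ * τ ^ ℓ * φ⁻¹ = τ := h.twist φ τ ζ ℓ hζ hτK hφζ
  have hτR : τ • R = R := by
    have h1 : τ₀ • R = R := by
      have : τ₀ ∈ MulAction.stabilizer (L ≃ₐ[K] L) R := by rw [hstab]; trivial
      exact this
    have h2 : τ • R = τ₀ • R := by
      ext x
      rw [Ideal.pointwise_smul_eq_comap, Ideal.pointwise_smul_eq_comap]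
      rfl
    rw [h2, h1]
  -- `φ` commutes with `τ` since the inertia group of `R` over `ℤ` is trivial
  have hinert : Ideal.inertia (L ≃ₐ[ℚ] L) R = ⊥ := by
    rw [← Subgroup.card_eq_one,
      Ideal.card_inertia_eq_ramificationIdxIn (G := L ≃ₐ[ℚ] L) (Ideal.span {(ℓ : ℤ)}) R,
      Ideal.ramificationIdxIn_eq_ramificationIdx (Ideal.span {(ℓ : ℤ)}) R (L ≃ₐ[ℚ] L),
      Ideal.ramificationIdx_tower (R := ℤ) P R, heR,
      IsCyclotomicExtension.Rat.ramificationIdx_eq_of_not_dvd ℓ K P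
        (fun hd => hℓp ((Nat.prime_dvd_prime_iff_eq hℓ hpp).mp hd))]
  have hcomm : φ * τ = τ * φ := by
    have h1 := hφ.conj τ
    rw [hτR] at h1
    have h2 := hφ.mul_inv_mem_inertia h1
    rw [hinert, Subgroup.mem_bot] at h2
    have h3 : φ = τ * φ * τ⁻¹ := mul_inv_eq_one.mp h2
    calc φ * τ = (τ * φ * τ⁻¹) * τ := by rw [← h3]
      _ = τ * φ := by group
  -- hence `τ ^ (ℓ - 1) = 1`
  have hτℓ : τ ^ ℓ = τ := by
    have h1 : φ * τ ^ ℓ = τ ^ ℓ * φ := (Commute.pow_right hcomm ℓ).eq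
    have h2 : φ * τ ^ ℓ * φ⁻¹ = τ ^ ℓ := by rw [h1]; group
    rw [← h2, htwist]
  have hτpow : τ ^ (ℓ - 1) = 1 := by
    have h1 : τ ^ (ℓ - 1) * τ = 1 * τ := by
      rw [← pow_succ, Nat.sub_add_cancel hℓ.one_lt.le, hτℓ, one_mul]
    exact mul_right_cancel h1
  have hτ1 : τ ≠ 1 := by
    intro h1
    apply hτ₀
    ext x
    have := congrArg (fun f : L ≃ₐ[ℚ] L => f x) h1
    exact this
  have hτp : τ ^ p = 1 := by
    have h1 : τ₀ ^ p = 1 := by rw [← hcardG]; exact pow_card_eq_one'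
    ext x
    have := congrArg (fun f : L ≃ₐ[K] L => f x) h1
    simpa [τ] using this
  have hord : orderOf τ = p := orderOf_eq_prime hτp hτ1
  have hdvd : p ∣ ℓ - 1 := by
    rw [← hord]
    exact orderOf_dvd_of_pow_eq_one hτpow
  -- the inertia degree of `P` over `ℤ` is one
  have hℓ1 : ((ℓ : ℕ) : ZMod p) = 1 := by
    have h1 : (((ℓ - 1 : ℕ)) : ZMod p) = 0 := (ZMod.natCast_eq_zero_iff _ _).mpr hdvd
    have h2 : ℓ = (ℓ - 1) + 1 := (Nat.sub_add_cancel hℓ.one_lt.le).symm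
    rw [h2, Nat.cast_add, h1, zero_add, Nat.cast_one]
  have hfP : P.inertiaDeg ℤ = 1 := by
    rw [IsCyclotomicExtension.Rat.inertiaDeg_eq_of_not_dvd ℓ K P
      (fun hd => hℓp ((Nat.prime_dvd_prime_iff_eq hℓ hpp).mp hd)), hℓ1, orderOf_one]
  have hN : Ideal.absNorm P = ℓ := by
    rw [← Ideal.pow_inertiaDeg ℓ P, hfP, pow_one]
  rw [hN]
  exact ⟨hℓ, hℓp⟩

end Fermat.Agent.S14
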