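import Mathlib
import Fermat.Agent.S14.Defs
import Fermat.Agent.S14.h84_Split
import Fermat.Agent.S14.h67_Jacobi
import Fermat.Agent.S14.ST
import Fermat.Agent.S14.STR

/-!
END, main part : the number-field core of S14 (route CORE-A).  `CoreData p K L` is
contradictory, given the three inputs SI (class character), NS (non-split primes) and
KEY (the Artin trick), which enter `h67_core_of` as hypotheses `hSI`, `hNS`, `hKEY`
(the statements of `exists_char_of_unramified`, `exists_nonsplit_prime`, `key` for `L / K`).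
-/

set_option autoImplicit false
set_option linter.style.haveILetI false

namespace Fermat.Agent.S14

open NumberField
open scoped nonZeroDivisors Pointwise

/-- A Frobenius element at a prime of residue degree `≠ 1` is nontrivial. -/
theorem h67_frob_ne_one (K L : Type*) [Field K] [NumberField K] [Field L] [NumberField L]
    [Algebra K L] [IsGalois K L] (P : Ideal (𝓞 K)) (hP : P.IsPrime) (hP0 : P ≠ ⊥)
    (R : Ideal (𝓞 L)) (hR : R.IsPrime) (hRP : R.LiesOver P) (hf : R.inertiaDeg (𝓞 K) ≠ 1)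
    (σ : L ≃ₐ[K] L) (hσ : IsArithFrobAt (𝓞 K) σ R) : σ ≠ 1 := by
  classical
  rintro rfl
  have hR0 : R ≠ ⊥ := h84_ne_bot_of_liesOver K L P hP0 R hRP
  have hN : Nat.card (𝓞 K ⧸ R.under (𝓞 K)) = Ideal.absNorm P := by
    rw [← hRP.over, Ideal.absNorm_apply, Submodule.cardQuot_apply]
  have hx : ∀ x : 𝓞 L, x - x ^ Ideal.absNorm P ∈ R := by
    intro x
    have := hσ x
    rw [hN] at this
    simpa using this
  haveI hRmax : R.IsMaximal := Ideal.IsPrime.isMaximal hR hR0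
  letI : Field (𝓞 L ⧸ R) := Ideal.Quotient.field R
  haveI : Finite (𝓞 L ⧸ R) := Ideal.finiteQuotientOfFreeOfNeBot R hR0
  letI : Fintype (𝓞 L ⧸ R) := Fintype.ofFinite _
  have hcard : Fintype.card (𝓞 L ⧸ R) = Ideal.absNorm P ^ R.inertiaDeg (𝓞 K) := by
    rw [← Nat.card_eq_fintype_card, ← h84_absNorm_eq_pow_ideal K L P R hR hR0 hRP,
      Ideal.absNorm_apply, Submodule.cardQuot_apply]
  have hxk : ∀ y : 𝓞 L ⧸ R, y ^ Ideal.absNorm P = y := by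
    intro y
    obtain ⟨x, rfl⟩ := Ideal.Quotient.mk_surjective y
    rw [← map_pow, eq_comm, Ideal.Quotient.eq]
    exact hx x
  have hN2 : 2 ≤ Ideal.absNorm P := by
    have h0 : Ideal.absNorm P ≠ 0 := by
      rw [Ne, Ideal.absNorm_eq_zero_iff]; exact hP0
    have h1 : Ideal.absNorm P ≠ 1 := by
      rw [Ne, Ideal.absNorm_eq_one_iff]; exact hP.ne_top
    omega
  obtain ⟨g, hg⟩ := IsCyclic.exists_generator (α := (𝓞 L ⧸ R)ˣ)
  have hord : orderOf g = Fintype.card (𝓞 L ⧸ R) - 1 := by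
    rw [orderOf_eq_card_of_forall_mem_zpowers hg, Nat.card_eq_fintype_card, Fintype.card_units]
  have hg1 : g ^ (Ideal.absNorm P - 1) = 1 := by
    ext
    rw [Units.val_pow_eq_pow_val, Units.val_one]
    have h1 := hxk (g : 𝓞 L ⧸ R)
    have h2 : (g : 𝓞 L ⧸ R) ^ (Ideal.absNorm P - 1) * g = 1 * g := by
      rw [← pow_succ, Nat.sub_add_cancel (by omega), h1, one_mul]
    exact mul_right_cancel₀ g.ne_zero h2
  have hdvd : Fintype.card (𝓞 L ⧸ R) - 1 ∣ Ideal.absNorm P - 1 := by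
    rw [← hord]; exact orderOf_dvd_of_pow_eq_one hg1
  have hle : Fintype.card (𝓞 L ⧸ R) ≤ Ideal.absNorm P := by
    have := Nat.le_of_dvd (by omega) hdvd
    omega
  rw [hcard] at hle
  have hf1 : R.inertiaDeg (𝓞 K) ≤ 1 := by
    by_contra hcon
    push Not at hcon
    have : Ideal.absNorm P ^ 2 ≤ Ideal.absNorm P ^ R.inertiaDeg (𝓞 K) :=
      Nat.pow_le_pow_right (by omega) hcon
    nlinarith
  have hf0 : R.inertiaDeg (𝓞 K) ≠ 0 := by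
    intro h0
    rw [h0, pow_zero] at hcard
    have := Fintype.one_lt_card (α := 𝓞 L ⧸ R)
    omega
  omega

/-- A class character which is trivial on all primes is trivial. -/
theorem h67_char_eq_one {A : Type*} [CommRing A] [IsDedekindDomain A] {M : Type*} [Monoid M]
    (c : ClassGroup A →* M)
    (h : ∀ P : (Ideal A)⁰, (P : Ideal A).IsPrime → c (ClassGroup.mk0 P) = 1) : c = 1 := by
  have key : ∀ J : Ideal A, ∀ hJ : J ∈ (Ideal A)⁰, c (ClassGroup.mk0 ⟨J, hJ⟩) = 1 := by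
    intro J
    induction J using UniqueFactorizationMonoid.induction_on_prime with
    | h₁ => intro hJ; exact absurd rfl (nonZeroDivisors.ne_zero hJ)
    | h₂ x hx =>
      intro hJ
      have h1 : (⟨x, hJ⟩ : (Ideal A)⁰) = 1 := by
        apply Subtype.ext
        show x = 1
        rw [Ideal.one_eq_top]
        exact Ideal.isUnit_iff.mp hx
      rw [h1, map_one, map_one]
    | h₃ a p ha hp ih =>
      intro hJ
      have hp0 : p ≠ 0 := hp.ne_zero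
      have hpm : p ∈ (Ideal A)⁰ := mem_nonZeroDivisors_of_ne_zero hp0
      have ham : a ∈ (Ideal A)⁰ := mem_nonZeroDivisors_of_ne_zero ha
      have h1 : (⟨p * a, hJ⟩ : (Ideal A)⁰) = ⟨p, hpm⟩ * ⟨a, ham⟩ := rfl
      rw [h1, map_mul, map_mul, ih ham, h ⟨p, hpm⟩ (Ideal.isPrime_of_prime hp), one_mul]
  ext x
  obtain ⟨I, rfl⟩ := ClassGroup.mk0_surjective x
  rw [MonoidHom.one_apply]
  exact key I I.2

/-- The sum of the `t` with `0 < t < p / 2` is prime to `p`. -/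
theorem h67_sum_not_dvd (p : ℕ) (hp : p.Prime) (hp2 : p ≠ 2) :
    ¬ p ∣ ∑ t ∈ (Finset.range p).filter (fun t => 0 < t ∧ 2 * t < p), t := by
  have hodd : p % 2 = 1 := hp.eq_two_or_odd.resolve_left hp2
  have h2 := hp.two_le
  obtain ⟨h, rfl⟩ : ∃ h, p = 2 * h + 1 := ⟨p / 2, by omega⟩
  have hsum : ∑ t ∈ (Finset.range (2 * h + 1)).filter (fun t => 0 < t ∧ 2 * t < 2 * h + 1), t =
      ∑ t ∈ Finset.range (h + 1), t := by
    apply Finset.sum_subset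
    · intro t ht
      rw [Finset.mem_filter, Finset.mem_range] at ht
      rw [Finset.mem_range]; omega
    · intro t ht hnot
      rw [Finset.mem_filter, Finset.mem_range] at hnot
      rw [Finset.mem_range] at ht
      omega
  rw [hsum]
  intro hdvd
  have h3 : (2 * h + 1) ∣ (∑ t ∈ Finset.range (h + 1), t) * 2 := Dvd.dvd.mul_right hdvd 2
  rw [Finset.sum_range_id_mul_two, Nat.add_sub_cancel] at h3
  rcases (Nat.Prime.dvd_mul hp).mp h3 with h4 | h4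
  · have := Nat.le_of_dvd (by omega) h4; omega
  · have := Nat.le_of_dvd (by omega) h4; omega

/-- the norm of a Galois conjugate ideal -/
theorem h67_absNorm_smul (K : Type*) [Field K] [NumberField K] (s : K ≃ₐ[ℚ] K)
    (Q : Ideal (𝓞 K)) : Ideal.absNorm (s • Q) = Ideal.absNorm Q := by
  rw [Ideal.pointwise_smul_eq_comap, ← Ideal.comap_coe, h67_absNorm_comap]

/-- Conjugating a Frobenius element by an automorphism of `L / ℚ`. -/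
theorem h67_frob_conj (K L : Type*) [Field K] [NumberField K] [Field L] [NumberField L]
    [Algebra K L] [IsGalois K L]
    (g : L ≃ₐ[ℚ] L) (s : K ≃ₐ[ℚ] K) (hgs : ∀ x : K, g (algebraMap K L x) = algebraMap K L (s x))
    (σ τ : L ≃ₐ[K] L) (hcomm : ∀ x : L, g (τ x) = σ (g x))
    (R₁ : Ideal (𝓞 L)) (Q₁ : Ideal (𝓞 K)) (hRQ : R₁.LiesOver Q₁)
    (hσ : IsArithFrobAt (𝓞 K) σ R₁) :
    (g⁻¹ • R₁).LiesOver (s⁻¹ • Q₁) ∧ IsArithFrobAt (𝓞 K) τ (g⁻¹ • R₁) := by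
  have hsm : ∀ x : 𝓞 K, g • (algebraMap (𝓞 K) (𝓞 L) x) = algebraMap (𝓞 K) (𝓞 L) (s • x) := by
    intro x
    apply RingOfIntegers.ext
    exact hgs x
  have hover : s⁻¹ • Q₁ = (g⁻¹ • R₁).under (𝓞 K) := by
    ext x
    rw [Ideal.mem_inv_pointwise_smul_iff, Ideal.under_def, Ideal.mem_comap,
      Ideal.mem_inv_pointwise_smul_iff, hsm, hRQ.over, Ideal.under_def, Ideal.mem_comap]
  refine ⟨⟨hover⟩, ?_⟩
  intro x
  have hcard : Nat.card (𝓞 K ⧸ (g⁻¹ • R₁).under (𝓞 K)) = Nat.card (𝓞 K ⧸ R₁.under (𝓞 K)) := by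
    rw [← hover, ← hRQ.over, ← Submodule.cardQuot_apply, ← Submodule.cardQuot_apply,
      ← Ideal.absNorm_apply, ← Ideal.absNorm_apply, h67_absNorm_smul]
  rw [hcard, Ideal.mem_inv_pointwise_smul_iff]
  have h1 := hσ (g • x)
  have h2 : g • ((MulSemiringAction.toAlgHom (𝓞 K) (𝓞 L) τ) x -
      x ^ Nat.card (𝓞 K ⧸ R₁.under (𝓞 K))) =
      (MulSemiringAction.toAlgHom (𝓞 K) (𝓞 L) σ) (g • x) -
        (g • x) ^ Nat.card (𝓞 K ⧸ R₁.under (𝓞 K)) := by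
    rw [smul_sub, smul_pow']
    congr 1
    apply RingOfIntegers.ext
    exact hcomm x
  rw [h2]
  exact h1

/-- Existence of a Frobenius element at some prime above `P`. -/
theorem h67_exists_frob (K L : Type*) [Field K] [NumberField K] [Field L] [NumberField L]
    [Algebra K L] [IsGalois K L] (P : Ideal (𝓞 K)) (hP : P.IsPrime) (hP0 : P ≠ ⊥) :
    ∃ R : Ideal (𝓞 L), R.IsPrime ∧ R.LiesOver P ∧
      ∃ σ : L ≃ₐ[K] L, IsArithFrobAt (𝓞 K) σ R := by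
  obtain ⟨⟨R, hR, hRP⟩⟩ := Ideal.nonempty_primesOver (S := 𝓞 L) P
  have hR0 : R ≠ ⊥ := h84_ne_bot_of_liesOver K L P hP0 R hRP
  haveI : Finite (𝓞 L ⧸ R) := Ideal.finiteQuotientOfFreeOfNeBot R hR0
  obtain ⟨σ, hσ⟩ := IsArithFrobAt.exists_of_isInvariant (𝓞 K) (L ≃ₐ[K] L) R
  exact ⟨R, hR, hRP, σ, hσ⟩

/-- Automorphisms of the cyclotomic field raising roots of unity to a power. -/
theorem h67_exists_aut (p : ℕ) [Fact p.Prime] (K : Type*) [Field K] [NumberField K]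
    [IsCyclotomicExtension {p} ℚ K] (ζ : K) (hζ : IsPrimitiveRoot ζ p) (t : ℕ) (ht0 : 0 < t)
    (htp : t < p) : ∃ g : K ≃ₐ[ℚ] K, g ζ = ζ ^ t := by
  have hp : p.Prime := Fact.out
  have : NeZero p := ⟨hp.ne_zero⟩
  have hz₀ := IsCyclotomicExtension.zeta_spec p ℚ K
  obtain ⟨j, -, hj⟩ := hz₀.eq_pow_of_pow_eq_one hζ.pow_eq_one
  have hcop : Nat.Coprime t p :=
    Nat.Coprime.symm ((Nat.Prime.coprime_iff_not_dvd hp).mpr (Nat.not_dvd_of_pos_of_lt ht0 htp))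
  have hμ := hz₀.pow_of_coprime t hcop
  refine ⟨IsCyclotomicExtension.fromZetaAut hμ
    (Polynomial.cyclotomic.irreducible_rat hp.pos), ?_⟩
  rw [← hj, map_pow, IsCyclotomicExtension.fromZetaAut_spec, ← pow_mul, ← pow_mul, mul_comm]

theorem h67_restrictScalars_pow {K L : Type*} [Field K] [NumberField K] [Field L]
    [NumberField L] [Algebra K L]
    (σ : L ≃ₐ[K] L) (n : ℕ) (x : L) : ((σ.restrictScalars ℚ) ^ n) x = (σ ^ n) x := by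
  induction n generalizing x with
  | zero => rfl
  | succ n ih =>
    rw [pow_succ, pow_succ, AlgEquiv.mul_apply, AlgEquiv.mul_apply, ih]
    rfl

/-- A non-split prime all of whose primes above are unramified has a nontrivial Frobenius. -/
theorem h67_exists_frob_ne_one (K L : Type*) [Field K] [NumberField K] [Field L]
    [NumberField L] [Algebra K L] [IsGalois K L] (P : Ideal (𝓞 K)) (hP : P.IsPrime)
    (hP0 : P ≠ ⊥)
    (hunr : ∀ Q : Ideal (𝓞 L), Q.IsPrime → Q.LiesOver P → Q.ramificationIdx (𝓞 K) = 1)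
    (hns : ¬ SplitsCompletely (𝓞 K) (𝓞 L) P) :
    ∃ R : Ideal (𝓞 L), R.IsPrime ∧ R.LiesOver P ∧
      ∃ σ : L ≃ₐ[K] L, IsArithFrobAt (𝓞 K) σ R ∧ σ ≠ 1 := by
  obtain ⟨R, hR, hRP, hRef⟩ : ∃ R : Ideal (𝓞 L), R.IsPrime ∧ R.LiesOver P ∧
      ¬ (R.ramificationIdx (𝓞 K) = 1 ∧ R.inertiaDeg (𝓞 K) = 1) := by
    by_contra hcon
    push Not at hcon
    exact hns fun Q hQ hQP => hcon Q hQ hQP
  have hR0 : R ≠ ⊥ := h84_ne_bot_of_liesOver K L P hP0 R hRP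
  have hfR : R.inertiaDeg (𝓞 K) ≠ 1 := fun hf => hRef ⟨hunr R hR hRP, hf⟩
  haveI : Finite (𝓞 L ⧸ R) := Ideal.finiteQuotientOfFreeOfNeBot R hR0
  obtain ⟨σ, hσ⟩ := IsArithFrobAt.exists_of_isInvariant (𝓞 K) (L ≃ₐ[K] L) R
  exact ⟨R, hR, hRP, σ, hσ, h67_frob_ne_one K L P hP hP0 R hR hRP hfR σ hσ⟩

theorem h67_core_of (p : ℕ) [Fact p.Prime] (hp2 : p ≠ 2)
    (K L : Type) [Field K] [NumberField K] [Field L] [NumberField L] [Algebra K L]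
    [IsCyclotomicExtension {p} ℚ K] [IsGalois ℚ L] [IsGalois K L] (h : CoreData p K L)
    (hSI : ∃ c : ClassGroup (𝓞 K) →* ℂˣ, c ≠ 1 ∧ (∀ x, c x ^ p = 1) ∧
      ∀ P : (Ideal (𝓞 K))⁰, (P : Ideal (𝓞 K)).IsPrime →
        SplitsCompletely (𝓞 K) (𝓞 L) (P : Ideal (𝓞 K)) → c (ClassGroup.mk0 P) = 1)
    (hNS : ∀ S : Set (Ideal (𝓞 K)), S.Finite →
      ∃ P : Ideal (𝓞 K), P.IsPrime ∧ P ≠ ⊥ ∧ P ∉ S ∧ (Ideal.absNorm P).Prime ∧
        (∀ Q : Ideal (𝓞 L), Q.IsPrime → Q.LiesOver P → Q.ramificationIdx (𝓞 K) = 1) ∧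
        ¬ SplitsCompletely (𝓞 K) (𝓞 L) P)
    (hKEY : ∀ (c : ClassGroup (𝓞 K) →* ℂˣ), (∀ x, c x ^ p = 1) →
      (∀ P : (Ideal (𝓞 K))⁰, (P : Ideal (𝓞 K)).IsPrime →
        SplitsCompletely (𝓞 K) (𝓞 L) (P : Ideal (𝓞 K)) → c (ClassGroup.mk0 P) = 1) →
      ∀ (Q Q₀ : (Ideal (𝓞 K))⁰), (Q : Ideal (𝓞 K)).IsPrime → (Q₀ : Ideal (𝓞 K)).IsPrime →
      ∀ (q q₀ : ℕ), q.Prime → q₀.Prime → q ≠ q₀ → q ≠ p → q₀ ≠ p →
      Ideal.absNorm (Q : Ideal (𝓞 K)) = q → Ideal.absNorm (Q₀ : Ideal (𝓞 K)) = q₀ →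
      ∀ (R R₀ : Ideal (𝓞 L)), R.IsPrime → R₀.IsPrime →
      R.LiesOver (Q : Ideal (𝓞 K)) → R₀.LiesOver (Q₀ : Ideal (𝓞 K)) →
      ∀ (σ σ₀ : L ≃ₐ[K] L), IsArithFrobAt (𝓞 K) σ R → IsArithFrobAt (𝓞 K) σ₀ R₀ →
      σ₀ ≠ 1 → ∀ (a : ℕ), σ = σ₀ ^ a →
      c (ClassGroup.mk0 Q) = c (ClassGroup.mk0 Q₀) ^ a) : False := by
  classical
  have hp : p.Prime := Fact.out
  have hcardG : Nat.card (L ≃ₐ[K] L) = p := by
    rw [IsGalois.card_aut_eq_finrank, h.finrank_eq]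
  obtain ⟨c, hc1, hcp, hcs⟩ := hSI
  -- two non-split primes of degree one over distinct rational primes
  obtain ⟨Q₀, hQ₀, hQ₀0, -, hq₀, hQ₀unr, hQ₀ns⟩ :=
    hNS (∅ : Set (Ideal (𝓞 K))) Set.finite_empty
  obtain ⟨Q₁, hQ₁, hQ₁0, hQ₁S, hq₁, hQ₁unr, hQ₁ns⟩ :=
    hNS {P : Ideal (𝓞 K) | Ideal.absNorm P = Ideal.absNorm Q₀}
      (Ideal.finite_setOfPred_absNorm_eq (Ideal.absNorm Q₀))
  have hq₁₀ : Ideal.absNorm Q₁ ≠ Ideal.absNorm Q₀ := hQ₁S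
  have hq₀p : Ideal.absNorm Q₀ ≠ p :=
    (absNorm_prime_of_not_split p hp2 K L h Q₀ hQ₀ hQ₀0 hQ₀ns).2
  have hq₁p : Ideal.absNorm Q₁ ≠ p :=
    (absNorm_prime_of_not_split p hp2 K L h Q₁ hQ₁ hQ₁0 hQ₁ns).2
  -- their Frobenius elements
  obtain ⟨R₀, hR₀, hR₀Q, σ₀, hσ₀, hσ₀1⟩ :=
    h67_exists_frob_ne_one K L Q₀ hQ₀ hQ₀0 hQ₀unr hQ₀ns
  obtain ⟨R₁, hR₁, hR₁Q, σ₁, hσ₁, hσ₁1⟩ :=
    h67_exists_frob_ne_one K L Q₁ hQ₁ hQ₁0 hQ₁unr hQ₁ns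
  have hpow : ∀ τ₀ : L ≃ₐ[K] L, τ₀ ≠ 1 → ∀ τ : L ≃ₐ[K] L, ∃ a : ℕ, τ = τ₀ ^ a := by
    intro τ₀ hτ₀ τ
    obtain ⟨a, ha⟩ := (Submonoid.mem_powers_iff _ _).mp
      (mem_powers_of_prime_card (g' := τ) hcardG hτ₀)
    exact ⟨a, ha.symm⟩
  obtain ⟨a₁, ha₁⟩ := hpow σ₀ hσ₀1 σ₁
  have ha₁p : ¬ p ∣ a₁ := by
    rintro ⟨b, rfl⟩
    apply hσ₁1
    rw [ha₁, pow_mul, ← hcardG, pow_card_eq_one', one_pow]
  obtain ⟨Q₀', hQ₀'⟩ : ∃ Q₀' : (Ideal (𝓞 K))⁰, (Q₀' : Ideal (𝓞 K)) = Q₀ :=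
    ⟨⟨Q₀, mem_nonZeroDivisors_of_ne_zero hQ₀0⟩, rfl⟩
  obtain ⟨Q₁', hQ₁'⟩ : ∃ Q₁' : (Ideal (𝓞 K))⁰, (Q₁' : Ideal (𝓞 K)) = Q₁ :=
    ⟨⟨Q₁, mem_nonZeroDivisors_of_ne_zero hQ₁0⟩, rfl⟩
  have hkey := hKEY c hcp hcs
  -- the automorphisms `s t` of `K`
  have hζ := IsCyclotomicExtension.zeta_spec p ℚ K
  obtain ⟨ζ, hζdef⟩ : ∃ ζ : K, ζ = IsCyclotomicExtension.zeta p ℚ K := ⟨_, rfl⟩
  rw [← hζdef] at hζ
  have hex : ∀ t : ℕ, ∃ s : K ≃ₐ[ℚ] K, 0 < t → 2 * t < p → s ζ = ζ ^ t := by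
    intro t
    by_cases ht : 0 < t ∧ 2 * t < p
    · obtain ⟨s, hs⟩ := h67_exists_aut p K ζ hζ t ht.1 (by omega)
      exact ⟨s, fun _ _ => hs⟩
    · exact ⟨1, fun h1 h2 => absurd ⟨h1, h2⟩ ht⟩
  choose s hs using hex
  haveI := hQ₁
  obtain ⟨J, hJ0, hJ⟩ := stickelberger_lite p hp2 K Q₁ (Ideal.absNorm Q₁) hq₁ hq₁p rfl ζ hζ s hs
  have hQt0 : ∀ t, (s t)⁻¹ • Q₁ ≠ ⊥ := by
    intro t h0
    have h1 := h67_absNorm_smul K (s t)⁻¹ Q₁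
    rw [h0, Ideal.absNorm_bot] at h1
    exact hq₁.ne_zero h1.symm
  obtain ⟨Qt, hQt⟩ : ∃ Qt : ℕ → (Ideal (𝓞 K))⁰, ∀ t, (Qt t : Ideal (𝓞 K)) = (s t)⁻¹ • Q₁ :=
    ⟨fun t => ⟨(s t)⁻¹ • Q₁, mem_nonZeroDivisors_of_ne_zero (hQt0 t)⟩, fun t => rfl⟩
  have hct : ∀ t, 0 < t → 2 * t < p →
      c (ClassGroup.mk0 (Qt t)) = c (ClassGroup.mk0 Q₀') ^ (a₁ * t) := by
    intro t ht0 ht2
    obtain ⟨g, hg⟩ : ∃ g : L ≃ₐ[ℚ] L, g = (s t).liftNormal L := ⟨_, rfl⟩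
    have hgs : ∀ x : K, g (algebraMap K L x) = algebraMap K L (s t x) := fun x => by
      rw [hg]; exact AlgEquiv.liftNormal_commutes (s t) L x
    have htw : g * (σ₁.restrictScalars ℚ) ^ t * g⁻¹ = σ₁.restrictScalars ℚ :=
      h.twist g (σ₁.restrictScalars ℚ) ζ t hζ (fun x => σ₁.commutes x)
        (by rw [hgs, hs t ht0 ht2, map_pow])
    have hcomm : ∀ x : L, g ((σ₁ ^ t) x) = σ₁ (g x) := by
      intro x
      have h1 : g * (σ₁.restrictScalars ℚ) ^ t = σ₁.restrictScalars ℚ * g := by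
        calc g * (σ₁.restrictScalars ℚ) ^ t
            = (g * (σ₁.restrictScalars ℚ) ^ t * g⁻¹) * g := by group
          _ = σ₁.restrictScalars ℚ * g := by rw [htw]
      have h2 := congrArg (fun f : L ≃ₐ[ℚ] L => f x) h1
      simp only [AlgEquiv.mul_apply] at h2
      rw [h67_restrictScalars_pow] at h2
      exact h2
    obtain ⟨hlies, hfrob⟩ := h67_frob_conj K L g (s t) hgs σ₁ (σ₁ ^ t) hcomm R₁ Q₁ hR₁Q hσ₁
    have hprime : ((Qt t : (Ideal (𝓞 K))⁰) : Ideal (𝓞 K)).IsPrime := by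
      rw [hQt]; infer_instance
    haveI := hR₁
    have hRprime : (g⁻¹ • R₁).IsPrime := inferInstance
    rw [← hQt] at hlies
    rw [← hQ₀'] at hR₀Q
    exact hkey (Qt t) Q₀' hprime (hQ₀' ▸ hQ₀) (Ideal.absNorm Q₁) (Ideal.absNorm Q₀) hq₁ hq₀ hq₁₀
      hq₁p hq₀p (by rw [hQt, h67_absNorm_smul]) (by rw [hQ₀']) (g⁻¹ • R₁) R₀ hRprime hR₀
      hlies hR₀Q (σ₁ ^ t) σ₀ hfrob hσ₀ hσ₀1 (a₁ * t) (by rw [ha₁, pow_mul])
  -- the product of the conjugates is principal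
  obtain ⟨T, hT⟩ : ∃ T : Finset ℕ, T = (Finset.range p).filter (fun t => 0 < t ∧ 2 * t < p) :=
    ⟨_, rfl⟩
  have hprod : ∏ t ∈ T, c (ClassGroup.mk0 (Qt t)) = 1 := by
    rw [← map_prod, ← map_prod]
    have h1 : ClassGroup.mk0 (∏ t ∈ T, Qt t) = 1 := by
      rw [ClassGroup.mk0_eq_one_iff]
      have hcoe : ((∏ t ∈ T, Qt t : (Ideal (𝓞 K))⁰) : Ideal (𝓞 K)) = Ideal.span {J} := by
        rw [Submonoid.coe_finsetProd, hJ, hT]
        exact Finset.prod_congr rfl fun t _ => hQt t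
      rw [hcoe]
      exact ⟨⟨J, rfl⟩⟩
    rw [h1, map_one]
  have hu : c (ClassGroup.mk0 Q₀') ^ (a₁ * ∑ t ∈ T, t) = 1 := by
    rw [← hprod, Finset.mul_sum, ← Finset.prod_pow_eq_pow_sum]
    refine (Finset.prod_congr rfl fun t ht => ?_).symm
    rw [hT, Finset.mem_filter] at ht
    exact hct t ht.2.1 ht.2.2
  have hu1 : c (ClassGroup.mk0 Q₀') = 1 := by
    have hcop : Nat.Coprime (a₁ * ∑ t ∈ T, t) p := by
      apply Nat.Coprime.symm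
      rw [Nat.Prime.coprime_iff_not_dvd hp, Nat.Prime.dvd_mul hp, hT]
      push Not
      exact ⟨ha₁p, h67_sum_not_dvd p hp hp2⟩
    have h1 := orderOf_dvd_of_pow_eq_one hu
    have h2 := orderOf_dvd_of_pow_eq_one (hcp (ClassGroup.mk0 Q₀'))
    exact orderOf_eq_one_iff.mp (Nat.eq_one_of_dvd_coprimes hcop h1 h2)
  have hv1 : c (ClassGroup.mk0 Q₁') = 1 := by
    have h1 := hkey Q₁' Q₀' (hQ₁' ▸ hQ₁) (hQ₀' ▸ hQ₀) (Ideal.absNorm Q₁) (Ideal.absNorm Q₀)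
      hq₁ hq₀ hq₁₀ hq₁p hq₀p (by rw [hQ₁']) (by rw [hQ₀']) R₁ R₀ hR₁ hR₀
      (hQ₁' ▸ hR₁Q) (hQ₀' ▸ hR₀Q) σ₁ σ₀ hσ₁ hσ₀ hσ₀1 a₁ ha₁
    rw [h1, hu1, one_pow]
  -- hence `c` is trivial on all primes
  apply hc1
  apply h67_char_eq_one
  intro P hP
  by_cases hsp : SplitsCompletely (𝓞 K) (𝓞 L) (P : Ideal (𝓞 K))
  · exact hcs P hP hsp
  · have hP0 : (P : Ideal (𝓞 K)) ≠ ⊥ := nonZeroDivisors.coe_ne_zero P
    obtain ⟨hl, hlp⟩ := absNorm_prime_of_not_split p hp2 K L h P hP hP0 hsp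
    obtain ⟨R, hR, hRP, σ, hσ⟩ := h67_exists_frob K L (P : Ideal (𝓞 K)) hP hP0
    by_cases hl0 : Ideal.absNorm (P : Ideal (𝓞 K)) = Ideal.absNorm Q₀
    · obtain ⟨a, ha⟩ := hpow σ₁ hσ₁1 σ
      have h1 := hkey P Q₁' hP (hQ₁' ▸ hQ₁) _ (Ideal.absNorm Q₁) hl hq₁
        (by rw [hl0]; exact hq₁₀.symm) hlp hq₁p rfl (by rw [hQ₁']) R R₁ hR hR₁ hRP
        (hQ₁' ▸ hR₁Q) σ σ₁ hσ hσ₁ hσ₁1 a ha
      rw [h1, hv1, one_pow]
    · obtain ⟨a, ha⟩ := hpow σ₀ hσ₀1 σ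
      have h1 := hkey P Q₀' hP (hQ₀' ▸ hQ₀) _ (Ideal.absNorm Q₀) hl hq₀ hl0 hlp hq₀p rfl
        (by rw [hQ₀']) R R₀ hR hR₀ hRP (hQ₀' ▸ hR₀Q) σ σ₀ hσ hσ₀ hσ₀1 a ha
      rw [h1, hu1, one_pow]

end Fermat.Agent.S14
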