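import Mathlib
import Fermat.Agent.S14.Defs
import Fermat.Agent.S14.h67_CoreOf
import Fermat.Agent.S14.NS
import Fermat.Agent.S14.SI
import Fermat.Agent.S14.Key

/-!
# S14, package END : the number-field core (CORE-A assembly; text by helper67, board #812).
-/

namespace Fermat.Agent.S14

open NumberField
open scoped nonZeroDivisors Pointwise

theorem core (p : ℕ) [Fact p.Prime] (hp2 : p ≠ 2)
    (K L : Type) [Field K] [NumberField K] [Field L] [NumberField L] [Algebra K L]
    [IsCyclotomicExtension {p} ℚ K] [IsGalois ℚ L] (h : CoreData p K L) : False := by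
  have hp : p.Prime := Fact.out
  haveI : IsGalois K L := IsGalois.tower_top_of_isGalois ℚ K L
  exact h67_core_of p hp2 K L h (exists_char_of_unramified hp hp2 h.finrank_eq h.unramified)
    (fun S hS => exists_nonsplit_prime hp h.finrank_eq S hS)
    (fun c hcp hcs => key p hp2 K L h.finrank_eq h.unramified c hcp hcs)

end Fermat.Agent.S14
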