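import Mathlib
import Fermat.Prelude.Def_ExtCitation_AdmissibleExtension
import Fermat.Prelude.Def_ExtCitation_KummerBridge

/-!
# S14, package GAL-CYC: the exponent `cycloExp`

* `gal_cycloExp_mul`  : `cycloExp` is multiplicative modulo `p`;
* `gal_cycloExp_spec` : `σ ζ = ζ ^ cycloExp p σ` for every `p`-th root of unity `ζ`;
* `gal_exists_cycloExp_ne_one` : for `p ≥ 3` some automorphism has `cycloExp ≠ 1` mod `p`.
-/

set_option autoImplicit false

namespace Fermat.Agent.S14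

open ExtCitation

theorem gal_cycloExp_mul (p : ℕ) [Fact p.Prime]
    (σ τ : AlgebraicClosure ℚ ≃ₐ[ℚ] AlgebraicClosure ℚ) :
    ((cycloExp p (σ * τ) : ℕ) : ZMod p) = (cycloExp p σ : ZMod p) * (cycloExp p τ : ZMod p) := by
  rw [← coe_cycloChar, ← coe_cycloChar, ← coe_cycloChar, map_mul, Units.val_mul]

theorem gal_cycloExp_spec (p : ℕ) [Fact p.Prime]
    (σ : AlgebraicClosure ℚ ≃ₐ[ℚ] AlgebraicClosure ℚ) (ζ : AlgebraicClosure ℚ) (hζ : ζ ^ p = 1) :
    σ ζ = ζ ^ cycloExp p σ := by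
  have : NeZero p := ⟨(Fact.out : p.Prime).ne_zero⟩
  have hp0 : p ≠ 0 := (Fact.out : p.Prime).ne_zero
  have hu : IsUnit ζ := IsUnit.of_pow_eq_one hζ hp0
  obtain ⟨t, rfl⟩ := hu
  have ht : t ∈ rootsOfUnity p (AlgebraicClosure ℚ) := by
    rw [mem_rootsOfUnity]
    exact Units.ext (by simpa using hζ)
  have h := modularCyclotomicCharacter.spec (AlgebraicClosure ℚ) (card_rootsOfUnity_eq_self p)
    (σ : AlgebraicClosure ℚ ≃+* AlgebraicClosure ℚ) ht
  exact h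

/-- an element of `Qbar` fixed by all automorphisms is rational -/
theorem h62_rat_of_fixed (x : AlgebraicClosure ℚ)
    (h : ∀ σ : AlgebraicClosure ℚ ≃ₐ[ℚ] AlgebraicClosure ℚ, σ x = x) :
    ∃ q : ℚ, algebraMap ℚ (AlgebraicClosure ℚ) q = x := by
  have h1 : Algebra.IsAlgebraic ℚ (AlgebraicClosure ℚ) := AlgebraicClosure.isAlgebraic ℚ
  have h2 : IsAlgClosure ℚ (AlgebraicClosure ℚ) := ⟨inferInstance, h1⟩
  have h3 : IsGalois ℚ (AlgebraicClosure ℚ) := IsAlgClosure.isGalois ℚ (AlgebraicClosure ℚ)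
  exact (InfiniteGalois.mem_range_algebraMap_iff_fixed (k := ℚ) (K := AlgebraicClosure ℚ) x).2 h

theorem gal_exists_cycloExp_ne_one (p : ℕ) [Fact p.Prime] (h3 : 3 ≤ p) :
    ∃ σ : AlgebraicClosure ℚ ≃ₐ[ℚ] AlgebraicClosure ℚ, ((cycloExp p σ : ℕ) : ZMod p) ≠ 1 := by
  have : NeZero p := ⟨(Fact.out : p.Prime).ne_zero⟩
  have hp : p.Prime := Fact.out
  by_contra hcon
  push Not at hcon
  -- a primitive `p`-th root of unity
  have : NeZero ((p : ℕ) : AlgebraicClosure ℚ) := ⟨Nat.cast_ne_zero.mpr hp.ne_zero⟩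
  obtain ⟨ζ, hζ⟩ := HasEnoughRootsOfUnity.exists_primitiveRoot (AlgebraicClosure ℚ) p
  have hfix : ∀ σ : AlgebraicClosure ℚ ≃ₐ[ℚ] AlgebraicClosure ℚ, σ ζ = ζ := by
    intro σ
    rw [gal_cycloExp_spec p σ ζ hζ.pow_eq_one]
    have h1 : ((cycloExp p σ : ℕ) : ZMod p) = ((1 : ℕ) : ZMod p) := by
      rw [hcon σ, Nat.cast_one]
    rw [ZMod.natCast_eq_natCast_iff] at h1
    have h2 : ζ ^ cycloExp p σ = ζ ^ 1 := by
      rw [pow_eq_pow_mod (cycloExp p σ) hζ.pow_eq_one, pow_eq_pow_mod 1 hζ.pow_eq_one]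
      exact congrArg _ h1
    rw [h2, pow_one]
  obtain ⟨q, hq⟩ := h62_rat_of_fixed ζ hfix
  have hq1 : q ^ p = 1 := by
    have := hζ.pow_eq_one
    rw [← hq, ← map_pow] at this
    exact (algebraMap ℚ (AlgebraicClosure ℚ)).injective (by rw [this, map_one])
  have hodd : Odd p := hp.odd_of_ne_two (by omega)
  have hq' : q = 1 := by
    have := hodd.strictMono_pow (R := ℚ)
    exact this.injective (by simpa using hq1)
  have hζ1 : ζ = 1 := by rw [← hq, hq', map_one]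
  have := hζ.eq_orderOf
  rw [hζ1, orderOf_one] at this
  omega

end Fermat.Agent.S14
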