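import Mathlib

set_option autoImplicit false
set_option linter.style.haveILetI false

/-!
# S14, package GAL-F: the number fields `K = ℚ(ζ) ⊆ L` inside `Qbar`

`L` is the fixed field of an open normal subgroup `H` of `Gal(Qbar/ℚ)`, `K = ℚ(ζ)`.
-/

namespace Fermat.Agent.S14

open NumberField

theorem h90_isAlgebraicQbar : Algebra.IsAlgebraic ℚ (AlgebraicClosure ℚ) :=
  AlgebraicClosure.isAlgebraic ℚ

theorem h90_isAlgClosureQbar : IsAlgClosure ℚ (AlgebraicClosure ℚ) :=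
  haveI := h90_isAlgebraicQbar
  ⟨inferInstance, inferInstance⟩

theorem h90_normalQbar : Normal ℚ (AlgebraicClosure ℚ) :=
  haveI := h90_isAlgClosureQbar
  IsAlgClosure.normal ℚ (AlgebraicClosure ℚ)

theorem h90_isGaloisQbar : IsGalois ℚ (AlgebraicClosure ℚ) :=
  haveI := h90_isAlgebraicQbar
  haveI := h90_normalQbar
  { }

attribute [local instance] h90_isAlgebraicQbar h90_isAlgClosureQbar h90_normalQbar
  h90_isGaloisQbar

/-- A ring automorphism of a field is `ℚ`-linear for any `ℚ`-algebra structure. -/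
noncomputable def h90_algEquivOfRingEquiv {L : Type*} [Field L] [Algebra ℚ L] (e : L ≃+* L) :
    L ≃ₐ[ℚ] L :=
  { e with
    commutes' := fun q => by
      simp only [RingEquiv.toEquiv_eq_coe, Equiv.toFun_as_coe, EquivLike.coe_coe, eq_ratCast,
        map_ratCast] }

theorem h90_algEquivOfRingEquiv_apply {L : Type*} [Field L] [Algebra ℚ L] (e : L ≃+* L) (x : L) :
    h90_algEquivOfRingEquiv e x = e x := rfl

theorem gal_fields (p : ℕ) [Fact p.Prime]
    (H : Subgroup (AlgebraicClosure ℚ ≃ₐ[ℚ] AlgebraicClosure ℚ)) [H.Normal]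
    (hH : IsOpen (H : Set (AlgebraicClosure ℚ ≃ₐ[ℚ] AlgebraicClosure ℚ)))
    (ζ : AlgebraicClosure ℚ) (hζ : IsPrimitiveRoot ζ p) (hHζ : ∀ σ ∈ H, σ ζ = ζ) :
    ∃ (K L : Type) (_ : Field K) (_ : NumberField K) (_ : Field L) (_ : NumberField L)
      (_ : Algebra K L) (_ : IsCyclotomicExtension {p} ℚ K) (_ : IsGalois ℚ L)
      (iK : K →+* AlgebraicClosure ℚ) (iL : L →+* AlgebraicClosure ℚ),
      (∀ x : K, iL (algebraMap K L x) = iK x) ∧
      (∃ z : K, iK z = ζ) ∧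
      (∀ σ : AlgebraicClosure ℚ ≃ₐ[ℚ] AlgebraicClosure ℚ,
        ∃ τ : L ≃ₐ[ℚ] L, ∀ x : L, iL (τ x) = σ (iL x)) ∧
      (∀ τ : L ≃ₐ[ℚ] L, ∃ σ : AlgebraicClosure ℚ ≃ₐ[ℚ] AlgebraicClosure ℚ,
        ∀ x : L, iL (τ x) = σ (iL x)) ∧
      (∀ σ : AlgebraicClosure ℚ ≃ₐ[ℚ] AlgebraicClosure ℚ, (∀ x : L, σ (iL x) = iL x) → σ ∈ H) ∧
      (∀ σ ∈ H, ∀ x : L, σ (iL x) = iL x) := by
  classical
  let Hc : ClosedSubgroup (AlgebraicClosure ℚ ≃ₐ[ℚ] AlgebraicClosure ℚ) :=
    ⟨H, H.isClosed_of_isOpen hH⟩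
  let Lf : IntermediateField ℚ (AlgebraicClosure ℚ) := IntermediateField.fixedField H
  have hfix : Lf.fixingSubgroup = H := InfiniteGalois.fixingSubgroup_fixedField Hc
  haveI hfin : FiniteDimensional ℚ Lf :=
    (InfiniteGalois.isOpen_iff_finite Lf).mp (by rw [hfix]; exact hH)
  haveI hgal : IsGalois ℚ Lf :=
    (InfiniteGalois.normal_iff_isGalois Lf).mp (by rw [hfix]; infer_instance)
  have hζL : ζ ∈ Lf := fun σ => hHζ σ.1 σ.2
  let Kf : IntermediateField ℚ (AlgebraicClosure ℚ) := IntermediateField.adjoin ℚ {ζ}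
  have hKL : Kf ≤ Lf := IntermediateField.adjoin_le_iff.mpr (by simpa using hζL)
  haveI : NeZero p := ⟨(Fact.out : p.Prime).ne_zero⟩
  haveI hcyc : IsCyclotomicExtension {p} ℚ Kf :=
    hζ.intermediateField_adjoin_isCyclotomicExtension ℚ
  haveI hfinK : FiniteDimensional ℚ Kf := IsCyclotomicExtension.finiteDimensional {p} ℚ Kf
  haveI nfK : NumberField Kf := NumberField.of_module_finite ℚ Kf
  haveI nfL : NumberField Lf := NumberField.of_module_finite ℚ Lf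
  refine ⟨Kf, Lf, inferInstance, nfK, inferInstance, nfL,
    (IntermediateField.inclusion hKL).toRingHom.toAlgebra, ?_, ?_,
    Kf.val.toRingHom, Lf.val.toRingHom, ?_, ?_, ?_, ?_, ?_, ?_⟩
  · convert hcyc
  · convert hgal
  · intro x
    rfl
  · exact ⟨⟨ζ, IntermediateField.mem_adjoin_simple_self ℚ ζ⟩, rfl⟩
  · intro σ
    refine ⟨h90_algEquivOfRingEquiv (σ.restrictNormal Lf).toRingEquiv, fun x => ?_⟩
    exact AlgEquiv.restrictNormal_commutes σ Lf x
  · intro τ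
    let τ' : Lf ≃ₐ[ℚ] Lf := h90_algEquivOfRingEquiv τ.toRingEquiv
    refine ⟨τ'.liftNormal (AlgebraicClosure ℚ), fun x => ?_⟩
    exact (AlgEquiv.liftNormal_commutes τ' (AlgebraicClosure ℚ) x).symm
  · intro σ hσ
    rw [← hfix, IntermediateField.mem_fixingSubgroup_iff]
    intro x hx
    exact hσ ⟨x, hx⟩
  · intro σ hσ x
    exact x.2 ⟨σ, hσ⟩

end Fermat.Agent.S14
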