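import Mathlib
import Fermat.Prelude.Def_ExtCitation_AdmissibleExtension_v2

/-!
S14, package GAL-LA: linear algebra of the Galois action on an admissible extension `V`
(no number theory).
-/

namespace Fermat.Agent.S14

open ExtCitation

set_option linter.unusedSectionVars false

section LA

variable (p : ℕ) [Fact p.Prime] (V : Type) [AddCommGroup V] [Module (ZMod p) V]
  [DistribMulAction (AlgebraicClosure ℚ ≃ₐ[ℚ] AlgebraicClosure ℚ) V]
  [SMulCommClass (AlgebraicClosure ℚ ≃ₐ[ℚ] AlgebraicClosure ℚ) (ZMod p) V]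
  (C : Submodule (ZMod p) V)

/-! #### private helpers -/

theorem h95_finite (hadm : IsAdmissibleExtension p V C) : Finite V := by
  have hp : p.Prime := Fact.out
  apply Nat.finite_of_card_ne_zero
  rw [hadm.card_total]
  exact pow_ne_zero 2 hp.ne_zero

theorem h95_exists_not_mem (hadm : IsAdmissibleExtension p V C) : ∃ x : V, x ∉ C := by
  have hp : p.Prime := Fact.out
  by_contra hcon
  push Not at hcon
  have h1 : Nat.card C = Nat.card V :=
    Nat.card_congr (Equiv.subtypeUnivEquiv (p := fun x => x ∈ C) hcon)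
  rw [hadm.card_sub, hadm.card_total] at h1
  have h2 : p * 1 = p * p := by rw [mul_one, ← sq]; exact h1
  have h3 := Nat.eq_of_mul_eq_mul_left hp.pos h2
  exact hp.one_lt.ne h3

omit [DistribMulAction (AlgebraicClosure ℚ ≃ₐ[ℚ] AlgebraicClosure ℚ) V]
  [SMulCommClass (AlgebraicClosure ℚ ≃ₐ[ℚ] AlgebraicClosure ℚ) (ZMod p) V] in
theorem h95_smul_mem_iff {x₀ : V} (hx₀ : x₀ ∉ C) (a : ZMod p) : a • x₀ ∈ C ↔ a = 0 := by
  constructor
  · intro h
    by_contra ha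
    apply hx₀
    have := C.smul_mem a⁻¹ h
    rwa [smul_smul, inv_mul_cancel₀ ha, one_smul] at this
  · rintro rfl
    rw [zero_smul]
    exact C.zero_mem

theorem h95_decomp (hadm : IsAdmissibleExtension p V C) {x₀ : V} (hx₀ : x₀ ∉ C) (v : V) :
    ∃ a : ZMod p, ∃ c ∈ C, v = a • x₀ + c := by
  have hp : p.Prime := Fact.out
  have hfin : Finite V := h95_finite p V C hadm
  let f : ZMod p × C → V := fun ac => ac.1 • x₀ + (ac.2 : V)
  have hinj : Function.Injective f := by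
    rintro ⟨a, c⟩ ⟨a', c'⟩ h
    simp only [f] at h
    have h1 : (a - a') • x₀ = (c' : V) - (c : V) := by
      rw [sub_smul]
      have := h
      rw [← sub_eq_zero] at this ⊢
      rw [← this]; abel
    have h2 : (a - a') • x₀ ∈ C := by rw [h1]; exact C.sub_mem c'.2 c.2
    have h3 : a = a' := sub_eq_zero.mp ((h95_smul_mem_iff p V C hx₀ _).mp h2)
    subst h3
    have h4 : (c : V) = (c' : V) := by simpa using h
    rw [Subtype.ext h4]
  have hcard : Nat.card (ZMod p × C) = Nat.card V := by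
    rw [Nat.card_prod, hadm.card_sub, hadm.card_total, Nat.card_zmod, sq]
  have hbij : Function.Bijective f := by
    have : Finite (ZMod p × C) := by
      apply Nat.finite_of_card_ne_zero
      rw [hcard, hadm.card_total]
      exact pow_ne_zero 2 hp.ne_zero
    exact (Nat.bijective_iff_injective_and_card f).mpr ⟨hinj, hcard⟩
  obtain ⟨⟨a, c⟩, hac⟩ := hbij.2 v
  exact ⟨a, c, c.2, hac.symm⟩

theorem h95_line (hadm : IsAdmissibleExtension p V C) {c₀ : V} (hc₀ : c₀ ∈ C) (hne : c₀ ≠ 0)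
    {c : V} (hc : c ∈ C) : ∃ a : ZMod p, c = a • c₀ := by
  have hp : p.Prime := Fact.out
  have hfin : Finite V := h95_finite p V C hadm
  let g : ZMod p → C := fun a => ⟨a • c₀, C.smul_mem a hc₀⟩
  have hinj : Function.Injective g := by
    intro a a' h
    have h1 : a • c₀ = a' • c₀ := congrArg Subtype.val h
    have h2 : (a - a') • c₀ = 0 := by rw [sub_smul, h1, sub_self]
    rcases smul_eq_zero.mp h2 with h3 | h3
    · exact sub_eq_zero.mp h3
    · exact absurd h3 hne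
  have hcard : Nat.card (ZMod p) = Nat.card C := by
    rw [hadm.card_sub, Nat.card_zmod]
  have hbij : Function.Bijective g :=
    (Nat.bijective_iff_injective_and_card g).mpr ⟨hinj, hcard⟩
  obtain ⟨a, ha⟩ := hbij.2 ⟨c, hc⟩
  exact ⟨a, (congrArg Subtype.val ha).symm⟩

/-- for `τ` with trivial cyclotomic exponent, `τ v - v ∈ C` -/
theorem h95_sub_mem (hadm : IsAdmissibleExtension p V C)
    (τ : AlgebraicClosure ℚ ≃ₐ[ℚ] AlgebraicClosure ℚ)
    (h : ((cycloExp p τ : ℕ) : ZMod p) = 1) (v : V) : τ • v - v ∈ C := by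
  have := hadm.cyclo_quot τ v
  rwa [h, one_smul] at this

theorem h95_pow_smul (hadm : IsAdmissibleExtension p V C)
    (τ : AlgebraicClosure ℚ ≃ₐ[ℚ] AlgebraicClosure ℚ)
    (h : ((cycloExp p τ : ℕ) : ZMod p) = 1) (k : ℕ) (v : V) :
    (τ ^ k) • v = v + (k : ZMod p) • (τ • v - v) := by
  induction k with
  | zero => simp
  | succ k ih =>
    have hb : τ • (τ • v - v) = τ • v - v := hadm.fixed_sub τ _ (h95_sub_mem p V C hadm τ h v)
    rw [pow_succ', mul_smul, ih, smul_add, smul_comm τ, hb, Nat.cast_succ, add_smul, one_smul]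
    abel

/-- the exponent is multiplicative (read off from the action on `V ⧸ C`) -/
theorem h95_w_mul (hadm : IsAdmissibleExtension p V C)
    (σ τ : AlgebraicClosure ℚ ≃ₐ[ℚ] AlgebraicClosure ℚ) :
    ((cycloExp p (σ * τ) : ℕ) : ZMod p) =
      ((cycloExp p σ : ℕ) : ZMod p) * ((cycloExp p τ : ℕ) : ZMod p) := by
  obtain ⟨x₀, hx₀⟩ := h95_exists_not_mem p V C hadm
  have h1 := hadm.cyclo_quot (σ * τ) x₀
  have h2 := hadm.cyclo_quot τ x₀
  have h3 := hadm.cyclo_quot σ x₀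
  have h4 := hadm.fixed_sub σ _ h2
  rw [smul_sub, smul_comm σ ((cycloExp p τ : ℕ) : ZMod p) x₀, ← mul_smul] at h4
  have h6 : (((cycloExp p σ : ℕ) : ZMod p) * ((cycloExp p τ : ℕ) : ZMod p) -
      ((cycloExp p (σ * τ) : ℕ) : ZMod p)) • x₀ ∈ C := by
    have e : (((cycloExp p σ : ℕ) : ZMod p) * ((cycloExp p τ : ℕ) : ZMod p) -
        ((cycloExp p (σ * τ) : ℕ) : ZMod p)) • x₀ =
        ((σ * τ) • x₀ - ((cycloExp p (σ * τ) : ℕ) : ZMod p) • x₀) -
          (τ • x₀ - ((cycloExp p τ : ℕ) : ZMod p) • x₀) -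
          ((cycloExp p τ : ℕ) : ZMod p) • (σ • x₀ - ((cycloExp p σ : ℕ) : ZMod p) • x₀) := by
      rw [← h4]
      generalize (σ * τ) • x₀ = y₁
      generalize σ • x₀ = y₂
      generalize ((cycloExp p σ : ℕ) : ZMod p) = a
      generalize ((cycloExp p τ : ℕ) : ZMod p) = b
      generalize ((cycloExp p (σ * τ) : ℕ) : ZMod p) = c
      module
    rw [e]
    exact C.sub_mem (C.sub_mem h1 h2) (C.smul_mem _ h3)
  exact (sub_eq_zero.mp ((h95_smul_mem_iff p V C hx₀ _).mp h6)).symm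

/-! #### exported statements (row GAL-LA) -/

theorem gal_cycloExp_of_trivial (hadm : IsAdmissibleExtension p V C)
    (σ : AlgebraicClosure ℚ ≃ₐ[ℚ] AlgebraicClosure ℚ) (hσ : ∀ v : V, σ • v = v) :
    ((cycloExp p σ : ℕ) : ZMod p) = 1 := by
  obtain ⟨x₀, hx₀⟩ := h95_exists_not_mem p V C hadm
  have h1 := hadm.cyclo_quot σ x₀
  rw [hσ x₀] at h1
  have h2 : (1 - ((cycloExp p σ : ℕ) : ZMod p)) • x₀ ∈ C := by rwa [sub_smul, one_smul]
  have h3 := (h95_smul_mem_iff p V C hx₀ _).mp h2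
  exact (sub_eq_zero.mp h3).symm

theorem gal_exists_pow (hadm : IsAdmissibleExtension p V C)
    (τ₁ τ₂ : AlgebraicClosure ℚ ≃ₐ[ℚ] AlgebraicClosure ℚ)
    (h₁ : ((cycloExp p τ₁ : ℕ) : ZMod p) = 1) (h₂ : ((cycloExp p τ₂ : ℕ) : ZMod p) = 1)
    (hne : ¬ ∀ v : V, τ₁ • v = v) : ∃ k : ℕ, k < p ∧ ∀ v : V, τ₂ • v = (τ₁ ^ k) • v := by
  have hp : p.Prime := Fact.out
  have : NeZero p := ⟨hp.ne_zero⟩
  push Not at hne
  obtain ⟨x₁, hx₁⟩ := hne
  have hx₁C : x₁ ∉ C := fun hmem => hx₁ (hadm.fixed_sub τ₁ x₁ hmem)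
  have hc₁ : τ₁ • x₁ - x₁ ∈ C := h95_sub_mem p V C hadm τ₁ h₁ x₁
  have hc₁ne : τ₁ • x₁ - x₁ ≠ 0 := sub_ne_zero.mpr hx₁
  have hc₂ : τ₂ • x₁ - x₁ ∈ C := h95_sub_mem p V C hadm τ₂ h₂ x₁
  obtain ⟨a, ha⟩ := h95_line p V C hadm hc₁ hc₁ne hc₂
  refine ⟨a.val, ZMod.val_lt a, fun v => ?_⟩
  obtain ⟨a', c, hc, rfl⟩ := h95_decomp p V C hadm hx₁C v
  rw [h95_pow_smul p V C hadm τ₁ h₁, ZMod.natCast_val, ZMod.cast_id', id]
  rw [smul_add, smul_add, smul_comm τ₂ a' x₁, smul_comm τ₁ a' x₁, hadm.fixed_sub τ₂ c hc,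
    hadm.fixed_sub τ₁ c hc]
  have h2 : τ₂ • x₁ = x₁ + a • (τ₁ • x₁ - x₁) := by rw [← ha]; abel
  rw [h2]
  generalize τ₁ • x₁ = y
  module

theorem gal_pow_smul_ne (hadm : IsAdmissibleExtension p V C)
    (τ₁ : AlgebraicClosure ℚ ≃ₐ[ℚ] AlgebraicClosure ℚ)
    (h₁ : ((cycloExp p τ₁ : ℕ) : ZMod p) = 1) (hne : ¬ ∀ v : V, τ₁ • v = v)
    (j k : ℕ) (hj : j < p) (hk : k < p) (hjk : ∀ v : V, (τ₁ ^ j) • v = (τ₁ ^ k) • v) : j = k := by
  push Not at hne
  obtain ⟨x₁, hx₁⟩ := hne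
  have h := hjk x₁
  rw [h95_pow_smul p V C hadm τ₁ h₁, h95_pow_smul p V C hadm τ₁ h₁] at h
  have h2 : ((j : ZMod p) - (k : ZMod p)) • (τ₁ • x₁ - x₁) = 0 := by
    rw [sub_smul]; exact sub_eq_zero.mpr (add_left_cancel h)
  rcases smul_eq_zero.mp h2 with h3 | h3
  · have h4 : (j : ZMod p) = (k : ZMod p) := sub_eq_zero.mp h3
    have := (ZMod.natCast_eq_natCast_iff' j k p).mp h4
    rwa [Nat.mod_eq_of_lt hj, Nat.mod_eq_of_lt hk] at this
  · exact absurd (sub_eq_zero.mp h3) hx₁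

theorem gal_pow_p (hadm : IsAdmissibleExtension p V C)
    (τ : AlgebraicClosure ℚ ≃ₐ[ℚ] AlgebraicClosure ℚ)
    (h : ((cycloExp p τ : ℕ) : ZMod p) = 1) (v : V) : (τ ^ p) • v = v := by
  rw [h95_pow_smul p V C hadm τ h, ZMod.natCast_self, zero_smul, add_zero]

theorem gal_twist (hadm : IsAdmissibleExtension p V C)
    (σ τ : AlgebraicClosure ℚ ≃ₐ[ℚ] AlgebraicClosure ℚ)
    (hτ : ((cycloExp p τ : ℕ) : ZMod p) = 1) (m : ℕ) (hm : (m : ZMod p) = (cycloExp p σ : ZMod p))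
    (v : V) : (σ * τ ^ m * σ⁻¹) • v = τ • v := by
  obtain ⟨u, hu⟩ : ∃ u : V, u = σ⁻¹ • v := ⟨_, rfl⟩
  have hv : σ • u = v := by rw [hu, smul_inv_smul]
  have hb : τ • u - u ∈ C := h95_sub_mem p V C hadm τ hτ u
  rw [mul_smul, mul_smul, ← hu, h95_pow_smul p V C hadm τ hτ, smul_add,
    smul_comm σ (m : ZMod p) (τ • u - u), hadm.fixed_sub σ _ hb, hv]
  have h1 := hadm.cyclo_quot σ u
  rw [hv, ← hm] at h1
  have h2 := hadm.fixed_sub τ _ h1
  rw [smul_sub, smul_comm τ (m : ZMod p) u] at h2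
  have h3 : τ • v = v + (m : ZMod p) • (τ • u - u) := by
    rw [sub_eq_iff_eq_add] at h2
    rw [h2]
    generalize τ • u = y
    module
  rw [h3]

theorem gal_splits_of_trivial (hadm : IsAdmissibleExtension p V C)
    (h : ∀ τ : AlgebraicClosure ℚ ≃ₐ[ℚ] AlgebraicClosure ℚ,
      ((cycloExp p τ : ℕ) : ZMod p) = 1 → ∀ v : V, τ • v = v)
    (σ₀ : AlgebraicClosure ℚ ≃ₐ[ℚ] AlgebraicClosure ℚ)
    (hσ₀ : ((cycloExp p σ₀ : ℕ) : ZMod p) ≠ 1) : SplitsGlobally C := by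
  have hw1 : ((cycloExp p (1 : AlgebraicClosure ℚ ≃ₐ[ℚ] AlgebraicClosure ℚ) : ℕ) : ZMod p) = 1 :=
    gal_cycloExp_of_trivial p V C hadm 1 (fun v => one_smul _ v)
  have hinv : ∀ σ : AlgebraicClosure ℚ ≃ₐ[ℚ] AlgebraicClosure ℚ,
      ((cycloExp p σ : ℕ) : ZMod p) * ((cycloExp p σ⁻¹ : ℕ) : ZMod p) = 1 := by
    intro σ
    rw [← h95_w_mul p V C hadm, mul_inv_cancel, hw1]
  have hcomm : ∀ σ : AlgebraicClosure ℚ ≃ₐ[ℚ] AlgebraicClosure ℚ, ∀ v : V,
      σ₀ • σ • v = σ • σ₀ • v := by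
    intro σ v
    have hγ : ((cycloExp p (σ₀ * σ * σ₀⁻¹ * σ⁻¹) : ℕ) : ZMod p) = 1 := by
      rw [h95_w_mul p V C hadm, h95_w_mul p V C hadm, h95_w_mul p V C hadm]
      calc ((cycloExp p σ₀ : ℕ) : ZMod p) * ((cycloExp p σ : ℕ) : ZMod p) *
            ((cycloExp p σ₀⁻¹ : ℕ) : ZMod p) * ((cycloExp p σ⁻¹ : ℕ) : ZMod p)
          = (((cycloExp p σ₀ : ℕ) : ZMod p) * ((cycloExp p σ₀⁻¹ : ℕ) : ZMod p)) *
            (((cycloExp p σ : ℕ) : ZMod p) * ((cycloExp p σ⁻¹ : ℕ) : ZMod p)) := by ring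
        _ = 1 := by rw [hinv σ₀, hinv σ, one_mul]
    have := h _ hγ (σ • σ₀ • v)
    rw [mul_smul, mul_smul, mul_smul, inv_smul_smul, inv_smul_smul] at this
    exact this
  set w₀ : ZMod p := ((cycloExp p σ₀ : ℕ) : ZMod p) with hw₀
  let C' : Submodule (ZMod p) V :=
    { carrier := {x | σ₀ • x = w₀ • x}
      add_mem' := by
        intro a b ha hb
        simp only [Set.mem_ofPred_eq] at *
        rw [smul_add, ha, hb, smul_add]
      zero_mem' := by simp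
      smul_mem' := by
        intro c x hx
        simp only [Set.mem_ofPred_eq] at *
        rw [smul_comm σ₀ c x, hx, smul_comm c w₀ x] }
  have hmemC' : ∀ x : V, x ∈ C' ↔ σ₀ • x = w₀ • x := fun x => Iff.rfl
  refine ⟨C', ?_, ?_⟩
  · intro σ x hx
    rw [hmemC'] at hx ⊢
    rw [hcomm σ x, hx, smul_comm σ w₀ x]
  · have hw : (1 - w₀) ≠ 0 := sub_ne_zero.mpr (Ne.symm hσ₀)
    constructor
    · rw [Submodule.disjoint_def]
      intro x hxC hxC'
      have h1 : σ₀ • x = x := hadm.fixed_sub σ₀ x hxC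
      have h2 : σ₀ • x = w₀ • x := (hmemC' x).mp hxC'
      have h3 : (1 - w₀) • x = 0 := by rw [sub_smul, one_smul, ← h2, h1, sub_self]
      exact (smul_eq_zero.mp h3).resolve_left hw
    · rw [codisjoint_iff, eq_top_iff]
      intro v _
      have hc : σ₀ • v - w₀ • v ∈ C := hadm.cyclo_quot σ₀ v
      set d : V := (1 - w₀)⁻¹ • (σ₀ • v - w₀ • v) with hd
      have hdC : d ∈ C := C.smul_mem _ hc
      have hd' : (1 - w₀) • d = σ₀ • v - w₀ • v := by
        rw [hd, smul_smul, mul_inv_cancel₀ hw, one_smul]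
      have hx : v - d ∈ C' := by
        rw [hmemC', smul_sub, hadm.fixed_sub σ₀ _ hdC]
        have e : σ₀ • v = (1 - w₀) • d + w₀ • v := by rw [hd']; abel
        rw [e]
        clear_value d
        module
      have e : v = d + (v - d) := by abel
      rw [e]
      exact Submodule.add_mem_sup hdC hx

theorem gal_trivial_of_decomp (hadm : IsAdmissibleExtension p V C)
    (A : ValuationSubring (AlgebraicClosure ℚ)) (hA : A.LiesOverPrime p)
    (σ : AlgebraicClosure ℚ ≃ₐ[ℚ] AlgebraicClosure ℚ) (hσ : σ ∈ A.decompositionSubgroup ℚ)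
    (h1 : ((cycloExp p σ : ℕ) : ZMod p) = 1) (v : V) : σ • v = v := by
  obtain ⟨C', hC', hcompl⟩ := hadm.locally_split A hA
  have hv : v ∈ C ⊔ C' := by rw [hcompl.sup_eq_top]; trivial
  obtain ⟨c, hc, x, hx, rfl⟩ := Submodule.mem_sup.mp hv
  have h2 : σ • x - x ∈ C := h95_sub_mem p V C hadm σ h1 x
  have h3 : σ • x - x ∈ C' := C'.sub_mem (hC' σ hσ x hx) hx
  have h4 : σ • x - x = 0 := by
    have := hcompl.disjoint
    rw [Submodule.disjoint_def] at this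
    exact this _ h2 h3
  rw [smul_add, hadm.fixed_sub σ c hc, sub_eq_zero.mp h4]

end LA

end Fermat.Agent.S14
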