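import Mathlib
import Fermat.Agent.S14.Defs
import Fermat.Agent.S14.GalCyc
import Fermat.Agent.S14.GalLA
import Fermat.Agent.S14.GalFields
import Fermat.Agent.S14.GalVal
import Fermat.Prelude.Def_ExtCitation_AdmissibleExtension_v2

/-!
Package GAL of project S14, assembly: from a non-split admissible extension to `CoreData`.
-/

namespace Fermat.Agent.S14

open NumberField ExtCitation
open scoped Pointwise

section ker

variable (V : Type) [AddCommGroup V]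
  [DistribMulAction (AlgebraicClosure ℚ ≃ₐ[ℚ] AlgebraicClosure ℚ) V]

/-- kernel of the Galois action on `V` -/
def h31_actKer : Subgroup (AlgebraicClosure ℚ ≃ₐ[ℚ] AlgebraicClosure ℚ) where
  carrier := {σ | ∀ v : V, σ • v = v}
  mul_mem' := by
    intro a b ha hb v
    rw [mul_smul, hb, ha]
  one_mem' := by
    intro v
    exact one_smul _ v
  inv_mem' := by
    intro a ha v
    rw [inv_smul_eq_iff, ha]

theorem h31_mem_actKer {σ : AlgebraicClosure ℚ ≃ₐ[ℚ] AlgebraicClosure ℚ} :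
    σ ∈ h31_actKer V ↔ ∀ v : V, σ • v = v := Iff.rfl

instance h31_actKer_normal : (h31_actKer V).Normal := ⟨by
  intro n hn g v
  rw [mul_smul, mul_smul, hn, smul_inv_smul]⟩

end ker

theorem h31_cast_eq_of_pow_eq (p : ℕ) [Fact p.Prime] {ζ : AlgebraicClosure ℚ}
    (hζ : IsPrimitiveRoot ζ p) {a b : ℕ} (h : ζ ^ a = ζ ^ b) : (a : ZMod p) = (b : ZMod p) := by
  have hp : 0 < p := (Fact.out : p.Prime).pos
  have h1 : ζ ^ (a % p) = ζ ^ (b % p) := by
    rw [← pow_eq_pow_mod a hζ.pow_eq_one, ← pow_eq_pow_mod b hζ.pow_eq_one, h]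
  have h2 := hζ.pow_inj (Nat.mod_lt _ hp) (Nat.mod_lt _ hp) h1
  exact (ZMod.natCast_eq_natCast_iff' a b p).2 h2

theorem h31_pow_eq_of_cast_eq (p : ℕ) [Fact p.Prime] {ζ : AlgebraicClosure ℚ}
    (hζ : ζ ^ p = 1) {a b : ℕ} (h : (a : ZMod p) = (b : ZMod p)) : ζ ^ a = ζ ^ b := by
  have h2 := (ZMod.natCast_eq_natCast_iff' a b p).1 h
  rw [pow_eq_pow_mod a hζ, pow_eq_pow_mod b hζ, h2]

theorem h31_cast_eq_one_iff (p : ℕ) [Fact p.Prime] {ζ : AlgebraicClosure ℚ}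
    (hζ : IsPrimitiveRoot ζ p) (σ : AlgebraicClosure ℚ ≃ₐ[ℚ] AlgebraicClosure ℚ) :
    ((cycloExp p σ : ℕ) : ZMod p) = 1 ↔ σ ζ = ζ := by
  rw [gal_cycloExp_spec p σ ζ hζ.pow_eq_one]
  constructor
  · intro h
    have := h31_pow_eq_of_cast_eq p hζ.pow_eq_one (a := cycloExp p σ) (b := 1) (by simpa using h)
    simpa using this
  · intro h
    have := h31_cast_eq_of_pow_eq p hζ (a := cycloExp p σ) (b := 1) (by simpa using h)
    simpa using this

/-- compatibility of restrictions with inverses -/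
theorem h31_res_inv {L : Type} [Field L] [NumberField L] (iL : L →+* AlgebraicClosure ℚ)
    (τ : L ≃ₐ[ℚ] L) (σ : AlgebraicClosure ℚ ≃ₐ[ℚ] AlgebraicClosure ℚ)
    (h : ∀ x : L, iL (τ x) = σ (iL x)) (x : L) : iL (τ⁻¹ x) = σ⁻¹ (iL x) := by
  have h1 := h (τ⁻¹ x)
  have h2 : τ (τ⁻¹ x) = x := by
    rw [← AlgEquiv.mul_apply, mul_inv_cancel, AlgEquiv.one_apply]
  rw [h2] at h1
  rw [h1, ← AlgEquiv.mul_apply, inv_mul_cancel, AlgEquiv.one_apply]

/-- compatibility of restrictions with products -/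
theorem h31_res_mul {L : Type} [Field L] [NumberField L] (iL : L →+* AlgebraicClosure ℚ)
    (τ τ' : L ≃ₐ[ℚ] L) (σ σ' : AlgebraicClosure ℚ ≃ₐ[ℚ] AlgebraicClosure ℚ)
    (h : ∀ x : L, iL (τ x) = σ (iL x)) (h' : ∀ x : L, iL (τ' x) = σ' (iL x)) (x : L) :
    iL ((τ * τ') x) = (σ * σ') (iL x) := by
  rw [AlgEquiv.mul_apply, AlgEquiv.mul_apply, h, h']

/-- compatibility of restrictions with powers -/
theorem h31_res_pow {L : Type} [Field L] [NumberField L] (iL : L →+* AlgebraicClosure ℚ)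
    (τ : L ≃ₐ[ℚ] L) (σ : AlgebraicClosure ℚ ≃ₐ[ℚ] AlgebraicClosure ℚ)
    (h : ∀ x : L, iL (τ x) = σ (iL x)) (n : ℕ) (x : L) : iL ((τ ^ n) x) = (σ ^ n) (iL x) := by
  induction n generalizing x with
  | zero => simp
  | succ n ih =>
    rw [pow_succ, pow_succ]
    exact h31_res_mul iL _ _ _ _ ih h x

/-- a `ℚ`-automorphism of `L` fixing `K` pointwise, as a `K`-automorphism -/
def h31_toK {K L : Type} [Field K] [Field L] [NumberField L] [Algebra K L] (τ : L ≃ₐ[ℚ] L)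
    (h : ∀ x : K, τ (algebraMap K L x) = algebraMap K L x) : L ≃ₐ[K] L :=
  AlgEquiv.ofRingEquiv (f := τ.toRingEquiv) h

@[simp] theorem h31_toK_apply {K L : Type} [Field K] [Field L] [NumberField L] [Algebra K L] (τ : L ≃ₐ[ℚ] L)
    (h : ∀ x : K, τ (algebraMap K L x) = algebraMap K L x) (x : L) : h31_toK τ h x = τ x := rfl

/-- an automorphism of `Qbar` fixing `ζ` fixes the image of the cyclotomic field `K` -/
theorem h31_fix_K (p : ℕ) [Fact p.Prime] {K : Type} [Field K] [NumberField K]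
    [IsCyclotomicExtension {p} ℚ K] (iK : K →+* AlgebraicClosure ℚ) (z : K)
    (hz : IsPrimitiveRoot z p) (σ : AlgebraicClosure ℚ ≃ₐ[ℚ] AlgebraicClosure ℚ)
    (hσ : σ (iK z) = iK z) (x : K) : σ (iK x) = iK x := by
  have : NeZero p := ⟨(Fact.out : p.Prime).ne_zero⟩
  have htop : Algebra.adjoin ℚ {z} = ⊤ :=
    IsCyclotomicExtension.adjoin_primitive_root_eq_top hz
  let f : K →ₐ[ℚ] AlgebraicClosure ℚ := (σ : AlgebraicClosure ℚ →ₐ[ℚ] AlgebraicClosure ℚ).comp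
    iK.toRatAlgHom
  let g : K →ₐ[ℚ] AlgebraicClosure ℚ := iK.toRatAlgHom
  have hfg : f = g := by
    apply AlgHom.ext_of_adjoin_eq_top htop
    intro y hy
    rw [Set.mem_singleton_iff] at hy
    subst hy
    exact hσ
  exact DFunLike.congr_fun hfg x

/-- the image under a field embedding of a primitive root is primitive -/
theorem h31_prim_map {K : Type} [Field K] (iK : K →+* AlgebraicClosure ℚ) {z : K} {p : ℕ}
    (hz : IsPrimitiveRoot z p) : IsPrimitiveRoot (iK z) p :=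
  hz.map_of_injective iK.injective

section main

variable (p : ℕ) [Fact p.Prime] (V : Type) [AddCommGroup V] [Module (ZMod p) V]
  [DistribMulAction (AlgebraicClosure ℚ ≃ₐ[ℚ] AlgebraicClosure ℚ) V]
  [SMulCommClass (AlgebraicClosure ℚ ≃ₐ[ℚ] AlgebraicClosure ℚ) (ZMod p) V]
  (C : Submodule (ZMod p) V)

/-- The data produced by `gal_fields`, together with the admissible extension, give `CoreData`. -/
theorem h31_coreData (hadm : IsAdmissibleExtension p V C)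
    (K L : Type) [Field K] [NumberField K] [Field L] [NumberField L] [Algebra K L]
    [IsCyclotomicExtension {p} ℚ K] [IsGalois ℚ L]
    (iK : K →+* AlgebraicClosure ℚ) (iL : L →+* AlgebraicClosure ℚ)
    (hKL : ∀ x : K, iL (algebraMap K L x) = iK x)
    (ζ : AlgebraicClosure ℚ) (hζ : IsPrimitiveRoot ζ p) (hz : ∃ z : K, iK z = ζ)
    (hres : ∀ σ : AlgebraicClosure ℚ ≃ₐ[ℚ] AlgebraicClosure ℚ,
        ∃ τ : L ≃ₐ[ℚ] L, ∀ x : L, iL (τ x) = σ (iL x))
    (hlift : ∀ τ : L ≃ₐ[ℚ] L, ∃ σ : AlgebraicClosure ℚ ≃ₐ[ℚ] AlgebraicClosure ℚ,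
        ∀ x : L, iL (τ x) = σ (iL x))
    (hfixH : ∀ σ : AlgebraicClosure ℚ ≃ₐ[ℚ] AlgebraicClosure ℚ,
      (∀ x : L, σ (iL x) = iL x) → σ ∈ h31_actKer V)
    (hHfix : ∀ σ ∈ h31_actKer V, ∀ x : L, σ (iL x) = iL x)
    (τ₁ : AlgebraicClosure ℚ ≃ₐ[ℚ] AlgebraicClosure ℚ)
    (hτ₁ : ((cycloExp p τ₁ : ℕ) : ZMod p) = 1) (hτ₁ne : ¬ ∀ v : V, τ₁ • v = v) :
    CoreData p K L := by
  have hpp : p.Prime := Fact.out
  obtain ⟨z, hzζ⟩ := hz
  have hzprim : IsPrimitiveRoot z p := by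
    have h1 : IsPrimitiveRoot (iK z) p := hzζ ▸ hζ
    exact IsPrimitiveRoot.of_map_of_injective h1 iK.injective
  have hiL : Function.Injective iL := iL.injective
  have : IsGalois K L := IsGalois.tower_top_of_isGalois ℚ K L
  -- an element of `Γ` with exponent one fixes `iK K`
  have hfixK : ∀ σ : AlgebraicClosure ℚ ≃ₐ[ℚ] AlgebraicClosure ℚ,
      ((cycloExp p σ : ℕ) : ZMod p) = 1 → ∀ x : K, σ (iK x) = iK x := by
    intro σ hσ x
    apply h31_fix_K p iK z hzprim σ _ x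
    rw [hzζ]
    exact (h31_cast_eq_one_iff p hζ σ).1 hσ
  -- a lift of a `K`-automorphism has exponent one
  have hexp_of_fix : ∀ (g : L ≃ₐ[ℚ] L) (σ : AlgebraicClosure ℚ ≃ₐ[ℚ] AlgebraicClosure ℚ),
      (∀ x : L, iL (g x) = σ (iL x)) → (∀ x : K, g (algebraMap K L x) = algebraMap K L x) →
      ((cycloExp p σ : ℕ) : ZMod p) = 1 := by
    intro g σ hgσ hg
    rw [h31_cast_eq_one_iff p hζ σ, ← hzζ, ← hKL z, ← hgσ, hg]
  -- triviality on `V` from equality on `L`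
  have htriv_of_fix : ∀ σ : AlgebraicClosure ℚ ≃ₐ[ℚ] AlgebraicClosure ℚ,
      (∀ x : L, σ (iL x) = iL x) → ∀ v : V, σ • v = v := fun σ h => hfixH σ h
  -- elements of `Γ` in the kernel restrict trivially
  have hone_of_ker : ∀ (g : L ≃ₐ[K] L) (σ' : AlgebraicClosure ℚ ≃ₐ[ℚ] AlgebraicClosure ℚ),
      (∀ x : L, σ' (iL x) = iL (g x)) → σ' ∈ h31_actKer V → g = 1 := by
    intro g σ' hσ' hker
    ext x
    apply hiL
    rw [← hσ', hHfix σ' hker x]
    rfl
  -- the inertia groups of `L / K` are trivial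
  have hinert : ∀ (Q : Ideal (𝓞 L)), Q.IsPrime → Q ≠ ⊥ → ∀ g : L ≃ₐ[K] L,
      (∀ x : 𝓞 L, g • x - x ∈ Q) → g = 1 := by
    intro Q hQ hQ0 g hg
    obtain ⟨A, ℓ, hℓ, hAℓ, hℓQ, hA⟩ := gal_exists_valuationSubring L iL Q hQ0
    obtain ⟨σ, hσ⟩ := hlift (g.restrictScalars ℚ)
    have hσin : ∀ x : 𝓞 L, σ (iL (x : L)) - iL (x : L) ∈ A.nonunits := by
      intro x
      have h1 := (hA (g • x - x)).2.2 (hg x)
      have h2 : ((g • x - x : 𝓞 L) : L) = g (x : L) - (x : L) := by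
        change (algebraMap (𝓞 L) L) (g • x - x) = _
        rw [map_sub]
        rfl
      rw [h2, map_sub] at h1
      rw [← hσ]
      exact h1
    obtain ⟨σ', hσ'I, hσ'⟩ := gal_inertia_lift L iL A σ hσin
    have hσ'g : ∀ x : L, σ' (iL x) = iL (g x) := fun x => by rw [hσ', ← hσ]; rfl
    apply hone_of_ker g σ' hσ'g
    by_cases hℓp : ℓ = p
    · subst hℓp
      have hσ'D : σ' ∈ A.decompositionSubgroup ℚ := by
        obtain ⟨y, -, hy⟩ := Subgroup.mem_map.1 hσ'I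
        rw [← hy]
        exact y.2
      have hσ'1 : ((cycloExp ℓ σ' : ℕ) : ZMod ℓ) = 1 :=
        hexp_of_fix (g.restrictScalars ℚ) σ' (fun x => (hσ'g x).symm) (fun x => g.commutes x)
      exact fun v => gal_trivial_of_decomp ℓ V C hadm A hAℓ σ' hσ'D hσ'1 v
    · exact fun v => hadm.unramified_outside ℓ hℓ hℓp A hAℓ σ' hσ'I v
  -- the decomposition groups over `p` are trivial
  have hdecomp : ∀ (Q : Ideal (𝓞 L)), Q.IsPrime → Q ≠ ⊥ → ((p : ℕ) : 𝓞 L) ∈ Q →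
      ∀ g : L ≃ₐ[K] L, g • Q = Q → g = 1 := by
    intro Q hQ hQ0 hpQ g hg
    obtain ⟨A, ℓ, hℓ, hAℓ, hℓQ, hA⟩ := gal_exists_valuationSubring L iL Q hQ0
    have hℓp : ℓ = p := by
      by_contra hne
      have hcop : IsCoprime (ℓ : ℤ) (p : ℤ) :=
        Nat.isCoprime_iff_coprime.2 ((Nat.coprime_primes hℓ hpp).2 hne)
      obtain ⟨a, b, hab⟩ := hcop
      have h1 : ((a : 𝓞 L) * (ℓ : 𝓞 L) + (b : 𝓞 L) * (p : 𝓞 L)) ∈ Q :=
        Q.add_mem (Q.mul_mem_left _ hℓQ) (Q.mul_mem_left _ hpQ)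
      have h2 : ((a : 𝓞 L) * (ℓ : 𝓞 L) + (b : 𝓞 L) * (p : 𝓞 L)) = 1 := by
        have := congrArg (fun n : ℤ => (n : 𝓞 L)) hab
        simpa using this
      rw [h2] at h1
      exact hQ.ne_top ((Ideal.eq_top_iff_one Q).2 h1)
    subst hℓp
    obtain ⟨σ, hσ⟩ := hlift (g.restrictScalars ℚ)
    have hσin : ∀ x : 𝓞 L, σ (iL (x : L)) ∈ A.nonunits ↔ iL (x : L) ∈ A.nonunits := by
      intro x
      have h1 : σ (iL (x : L)) = iL ((g • x : 𝓞 L) : L) := by
        rw [← hσ]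
        rfl
      rw [h1, (hA (g • x)).2, (hA x).2]
      conv_lhs => rw [← hg]
      exact Ideal.smul_mem_pointwise_smul_iff
    obtain ⟨σ', hσ'D, hσ'⟩ := gal_decomp_lift L iL A σ hσin
    have hσ'g : ∀ x : L, σ' (iL x) = iL (g x) := fun x => by rw [hσ', ← hσ]; rfl
    apply hone_of_ker g σ' hσ'g
    have hσ'1 : ((cycloExp ℓ σ' : ℕ) : ZMod ℓ) = 1 :=
      hexp_of_fix (g.restrictScalars ℚ) σ' (fun x => (hσ'g x).symm) (fun x => g.commutes x)
    exact fun v => gal_trivial_of_decomp ℓ V C hadm A hAℓ σ' hσ'D hσ'1 v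
  refine ⟨?_, ?_, ?_, ?_⟩
  · -- degree
    rw [← IsGalois.card_aut_eq_finrank K L]
    -- restrictions of the powers of τ₁
    have hpow_fix : ∀ k : ℕ, ((cycloExp p (τ₁ ^ k) : ℕ) : ZMod p) = 1 := by
      intro k
      induction k with
      | zero =>
        rw [pow_zero, h31_cast_eq_one_iff p hζ]
        rfl
      | succ n ih => rw [pow_succ, gal_cycloExp_mul, ih, hτ₁, mul_one]
    choose r hr using fun k : ℕ => hres (τ₁ ^ k)
    have hrK : ∀ (k : ℕ) (x : K), r k (algebraMap K L x) = algebraMap K L x := by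
      intro k x
      apply hiL
      rw [hr, hKL, hfixK _ (hpow_fix k)]
    let f : Fin p → (L ≃ₐ[K] L) := fun k => h31_toK (r k) (hrK k)
    have hf_inj : Function.Injective f := by
      intro j k hjk
      have h1 : ∀ x : L, (τ₁ ^ (j : ℕ)) (iL x) = (τ₁ ^ (k : ℕ)) (iL x) := by
        intro x
        have := DFunLike.congr_fun hjk x
        simp only [f, h31_toK_apply] at this
        rw [← hr, ← hr, this]
      have h2 : ∀ v : V, (τ₁ ^ (j : ℕ)) • v = (τ₁ ^ (k : ℕ)) • v := by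
        intro v
        have h3 : ((τ₁ ^ (k : ℕ))⁻¹ * τ₁ ^ (j : ℕ)) • v = v := by
          apply htriv_of_fix
          intro x
          rw [AlgEquiv.mul_apply, h1 x, ← AlgEquiv.mul_apply, inv_mul_cancel, AlgEquiv.one_apply]
        rw [mul_smul, inv_smul_eq_iff] at h3
        exact h3
      exact Fin.ext (gal_pow_smul_ne p V C hadm τ₁ hτ₁ hτ₁ne j k j.2 k.2 h2)
    have hf_surj : Function.Surjective f := by
      intro g
      obtain ⟨σ, hσ⟩ := hlift (g.restrictScalars ℚ)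
      have hσ1 : ((cycloExp p σ : ℕ) : ZMod p) = 1 :=
        hexp_of_fix (g.restrictScalars ℚ) σ hσ (fun x => g.commutes x)
      obtain ⟨k, hk, hkv⟩ := gal_exists_pow p V C hadm τ₁ σ hτ₁ hσ1 hτ₁ne
      refine ⟨⟨k, hk⟩, ?_⟩
      ext x
      apply hiL
      simp only [f, h31_toK_apply]
      rw [hr]
      have h3 : ((τ₁ ^ k)⁻¹ * σ) ∈ h31_actKer V := by
        intro v
        rw [mul_smul, inv_smul_eq_iff, hkv v]
      have h4 := hHfix _ h3 x
      rw [AlgEquiv.mul_apply] at h4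
      have h5 : σ (iL x) = (τ₁ ^ k) (iL x) := by
        have := congrArg (τ₁ ^ k) h4
        rwa [← AlgEquiv.mul_apply, mul_inv_cancel, AlgEquiv.one_apply] at this
      rw [← h5, ← hσ]
      rfl
    rw [← Nat.card_eq_of_bijective f ⟨hf_inj, hf_surj⟩, Nat.card_fin]
  · -- unramified
    intro Q hQ hQ0
    have hQ' : Q.LiesOver (Q.under (𝓞 K)) := ⟨rfl⟩
    rw [← Ideal.ramificationIdxIn_eq_ramificationIdx (Q.under (𝓞 K)) Q (L ≃ₐ[K] L),
      ← Ideal.card_inertia_eq_ramificationIdxIn (G := L ≃ₐ[K] L) (Q.under (𝓞 K)) Q,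
      Subgroup.card_eq_one, Subgroup.eq_bot_iff_forall]
    intro g hg
    exact hinert Q hQ hQ0 g (AddSubgroup.mem_inertia.1 hg)
  · -- split at p
    intro P hP hpP Q hQ hQP
    have hpQ : ((p : ℕ) : 𝓞 L) ∈ Q := by
      have h1 : algebraMap (𝓞 K) (𝓞 L) (p : 𝓞 K) ∈ Q := by
        have : (p : 𝓞 K) ∈ Q.under (𝓞 K) := by rw [← hQP.over]; exact hpP
        exact this
      simpa using h1
    have hQ0 : Q ≠ ⊥ := by
      rintro rfl
      have : ((p : ℕ) : 𝓞 L) = 0 := by simpa using hpQ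
      exact hpp.ne_zero (by exact_mod_cast this)
    have he : Q.ramificationIdx (𝓞 K) = 1 := by
      have hQ' : Q.LiesOver (Q.under (𝓞 K)) := ⟨rfl⟩
      rw [← Ideal.ramificationIdxIn_eq_ramificationIdx (Q.under (𝓞 K)) Q (L ≃ₐ[K] L),
        ← Ideal.card_inertia_eq_ramificationIdxIn (G := L ≃ₐ[K] L) (Q.under (𝓞 K)) Q,
        Subgroup.card_eq_one, Subgroup.eq_bot_iff_forall]
      intro g hg
      exact hinert Q hQ hQ0 g (AddSubgroup.mem_inertia.1 hg)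
    refine ⟨he, ?_⟩
    have hstab : Nat.card (MulAction.stabilizer (L ≃ₐ[K] L) Q) = 1 := by
      rw [Subgroup.card_eq_one, Subgroup.eq_bot_iff_forall]
      intro g hg
      exact hdecomp Q hQ hQ0 hpQ g (MulAction.mem_stabilizer_iff.1 hg)
    have h1 := Ideal.card_stabilizer_eq (G := L ≃ₐ[K] L) P Q
    rw [hstab, Ideal.inertiaDegIn_eq_inertiaDeg P Q (L ≃ₐ[K] L)] at h1
    exact Nat.eq_one_of_mul_eq_one_left h1.symm
  · -- twist
    intro σ τ z' m hz' hτK hσz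
    obtain ⟨σ', hσ'⟩ := hlift σ
    obtain ⟨τ', hτ'⟩ := hlift τ
    have hτ'1 : ((cycloExp p τ' : ℕ) : ZMod p) = 1 := hexp_of_fix τ τ' hτ' hτK
    have hζ' : IsPrimitiveRoot (iK z') p := h31_prim_map iK hz'
    have hm : (m : ZMod p) = ((cycloExp p σ' : ℕ) : ZMod p) := by
      apply h31_cast_eq_of_pow_eq p hζ'
      rw [← gal_cycloExp_spec p σ' (iK z') hζ'.pow_eq_one, ← hKL z', ← hσ', hσz, map_pow]
    have h1 : ∀ v : V, (σ' * τ' ^ m * σ'⁻¹) • v = τ' • v := gal_twist p V C hadm σ' τ' hτ'1 m hm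
    have h2 : (τ'⁻¹ * (σ' * τ' ^ m * σ'⁻¹)) ∈ h31_actKer V := by
      intro v
      rw [mul_smul, inv_smul_eq_iff, h1 v]
    ext x
    apply hiL
    have h3 := hHfix _ h2 (x)
    rw [AlgEquiv.mul_apply] at h3
    have h4 : (σ' * τ' ^ m * σ'⁻¹) (iL x) = τ' (iL x) := by
      have := congrArg τ' h3
      rwa [← AlgEquiv.mul_apply, mul_inv_cancel, AlgEquiv.one_apply] at this
    rw [hτ', ← h4]
    have h5 : ∀ y : L, iL ((σ * τ ^ m) y) = (σ' * τ' ^ m) (iL y) :=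
      h31_res_mul iL _ _ _ _ hσ' (h31_res_pow iL τ τ' hτ' m)
    exact h31_res_mul iL _ _ _ _ h5 (h31_res_inv iL σ σ' hσ') x

end main

/-- GAL: from a non-split admissible extension to number fields with `CoreData`. -/
theorem gal_reduction (p : ℕ) [Fact p.Prime] (h3 : 3 ≤ p)
    (V : Type) [AddCommGroup V] [Module (ZMod p) V]
    [DistribMulAction (AlgebraicClosure ℚ ≃ₐ[ℚ] AlgebraicClosure ℚ) V]
    [SMulCommClass (AlgebraicClosure ℚ ≃ₐ[ℚ] AlgebraicClosure ℚ) (ZMod p) V]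
    (C : Submodule (ZMod p) V) (hadm : ExtCitation.IsAdmissibleExtensionCts p V C)
    (hns : ¬ ExtCitation.SplitsGlobally C) :
    ∃ (K L : Type) (_ : Field K) (_ : NumberField K) (_ : Field L) (_ : NumberField L)
      (_ : Algebra K L) (_ : IsCyclotomicExtension {p} ℚ K) (_ : IsGalois ℚ L),
      CoreData p K L := by
  have hadm' := hadm.toIsAdmissibleExtension
  have hτ : ∃ τ₁ : AlgebraicClosure ℚ ≃ₐ[ℚ] AlgebraicClosure ℚ,
      ((cycloExp p τ₁ : ℕ) : ZMod p) = 1 ∧ ¬ ∀ v : V, τ₁ • v = v := by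
    by_contra hcon
    push Not at hcon
    obtain ⟨σ₀, hσ₀⟩ := gal_exists_cycloExp_ne_one p h3
    exact hns (gal_splits_of_trivial p V C hadm' hcon σ₀ hσ₀)
  obtain ⟨τ₁, hτ₁, hτ₁ne⟩ := hτ
  have hne : NeZero ((p : ℕ) : AlgebraicClosure ℚ) :=
    ⟨Nat.cast_ne_zero.mpr (Fact.out : p.Prime).ne_zero⟩
  obtain ⟨ζ, hζ⟩ := HasEnoughRootsOfUnity.exists_primitiveRoot (AlgebraicClosure ℚ) p
  have hopen : IsOpen ((h31_actKer V : Subgroup (AlgebraicClosure ℚ ≃ₐ[ℚ] AlgebraicClosure ℚ)) :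
      Set (AlgebraicClosure ℚ ≃ₐ[ℚ] AlgebraicClosure ℚ)) := hadm.open_kernel
  have hHζ : ∀ σ ∈ h31_actKer V, σ ζ = ζ := fun σ hσ =>
    (h31_cast_eq_one_iff p hζ σ).1 (gal_cycloExp_of_trivial p V C hadm' σ hσ)
  obtain ⟨K, L, i1, i2, i3, i4, i5, i6, i7, iK, iL, hKL, hz, hres, hlift, hfixH, hHfix⟩ :=
    gal_fields p (h31_actKer V) hopen ζ hζ hHζ
  exact ⟨K, L, i1, i2, i3, i4, i5, i6, i7,
    h31_coreData p V C hadm' K L iK iL hKL ζ hζ hz hres hlift hfixH hHfix τ₁ hτ₁ hτ₁ne⟩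

end Fermat.Agent.S14
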