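import Mathlib
import Fermat.Agent.S14.Defs
import Fermat.Agent.S14.h85_FI
import Fermat.Agent.S14.ZB
import Fermat.Agent.S14.LBD

/-!
Package FI of project S14: the first inequality in character form (`char_eq_pow`).
-/

namespace Fermat.Agent.S14

open NumberField
open scoped nonZeroDivisors

/-- **FI**: the first inequality, character form. -/
theorem char_eq_pow {p : ℕ} (hp : p.Prime)
    {F N : Type*} [Field F] [NumberField F] [Field N] [NumberField N] [Algebra F N] [IsGalois F N]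
    (hdeg : Module.finrank F N = p) (m : ℕ) (hm : m ≠ 0)
    (hunr : ∀ Q : Ideal (𝓞 N), Q.IsPrime → Q ≠ ⊥ → (m : 𝓞 N) ∉ Q → Q.ramificationIdx (𝓞 F) = 1)
    (θ c : ClassGroup (𝓞 F) →* ℂˣ)
    (hθ : ∀ P : (Ideal (𝓞 F))⁰, (P : Ideal (𝓞 F)).IsPrime → (m : 𝓞 F) ∉ (P : Ideal (𝓞 F)) →
      (θ (ClassGroup.mk0 P) = 1 ↔ SplitsCompletely (𝓞 F) (𝓞 N) (P : Ideal (𝓞 F))) ∧
        θ (ClassGroup.mk0 P) ^ p = 1)
    (hc : ∀ P : (Ideal (𝓞 F))⁰, (P : Ideal (𝓞 F)).IsPrime → (m : 𝓞 F) ∉ (P : Ideal (𝓞 F)) →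
      (SplitsCompletely (𝓞 F) (𝓞 N) (P : Ideal (𝓞 F)) → c (ClassGroup.mk0 P) = 1) ∧
        c (ClassGroup.mk0 P) ^ p = 1) :
    ∃ k : ℕ, c = θ ^ k :=
  h85_char_eq_pow_of hp (fun g hg _ hs => idealSum_hasProd F g hg hs)
    (fun g hg _ hs => idealSum_hasProd N g hg hs) (fun _ hs => idealSum_one_eq N hs)
    (fun χ hχ => classLSeries_bounded F χ hχ) hdeg m hm hunr θ c hθ hc

end Fermat.Agent.S14
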