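import Mathlib
import Fermat.Agent.S14.h92_UnitsDefs

/-!
# S14, package SI-U: ranks of the unit groups in a Galois extension of odd prime degree

`K ⊆ L` number fields, `L/K` Galois of odd prime degree `p`, `σ ≠ 1` in `Gal(L/K)`.

* `h62_card_infinitePlace` : `#(places of L) = p * #(places of K)`;
* `h62_finrank_units`      : `rank (𝓞 L)ˣ = p * (rank (𝓞 K)ˣ + 1) - 1`;
* `h62_smul_infinitePlace_ne` : `σ` has no fixed point on the infinite places of `L`;
* `h62_unitsD_ker`         : the units of `L` fixed by `σ` are the units of `K`;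
* `h62_finrank_unitsD_ker` : their rank is `Units.rank K`.
-/

set_option autoImplicit false

namespace Fermat.Agent.S14

open NumberField Module

section

variable {K L : Type*} [Field K] [NumberField K] [Field L] [NumberField L] [Algebra K L]
  [IsGalois K L]

set_option linter.unusedSectionVars false

/-- all infinite places of `K` are unramified in `L` when `[L : K]` is odd -/
theorem h62_isUnramifiedIn {p : ℕ} (hp : p.Prime) (hp2 : p ≠ 2) (hdeg : finrank K L = p)
    (v : InfinitePlace K) : v.IsUnramifiedIn L := by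
  by_contra h
  have h1 := InfinitePlace.even_finrank_of_not_isUnramifiedIn h
  rw [hdeg] at h1
  exact (hp.odd_of_ne_two hp2).not_two_dvd_nat h1.two_dvd

/-- all infinite places of `L` are unramified over `K` when `[L : K]` is odd -/
theorem h62_isUnramified {p : ℕ} (hp : p.Prime) (hp2 : p ≠ 2) (hdeg : finrank K L = p)
    (w : InfinitePlace L) : w.IsUnramified K := by
  by_contra h
  have h1 := InfinitePlace.even_finrank_of_not_isUnramified h
  rw [hdeg] at h1
  exact (hp.odd_of_ne_two hp2).not_two_dvd_nat h1.two_dvd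

theorem h62_card_infinitePlace {p : ℕ} (hp : p.Prime) (hp2 : p ≠ 2) (hdeg : finrank K L = p) :
    Fintype.card (InfinitePlace L) = p * Fintype.card (InfinitePlace K) := by
  classical
  have h := InfinitePlace.card_eq_card_isUnramifiedIn K L
  have h1 : (Finset.univ.filter fun w : InfinitePlace K => w.IsUnramifiedIn L) = Finset.univ :=
    Finset.filter_true_of_mem fun v _ => h62_isUnramifiedIn hp hp2 hdeg v
  rw [h1, Finset.compl_univ, Finset.card_empty, zero_mul, add_zero, Finset.card_univ, hdeg] at h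
  rw [h, mul_comm]

theorem h62_finrank_units {p : ℕ} (hp : p.Prime) (hp2 : p ≠ 2) (hdeg : finrank K L = p) :
    finrank ℤ (Additive (𝓞 L)ˣ) = p * (Units.rank K + 1) - 1 := by
  rw [Units.finrank_eq, Units.rank, Units.rank, h62_card_infinitePlace hp hp2 hdeg]
  have : 0 < Fintype.card (InfinitePlace K) := Fintype.card_pos
  rw [Nat.sub_add_cancel this]

/-- a nontrivial element of `Gal(L/K)` has no fixed infinite place (`[L : K]` odd) -/
theorem h62_smul_infinitePlace_ne {p : ℕ} (hp : p.Prime) (hp2 : p ≠ 2) (hdeg : finrank K L = p)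
    (σ : L ≃ₐ[K] L) (hσ : σ ≠ 1) (w : InfinitePlace L) : σ • w ≠ w := by
  intro h
  have h1 : σ ∈ MulAction.stabilizer (L ≃ₐ[K] L) w := h
  rw [(h62_isUnramified hp hp2 hdeg w).stabilizer_eq_bot, Subgroup.mem_bot] at h1
  exact hσ h1

/-- an element of `L` fixed by a nontrivial `σ ∈ Gal(L/K)` (prime degree) lies in `K` -/
theorem h62_mem_range_of_fixed {p : ℕ} (hp : p.Prime) (hdeg : finrank K L = p)
    (σ : L ≃ₐ[K] L) (hσ : σ ≠ 1) (x : L) (hx : σ x = x) :
    x ∈ Set.range (algebraMap K L) := by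
  have hfin : FiniteDimensional K L := by
    apply FiniteDimensional.of_finrank_pos
    rw [hdeg]; exact hp.pos
  have hcard : Nat.card (L ≃ₐ[K] L) = p := by
    rw [IsGalois.card_aut_eq_finrank, hdeg]
  have : Fact p.Prime := ⟨hp⟩
  have hz : Subgroup.zpowers σ = ⊤ := zpowers_eq_top_of_prime_card hcard hσ
  rw [IsGalois.mem_range_algebraMap_iff_fixed]
  intro τ
  have hτ : τ ∈ Subgroup.zpowers σ := by rw [hz]; trivial
  obtain ⟨n, rfl⟩ := hτ
  have key : ∀ m : ℕ, (σ ^ m) x = x := by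
    intro m
    induction m with
    | zero => simp
    | succ m ih => rw [pow_succ, AlgEquiv.mul_apply, hx, ih]
  have key' : ∀ m : ℕ, (σ ^ m)⁻¹ x = x := by
    intro m
    have := key m
    conv_lhs => rw [← this]
    exact (σ ^ m).symm_apply_apply x
  show (σ ^ n) x = x
  rcases Int.eq_nat_or_neg n with ⟨m, rfl | rfl⟩
  · rw [zpow_natCast]; exact key m
  · rw [zpow_neg, zpow_natCast]; exact key' m

/-- a unit of `𝓞 L` whose value lies in `K` comes from a unit of `𝓞 K` -/
theorem h62_unit_of_mem_range (u : (𝓞 L)ˣ)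
    (hu : ((u : 𝓞 L) : L) ∈ Set.range (algebraMap K L)) :
    u ∈ (Units.map (algebraMap (𝓞 K) (𝓞 L) : 𝓞 K →* 𝓞 L)).range := by
  obtain ⟨x, hx⟩ := hu
  have hinj : Function.Injective (algebraMap K L) := (algebraMap K L).injective
  have hxint : IsIntegral ℤ x := by
    have h1 : IsIntegral ℤ (algebraMap K L x) := by
      rw [hx]; exact (u : 𝓞 L).isIntegral_coe
    exact (isIntegral_algebraMap_iff hinj).1 h1
  -- the inverse
  have hu0 : ((u : 𝓞 L) : L) ≠ 0 := by
    intro h0
    have : (u : 𝓞 L) = 0 := by exact_mod_cast h0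
    exact u.ne_zero this
  have hx0 : x ≠ 0 := by
    rintro rfl
    rw [map_zero] at hx
    exact hu0 hx.symm
  have hxinv : algebraMap K L x⁻¹ = (((u⁻¹ : (𝓞 L)ˣ) : 𝓞 L) : L) := by
    rw [map_inv₀, hx]
    have h1 : ((u : 𝓞 L) : L) * (((u⁻¹ : (𝓞 L)ˣ) : 𝓞 L) : L) = 1 := by
      rw [← map_mul]
      simp
    exact (eq_inv_of_mul_eq_one_right h1).symm
  have hxinvint : IsIntegral ℤ x⁻¹ := by
    have h1 : IsIntegral ℤ (algebraMap K L x⁻¹) := by
      rw [hxinv]; exact ((u⁻¹ : (𝓞 L)ˣ) : 𝓞 L).isIntegral_coe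
    exact (isIntegral_algebraMap_iff hinj).1 h1
  let y : 𝓞 K := ⟨x, hxint⟩
  let y' : 𝓞 K := ⟨x⁻¹, hxinvint⟩
  have hyy' : y * y' = 1 := by
    apply RingOfIntegers.ext
    show x * x⁻¹ = 1
    exact mul_inv_cancel₀ hx0
  let v : (𝓞 K)ˣ := ⟨y, y', hyy', by rw [mul_comm]; exact hyy'⟩
  refine ⟨v, ?_⟩
  apply Units.ext
  apply RingOfIntegers.ext
  show algebraMap K L x = ((u : 𝓞 L) : L)
  exact hx

theorem h62_unitsD_ker {p : ℕ} (hp : p.Prime) (hdeg : finrank K L = p)
    (σ : L ≃ₐ[K] L) (hσ : σ ≠ 1) :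
    (h92_unitsD σ).ker = (Units.map (algebraMap (𝓞 K) (𝓞 L) : 𝓞 K →* 𝓞 L)).range := by
  ext u
  rw [MonoidHom.mem_ker]
  constructor
  · intro h
    apply h62_unit_of_mem_range
    apply h62_mem_range_of_fixed hp hdeg σ hσ
    have h1 := h92_unitsD_coe σ u
    rw [h] at h1
    have hu0 : ((u : 𝓞 L) : L) ≠ 0 := by
      intro h0
      have : (u : 𝓞 L) = 0 := by exact_mod_cast h0
      exact u.ne_zero this
    have h2 : (1 : L) = σ ((u : 𝓞 L) : L) / ((u : 𝓞 L) : L) := by
      rw [← h1]; simp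
    field_simp at h2
    exact h2.symm
  · rintro ⟨v, rfl⟩
    apply Units.ext
    apply RingOfIntegers.ext
    rw [h92_unitsD_coe]
    have h1 : (((Units.map (algebraMap (𝓞 K) (𝓞 L) : 𝓞 K →* 𝓞 L) v : (𝓞 L)ˣ) : 𝓞 L) : L)
        = algebraMap K L ((v : 𝓞 K) : K) := rfl
    rw [h1, AlgEquiv.commutes]
    have hv0 : algebraMap K L ((v : 𝓞 K) : K) ≠ 0 := by
      rw [Ne, map_eq_zero]
      intro h0
      have : (v : 𝓞 K) = 0 := by exact_mod_cast h0
      exact v.ne_zero this
    rw [div_self hv0]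
    simp

theorem h62_units_map_injective :
    Function.Injective (Units.map (algebraMap (𝓞 K) (𝓞 L) : 𝓞 K →* 𝓞 L)) := by
  apply Units.map_injective
  exact FaithfulSMul.algebraMap_injective (𝓞 K) (𝓞 L)

theorem h62_finrank_unitsD_ker {p : ℕ} (hp : p.Prime) (hdeg : finrank K L = p)
    (σ : L ≃ₐ[K] L) (hσ : σ ≠ 1) :
    finrank ℤ (Additive (h92_unitsD σ).ker) = Units.rank K := by
  rw [h62_unitsD_ker hp hdeg σ hσ, ← Units.finrank_eq]
  let e : (𝓞 K)ˣ ≃* (Units.map (algebraMap (𝓞 K) (𝓞 L) : 𝓞 K →* 𝓞 L)).range :=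
    MonoidHom.ofInjective h62_units_map_injective
  exact (LinearEquiv.finrank_eq (MulEquiv.toAdditive e).toIntLinearEquiv).symm

end

end Fermat.Agent.S14
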