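import Mathlib
import Fermat.Agent.S14.h33_ClassChar

/-!
# CORE-T of project S14, rows T-ALG and T-ACT

* `t_alg`: pure finite-abelian-group algebra: from an eigen-class of order `p` (eigenvalue the
  square of a character `w` with values prime to `p`) to an eigen-character of order `p`.
* `t_classAction`: the action of `Gal(K/ℚ)` on the class group of `𝓞 K`.
-/

namespace Fermat.Agent.S14

open NumberField
open scoped nonZeroDivisors Pointwise

/-- Powers of an element killed by `p` only depend on the exponent modulo `p`. -/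
theorem h84_pow_eq_of_cast_eq {G : Type*} [Monoid G] {g : G} {p : ℕ} (hg : g ^ p = 1) {a b : ℕ}
    (h : (a : ZMod p) = (b : ZMod p)) : g ^ a = g ^ b := by
  have h' : a % p = b % p := (ZMod.natCast_eq_natCast_iff' a b p).mp h
  rw [← Nat.div_add_mod a p, ← Nat.div_add_mod b p, pow_add, pow_add, pow_mul, pow_mul, hg,
    one_pow, one_pow, h']

/-! ### T-ALG : from an eigen-class to an eigen-character (pure algebra) -/

theorem t_alg (p : ℕ) [Fact p.Prime] {A : Type*} [CommGroup A] [Finite A]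
    {Δ : Type*} [Group Δ] [Fintype Δ] (hΔ : ¬ p ∣ Fintype.card Δ)
    (s : Δ →* Monoid.End A) (w : Δ → ℕ) (hw : ∀ a b, (w (a * b) : ZMod p) = w a * w b)
    (hw0 : ∀ a, (w a : ZMod p) ≠ 0)
    (x : A) (hx : x ≠ 1) (hpx : x ^ p = 1) (hs : ∀ a : Δ, s a x = x ^ (w a ^ 2)) :
    ∃ χ : A →* ℂˣ, χ ≠ 1 ∧ (∀ c, χ c ^ p = 1) ∧
      ∀ (a : Δ) (c : A), χ (s a c) = χ c ^ (w a ^ 2) := by
  classical
  have hp : p.Prime := Fact.out
  -- exponents `n a ≡ w a ^ (-2)` modulo `p`
  set n : Δ → ℕ := fun a => (((w a : ZMod p)⁻¹) ^ 2).val with hn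
  have hncast : ∀ a, ((n a : ℕ) : ZMod p) = ((w a : ZMod p)⁻¹) ^ 2 := fun a => by
    simp only [hn]
    exact ZMod.natCast_zmod_val _
  -- the operator `T = ∏ a, (s a) ^ (n a)`
  let T : A →* A :=
    { toFun := fun c => ∏ a, (s a c) ^ n a
      map_one' := by simp
      map_mul' := fun c d => by simp [mul_pow, Finset.prod_mul_distrib] }
  have hT : ∀ c, T c = ∏ a, (s a c) ^ n a := fun c => rfl
  set e : ℕ := ∑ a, w a ^ 2 * n a with he
  have hecast : (e : ZMod p) = (Fintype.card Δ : ZMod p) := by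
    rw [he]
    push_cast
    rw [Finset.sum_congr rfl (g := fun _ => (1 : ZMod p)) (fun a _ => by
      rw [hncast a, ← mul_pow, mul_inv_cancel₀ (hw0 a), one_pow])]
    simp
  have hpe : ¬ p ∣ e := by
    rw [← ZMod.natCast_eq_zero_iff, hecast, ZMod.natCast_eq_zero_iff]
    exact hΔ
  have hTx : T x = x ^ e := by
    rw [hT, he, ← Finset.prod_pow_eq_pow_sum]
    exact Finset.prod_congr rfl fun a _ => by rw [hs a, ← pow_mul]
  have hord : orderOf x = p := orderOf_eq_prime hpx hx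
  have hTk : ∀ k : ℕ, (⇑T)^[k] x = x ^ (e ^ k) := by
    intro k
    induction k with
    | zero => simp
    | succ k ih =>
      rw [Function.iterate_succ_apply', ih, map_pow, hTx, ← pow_mul, pow_succ, mul_comm]
  have hTk_ne : ∀ k : ℕ, (⇑T)^[k] x ≠ 1 := by
    intro k h1
    rw [hTk k, ← orderOf_dvd_iff_pow_eq_one, hord] at h1
    exact hpe (hp.dvd_of_dvd_pow h1)
  -- some `T c₀` is not a `p`-th power
  have hex : ∃ c₀ : A, ∀ d : A, T c₀ ≠ d ^ p := by
    by_contra hcon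
    push Not at hcon
    have hpow : ∀ k : ℕ, ∀ c : A, ∃ d : A, (⇑T)^[k] c = d ^ (p ^ k) := by
      intro k
      induction k with
      | zero => intro c; exact ⟨c, by simp⟩
      | succ k ih =>
        intro c
        obtain ⟨d, hd⟩ := ih c
        obtain ⟨d', hd'⟩ := hcon d
        refine ⟨d', ?_⟩
        rw [Function.iterate_succ_apply', hd, map_pow, hd', ← pow_mul, pow_succ, mul_comm]
    obtain ⟨y, hy⟩ := hpow (Nat.card A) x
    have hy1 : y ^ (p ^ (Nat.card A + 1)) = 1 := by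
      rw [pow_succ, pow_mul, ← hy, hTk, ← pow_mul, mul_comm, pow_mul, hpx, one_pow]
    obtain ⟨j, -, hjy⟩ := (Nat.dvd_prime_pow hp).mp (orderOf_dvd_of_pow_eq_one hy1)
    have hcard : orderOf y ≤ Nat.card A := orderOf_le_card
    have hjk : p ^ j ∣ p ^ Nat.card A := by
      apply pow_dvd_pow
      by_contra hlt
      push Not at hlt
      have h1 : p ^ j ≤ Nat.card A := hjy ▸ hcard
      have h2 : Nat.card A < p ^ j :=
        lt_of_lt_of_le (Nat.lt_pow_self hp.one_lt) (Nat.pow_le_pow_right hp.pos hlt.le)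
      omega
    have h3 : y ^ (p ^ Nat.card A) = 1 := by
      rw [← orderOf_dvd_iff_pow_eq_one, hjy]
      exact hjk
    exact hTk_ne (Nat.card A) (hy.trans h3)
  obtain ⟨c₀, hc₀⟩ := hex
  -- a character of `A / A^p` which is nontrivial on `T c₀`
  let H : Subgroup A := (powMonoidHom p : A →* A).range
  have hc₀H : (QuotientGroup.mk' H (T c₀)) ≠ 1 := by
    rw [Ne, QuotientGroup.mk'_apply, QuotientGroup.eq_one_iff]
    rintro ⟨d, hd⟩
    exact hc₀ d hd.symm
  have : NeZero (Monoid.exponent (A ⧸ H)) := ⟨Monoid.exponent_ne_zero_of_finite⟩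
  obtain ⟨φ, hφ⟩ := CommGroup.exists_apply_ne_one_of_hasEnoughRootsOfUnity (A ⧸ H) ℂ hc₀H
  let φ' : A →* ℂˣ := φ.comp (QuotientGroup.mk' H)
  have hφ'p : ∀ c, φ' c ^ p = 1 := by
    intro c
    rw [← map_pow]
    have h1 : QuotientGroup.mk' H (c ^ p) = 1 := by
      rw [QuotientGroup.mk'_apply, QuotientGroup.eq_one_iff]
      exact ⟨c, rfl⟩
    show φ (QuotientGroup.mk' H (c ^ p)) = 1
    rw [h1, map_one]
  refine ⟨φ'.comp T, ?_, fun c => hφ'p _, ?_⟩
  · intro h
    have h1 := congrArg (fun f : A →* ℂˣ => f c₀) h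
    exact hφ h1
  · intro b c
    show φ' (T (s b c)) = φ' (T c) ^ (w b ^ 2)
    rw [hT, hT, map_prod, map_prod, ← Finset.prod_pow]
    refine Fintype.prod_equiv (Equiv.mulRight b) _ _ fun a => ?_
    have h1 : s a (s b c) = s (a * b) c := by
      rw [map_mul]
      rfl
    rw [Equiv.coe_mulRight, h1, map_pow, map_pow, ← pow_mul]
    refine h84_pow_eq_of_cast_eq (hφ'p _) ?_
    push_cast
    rw [hncast, hncast, hw, mul_inv, mul_pow, mul_assoc, ← mul_pow, inv_mul_cancel₀ (hw0 b),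
      one_pow, mul_one]

/-! ### T-ACT : the Galois action on the class group -/

theorem t_classAction (K : Type*) [Field K] [NumberField K] :
    ∃ s : (K ≃ₐ[ℚ] K) →* Monoid.End (ClassGroup (𝓞 K)),
      ∀ (σ : K ≃ₐ[ℚ] K) (I J : (Ideal (𝓞 K))⁰),
        (J : Ideal (𝓞 K)) = σ • (I : Ideal (𝓞 K)) →
        s σ (ClassGroup.mk0 I) = ClassGroup.mk0 J := by
  classical
  have hne : ∀ (σ : K ≃ₐ[ℚ] K) (I : Ideal (𝓞 K)), I ≠ ⊥ → σ • I ≠ ⊥ := by
    intro σ I hI h
    apply hI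
    rw [← Ideal.zero_eq_bot] at h ⊢
    exact (smul_eq_zero_iff_eq σ).mp h
  have key : ∀ σ : K ≃ₐ[ℚ] K, ∃ θ : ClassGroup (𝓞 K) →* ClassGroup (𝓞 K),
      ∀ (I J : (Ideal (𝓞 K))⁰), (J : Ideal (𝓞 K)) = σ • (I : Ideal (𝓞 K)) →
        θ (ClassGroup.mk0 I) = ClassGroup.mk0 J := by
    intro σ
    let f : Ideal (𝓞 K) → ClassGroup (𝓞 K) := fun I =>
      if h : σ • I ≠ ⊥ then ClassGroup.mk0 ⟨σ • I, mem_nonZeroDivisors_of_ne_zero h⟩ else 1
    have hf : ∀ (I : Ideal (𝓞 K)) (h : σ • I ≠ ⊥),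
        f I = ClassGroup.mk0 ⟨σ • I, mem_nonZeroDivisors_of_ne_zero h⟩ := fun I h => dif_pos h
    obtain ⟨θ, hθ⟩ := h33_exists_classChar (⊤ : Ideal (𝓞 K)) top_ne_bot f
      (by
        intro I J hI hJ _ _
        have hIJ : I * J ≠ ⊥ := mul_ne_zero hI hJ
        rw [hf _ (hne σ _ hIJ), hf _ (hne σ _ hI), hf _ (hne σ _ hJ), ← map_mul]
        congr 1
        exact Subtype.ext (smul_mul' σ I J))
      (by
        intro x hx _
        have hx' : Ideal.span {x} ≠ (⊥ : Ideal (𝓞 K)) := by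
          rwa [Ne, Ideal.span_singleton_eq_bot]
        rw [hf _ (hne σ _ hx'), ClassGroup.mk0_eq_one_iff]
        show (σ • Ideal.span {x}).IsPrincipal
        rw [Ideal.pointwise_smul_def, Ideal.map_span, Set.image_singleton]
        exact ⟨⟨_, rfl⟩⟩)
    refine ⟨θ, fun I J hJ => ?_⟩
    have hI0 : (I : Ideal (𝓞 K)) ≠ ⊥ := mem_nonZeroDivisors_iff_ne_zero.mp I.2
    have hcop : IsCoprime (I : Ideal (𝓞 K)) ⊤ := by
      rw [← Ideal.one_eq_top]
      exact isCoprime_one_right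
    rw [hθ I hcop, hf _ (hne σ _ hI0)]
    congr 1
    exact Subtype.ext hJ.symm
  choose θ hθ using key
  have hmk : ∀ (σ : K ≃ₐ[ℚ] K) (I : (Ideal (𝓞 K))⁰),
      θ σ (ClassGroup.mk0 I) = ClassGroup.mk0 ⟨σ • (I : Ideal (𝓞 K)),
        mem_nonZeroDivisors_of_ne_zero (hne σ _ (mem_nonZeroDivisors_iff_ne_zero.mp I.2))⟩ :=
    fun σ I => hθ σ I _ rfl
  refine ⟨{ toFun := θ, map_one' := ?_, map_mul' := ?_ }, hθ⟩
  · refine MonoidHom.ext fun C => ?_
    obtain ⟨I, rfl⟩ := ClassGroup.mk0_surjective C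
    rw [hmk]
    show _ = ClassGroup.mk0 I
    congr 1
    exact Subtype.ext (one_smul _ _)
  · intro σ τ
    refine MonoidHom.ext fun C => ?_
    obtain ⟨I, rfl⟩ := ClassGroup.mk0_surjective C
    show θ (σ * τ) (ClassGroup.mk0 I) = θ σ (θ τ (ClassGroup.mk0 I))
    rw [hmk, hmk, hmk]
    congr 1
    exact Subtype.ext (mul_smul σ τ _)

end Fermat.Agent.S14
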