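import Mathlib
import Fermat.Agent.S14.Defs
import Fermat.Agent.S14.ZB
import Fermat.Agent.S14.h35_PrimeSums
import Fermat.Agent.S14.h84_Split

/-!
# S14, package T-DENS (core): a degree-one prime with `χ(Q) ≠ 1` at which `u` is not a `p`-th
power

`h35_dens_of` is the statement `t_dens` of the CORE-T skeleton with the boundedness of the class
`L`-series of `χ` on `(1, 2]` (package LBD) as a hypothesis.

With `x_v = N(v)^(-σ)` and `L = log (1/(σ-1))`: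
* (D2) `2 ∑_{χ(v) = 1} x_v ≤ L + O(1)`            (Euler products of `L(σ, χ)` and `ζ_K`, LBD);
* (S)  a prime `v ∤ p u` with `u ≡ y^p mod v` splits completely in `M = K(u^(1/p))`, hence
       `p ∑_{such v} x_v ≤ L + O(1)`               (`h35_sum_split_le` for `ζ_M`);
* `∑_{N(v) prime, v ∤ p u} x_v ≥ L - O(1)`         (`h35_exists_sum_prime_ge`).
If the conclusion failed, `(1 - 1/2 - 1/p) L ≤ O(1)`, which is false as `σ → 1⁺`.
-/

set_option linter.unusedSectionVars false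

namespace Fermat.Agent.S14

open NumberField IsDedekindDomain Filter Topology
open scoped nonZeroDivisors Pointwise

section Analytic

variable (F : Type*) [Field F] [NumberField F]

/-- a class character read on the nonzero ideals, as a monoid hom to `ℂ` -/
noncomputable def h35_chiHom (χ : ClassGroup (𝓞 F) →* ℂˣ) : (Ideal (𝓞 F))⁰ →* ℂ :=
  (Units.coeHom ℂ).comp (χ.comp ClassGroup.mk0)

theorem h35_chiHom_apply (χ : ClassGroup (𝓞 F) →* ℂˣ) (I : (Ideal (𝓞 F))⁰) :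
    h35_chiHom F χ I = (χ (ClassGroup.mk0 I) : ℂ) := rfl

theorem h35_char_norm (χ : ClassGroup (𝓞 F) →* ℂˣ) (x : ClassGroup (𝓞 F)) :
    ‖((χ x : ℂˣ) : ℂ)‖ = 1 := by
  have h : ((χ x : ℂˣ) : ℂ) ^ Fintype.card (ClassGroup (𝓞 F)) = 1 := by
    rw [← Units.val_pow_eq_pow_val, ← map_pow, pow_card_eq_one, map_one, Units.val_one]
  exact Complex.norm_eq_one_of_pow_eq_one h Fintype.card_ne_zero

theorem h35_chiHom_norm_le (χ : ClassGroup (𝓞 F) →* ℂˣ) (I : (Ideal (𝓞 F))⁰) :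
    ‖h35_chiHom F χ I‖ ≤ 1 := by
  rw [h35_chiHom_apply, h35_char_norm]

/-- the Euler factor of `L(σ, χ)` at `v` -/
noncomputable def h35_Lf (χ : ClassGroup (𝓞 F) →* ℂˣ) (σ : ℝ)
    (v : HeightOneSpectrum (𝓞 F)) : ℂ :=
  (1 - h35_chiHom F χ (primeIdeal v) * (((Ideal.absNorm v.asIdeal : ℝ) ^ (-σ) : ℝ) : ℂ))⁻¹

theorem h35_hasProd_Lf (χ : ClassGroup (𝓞 F) →* ℂˣ) {σ : ℝ} (hσ : 1 < σ) :
    HasProd (h35_Lf F χ σ) (idealSum F (fun I => (χ (ClassGroup.mk0 I) : ℂ)) σ) :=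
  idealSum_hasProd F (h35_chiHom F χ) (h35_chiHom_norm_le F χ) hσ

/-- `‖Euler factor‖ * (1 - x_v)⁻¹ ≥ 1` -/
theorem h35_one_le_Lf_mul (χ : ClassGroup (𝓞 F) →* ℂˣ) {σ : ℝ} (hσ : 1 < σ)
    (v : HeightOneSpectrum (𝓞 F)) :
    1 ≤ ‖h35_Lf F χ σ v‖ * (1 - h35_x F σ v)⁻¹ := by
  have hx0 := h35_x_nonneg F σ v
  have hx1 := h35_x_le_half F hσ.le v
  have hn : ‖1 - h35_chiHom F χ (primeIdeal v) *
      (((Ideal.absNorm v.asIdeal : ℝ) ^ (-σ) : ℝ) : ℂ)‖ ≤ 1 + h35_x F σ v := by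
    refine (norm_sub_le _ _).trans ?_
    rw [norm_one, norm_mul, h35_chiHom_apply, h35_char_norm, one_mul, Complex.norm_real,
      Real.norm_of_nonneg (Real.rpow_nonneg (Nat.cast_nonneg _) _)]
    exact le_refl _
  have hpos : 0 < ‖1 - h35_chiHom F χ (primeIdeal v) *
      (((Ideal.absNorm v.asIdeal : ℝ) ^ (-σ) : ℝ) : ℂ)‖ := by
    rw [norm_pos_iff]
    intro h0
    have h1 : h35_chiHom F χ (primeIdeal v) *
        (((Ideal.absNorm v.asIdeal : ℝ) ^ (-σ) : ℝ) : ℂ) = 1 := (sub_eq_zero.mp h0).symm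
    have h2 := congrArg norm h1
    rw [norm_mul, h35_chiHom_apply, h35_char_norm, one_mul, Complex.norm_real,
      Real.norm_of_nonneg (Real.rpow_nonneg (Nat.cast_nonneg _) _), norm_one] at h2
    rw [h35_x] at hx1
    linarith
  rw [h35_Lf, norm_inv, ← mul_inv, one_le_inv₀ (mul_pos hpos (by linarith))]
  calc _ ≤ (1 + h35_x F σ v) * (1 - h35_x F σ v) :=
        mul_le_mul_of_nonneg_right hn (by linarith)
    _ ≤ 1 := by nlinarith

theorem h35_Lf_norm_of_one (χ : ClassGroup (𝓞 F) →* ℂˣ) (σ : ℝ)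
    (v : HeightOneSpectrum (𝓞 F)) (hv : χ (ClassGroup.mk0 (primeIdeal v)) = 1)
    (hσ : 1 ≤ σ) :
    ‖h35_Lf F χ σ v‖ = (1 - h35_x F σ v)⁻¹ := by
  have hx1 := h35_x_le_half F hσ v
  rw [h35_Lf, h35_chiHom_apply, hv, Units.val_one, one_mul, ← Complex.ofReal_one,
    ← Complex.ofReal_sub, ← Complex.ofReal_inv, Complex.norm_real, ← h35_x_def,
    Real.norm_of_nonneg (inv_nonneg.mpr (by linarith))]

/-- (D2) in product form: `(∏_{v ∈ S} (1 - x_v)⁻¹)² ≤ ‖L(σ, χ)‖ ζ_F(σ)` when `χ = 1` on `S`. -/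
theorem h35_prod_sq_le (χ : ClassGroup (𝓞 F) →* ℂˣ) {σ : ℝ} (hσ : 1 < σ)
    (S : Finset (HeightOneSpectrum (𝓞 F)))
    (hS : ∀ v ∈ S, χ (ClassGroup.mk0 (primeIdeal v)) = 1) :
    (∏ v ∈ S, (1 - h35_x F σ v)⁻¹) ^ 2 ≤
      ‖idealSum F (fun I => (χ (ClassGroup.mk0 I) : ℂ)) σ‖ * h35_zeta F σ := by
  classical
  have h1 := h35_hasProd_Lf F χ hσ
  have h2 := h35_eulerProduct_zeta F hσ
  rw [HasProd, SummationFilter.unconditional] at h1 h2
  have h3 := (h1.norm).mul h2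
  refine ge_of_tendsto h3 ?_
  filter_upwards [Filter.eventually_ge_atTop S] with T hT
  have hE1 : ∀ v, 0 < (1 - h35_x F σ v)⁻¹ := fun v =>
    inv_pos.mpr (by have := h35_x_le_half F hσ.le v; linarith)
  rw [norm_prod, ← Finset.prod_mul_distrib, sq, ← Finset.prod_mul_distrib]
  have hsub : S ⊆ T := hT
  calc ∏ v ∈ S, (1 - h35_x F σ v)⁻¹ * (1 - h35_x F σ v)⁻¹
      = ∏ v ∈ S, ‖h35_Lf F χ σ v‖ * (1 - (Ideal.absNorm v.asIdeal : ℝ) ^ (-σ))⁻¹ := by
        refine Finset.prod_congr rfl fun v hv => ?_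
        rw [h35_Lf_norm_of_one F χ σ v (hS v hv) hσ.le, h35_x_def]
    _ ≤ ∏ v ∈ T, ‖h35_Lf F χ σ v‖ * (1 - (Ideal.absNorm v.asIdeal : ℝ) ^ (-σ))⁻¹ := by
        refine Finset.prod_le_prod_of_subset_of_one_le hsub (fun v _ => ?_) (fun v _ _ => ?_)
        · exact mul_nonneg (norm_nonneg _) (hE1 v).le
        · exact h35_one_le_Lf_mul F χ hσ v

/-- (D2) in sum form. -/
theorem h35_sum_char_one_le (χ : ClassGroup (𝓞 F) →* ℂˣ)
    (hbdd : ∃ B : ℝ, ∀ s : ℝ, 1 < s → s ≤ 2 →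
      ‖idealSum F (fun I => (χ (ClassGroup.mk0 I) : ℂ)) s‖ ≤ B) :
    ∃ B : ℝ, ∀ σ : ℝ, 1 < σ → σ ≤ 2 → ∀ S : Finset (HeightOneSpectrum (𝓞 F)),
      (∀ v ∈ S, χ (ClassGroup.mk0 (primeIdeal v)) = 1) →
      2 * ∑ v ∈ S, h35_x F σ v ≤ Real.log (1 / (σ - 1)) + B := by
  obtain ⟨C, hC⟩ := hbdd
  obtain ⟨BZ, hBZ⟩ := h35_exists_log_zeta_bound F
  refine ⟨Real.log (max C 1) + BZ, fun σ h1 h2 S hS => ?_⟩
  have hζ := h35_zeta_pos F h1
  have hC1 : (0 : ℝ) < max C 1 := lt_of_lt_of_le zero_lt_one (le_max_right _ _)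
  have key : Real.exp (2 * ∑ v ∈ S, h35_x F σ v) ≤ max C 1 * h35_zeta F σ := by
    have hexp : Real.exp (2 * ∑ v ∈ S, h35_x F σ v) = (∏ v ∈ S, Real.exp (h35_x F σ v)) ^ 2 := by
      rw [← Real.exp_sum, ← Real.exp_nat_mul]
      norm_num
    rw [hexp]
    calc (∏ v ∈ S, Real.exp (h35_x F σ v)) ^ 2
        ≤ (∏ v ∈ S, (1 - h35_x F σ v)⁻¹) ^ 2 := by
          refine pow_le_pow_left₀ (Finset.prod_nonneg fun v _ => (Real.exp_pos _).le) ?_ 2
          refine Finset.prod_le_prod (fun v _ => (Real.exp_pos _).le) (fun v _ => ?_)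
          exact h35_exp_le_inv (lt_of_le_of_lt (h35_x_le_half F h1.le v) (by norm_num))
      _ ≤ ‖idealSum F (fun I => (χ (ClassGroup.mk0 I) : ℂ)) σ‖ * h35_zeta F σ :=
          h35_prod_sq_le F χ h1 S hS
      _ ≤ max C 1 * h35_zeta F σ :=
          mul_le_mul_of_nonneg_right ((hC σ h1 h2).trans (le_max_left _ _)) hζ.le
  have h3 := (Real.le_log_iff_exp_le (mul_pos hC1 hζ)).mpr key
  rw [Real.log_mul hC1.ne' hζ.ne'] at h3
  have := (abs_le.mp (hBZ σ h1 h2)).2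
  linarith

end Analytic

section Algebraic

variable (K M : Type*) [Field K] [NumberField K] [Field M] [NumberField M] [Algebra K M]

theorem h35_splits_of_pow_mod [IsGalois K M] {p : ℕ} (hp : p.Prime)
    (hdeg : Module.finrank K M = p)
    (ζ : 𝓞 K) (hζ : IsPrimitiveRoot ζ p) (u : 𝓞 K) (θ : 𝓞 M)
    (hθ : θ ^ p = algebraMap (𝓞 K) (𝓞 M) u) (hmove : ∃ τ : M ≃ₐ[K] M, τ • θ ≠ θ)
    (v : HeightOneSpectrum (𝓞 K)) (hpv : (p : 𝓞 K) ∉ v.asIdeal) (huv : u ∉ v.asIdeal)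
    (y : 𝓞 K) (hy : u - y ^ p ∈ v.asIdeal) : h84_SplitsCompletely K M v := by
  classical
  have : NeZero p := ⟨hp.ne_zero⟩
  by_contra hns
  obtain ⟨w, hwv, hef⟩ := (h84_not_splits_iff K M v).mp hns
  have hLO : w.asIdeal.LiesOver v.asIdeal := ⟨(congrArg HeightOneSpectrum.asIdeal hwv).symm⟩
  have := v.isPrime
  have := w.isPrime
  have hcardG : Nat.card (M ≃ₐ[K] M) = p := by rw [IsGalois.card_aut_eq_finrank, hdeg]
  have hstab : MulAction.stabilizer (M ≃ₐ[K] M) w.asIdeal = ⊤ := by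
    have h1 := Ideal.card_stabilizer_eq (G := M ≃ₐ[K] M) v.asIdeal w.asIdeal
    rw [Ideal.ramificationIdxIn_eq_ramificationIdx v.asIdeal w.asIdeal (M ≃ₐ[K] M),
      Ideal.inertiaDegIn_eq_inertiaDeg v.asIdeal w.asIdeal (M ≃ₐ[K] M)] at h1
    have h2 := Subgroup.card_subgroup_dvd_card (MulAction.stabilizer (M ≃ₐ[K] M) w.asIdeal)
    rw [hcardG, h1] at h2
    apply Subgroup.eq_top_of_card_eq
    rw [h1, hcardG]
    rcases (Nat.dvd_prime hp).mp h2 with h3 | h3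
    · exact absurd (mul_eq_one.mp h3) hef
    · exact h3
  obtain ⟨τ, hτ⟩ := hmove
  have hτw : τ • w.asIdeal = w.asIdeal := by
    have : τ ∈ MulAction.stabilizer (M ≃ₐ[K] M) w.asIdeal := by rw [hstab]; trivial
    exact this
  set z : 𝓞 M := algebraMap (𝓞 K) (𝓞 M) ζ with hz
  have hzprim : IsPrimitiveRoot z p :=
    hζ.map_of_injective (FaithfulSMul.algebraMap_injective _ _)
  set y' : 𝓞 M := algebraMap (𝓞 K) (𝓞 M) y with hy'
  have hprod : θ ^ p - y' ^ p = ∏ η ∈ Polynomial.nthRootsFinset p (1 : 𝓞 M), (θ - η * y') :=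
    hzprim.pow_sub_pow_eq_prod_sub_mul θ y' hp.pos
  have hmem : θ ^ p - y' ^ p ∈ w.asIdeal := by
    rw [hθ, hy', ← map_pow, ← map_sub]
    have h1 := hy
    rw [hLO.over] at h1
    exact h1
  rw [hprod] at hmem
  obtain ⟨η, hη, hηw⟩ := (Ideal.IsPrime.prod_mem_iff.mp hmem)
  rw [Polynomial.mem_nthRootsFinset hp.pos] at hη
  obtain ⟨i, hi, rfl⟩ := hzprim.eq_pow_of_pow_eq_one hη
  have h1 : τ • (θ - z ^ i * y') ∈ w.asIdeal := by
    have := Ideal.smul_mem_pointwise_smul τ _ _ hηw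
    rwa [hτw] at this
  have hfix : τ • (z ^ i * y') = z ^ i * y' := by
    rw [hz, hy', ← map_pow, ← map_mul]
    exact smul_algebraMap τ _
  rw [smul_sub, hfix] at h1
  have h2 : τ • θ - θ ∈ w.asIdeal := by
    have := Ideal.sub_mem _ h1 hηw
    simpa using this
  have hτθp : (τ • θ) ^ p = θ ^ p := by
    rw [← smul_pow', hθ, smul_algebraMap]
  have hprod2 : (τ • θ) ^ p - θ ^ p =
      ∏ η ∈ Polynomial.nthRootsFinset p (1 : 𝓞 M), (τ • θ - η * θ) :=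
    hzprim.pow_sub_pow_eq_prod_sub_mul _ _ hp.pos
  rw [hτθp, sub_self] at hprod2
  obtain ⟨η, hη, hη0⟩ := Finset.prod_eq_zero_iff.mp hprod2.symm
  rw [Polynomial.mem_nthRootsFinset hp.pos] at hη
  have hη1 : η ≠ 1 := by
    rintro rfl
    rw [one_mul, sub_eq_zero] at hη0
    exact hτ hη0
  rw [sub_eq_zero] at hη0
  rw [hη0] at h2
  have h3 : (η - 1) * θ ∈ w.asIdeal := by rwa [sub_mul, one_mul]
  rcases w.isPrime.mem_or_mem h3 with h4 | h4
  · have hgeom : ∑ k ∈ Finset.range p, η ^ k = 0 := by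
      have := mul_geom_sum η p
      rw [hη, sub_self] at this
      exact (mul_eq_zero.mp this).resolve_left (sub_ne_zero.mpr hη1)
    have hp_mem : (p : 𝓞 M) ∈ w.asIdeal := by
      have h5 : (p : 𝓞 M) = ∑ k ∈ Finset.range p, (1 - η ^ k) := by
        rw [Finset.sum_sub_distrib, hgeom, sub_zero, Finset.sum_const, Finset.card_range,
          nsmul_one]
      rw [h5]
      refine Ideal.sum_mem _ fun k _ => ?_
      have hd : η - 1 ∣ η ^ k - 1 := by simpa using sub_dvd_pow_sub_pow η 1 k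
      have h6 := Ideal.mem_of_dvd _ hd h4
      have h7 := neg_mem h6
      rwa [neg_sub] at h7
    apply hpv
    have h8 : algebraMap (𝓞 K) (𝓞 M) (p : 𝓞 K) ∈ w.asIdeal := by simpa using hp_mem
    rw [hLO.over]
    exact h8
  · apply huv
    have h8 : algebraMap (𝓞 K) (𝓞 M) u ∈ w.asIdeal := by
      rw [← hθ]
      exact Ideal.pow_mem_of_mem _ h4 p hp.pos
    rw [hLO.over]
    exact h8

end Algebraic

section Assembly

open Polynomial in
/-- The Kummer extension `M = K(u^(1/p))` as a number field, with an integral `p`-th root of `u`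
moved by some automorphism. -/
theorem h35_exists_kummer.{v} {p : ℕ} (hp : p.Prime) (K : Type v) [Field K] [NumberField K]
    (ζ : K) (hζ : IsPrimitiveRoot ζ p) (u : 𝓞 K) (hu : ¬ ∃ y : K, y ^ p = (u : K)) :
    ∃ (M : Type v) (_ : Field M) (_ : NumberField M) (_ : Algebra K M) (_ : IsGalois K M)
      (θ : 𝓞 M), Module.finrank K M = p ∧ θ ^ p = algebraMap (𝓞 K) (𝓞 M) u ∧
        ∃ τ : M ≃ₐ[K] M, τ • θ ≠ θ := by
  have : NeZero p := ⟨hp.ne_zero⟩
  have hirr : Irreducible (X ^ p - C (u : K)) :=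
    X_pow_sub_C_irreducible_of_prime hp (fun b hb => hu ⟨b, hb⟩)
  have hprim : (primitiveRoots p K).Nonempty := ⟨ζ, (mem_primitiveRoots hp.pos).mpr hζ⟩
  let M := (X ^ p - C (u : K)).SplittingField
  have hNF : NumberField M := NumberField.of_module_finite K M
  have hGal : IsGalois K M := isGalois_of_isSplittingField_X_pow_sub_C hprim hirr M
  have hdeg : Module.finrank K M = p := finrank_of_isSplittingField_X_pow_sub_C hprim hirr M
  set θ₀ : M := rootOfSplitsXPowSubC hp.pos (u : K) M with hθ₀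
  have hθ₀p : θ₀ ^ p = algebraMap K M (u : K) := rootOfSplitsXPowSubC_pow (u : K) M
  have hint : IsIntegral ℤ θ₀ := by
    refine IsIntegral.of_pow hp.pos ?_
    rw [hθ₀p]
    exact (u.isIntegral_coe).algebraMap
  let θ : 𝓞 M := ⟨θ₀, hint⟩
  refine ⟨M, inferInstance, hNF, inferInstance, hGal, θ, hdeg, ?_, ?_⟩
  · apply RingOfIntegers.ext
    change θ₀ ^ p = _
    rw [hθ₀p]
    rfl
  · by_contra hcon
    push Not at hcon
    have hfix : ∀ τ : M ≃ₐ[K] M, τ θ₀ = θ₀ := by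
      intro τ
      have := congrArg (fun x : 𝓞 M => (x : M)) (hcon τ)
      exact this
    obtain ⟨y, hy⟩ := (IsGalois.mem_range_algebraMap_iff_fixed θ₀).mpr hfix
    apply hu
    refine ⟨y, ?_⟩
    apply FaithfulSMul.algebraMap_injective K M
    rw [map_pow, hy, hθ₀p]

theorem h35_dens_of {p : ℕ} (hp : p.Prime) (hp2 : p ≠ 2) (K : Type*) [Field K] [NumberField K]
    (ζ : K) (hζ : IsPrimitiveRoot ζ p)
    (χ : ClassGroup (𝓞 K) →* ℂˣ)
    (hbdd : ∃ B : ℝ, ∀ s : ℝ, 1 < s → s ≤ 2 →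
      ‖idealSum K (fun I => (χ (ClassGroup.mk0 I) : ℂ)) s‖ ≤ B)
    (u : 𝓞 K) (hu0 : u ≠ 0) (hu : ¬ ∃ y : K, y ^ p = (u : K)) :
    ∃ Q : (Ideal (𝓞 K))⁰, (Q : Ideal (𝓞 K)).IsPrime ∧
      (Ideal.absNorm (Q : Ideal (𝓞 K))).Prime ∧ (p : 𝓞 K) ∉ (Q : Ideal (𝓞 K)) ∧
      χ (ClassGroup.mk0 Q) ≠ 1 ∧ ¬ ∃ y : 𝓞 K, u - y ^ p ∈ (Q : Ideal (𝓞 K)) := by
  classical
  obtain ⟨M, _, _, _, _, θ, hdeg, hθ, hmove⟩ := h35_exists_kummer hp K ζ hζ u hu
  by_contra hcon
  push Not at hcon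
  -- the integral root of unity
  have hζint : IsIntegral ℤ ζ := hζ.isIntegral hp.pos
  let ζ' : 𝓞 K := ⟨ζ, hζint⟩
  have hζ' : IsPrimitiveRoot ζ' p :=
    IsPrimitiveRoot.of_map_of_injective (f := algebraMap (𝓞 K) K) hζ
      (FaithfulSMul.algebraMap_injective _ _)
  -- the bad primes
  set Bad : Set (HeightOneSpectrum (𝓞 K)) := {v | (p : 𝓞 K) * u ∈ v.asIdeal} with hBadDef
  have hBad : Bad.Finite := by
    have h0 : Ideal.span {(p : 𝓞 K) * u} ≠ 0 := by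
      rw [Ne, Ideal.zero_eq_bot, Ideal.span_singleton_eq_bot]
      exact mul_ne_zero (by exact_mod_cast hp.ne_zero) hu0
    refine (Ideal.finite_factors h0).subset fun v hv => ?_
    exact Ideal.dvd_span_singleton.mpr hv
  obtain ⟨B₀, hB₀⟩ := h35_exists_sum_prime_ge K Bad hBad
  obtain ⟨B₁, hB₁⟩ := h35_sum_split_le K M p (HeightOneSpectrum.under (𝓞 K))
  obtain ⟨B₂, hB₂⟩ := h35_sum_char_one_le K χ hbdd
  set C : ℝ := 6 * B₀ + 3 * B₂ + 2 * B₁ with hC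
  set t : ℝ := |C| + 1 with ht
  have ht0 : 0 < t := by positivity
  set σ : ℝ := 1 + Real.exp (-t) with hσ
  have h1 : 1 < σ := by have := Real.exp_pos (-t); linarith
  have h2 : σ ≤ 2 := by
    have : Real.exp (-t) ≤ 1 := Real.exp_le_one_iff.mpr (by linarith)
    linarith
  have hlog : Real.log (1 / (σ - 1)) = t := by
    rw [hσ, add_sub_cancel_left, one_div, ← Real.exp_neg, neg_neg, Real.log_exp]
  obtain ⟨S, hS, hSge⟩ := hB₀ σ h1 h2
  have hsplit := Finset.sum_filter_add_sum_filter_not S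
    (fun v => χ (ClassGroup.mk0 (primeIdeal v)) = 1) (h35_x K σ)
  have hA := hB₂ σ h1 h2 (S.filter (fun v => χ (ClassGroup.mk0 (primeIdeal v)) = 1))
    (fun v hv => (Finset.mem_filter.mp hv).2)
  have hB := hB₁ σ h1 h2 (S.filter (fun v => ¬ χ (ClassGroup.mk0 (primeIdeal v)) = 1))
    (fun v hv => by
      obtain ⟨hvS, hχv⟩ := Finset.mem_filter.mp hv
      obtain ⟨hprime, hnotbad⟩ := hS v hvS
      have hpv : (p : 𝓞 K) ∉ v.asIdeal := fun h => hnotbad (Ideal.mul_mem_right _ _ h)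
      have huv : u ∉ v.asIdeal := fun h => hnotbad (Ideal.mul_mem_left _ _ h)
      obtain ⟨y, hy⟩ := hcon (primeIdeal v) v.isPrime hprime hpv hχv
      have hsp := h35_splits_of_pow_mod K M hp hdeg ζ' hζ' u θ hθ hmove v hpv huv y hy
      have hcard := h84_card_fibre_of_splits K M v hsp
      have : Fintype {w : HeightOneSpectrum (𝓞 M) // w.under (𝓞 K) = v} := Fintype.ofFinite _
      refine ⟨(Finset.univ : Finset {w : HeightOneSpectrum (𝓞 M) // w.under (𝓞 K) = v}).map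
        (Function.Embedding.subtype _), ?_, ?_⟩
      · rw [Finset.card_map, Finset.card_univ, ← Nat.card_eq_fintype_card, hcard, hdeg]
      · intro w hw
        obtain ⟨⟨w', hw'⟩, -, rfl⟩ := Finset.mem_map.mp hw
        exact ⟨hw', h84_absNorm_eq_of_splits K M v hsp w' hw'⟩)
  have hp3 : (3 : ℝ) ≤ p := by
    have : 3 ≤ p := by
      have := hp.two_le
      omega
    exact_mod_cast this
  have hnn : 0 ≤ ∑ v ∈ S.filter (fun v => ¬ χ (ClassGroup.mk0 (primeIdeal v)) = 1),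
      h35_x K σ v := Finset.sum_nonneg fun v _ => h35_x_nonneg K σ v
  rw [hlog] at hSge hA hB
  have h3 : 3 * ∑ v ∈ S.filter (fun v => ¬ χ (ClassGroup.mk0 (primeIdeal v)) = 1),
      h35_x K σ v ≤ t + B₁ := le_trans (mul_le_mul_of_nonneg_right hp3 hnn) hB
  have hCt : C < t := by
    have := le_abs_self C
    linarith
  linarith

end Assembly

end Fermat.Agent.S14
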