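import Mathlib
import Fermat.Agent.S14.Defs
import Fermat.Agent.S14.LBD
import Fermat.Agent.S14.h35_Dens

/-!
# S14, package T-DENS: a degree-one prime with `χ(Q) ≠ 1` at which `u` is not a `p`-th power

The statement `t_dens` of the CORE-T skeleton, verbatim: `h35_dens_of` (file `h35_Dens.lean`)
fed with the boundedness of the class `L`-series (`classLSeries_bounded`, file `LBD.lean`).
-/

namespace Fermat.Agent.S14

open NumberField Filter Topology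
open scoped nonZeroDivisors Pointwise

theorem t_dens {p : ℕ} (hp : p.Prime) (hp2 : p ≠ 2) (K : Type*) [Field K] [NumberField K]
    (ζ : K) (hζ : IsPrimitiveRoot ζ p)
    (χ : ClassGroup (𝓞 K) →* ℂˣ) (hχ : χ ≠ 1) (u : 𝓞 K) (hu0 : u ≠ 0)
    (hu : ¬ ∃ y : K, y ^ p = (u : K)) :
    ∃ Q : (Ideal (𝓞 K))⁰, (Q : Ideal (𝓞 K)).IsPrime ∧
      (Ideal.absNorm (Q : Ideal (𝓞 K))).Prime ∧ (p : 𝓞 K) ∉ (Q : Ideal (𝓞 K)) ∧
      χ (ClassGroup.mk0 Q) ≠ 1 ∧ ¬ ∃ y : 𝓞 K, u - y ^ p ∈ (Q : Ideal (𝓞 K)) :=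
  h35_dens_of hp hp2 K ζ hζ χ (classLSeries_bounded K χ hχ) u hu0 hu

end Fermat.Agent.S14
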