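import Mathlib
import Fermat.Agent.S14.Defs

/-!
# S14, CORE-T, row T-KUM : the Kummer generator of `L / K`

`t_kummer` : from `CoreData p K L` (with `K = ℚ(ζ_p)`, `L / K` cyclic of degree `p`, unramified,
twisted Galois action) we get `β ∈ 𝓞 K`, not a `p`-th power, with `L = K(β^(1/p))`,
`(β) = 𝔟^p`, and `σ β = β^(m²) κ^p` whenever `σ ζ = ζ^m`.
-/

set_option autoImplicit false

namespace Fermat.Agent.S14

open NumberField UniqueFactorizationMonoid
open scoped nonZeroDivisors IntermediateField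

/-! ### An element whose extension to an unramified overring is a `p`-th power -/

/-- Let `B / A` be an integral extension of Dedekind domains in which no nonzero prime of `B`
is ramified. If `β ∈ A` becomes a `p`-th power in `B`, the ideal `(β)` is a `p`-th power. -/
theorem h14_span_eq_pow_of_unramified {A B : Type*} [CommRing A] [IsDedekindDomain A]
    [CommRing B] [IsDedekindDomain B] [Algebra A B] [Algebra.IsIntegral A B] [FaithfulSMul A B]
    (hur : ∀ Q : Ideal B, Q.IsPrime → Q ≠ ⊥ → Q.ramificationIdx A = 1)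
    (p : ℕ) (β : A) (hβ : β ≠ 0) (θ : B) (hθ : θ ^ p = algebraMap A B β) :
    ∃ 𝔟 : Ideal A, Ideal.span {β} = 𝔟 ^ p := by
  classical
  set I : Ideal A := Ideal.span {β} with hI
  have hI0 : I ≠ ⊥ := by
    rw [hI, Ne, Ideal.span_singleton_eq_bot]
    exact hβ
  have hinj : Function.Injective (algebraMap A B) := FaithfulSMul.algebraMap_injective A B
  have hmapI : I.map (algebraMap A B) = Ideal.span {θ} ^ p := by
    rw [hI, Ideal.map_span, Set.image_singleton, ← hθ, Ideal.span_singleton_pow]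
  have key : ∀ q ∈ normalizedFactors I, p ∣ (normalizedFactors I).count q := by
    intro q hq
    have hqprime : Prime q := prime_of_normalized_factor q hq
    have hq0 : q ≠ ⊥ := hqprime.ne_zero
    have hqP : q.IsPrime := Ideal.isPrime_of_prime hqprime
    have hqM : q.IsMaximal := hqP.isMaximal hq0
    obtain ⟨Q, hQM, hQo⟩ := Ideal.exists_maximal_ideal_liesOver_of_isIntegral (S := B) q
    have hQP : Q.IsPrime := hQM.isPrime
    have hQ0 : Q ≠ ⊥ := Ideal.ne_bot_of_liesOver_of_ne_bot hq0 Q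
    obtain ⟨I', hI', hdec⟩ := Ideal.eq_prime_pow_mul_coprime hI0 q
    set n := (normalizedFactors I).count q with hn
    have hmap : I.map (algebraMap A B) =
        (q.map (algebraMap A B)) ^ n * I'.map (algebraMap A B) := by
      conv_lhs => rw [hdec]
      rw [Ideal.map_mul, Ideal.map_pow]
    have hqmap0 : q.map (algebraMap A B) ≠ ⊥ := by
      rw [Ne, Ideal.map_eq_bot_iff_of_injective hinj]
      exact hq0
    have hI'0 : I' ≠ ⊥ := by
      rintro rfl
      rw [sup_bot_eq] at hI'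
      exact hqP.ne_top hI'
    have hI'map0 : I'.map (algebraMap A B) ≠ ⊥ := by
      rw [Ne, Ideal.map_eq_bot_iff_of_injective hinj]
      exact hI'0
    have hc1 : (normalizedFactors (q.map (algebraMap A B))).count Q = 1 := by
      rw [← Ideal.IsDedekindDomain.ramificationIdx_eq_normalizedFactors_count q Q hqmap0]
      exact hur Q hQP hQ0
    have hc2 : (normalizedFactors (I'.map (algebraMap A B))).count Q = 0 := by
      rw [Multiset.count_eq_zero]
      intro hmem
      have hdvd : Q ∣ I'.map (algebraMap A B) := dvd_of_mem_normalizedFactors hmem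
      have hle : I'.map (algebraMap A B) ≤ Q := Ideal.le_of_dvd hdvd
      have hle' : I' ≤ q := by
        rw [Ideal.map_le_iff_le_comap] at hle
        rw [hQo.over]
        exact hle
      rw [sup_of_le_left hle'] at hI'
      exact hqP.ne_top hI'
    have hcount : (normalizedFactors (I.map (algebraMap A B))).count Q = n := by
      rw [hmap, normalizedFactors_mul (pow_ne_zero n hqmap0) hI'map0, Multiset.count_add,
        normalizedFactors_pow, Multiset.count_nsmul, hc1, hc2, mul_one, add_zero]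
    rw [hmapI, normalizedFactors_pow, Multiset.count_nsmul] at hcount
    exact ⟨_, hcount.symm⟩
  obtain ⟨u, hu⟩ := Multiset.exists_smul_of_dvd_count _ key
  refine ⟨u.prod, ?_⟩
  rw [← Multiset.prod_nsmul, ← hu]
  exact (Ideal.prod_normalizedFactors_eq_self hI0).symm

/-! ### Roots of unity -/

/-- All `p`-th roots of unity of `L` come from `K` when `K` contains a primitive one. -/
theorem h14_root_of_unity_mem {K L : Type*} [Field K] [Field L] [Algebra K L] {p : ℕ}
    (hp : 0 < p) {ζ : K} (hζ : IsPrimitiveRoot ζ p) {x : L} (hx : x ^ p = 1) :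
    ∃ i : ℕ, x = algebraMap K L (ζ ^ i) := by
  have : NeZero p := ⟨hp.ne'⟩
  have hζL : IsPrimitiveRoot (algebraMap K L ζ) p :=
    hζ.map_of_injective (algebraMap K L).injective
  obtain ⟨i, -, hi⟩ := hζL.eq_pow_of_pow_eq_one hx
  exact ⟨i, by rw [map_pow, hi]⟩

/-! ### The Kummer generator -/

/-- A cyclic extension `L / K` of number fields of prime degree `p`, with `ζ_p ∈ K`, is generated
by an algebraic integer `θ ∉ K` with `θ^p = β ∈ 𝓞 K`. -/
theorem h14_exists_kummer (p : ℕ) [hp : Fact p.Prime] (K L : Type) [Field K] [NumberField K]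
    [Field L] [NumberField L] [Algebra K L] [IsGalois K L] (hdeg : Module.finrank K L = p)
    (ζ0 : K) (hζ0 : IsPrimitiveRoot ζ0 p) :
    ∃ (β : 𝓞 K) (θ : 𝓞 L), β ≠ 0 ∧ θ ^ p = algebraMap (𝓞 K) (𝓞 L) β ∧
      (θ : L) ∉ Set.range (algebraMap K L) := by
  have hcard : Nat.card Gal(L/K) = p := by rw [IsGalois.card_aut_eq_finrank, hdeg]
  have hcyc : IsCyclic Gal(L/K) := isCyclic_of_prime_card hcard
  have hK : (primitiveRoots (Module.finrank K L) K).Nonempty :=
    ⟨ζ0, by rw [hdeg, mem_primitiveRoots hp.out.pos]; exact hζ0⟩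
  obtain ⟨α, ⟨a, ha⟩, hα⟩ := exists_root_adjoin_eq_top_of_isCyclic K L hK
  rw [hdeg] at ha
  -- `α ∉ K`
  have hαK : α ∉ Set.range (algebraMap K L) := by
    intro hmem
    have hbot : K⟮α⟯ = ⊥ :=
      IntermediateField.adjoin_simple_eq_bot_iff.mpr (IntermediateField.mem_bot.mpr hmem)
    rw [hbot] at hα
    have h1 : Module.finrank K L = 1 := IntermediateField.bot_eq_top_iff_finrank_eq_one.mp hα
    rw [hdeg] at h1
    exact hp.out.ne_one h1
  -- an integral multiple
  have halg : IsAlgebraic ℤ α := by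
    have h1 : IsAlgebraic ℚ α := Algebra.IsAlgebraic.isAlgebraic α
    exact (IsFractionRing.isAlgebraic_iff ℤ ℚ L).mpr h1
  obtain ⟨d, hd0, hd⟩ := halg.exists_integral_multiple
  have hdK : (d : K) ≠ 0 := by exact_mod_cast hd0
  have hdL : (d : L) ≠ 0 := by exact_mod_cast hd0
  have hdα : d • α = (d : L) * α := by rw [zsmul_eq_mul]
  rw [hdα] at hd
  -- `β := d^p a` is integral
  have hb : algebraMap K L ((d : K) ^ p * a) = ((d : L) * α) ^ p := by
    rw [map_mul, map_pow, map_intCast, ha, mul_pow]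
  have hbint : IsIntegral ℤ ((d : K) ^ p * a) := by
    have h1 : IsIntegral ℤ (algebraMap K L ((d : K) ^ p * a)) := by
      rw [hb]
      exact hd.pow p
    exact (isIntegral_algebraMap_iff (algebraMap K L).injective).mp h1
  refine ⟨⟨(d : K) ^ p * a, hbint⟩, ⟨(d : L) * α, hd⟩, ?_, ?_, ?_⟩
  · intro h0
    have h1 : (d : K) ^ p * a = 0 := congrArg (fun x : 𝓞 K => (x : K)) h0
    have ha0 : a = 0 := by
      rcases mul_eq_zero.mp h1 with h | h
      · exact absurd (pow_eq_zero_iff hp.out.ne_zero |>.mp h) hdK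
      · exact h
    rw [ha0, map_zero] at ha
    have hα0 : α = 0 := by
      have := ha.symm
      exact pow_eq_zero_iff hp.out.ne_zero |>.mp this
    exact hαK ⟨0, by rw [hα0, map_zero]⟩
  · apply RingOfIntegers.ext
    show ((d : L) * α) ^ p = algebraMap K L ((d : K) ^ p * a)
    exact hb.symm
  · rintro ⟨y, hy⟩
    apply hαK
    refine ⟨y / (d : K), ?_⟩
    rw [map_div₀, hy, map_intCast]
    show (d : L) * α / (d : L) = α
    field_simp

/-! ### The eigen-relation -/

/-- The twisted Galois action gives `σ β = β^(m²) κ^p`. -/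
theorem h14_eigen (p : ℕ) [hp : Fact p.Prime] (K L : Type) [Field K] [NumberField K]
    [Field L] [NumberField L] [Algebra K L] [IsGalois ℚ K] [IsGalois ℚ L] [IsGalois K L]
    (hdeg : Module.finrank K L = p)
    (htwist : ∀ (σ τ : L ≃ₐ[ℚ] L) (ζ : K) (m : ℕ), IsPrimitiveRoot ζ p →
      (∀ x : K, τ (algebraMap K L x) = algebraMap K L x) →
      σ (algebraMap K L ζ) = algebraMap K L ζ ^ m → σ * τ ^ m * σ⁻¹ = τ)
    (b : K) (t : L) (ht0 : t ≠ 0) (ht : t ^ p = algebraMap K L b)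
    (σ : K ≃ₐ[ℚ] K) (ζ : K) (m : ℕ) (hζ : IsPrimitiveRoot ζ p) (hσ : σ ζ = ζ ^ m) :
    ∃ κ : K, σ b = b ^ (m ^ 2) * κ ^ p := by
  have hcard : Nat.card Gal(L/K) = p := by rw [IsGalois.card_aut_eq_finrank, hdeg]
  have hcyc : IsCyclic Gal(L/K) := isCyclic_of_prime_card hcard
  obtain ⟨τ0, hτ0⟩ := hcyc.exists_generator
  -- `τ0 t = ζ1 t`
  have h1 : (τ0 t / t) ^ p = 1 := by
    rw [div_pow, ← map_pow, ht, AlgEquiv.commutes, div_self]
    rw [← ht]
    exact pow_ne_zero p ht0
  obtain ⟨i, hi⟩ := h14_root_of_unity_mem (K := K) (L := L) hp.out.pos hζ h1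
  set z : L := algebraMap K L (ζ ^ i) with hz
  have hz0 : z ≠ 0 := by
    rw [hz, Ne, map_eq_zero]
    exact pow_ne_zero i (hζ.ne_zero hp.out.ne_zero)
  have hτt : τ0 t = z * t := by
    rw [← hi, div_mul_cancel₀ _ ht0]
  -- lift `σ`
  obtain ⟨σ', hσ'⟩ := AlgEquiv.restrictNormalHom_surjective (F := ℚ) (K₁ := K) L σ
  have hσ'c : ∀ x : K, σ' (algebraMap K L x) = algebraMap K L (σ x) := by
    intro x
    rw [← hσ']
    exact (AlgEquiv.restrictNormal_commutes σ' K x).symm
  set τ' : L ≃ₐ[ℚ] L := τ0.restrictScalars ℚ with hτ'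
  have hτ'apply : ∀ x : L, τ' x = τ0 x := fun x => rfl
  have htw : σ' * τ' ^ m * σ'⁻¹ = τ' := by
    refine htwist σ' τ' ζ m hζ (fun x => ?_) ?_
    · rw [hτ'apply, AlgEquiv.commutes]
    · rw [hσ'c, hσ, map_pow]
  -- powers of `τ'` on `t`
  have hpow : ∀ k : ℕ, (τ' ^ k) t = z ^ k * t := by
    intro k
    induction k with
    | zero => simp
    | succ k ih =>
      rw [pow_succ', AlgEquiv.mul_apply, ih, map_mul, map_pow, hτ'apply, hτ'apply, hτt]
      have hzfix : τ0 z = z := by rw [hz, AlgEquiv.commutes]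
      rw [hzfix]
      ring
  have hσ'z : σ' z = z ^ m := by
    rw [hz, hσ'c, map_pow, hσ, ← pow_mul, mul_comm, pow_mul, map_pow]
  have key : τ0 (σ' t) = z ^ (m ^ 2) * σ' t := by
    have h2 : τ' (σ' t) = (σ' * τ' ^ m * σ'⁻¹) (σ' t) := by rw [htw]
    rw [hτ'apply] at h2
    rw [h2, AlgEquiv.mul_apply, AlgEquiv.mul_apply]
    have h3 : σ'⁻¹ (σ' t) = t := by
      show σ'.symm (σ' t) = t
      exact σ'.symm_apply_apply t
    rw [h3, hpow, map_mul, map_pow, hσ'z, ← pow_mul, pow_two]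
  -- `κ' := σ' t / t^(m²)` is fixed by `Gal(L/K)`
  set κ' : L := σ' t / t ^ (m ^ 2) with hκ'
  have hfix0 : τ0 κ' = κ' := by
    rw [hκ', map_div₀, map_pow, key, hτt, mul_pow]
    field_simp
  have hfix : ∀ f : Gal(L/K), f κ' = κ' := by
    intro f
    have hmem : f ∈ MulAction.stabilizer Gal(L/K) κ' := by
      have hle : Subgroup.zpowers τ0 ≤ MulAction.stabilizer Gal(L/K) κ' := by
        rw [Subgroup.zpowers_le]
        exact hfix0
      exact hle (hτ0 f)
    exact hmem
  obtain ⟨κ, hκ⟩ := (IsGalois.mem_range_algebraMap_iff_fixed κ').mpr hfix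
  refine ⟨κ, ?_⟩
  apply (algebraMap K L).injective
  have hσt : σ' t = κ' * t ^ (m ^ 2) := by
    rw [hκ', div_mul_cancel₀ _ (pow_ne_zero _ ht0)]
  calc algebraMap K L (σ b) = σ' (t ^ p) := by rw [ht, hσ'c]
    _ = (σ' t) ^ p := map_pow _ _ _
    _ = (κ' * t ^ (m ^ 2)) ^ p := by rw [hσt]
    _ = (t ^ p) ^ (m ^ 2) * κ' ^ p := by ring
    _ = algebraMap K L (b ^ (m ^ 2) * κ ^ p) := by
      rw [ht, ← hκ, map_mul, map_pow, map_pow]

/-! ### T-KUM -/

theorem t_kummer (p : ℕ) [Fact p.Prime] (hp2 : p ≠ 2)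
    (K L : Type) [Field K] [NumberField K] [Field L] [NumberField L] [Algebra K L]
    [IsCyclotomicExtension {p} ℚ K] [IsGalois ℚ L] (h : CoreData p K L) :
    ∃ (β : 𝓞 K) (θ : 𝓞 L) (𝔟 : Ideal (𝓞 K)), β ≠ 0 ∧ θ ^ p = algebraMap (𝓞 K) (𝓞 L) β ∧
      (¬ ∃ y : K, y ^ p = (β : K)) ∧ Ideal.span {β} = 𝔟 ^ p ∧
      ∀ (σ : K ≃ₐ[ℚ] K) (ζ : K) (m : ℕ), IsPrimitiveRoot ζ p → σ ζ = ζ ^ m →
        ∃ κ : K, σ (β : K) = (β : K) ^ (m ^ 2) * κ ^ p := by
  have hpp : p.Prime := Fact.out
  have : NeZero p := ⟨hpp.ne_zero⟩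
  have hGalK : IsGalois ℚ K := IsCyclotomicExtension.isGalois {p} ℚ K
  have hGalLK : IsGalois K L := IsGalois.tower_top_of_isGalois ℚ K L
  have hζ0 : IsPrimitiveRoot (IsCyclotomicExtension.zeta p ℚ K) p :=
    IsCyclotomicExtension.zeta_spec p ℚ K
  obtain ⟨β, θ, hβ0, hθ, hθK⟩ := h14_exists_kummer p K L h.finrank_eq _ hζ0
  have hFa : FaithfulSMul (𝓞 K) (𝓞 L) :=
    (faithfulSMul_iff_algebraMap_injective _ _).mpr (RingOfIntegers.algebraMap.injective K L)
  obtain ⟨𝔟, h𝔟⟩ := h14_span_eq_pow_of_unramified (A := 𝓞 K) (B := 𝓞 L) h.unramified p β hβ0 θ hθ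
  have hθL : (θ : L) ^ p = algebraMap K L (β : K) := by
    have h1 := congrArg (algebraMap (𝓞 L) L) hθ
    rw [map_pow] at h1
    exact h1
  have hθ0 : (θ : L) ≠ 0 := by
    intro h0
    exact hθK ⟨0, by rw [h0, map_zero]⟩
  refine ⟨β, θ, 𝔟, hβ0, hθ, ?_, h𝔟, ?_⟩
  · rintro ⟨y, hy⟩
    have hy0 : y ≠ 0 := by
      rintro rfl
      rw [zero_pow hpp.ne_zero] at hy
      exact hβ0 (RingOfIntegers.coe_eq_zero_iff.mp hy.symm)
    have hyL : algebraMap K L y ≠ 0 := by
      rw [Ne, map_eq_zero]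
      exact hy0
    have h1 : ((θ : L) / algebraMap K L y) ^ p = 1 := by
      rw [div_pow, hθL, ← hy, map_pow, div_self (pow_ne_zero p hyL)]
    obtain ⟨i, hi⟩ := h14_root_of_unity_mem (K := K) (L := L) hpp.pos hζ0 h1
    apply hθK
    refine ⟨IsCyclotomicExtension.zeta p ℚ K ^ i * y, ?_⟩
    rw [map_mul, ← hi, div_mul_cancel₀ _ hyL]
  · intro σ ζ m hζ hσ
    exact h14_eigen p K L h.finrank_eq h.twist (β : K) (θ : L) hθ0 hθL σ ζ m hζ hσ

end Fermat.Agent.S14
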