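import Mathlib
import Fermat.Agent.S14.Defs

/-!
# S14, CORE-T, package T-LOC: a completely split prime has the same `P`-adic approximations

`R ⊆ S` Dedekind domains, `P` a prime of `S` over the nonzero prime `𝔭` of `R`, with
`e(P|𝔭) = f(P|𝔭) = 1`.  Then every element of `S` is congruent mod `P^n` to an element of `R`,
and `P^n ∩ R = 𝔭^n`.
-/

set_option autoImplicit false

namespace Fermat.Agent.S14

open Ideal

section Local

variable {R S : Type*} [CommRing R] [IsDedekindDomain R] [CommRing S] [IsDedekindDomain S]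
  [Algebra R S] [Module.IsTorsionFree R S]
  (𝔭 : Ideal R) (P : Ideal S) [𝔭.IsPrime] [P.IsPrime] [P.LiesOver 𝔭]

omit [IsDedekindDomain R] [Module.IsTorsionFree R S] [𝔭.IsPrime] [P.LiesOver 𝔭] in
/-- In a Dedekind domain, an element of `P \ P²` has `x^n ∉ P^(n+1)`. -/
theorem h37_pow_not_mem (hP : P ≠ ⊥) (x : S) (hx : x ∈ P) (hx2 : x ∉ P ^ 2) (n : ℕ) :
    x ^ n ∉ P ^ (n + 1) := by
  have hprime : Prime P := Ideal.prime_of_isPrime hP inferInstance
  have h1 : emultiplicity P (Ideal.span {x}) = ((1 : ℕ) : ℕ∞) := by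
    rw [emultiplicity_eq_coe]
    refine ⟨?_, ?_⟩
    · rw [pow_one, Ideal.dvd_span_singleton]; exact hx
    · rw [Ideal.dvd_span_singleton]; exact hx2
  intro h
  have h2 : P ^ (n + 1) ∣ Ideal.span {x} ^ n := by
    rw [Ideal.span_singleton_pow, Ideal.dvd_span_singleton]; exact h
  have h3 := le_emultiplicity_of_pow_dvd h2
  rw [emultiplicity_pow hprime, h1] at h3
  have h4 : ((n + 1 : ℕ) : ℕ∞) ≤ ((n * 1 : ℕ) : ℕ∞) := by exact_mod_cast h3
  have h5 : n + 1 ≤ n * 1 := by exact_mod_cast h4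
  omega

omit [𝔭.IsPrime] in
/-- `e = 1` gives an element of `𝔭` which is a uniformizer at `P`. -/
theorem h37_exists_uniformizer (h𝔭 : 𝔭 ≠ ⊥) (he : P.ramificationIdx R = 1) :
    ∃ π ∈ 𝔭, algebraMap R S π ∉ P ^ 2 := by
  by_contra hcon
  push Not at hcon
  have hle : 𝔭.map (algebraMap R S) ≤ P ^ 2 := by
    rw [Ideal.map_le_iff_le_comap]
    intro π hπ
    exact hcon π hπ
  have hle1 : 𝔭.map (algebraMap R S) ≤ P := hle.trans (Ideal.pow_le_self (by norm_num))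
  have h1 : 𝔭.ramificationIdx' P ≠ 1 := (Ideal.ramificationIdx'_ne_one_iff hle1).mpr hle
  rw [Ideal.ramificationIdx'_eq_ramificationIdx 𝔭 P h𝔭] at h1
  exact h1 he

omit [Module.IsTorsionFree R S] in
/-- `f = 1`: every residue class mod `P` is represented by an element of `R`. -/
theorem h37_exists_res (h𝔭 : 𝔭 ≠ ⊥) (hP : P ≠ ⊥) (hf : P.inertiaDeg R = 1) (x : S) :
    ∃ w : R, x - algebraMap R S w ∈ P := by
  have : 𝔭.IsMaximal := Ideal.IsPrime.isMaximal inferInstance h𝔭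
  have : P.IsMaximal := Ideal.IsPrime.isMaximal inferInstance hP
  let _ : Field (R ⧸ 𝔭) := Ideal.Quotient.field 𝔭
  let _ : Field (S ⧸ P) := Ideal.Quotient.field P
  rw [Ideal.inertiaDeg_eq_of_isMaximal 𝔭 P] at hf
  have h1 : (1 : S ⧸ P) ≠ 0 := one_ne_zero
  obtain ⟨c, hc⟩ := (finrank_eq_one_iff_of_nonzero' (1 : S ⧸ P) h1).mp hf (Ideal.Quotient.mk P x)
  obtain ⟨w, rfl⟩ := Ideal.Quotient.mk_surjective c
  refine ⟨w, ?_⟩
  rw [← Ideal.Quotient.eq, ← hc, Algebra.smul_def, mul_one,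
    Ideal.Quotient.algebraMap_mk_of_liesOver]

/-- **(T-LOC 1)** If `e(P|𝔭) = f(P|𝔭) = 1`, every element of `S` is congruent mod `P^n`
to an element of `R`. -/
theorem h37_exists_approx (h𝔭 : 𝔭 ≠ ⊥) (hP : P ≠ ⊥) (he : P.ramificationIdx R = 1)
    (hf : P.inertiaDeg R = 1) (n : ℕ) (x : S) : ∃ w : R, x - algebraMap R S w ∈ P ^ n := by
  obtain ⟨π, hπ, hπ2⟩ := h37_exists_uniformizer 𝔭 P h𝔭 he
  have hπP : algebraMap R S π ∈ P := by
    have : π ∈ P.under R := by rw [← Ideal.over_def P 𝔭]; exact hπ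
    exact this
  induction n generalizing x with
  | zero => exact ⟨0, by simp⟩
  | succ n ih =>
    obtain ⟨w, hw⟩ := ih x
    obtain ⟨d, e, he', hde⟩ := Ideal.exists_mul_add_mem_pow_succ hP (algebraMap R S π ^ n)
      (x - algebraMap R S w) (Ideal.pow_mem_pow hπP n)
      (h37_pow_not_mem P hP _ hπP hπ2 n) hw
    obtain ⟨w', hw'⟩ := h37_exists_res 𝔭 P h𝔭 hP hf d
    refine ⟨w + π ^ n * w', ?_⟩
    have e1 : x - algebraMap R S (w + π ^ n * w')
        = algebraMap R S π ^ n * (d - algebraMap R S w') + e := by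
      rw [map_add, map_mul, map_pow]
      linear_combination -hde
    rw [e1]
    exact Ideal.add_mem _ (by rw [pow_succ]; exact Ideal.mul_mem_mul (Ideal.pow_mem_pow hπP n) hw')
      he'

/-- **(T-LOC 2)** If `e(P|𝔭) = 1` then `P^n ∩ R = 𝔭^n`. -/
theorem h37_mem_pow_of_algebraMap_mem (h𝔭 : 𝔭 ≠ ⊥) (hP : P ≠ ⊥) (he : P.ramificationIdx R = 1)
    (n : ℕ) (y : R) (hy : algebraMap R S y ∈ P ^ n) : y ∈ 𝔭 ^ n := by
  obtain ⟨π, hπ, hπ2⟩ := h37_exists_uniformizer 𝔭 P h𝔭 he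
  have hπP : algebraMap R S π ∈ P := by
    have : π ∈ P.under R := by rw [← Ideal.over_def P 𝔭]; exact hπ
    exact this
  induction n with
  | zero => simp
  | succ n ih =>
    have hyn : y ∈ 𝔭 ^ n := ih (Ideal.pow_le_pow_right (Nat.le_succ n) hy)
    have hπn : π ^ n ∉ 𝔭 ^ (n + 1) := by
      intro h
      have : algebraMap R S (π ^ n) ∈ (𝔭 ^ (n + 1)).map (algebraMap R S) := Ideal.mem_map_of_mem _ h
      rw [Ideal.map_pow, map_pow] at this
      have hle : 𝔭.map (algebraMap R S) ≤ P := by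
        rw [Ideal.map_le_iff_le_comap, ← Ideal.under_def, ← Ideal.over_def P 𝔭]
      exact h37_pow_not_mem P hP _ hπP hπ2 n (Ideal.pow_right_mono hle (n + 1) this)
    obtain ⟨d, e, he', hde⟩ := Ideal.exists_mul_add_mem_pow_succ h𝔭 (π ^ n) y
      (Ideal.pow_mem_pow hπ n) hπn hyn
    have he'S : algebraMap R S e ∈ P ^ (n + 1) := by
      have : algebraMap R S e ∈ (𝔭 ^ (n + 1)).map (algebraMap R S) := Ideal.mem_map_of_mem _ he'
      rw [Ideal.map_pow] at this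
      have hle : 𝔭.map (algebraMap R S) ≤ P := by
        rw [Ideal.map_le_iff_le_comap, ← Ideal.under_def, ← Ideal.over_def P 𝔭]
      exact Ideal.pow_right_mono hle (n + 1) this
    have hd : algebraMap R S d ∈ P := by
      apply Ideal.mem_prime_of_mul_mem_pow hP (h37_pow_not_mem P hP _ hπP hπ2 n)
      have : algebraMap R S π ^ n * algebraMap R S d = algebraMap R S y - algebraMap R S e := by
        rw [← hde]; simp
      rw [this]
      exact Ideal.sub_mem _ hy he'S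
    have hd' : d ∈ 𝔭 := by
      rw [Ideal.over_def P 𝔭]; exact hd
    rw [← hde]
    exact Ideal.add_mem _ (by rw [pow_succ]; exact Ideal.mul_mem_mul (Ideal.pow_mem_pow hπ n) hd')
      he'

end Local

section NF

open NumberField

variable {K L : Type*} [Field K] [NumberField K] [Field L] [NumberField L] [Algebra K L]

/-- Over a completely split prime `𝔭`, an `m`-th root in `𝓞 L` of `u ∈ 𝓞 K` forces `u` to be an
`m`-th power modulo every power of `𝔭`. -/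
theorem h37_exists_pow_sub_mem (𝔭 : Ideal (𝓞 K)) [𝔭.IsPrime] (h𝔭 : 𝔭 ≠ ⊥)
    (hs : SplitsCompletely (𝓞 K) (𝓞 L) 𝔭) (θ : 𝓞 L) (u : 𝓞 K) (m : ℕ)
    (h : θ ^ m = algebraMap (𝓞 K) (𝓞 L) u) (n : ℕ) : ∃ w : 𝓞 K, u - w ^ m ∈ 𝔭 ^ n := by
  obtain ⟨⟨P, hPprime, hPover⟩⟩ := (inferInstance : Nonempty (Ideal.primesOver 𝔭 (𝓞 L)))
  have hP0 : P ≠ ⊥ := Ideal.ne_bot_of_liesOver_of_ne_bot h𝔭 P
  obtain ⟨he, hf⟩ := hs P hPprime hPover
  obtain ⟨w, hw⟩ := h37_exists_approx 𝔭 P h𝔭 hP0 he hf n θ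
  refine ⟨w, h37_mem_pow_of_algebraMap_mem 𝔭 P h𝔭 hP0 he n _ ?_⟩
  rw [map_sub, map_pow, ← h]
  exact Ideal.mem_of_dvd _ (sub_dvd_pow_sub_pow _ _ m) hw

/-- **(T-LOC, END form)** In `K = ℚ(ζ_p)`: if the primes over `p` split completely in `L` and
`u ∈ 𝓞 K` is an `m`-th power in `𝓞 L`, then `u` is an `m`-th power modulo `(1 - ζ)^n`. -/
theorem h37_exists_pow_congr {p : ℕ} [Fact p.Prime] [IsCyclotomicExtension {p} ℚ K]
    (ζ : 𝓞 K) (hζ : IsPrimitiveRoot ζ p)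
    (hs : ∀ P : Ideal (𝓞 K), P.IsPrime → (p : 𝓞 K) ∈ P → SplitsCompletely (𝓞 K) (𝓞 L) P)
    (θ : 𝓞 L) (u : 𝓞 K) (m : ℕ) (h : θ ^ m = algebraMap (𝓞 K) (𝓞 L) u) (n : ℕ) :
    ∃ w : 𝓞 K, (1 - ζ) ^ n ∣ u - w ^ m := by
  have : NeZero p := ⟨(Fact.out : p.Prime).ne_zero⟩
  have hζK : IsPrimitiveRoot (algebraMap (𝓞 K) K ζ) p :=
    hζ.map_of_injective RingOfIntegers.coe_injective
  have hint : hζK.toInteger = ζ := rfl
  have hprime : Prime (ζ - 1) := by
    have := hζK.zeta_sub_one_prime'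
    rwa [hint] at this
  have hprime' : Prime (1 - ζ) := by
    have e : 1 - ζ = -(ζ - 1) := by ring
    rw [e]; exact hprime.neg
  have hpr : (Ideal.span {1 - ζ} : Ideal (𝓞 K)).IsPrime :=
    (Ideal.span_singleton_prime hprime'.ne_zero).mpr hprime'
  have h𝔭 : (Ideal.span {1 - ζ} : Ideal (𝓞 K)) ≠ ⊥ := by
    rw [Ne, Ideal.span_singleton_eq_bot]; exact hprime'.ne_zero
  have hp𝔭 : (p : 𝓞 K) ∈ (Ideal.span {1 - ζ} : Ideal (𝓞 K)) := by
    rw [Ideal.mem_span_singleton]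
    have h1 := hζK.toInteger_sub_one_dvd_prime'
    rw [hint] at h1
    have e : 1 - ζ = -(ζ - 1) := by ring
    rw [e, neg_dvd]
    exact h1
  obtain ⟨w, hw⟩ := h37_exists_pow_sub_mem (Ideal.span {1 - ζ}) h𝔭
    (hs _ hpr hp𝔭) θ u m h n
  refine ⟨w, ?_⟩
  rwa [Ideal.span_singleton_pow, Ideal.mem_span_singleton] at hw

end NF

end Fermat.Agent.S14
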