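import Mathlib
import Fermat.Agent.S14.Defs
import Fermat.Agent.S14.h37_Local

/-!
# S14, CORE-T, row T-LOC: `t_local` (statement verbatim from the CORE-T skeleton)

Wrapper over `h37_exists_pow_sub_mem` (`h37_Local.lean`).
-/

set_option autoImplicit false

namespace Fermat.Agent.S14

open NumberField

theorem t_local (p : ℕ) (K L : Type*) [Field K] [NumberField K] [Field L]
    [NumberField L] [Algebra K L] (P : Ideal (𝓞 K)) [P.IsPrime] (hP0 : P ≠ ⊥)
    (hsplit : SplitsCompletely (𝓞 K) (𝓞 L) P)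
    (u : 𝓞 K) (θ : 𝓞 L) (hθ : θ ^ p = algebraMap (𝓞 K) (𝓞 L) u) (N : ℕ) :
    ∃ y : 𝓞 K, u - y ^ p ∈ P ^ N :=
  h37_exists_pow_sub_mem P hP0 hsplit θ u p hθ N

end Fermat.Agent.S14
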