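import Mathlib

/-!
# S14, CORE-T, package UNITS (B1): Thaine's cyclotomic unit `E` is not a `p`-th power mod `π³`

`h37_cycU ζ c = 1 + ζ + ⋯ + ζ^(c-1) = (1 - ζ^c)/(1 - ζ)`,
`h37_E p ζ = ∏_{x ∈ (ℤ/p)ˣ} (h37_cycU ζ x.val)^(n_x)`, `n_x = (x⁻²).val`.
-/

set_option autoImplicit false

namespace Fermat.Agent.S14

open Polynomial Finset

section Defs

variable {R : Type*} [CommRing R]

/-- The geometric sum `1 + ζ + ⋯ + ζ^(c-1)`, i.e. `(1 - ζ^c)/(1 - ζ)`. -/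
def h37_cycU (ζ : R) (c : ℕ) : R := ∑ i ∈ Finset.range c, ζ ^ i

theorem h37_one_sub_mul_cycU (ζ : R) (c : ℕ) : (1 - ζ) * h37_cycU ζ c = 1 - ζ ^ c := by
  unfold h37_cycU
  exact mul_neg_geom_sum ζ c

theorem h37_cycU_map {S : Type*} [CommRing S] (f : R →+* S) (ζ : R) (c : ℕ) :
    f (h37_cycU ζ c) = h37_cycU (f ζ) c := by
  simp [h37_cycU, map_sum, map_pow]

/-- The exponent `n_x = x⁻² mod p`, as a natural number in `[0, p)`. -/
def h37_nE (p : ℕ) (x : (ZMod p)ˣ) : ℕ := (((x⁻¹ : (ZMod p)ˣ) : ZMod p) ^ 2).val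

/-- Thaine's unit `E = ∏_c ((1 - ζ^c)/(1 - ζ))^(n_c)`, `n_c ≡ c⁻² mod p`. -/
noncomputable def h37_E (p : ℕ) [Fact p.Prime] (ζ : R) : R :=
  ∏ x : (ZMod p)ˣ, h37_cycU ζ (x : ZMod p).val ^ h37_nE p x

theorem h37_E_map (p : ℕ) [Fact p.Prime] {S : Type*} [CommRing S] (f : R →+* S) (ζ : R) :
    f (h37_E p ζ) = h37_E p (f ζ) := by
  simp [h37_E, map_prod, map_pow, h37_cycU_map]

end Defs

section Log

variable {F : Type*} [Field F]

/-- first "logarithmic" coordinate of a polynomial with nonzero constant term -/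
noncomputable def h37_l1 (P : F[X]) : F := P.coeff 1 / P.coeff 0

/-- second "logarithmic" coordinate of a polynomial with nonzero constant term -/
noncomputable def h37_l2 (P : F[X]) : F :=
  P.coeff 2 / P.coeff 0 - (P.coeff 1 / P.coeff 0) ^ 2 / 2

theorem h37_coeff_two_mul (P Q : F[X]) :
    (P * Q).coeff 2 = P.coeff 0 * Q.coeff 2 + P.coeff 1 * Q.coeff 1 + P.coeff 2 * Q.coeff 0 := by
  rw [coeff_mul]
  simp [Finset.Nat.antidiagonal_succ]
  ring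

theorem h37_l1_mul (P Q : F[X]) (hP : P.coeff 0 ≠ 0) (hQ : Q.coeff 0 ≠ 0) :
    h37_l1 (P * Q) = h37_l1 P + h37_l1 Q := by
  unfold h37_l1
  rw [mul_coeff_zero, mul_coeff_one]
  field_simp
  ring

theorem h37_l2_mul (h2 : (2 : F) ≠ 0) (P Q : F[X]) (hP : P.coeff 0 ≠ 0) (hQ : Q.coeff 0 ≠ 0) :
    h37_l2 (P * Q) = h37_l2 P + h37_l2 Q := by
  unfold h37_l2
  rw [mul_coeff_zero, mul_coeff_one, h37_coeff_two_mul]
  field_simp
  ring

theorem h37_coeff_zero_pow_ne (P : F[X]) (hP : P.coeff 0 ≠ 0) (n : ℕ) : (P ^ n).coeff 0 ≠ 0 := by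
  rw [coeff_zero_eq_eval_zero, eval_pow, ← coeff_zero_eq_eval_zero]
  exact pow_ne_zero n hP

theorem h37_l1_pow (P : F[X]) (hP : P.coeff 0 ≠ 0) (n : ℕ) :
    h37_l1 (P ^ n) = n * h37_l1 P := by
  induction n with
  | zero => simp [h37_l1, coeff_one]
  | succ n ih =>
    rw [pow_succ, h37_l1_mul _ _ (h37_coeff_zero_pow_ne P hP n) hP, ih]
    push_cast
    ring

theorem h37_l2_pow (h2 : (2 : F) ≠ 0) (P : F[X]) (hP : P.coeff 0 ≠ 0) (n : ℕ) :
    h37_l2 (P ^ n) = n * h37_l2 P := by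
  induction n with
  | zero => simp [h37_l2, coeff_one]
  | succ n ih =>
    rw [pow_succ, h37_l2_mul h2 _ _ (h37_coeff_zero_pow_ne P hP n) hP, ih]
    push_cast
    ring

theorem h37_coeff_zero_prod_ne {ι : Type*} (s : Finset ι) (P : ι → F[X])
    (hP : ∀ i ∈ s, (P i).coeff 0 ≠ 0) : (∏ i ∈ s, P i).coeff 0 ≠ 0 := by
  rw [coeff_zero_eq_eval_zero, eval_prod]
  exact Finset.prod_ne_zero_iff.mpr fun i hi => by
    rw [← coeff_zero_eq_eval_zero]; exact hP i hi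

theorem h37_l1_prod {ι : Type*} (s : Finset ι) (P : ι → F[X])
    (hP : ∀ i ∈ s, (P i).coeff 0 ≠ 0) :
    h37_l1 (∏ i ∈ s, P i) = ∑ i ∈ s, h37_l1 (P i) := by
  classical
  induction s using Finset.induction_on with
  | empty => simp [h37_l1, coeff_one]
  | insert a s ha ih =>
    rw [Finset.prod_insert ha, Finset.sum_insert ha,
      h37_l1_mul _ _ (hP a (Finset.mem_insert_self a s))
        (h37_coeff_zero_prod_ne s P fun i hi => hP i (Finset.mem_insert_of_mem hi)),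
      ih fun i hi => hP i (Finset.mem_insert_of_mem hi)]

theorem h37_l2_prod (h2 : (2 : F) ≠ 0) {ι : Type*} (s : Finset ι) (P : ι → F[X])
    (hP : ∀ i ∈ s, (P i).coeff 0 ≠ 0) :
    h37_l2 (∏ i ∈ s, P i) = ∑ i ∈ s, h37_l2 (P i) := by
  classical
  induction s using Finset.induction_on with
  | empty => simp [h37_l2, coeff_one]
  | insert a s ha ih =>
    rw [Finset.prod_insert ha, Finset.sum_insert ha,
      h37_l2_mul h2 _ _ (hP a (Finset.mem_insert_self a s))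
        (h37_coeff_zero_prod_ne s P fun i hi => hP i (Finset.mem_insert_of_mem hi)),
      ih fun i hi => hP i (Finset.mem_insert_of_mem hi)]

/-- coefficients of `(1 - X)^c` up to degree 2 -/
theorem h37_coeff_one_sub_X_pow (c : ℕ) :
    ((1 - X : F[X]) ^ c).coeff 0 = 1 ∧ ((1 - X : F[X]) ^ c).coeff 1 = -(c : F) ∧
      2 * ((1 - X : F[X]) ^ c).coeff 2 = (c : F) * (c - 1) := by
  induction c with
  | zero => simp [coeff_one]
  | succ c ih =>
    obtain ⟨h0, h1, h2⟩ := ih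
    have e : (1 - X : F[X]) ^ (c + 1) = (1 - X) ^ c - (1 - X) ^ c * X := by ring
    rw [e]
    refine ⟨?_, ?_, ?_⟩
    · simp [h0]
    · rw [coeff_sub, coeff_mul_X, h0, h1]; push_cast; ring
    · rw [coeff_sub, coeff_mul_X, h1, mul_sub, h2]; push_cast; ring

/-- coefficients of `1 + (1-X) + ⋯ + (1-X)^(c-1)` up to degree 2 -/
theorem h37_coeff_cycU (c : ℕ) :
    (h37_cycU (1 - X : F[X]) c).coeff 0 = c ∧
      2 * (h37_cycU (1 - X : F[X]) c).coeff 1 = -((c : F) * (c - 1)) ∧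
      6 * (h37_cycU (1 - X : F[X]) c).coeff 2 = (c : F) * (c - 1) * (c - 2) := by
  induction c with
  | zero => simp [h37_cycU]
  | succ c ih =>
    obtain ⟨h0, h1, h2⟩ := ih
    obtain ⟨g0, g1, g2⟩ := h37_coeff_one_sub_X_pow (F := F) c
    have e : h37_cycU (1 - X : F[X]) (c + 1) = h37_cycU (1 - X : F[X]) c + (1 - X) ^ c := by
      simp [h37_cycU, Finset.sum_range_succ]
    rw [e]
    refine ⟨?_, ?_, ?_⟩
    · rw [coeff_add, h0, g0]; push_cast; ring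
    · rw [coeff_add, mul_add, h1, g1]; push_cast; ring
    · rw [coeff_add, mul_add, h2]
      have : (6 : F) * ((1 - X : F[X]) ^ c).coeff 2 = 3 * ((c : F) * (c - 1)) := by
        rw [← g2]; ring
      rw [this]; push_cast; ring

theorem h37_l1_cycU (c : ℕ) (hc : (c : F) ≠ 0) :
    2 * h37_l1 (h37_cycU (1 - X : F[X]) c) = -((c : F) - 1) := by
  obtain ⟨h0, h1, -⟩ := h37_coeff_cycU (F := F) c
  unfold h37_l1
  rw [h0]
  field_simp
  linear_combination h1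

theorem h37_l2_cycU (h2 : (2 : F) ≠ 0) (h3 : (3 : F) ≠ 0) (c : ℕ) (hc : (c : F) ≠ 0) :
    24 * h37_l2 (h37_cycU (1 - X : F[X]) c) = ((c : F) - 1) * (c - 5) := by
  obtain ⟨h0, h1, h6⟩ := h37_coeff_cycU (F := F) c
  have e1 : (h37_cycU (1 - X : F[X]) c).coeff 1 = -((c : F) * (c - 1)) / 2 := by
    field_simp; linear_combination h1
  have h6' : (6 : F) ≠ 0 := by
    have : (6 : F) = 2 * 3 := by norm_num
    rw [this]; exact mul_ne_zero h2 h3
  have e2 : (h37_cycU (1 - X : F[X]) c).coeff 2 = (c : F) * (c - 1) * (c - 2) / 6 := by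
    field_simp; linear_combination h6
  unfold h37_l2
  rw [h0, e1, e2]
  field_simp
  ring

end Log

section Sums

variable (p : ℕ) [Fact p.Prime]

theorem h37_sum_units_inv_pow (hp : 5 ≤ p) (i : ℕ) (hi0 : 0 < i) (hi : i < 4) :
    ∑ x : (ZMod p)ˣ, ((x⁻¹ : (ZMod p)ˣ) : ZMod p) ^ i = 0 := by
  classical
  have h1 : ∑ x : (ZMod p)ˣ, ((x⁻¹ : (ZMod p)ˣ) : ZMod p) ^ i
      = ∑ x : (ZMod p)ˣ, ((x : ZMod p)) ^ i :=
    Fintype.sum_equiv (Equiv.inv _) _ _ (fun x => rfl)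
  rw [h1, FiniteField.sum_pow_units, if_neg]
  rw [ZMod.card]
  intro hdvd
  have := Nat.le_of_dvd hi0 hdvd
  omega

theorem h37_nE_cast (x : (ZMod p)ˣ) :
    ((h37_nE p x : ℕ) : ZMod p) = ((x⁻¹ : (ZMod p)ˣ) : ZMod p) ^ 2 :=
  ZMod.natCast_zmod_val _

theorem h37_val_cast (x : (ZMod p)ˣ) : (((x : ZMod p).val : ℕ) : ZMod p) = x :=
  ZMod.natCast_zmod_val _

/-- `∑ n_c ≡ 0 mod p`. -/
theorem h37_sum_nE (hp : 5 ≤ p) : p ∣ ∑ x : (ZMod p)ˣ, h37_nE p x := by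
  rw [← ZMod.natCast_eq_zero_iff]
  push_cast
  simp_rw [h37_nE_cast]
  exact h37_sum_units_inv_pow p hp 2 (by norm_num) (by norm_num)

theorem h37_two_ne_zero (hp : 5 ≤ p) : (2 : ZMod p) ≠ 0 := by
  have h : ((2 : ℕ) : ZMod p) ≠ 0 := by
    rw [Ne, ZMod.natCast_eq_zero_iff]
    intro hd
    have := Nat.le_of_dvd (by norm_num) hd
    omega
  exact_mod_cast h

theorem h37_three_ne_zero (hp : 5 ≤ p) : (3 : ZMod p) ≠ 0 := by
  have h : ((3 : ℕ) : ZMod p) ≠ 0 := by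
    rw [Ne, ZMod.natCast_eq_zero_iff]
    intro hd
    have := Nat.le_of_dvd (by norm_num) hd
    omega
  exact_mod_cast h

theorem h37_cycU_coeff_zero_ne (x : (ZMod p)ˣ) :
    (h37_cycU (1 - X : (ZMod p)[X]) (x : ZMod p).val).coeff 0 ≠ 0 := by
  rw [(h37_coeff_cycU (F := ZMod p) _).1, h37_val_cast]
  exact x.ne_zero

theorem h37_E_poly_coeff_zero_ne : (h37_E p (1 - X : (ZMod p)[X])).coeff 0 ≠ 0 := by
  unfold h37_E
  exact h37_coeff_zero_prod_ne _ _ fun x _ =>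
    h37_coeff_zero_pow_ne _ (h37_cycU_coeff_zero_ne p x) _

theorem h37_l1_E (hp : 5 ≤ p) : h37_l1 (h37_E p (1 - X : (ZMod p)[X])) = 0 := by
  have h2 := h37_two_ne_zero p hp
  unfold h37_E
  rw [h37_l1_prod _ _ fun x _ => h37_coeff_zero_pow_ne _ (h37_cycU_coeff_zero_ne p x) _]
  simp_rw [h37_l1_pow _ (h37_cycU_coeff_zero_ne p _)]
  have key : ∀ x : (ZMod p)ˣ, (h37_nE p x : ZMod p) *
      h37_l1 (h37_cycU (1 - X : (ZMod p)[X]) (x : ZMod p).val)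
      = (((x⁻¹ : (ZMod p)ˣ) : ZMod p) ^ 2 - ((x⁻¹ : (ZMod p)ˣ) : ZMod p) ^ 1) / 2 := by
    intro x
    have h := h37_l1_cycU (F := ZMod p) (x : ZMod p).val (by rw [h37_val_cast]; exact x.ne_zero)
    rw [h37_val_cast] at h
    have hx : ((x⁻¹ : (ZMod p)ˣ) : ZMod p) * (x : ZMod p) = 1 := by
      rw [← Units.val_mul, inv_mul_cancel, Units.val_one]
    rw [h37_nE_cast, eq_div_iff h2]
    linear_combination ((x⁻¹ : (ZMod p)ˣ) : ZMod p) ^ 2 * h
      - ((x⁻¹ : (ZMod p)ˣ) : ZMod p) * hx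
  rw [Finset.sum_congr rfl fun x _ => key x, ← Finset.sum_div, Finset.sum_sub_distrib,
    h37_sum_units_inv_pow p hp 2 (by norm_num) (by norm_num),
    h37_sum_units_inv_pow p hp 1 (by norm_num) (by norm_num)]
  rw [sub_zero, zero_div]

theorem h37_l2_E (hp : 5 ≤ p) : 24 * h37_l2 (h37_E p (1 - X : (ZMod p)[X])) = -1 := by
  have h2 := h37_two_ne_zero p hp
  have h3 := h37_three_ne_zero p hp
  unfold h37_E
  rw [h37_l2_prod h2 _ _ fun x _ => h37_coeff_zero_pow_ne _ (h37_cycU_coeff_zero_ne p x) _]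
  simp_rw [h37_l2_pow h2 _ (h37_cycU_coeff_zero_ne p _)]
  have key : ∀ x : (ZMod p)ˣ, 24 * ((h37_nE p x : ZMod p) *
      h37_l2 (h37_cycU (1 - X : (ZMod p)[X]) (x : ZMod p).val))
      = 1 - 6 * ((x⁻¹ : (ZMod p)ˣ) : ZMod p) ^ 1 + 5 * ((x⁻¹ : (ZMod p)ˣ) : ZMod p) ^ 2 := by
    intro x
    have h := h37_l2_cycU (F := ZMod p) h2 h3 (x : ZMod p).val
      (by rw [h37_val_cast]; exact x.ne_zero)
    rw [h37_val_cast] at h
    have hx : ((x⁻¹ : (ZMod p)ˣ) : ZMod p) * (x : ZMod p) = 1 := by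
      rw [← Units.val_mul, inv_mul_cancel, Units.val_one]
    rw [h37_nE_cast]
    linear_combination ((x⁻¹ : (ZMod p)ˣ) : ZMod p) ^ 2 * h
      + (((x⁻¹ : (ZMod p)ˣ) : ZMod p) * (x : ZMod p) + 1 - 6 * ((x⁻¹ : (ZMod p)ˣ) : ZMod p)) * hx
  rw [Finset.mul_sum, Finset.sum_congr rfl fun x _ => key x, Finset.sum_add_distrib,
    Finset.sum_sub_distrib, ← Finset.mul_sum, ← Finset.mul_sum,
    h37_sum_units_inv_pow p hp 2 (by norm_num) (by norm_num),
    h37_sum_units_inv_pow p hp 1 (by norm_num) (by norm_num)]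
  simp only [Finset.sum_const, Finset.card_univ, ZMod.card_units, mul_zero, sub_zero, add_zero,
    nsmul_eq_mul, mul_one]
  rw [Nat.cast_sub (Fact.out : p.Prime).one_lt.le]
  simp

/-- (B1), polynomial form. -/
theorem h37_B1_poly (hp : 5 ≤ p) (j k : ℕ) (m : ZMod p)
    (h : (X : (ZMod p)[X]) ^ 3 ∣ (1 - X) ^ j * h37_E p (1 - X) ^ k - C m) : p ∣ j ∧ p ∣ k := by
  have h2 := h37_two_ne_zero p hp
  have h3 := h37_three_ne_zero p hp
  set P : (ZMod p)[X] := (1 - X) ^ j * h37_E p (1 - X) ^ k with hP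
  have hX0 : ((1 - X : (ZMod p)[X])).coeff 0 ≠ 0 := by simp
  have hXj := h37_coeff_zero_pow_ne _ hX0 j
  have hEk := h37_coeff_zero_pow_ne _ (h37_E_poly_coeff_zero_ne p) k
  obtain ⟨Q, hQ⟩ := h
  have hPQ : P = C m + X ^ 3 * Q := by rw [← hQ]; ring
  have c1 : P.coeff 1 = 0 := by
    rw [hPQ, coeff_add, coeff_C, coeff_X_pow_mul']; simp
  have c2 : P.coeff 2 = 0 := by
    rw [hPQ, coeff_add, coeff_C, coeff_X_pow_mul']; simp
  have l1P : h37_l1 P = 0 := by unfold h37_l1; rw [c1]; simp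
  have l2P : h37_l2 P = 0 := by unfold h37_l2; rw [c1, c2]; simp
  have l1X : h37_l1 (1 - X : (ZMod p)[X]) = -1 := by
    unfold h37_l1; simp [coeff_one, coeff_X]
  have l2X : h37_l2 (1 - X : (ZMod p)[X]) = -(1 / 2) := by
    unfold h37_l2; simp [coeff_one, coeff_X]
  have hj : (j : ZMod p) = 0 := by
    have := l1P
    rw [hP, h37_l1_mul _ _ hXj hEk, h37_l1_pow _ hX0, h37_l1_pow _ (h37_E_poly_coeff_zero_ne p),
      l1X, h37_l1_E p hp] at this
    linear_combination -this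
  have hk : (k : ZMod p) = 0 := by
    have := l2P
    rw [hP, h37_l2_mul h2 _ _ hXj hEk, h37_l2_pow h2 _ hX0,
      h37_l2_pow h2 _ (h37_E_poly_coeff_zero_ne p), l2X, hj] at this
    have h24 := h37_l2_E p hp
    linear_combination (-24 : ZMod p) * this + (k : ZMod p) * h24
  exact ⟨(ZMod.natCast_eq_zero_iff j p).mp hj, (ZMod.natCast_eq_zero_iff k p).mp hk⟩

end Sums

section NF

open NumberField

variable (p : ℕ) [Fact p.Prime]

/-- In `𝔽_p[X]`, `∑_{i<p} (1 - X)^i = X^(p-1)`. -/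
theorem h37_geom_sum_one_sub_X :
    ∑ i ∈ Finset.range p, (1 - X : (ZMod p)[X]) ^ i = X ^ (p - 1) := by
  have h : (∑ i ∈ Finset.range p, (1 - X : (ZMod p)[X]) ^ i) * X = X ^ (p - 1) * X := by
    have := mul_neg_geom_sum (1 - X : (ZMod p)[X]) p
    rw [← pow_succ, Nat.sub_add_cancel (Fact.out : p.Prime).one_lt.le]
    have e : (1 - X : (ZMod p)[X]) ^ p = 1 - X ^ p := by
      rw [sub_pow_char, one_pow]
    rw [e] at this
    linear_combination this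
  exact mul_right_cancel₀ X_ne_zero h

theorem h37_aeval_cyclotomic (hp : 5 ≤ p) :
    Polynomial.aeval (AdjoinRoot.mk (X ^ 3 : (ZMod p)[X]) (1 - X)) (cyclotomic p ℤ) = 0 := by
  rw [cyclotomic_prime ℤ p]
  simp only [map_sum, map_pow, aeval_X]
  have : ∑ i ∈ Finset.range p, (AdjoinRoot.mk (X ^ 3 : (ZMod p)[X]) (1 - X)) ^ i
      = AdjoinRoot.mk (X ^ 3 : (ZMod p)[X]) (∑ i ∈ Finset.range p, (1 - X) ^ i) := by
    simp only [map_sum, map_pow]
  rw [this, h37_geom_sum_one_sub_X, AdjoinRoot.mk_eq_zero]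
  exact pow_dvd_pow X (by omega)

/-- There is a ring homomorphism `𝓞 K → 𝔽_p[T]/(T³)` with `ζ ↦ 1 - T`. -/
theorem h37_exists_hom {K : Type*} [Field K] [NumberField K] [IsCyclotomicExtension {p} ℚ K]
    (ζ : 𝓞 K) (hζ : IsPrimitiveRoot ζ p) (hp : 5 ≤ p) :
    ∃ φ : 𝓞 K →+* AdjoinRoot (X ^ 3 : (ZMod p)[X]),
      φ ζ = AdjoinRoot.mk (X ^ 3 : (ZMod p)[X]) (1 - X) := by
  have : NeZero p := ⟨(Fact.out : p.Prime).ne_zero⟩
  have hζK : IsPrimitiveRoot (algebraMap (𝓞 K) K ζ) p :=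
    hζ.map_of_injective RingOfIntegers.coe_injective
  have hgen : hζK.integralPowerBasis.gen = ζ := by
    rw [IsPrimitiveRoot.integralPowerBasis_gen]
    rfl
  have hmin : minpoly ℤ hζK.integralPowerBasis.gen = cyclotomic p ℤ := by
    rw [hgen, cyclotomic_eq_minpoly hζK (NeZero.pos p)]
    exact (RingOfIntegers.minpoly_coe ζ).symm
  let f := hζK.integralPowerBasis.lift (AdjoinRoot.mk (X ^ 3 : (ZMod p)[X]) (1 - X))
    (by rw [hmin]; exact h37_aeval_cyclotomic p hp)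
  refine ⟨f.toRingHom, ?_⟩
  have h1 : f hζK.integralPowerBasis.gen = AdjoinRoot.mk (X ^ 3 : (ZMod p)[X]) (1 - X) :=
    hζK.integralPowerBasis.lift_gen _ _
  have h2 : f ζ = f hζK.integralPowerBasis.gen := congrArg f hgen.symm
  exact h2.trans h1

/-- In characteristic `p`, a `p`-th power of a polynomial is constant modulo `X^p`. -/
theorem h37_pow_p_sub_const (W : (ZMod p)[X]) :
    (X : (ZMod p)[X]) ^ p ∣ W ^ p - C (W.coeff 0 ^ p) := by
  have h : W ^ p = (divX W * X) ^ p + (C (W.coeff 0)) ^ p := by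
    rw [← add_pow_char, divX_mul_X_add]
  rw [h, mul_pow, map_pow, add_sub_cancel_right]
  exact dvd_mul_left _ _

/-- **(B1)** Thaine's unit is not a `p`-th power modulo `(1 - ζ)³`, even up to roots of unity. -/
theorem h37_B1 {K : Type*} [Field K] [NumberField K] [IsCyclotomicExtension {p} ℚ K]
    (ζ : 𝓞 K) (hζ : IsPrimitiveRoot ζ p) (hp : 5 ≤ p) (j k : ℕ) (w : 𝓞 K)
    (h : (1 - ζ) ^ 3 ∣ ζ ^ j * h37_E p ζ ^ k - w ^ p) : p ∣ j ∧ p ∣ k := by
  obtain ⟨φ, hφ⟩ := h37_exists_hom p ζ hζ hp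
  obtain ⟨W, hW⟩ := AdjoinRoot.mk_surjective (φ w)
  have h1 : φ ((1 - ζ) ^ 3) = 0 := by
    rw [map_pow, map_sub, map_one, hφ, ← map_one (AdjoinRoot.mk (X ^ 3 : (ZMod p)[X])),
      ← map_sub, ← map_pow, AdjoinRoot.mk_eq_zero]
    simp
  have h2 : φ (ζ ^ j * h37_E p ζ ^ k - w ^ p) = 0 := by
    obtain ⟨c, hc⟩ := h
    rw [hc, map_mul, h1, zero_mul]
  rw [map_sub, map_mul, map_pow, map_pow, map_pow, h37_E_map, hφ, ← hW, ← h37_E_map,
    ← map_pow, ← map_pow, ← map_mul, ← map_pow, ← map_sub, AdjoinRoot.mk_eq_zero] at h2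
  apply h37_B1_poly p hp j k (W.coeff 0 ^ p)
  have hW' : (X : (ZMod p)[X]) ^ 3 ∣ W ^ p - C (W.coeff 0 ^ p) :=
    (pow_dvd_pow X (by omega)).trans (h37_pow_p_sub_const p W)
  have := dvd_add h2 hW'
  convert this using 1
  ring

end NF

section Eig

variable {A : Type*} [CommRing A] [IsDomain A] {p : ℕ} [Fact p.Prime]

omit [IsDomain A] in
theorem h37_one_sub_ne_zero {ζ : A} (hζ : IsPrimitiveRoot ζ p) : (1 - ζ : A) ≠ 0 := by
  have := hζ.sub_one_ne_zero (Fact.out : p.Prime).one_lt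
  intro h
  apply this
  linear_combination -h

theorem h37_cycU_isUnit {ζ : A} (hζ : IsPrimitiveRoot ζ p) (c : ℕ) (hc : Nat.Coprime c p) :
    IsUnit (h37_cycU ζ c) :=
  hζ.geom_sum_isUnit (Fact.out : p.Prime).two_le hc

theorem h37_cycU_isUnit' {ζ : A} (hζ : IsPrimitiveRoot ζ p) (x : (ZMod p)ˣ) :
    IsUnit (h37_cycU ζ (x : ZMod p).val) :=
  h37_cycU_isUnit hζ _ (ZMod.val_coe_unit_coprime x)

/-- **(U)** Thaine's element `E` is a unit. -/
theorem h37_E_isUnit {ζ : A} (hζ : IsPrimitiveRoot ζ p) : IsUnit (h37_E p ζ) := by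
  unfold h37_E
  exact Finset.prod_induction _ IsUnit (fun _ _ => IsUnit.mul) isUnit_one
    fun x _ => (h37_cycU_isUnit' hζ x).pow _

omit [IsDomain A] in
/-- `(1 - ζ)^(∑ n_c) * E = ∏_c (1 - ζ^c)^(n_c)`. -/
theorem h37_one_sub_pow_mul_E (ζ : A) :
    (1 - ζ) ^ (∑ x : (ZMod p)ˣ, h37_nE p x) * h37_E p ζ
      = ∏ x : (ZMod p)ˣ, (1 - ζ ^ (x : ZMod p).val) ^ h37_nE p x := by
  unfold h37_E
  rw [← Finset.prod_pow_eq_pow_sum, ← Finset.prod_mul_distrib]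
  refine Finset.prod_congr rfl fun x _ => ?_
  rw [← mul_pow, h37_one_sub_mul_cycU]

theorem h37_cycU_mod {ζ : A} (hζ : IsPrimitiveRoot ζ p) (m : ℕ) :
    h37_cycU ζ m = h37_cycU ζ (m % p) := by
  apply mul_left_cancel₀ (h37_one_sub_ne_zero hζ)
  rw [h37_one_sub_mul_cycU, h37_one_sub_mul_cycU, pow_eq_pow_mod m hζ.pow_eq_one]

theorem h37_cycU_mul {ζ : A} (hζ : IsPrimitiveRoot ζ p) (a : ℕ) (y x : (ZMod p)ˣ)
    (hy : ((y : (ZMod p)ˣ) : ZMod p) = a) :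
    h37_cycU ζ a * h37_cycU (ζ ^ a) (x : ZMod p).val
      = h37_cycU ζ (((y * x : (ZMod p)ˣ) : ZMod p)).val := by
  have : NeZero p := ⟨(Fact.out : p.Prime).ne_zero⟩
  apply mul_left_cancel₀ (h37_one_sub_ne_zero hζ)
  rw [← mul_assoc, h37_one_sub_mul_cycU, h37_one_sub_mul_cycU, h37_one_sub_mul_cycU, ← pow_mul]
  have hmod : (a * (x : ZMod p).val) % p = (((y * x : (ZMod p)ˣ) : ZMod p)).val % p := by
    rw [← ZMod.natCast_eq_natCast_iff']
    push_cast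
    rw [ZMod.natCast_zmod_val, ZMod.natCast_zmod_val, hy]
  rw [pow_eq_pow_mod (a * (x : ZMod p).val) hζ.pow_eq_one, hmod,
    ← pow_eq_pow_mod _ hζ.pow_eq_one]

theorem h37_nE_mul (a : ℕ) (y z : (ZMod p)ˣ) (hy : ((y : (ZMod p)ˣ) : ZMod p) = a) :
    h37_nE p (y⁻¹ * z) + p * (a ^ 2 * h37_nE p z / p) = a ^ 2 * h37_nE p z := by
  have : NeZero p := ⟨(Fact.out : p.Prime).ne_zero⟩
  have h : h37_nE p (y⁻¹ * z) = (a ^ 2 * h37_nE p z) % p := by
    rw [← ZMod.val_natCast]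
    unfold h37_nE
    congr 1
    push_cast
    rw [ZMod.natCast_zmod_val, ← hy]
    rw [mul_inv, inv_inv, mul_pow]
  rw [h]
  exact Nat.mod_add_div _ _

/-- **(EIG)** `E` lies in the `a²`-eigenspace modulo `p`-th powers of units. -/
theorem h37_E_eig {ζ : A} (hζ : IsPrimitiveRoot ζ p) (hp : 5 ≤ p) (σ : A →+* A) (a : ℕ)
    (ha : ¬ p ∣ a) (hσ : σ ζ = ζ ^ a) :
    ∃ v : Aˣ, h37_E p ζ ^ (a ^ 2) = σ (h37_E p ζ) * (v : A) ^ p := by
  have hpr : p.Prime := Fact.out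
  have hcop : Nat.Coprime a p := (Nat.Coprime.symm ((Nat.Prime.coprime_iff_not_dvd hpr).mpr ha))
  set y : (ZMod p)ˣ := ZMod.unitOfCoprime a hcop with hy
  have hya : ((y : (ZMod p)ˣ) : ZMod p) = a := ZMod.coe_unitOfCoprime a hcop
  obtain ⟨s, hs⟩ := h37_sum_nE p hp
  -- the unit
  have hu1 : IsUnit (h37_cycU ζ a ^ s) := (h37_cycU_isUnit hζ a hcop).pow _
  have hu2 : IsUnit (∏ z : (ZMod p)ˣ, h37_cycU ζ (z : ZMod p).val ^ (a ^ 2 * h37_nE p z / p)) :=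
    Finset.prod_induction _ IsUnit (fun _ _ => IsUnit.mul) isUnit_one
      fun x _ => (h37_cycU_isUnit' hζ x).pow _
  refine ⟨(hu1.mul hu2).unit, ?_⟩
  rw [IsUnit.unit_spec]
  -- the computation
  have e1 : h37_cycU ζ a ^ (∑ x : (ZMod p)ˣ, h37_nE p x) * σ (h37_E p ζ)
      = ∏ z : (ZMod p)ˣ, h37_cycU ζ (z : ZMod p).val ^ h37_nE p (y⁻¹ * z) := by
    rw [h37_E_map, hσ]
    unfold h37_E
    rw [← Finset.prod_pow_eq_pow_sum, ← Finset.prod_mul_distrib]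
    refine Fintype.prod_equiv (Equiv.mulLeft y) _ _ fun x => ?_
    rw [← mul_pow, h37_cycU_mul hζ a y x hya]
    simp
  have e2 : (∏ z : (ZMod p)ˣ, h37_cycU ζ (z : ZMod p).val ^ h37_nE p (y⁻¹ * z))
      * (∏ z : (ZMod p)ˣ, h37_cycU ζ (z : ZMod p).val ^ (a ^ 2 * h37_nE p z / p)) ^ p
      = h37_E p ζ ^ (a ^ 2) := by
    unfold h37_E
    rw [← Finset.prod_pow, ← Finset.prod_pow, ← Finset.prod_mul_distrib]
    refine Finset.prod_congr rfl fun z _ => ?_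
    rw [← pow_mul, ← pow_mul, ← pow_add, mul_comm _ p, h37_nE_mul a y z hya, mul_comm]
  rw [← e2, ← e1, hs]
  ring

end Eig

end Fermat.Agent.S14
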