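import Mathlib
import Fermat.Agent.S14.h37_Units

/-!
CORE-T of S14, block T-P3: the case `p = 3` (class number one, units are `ζ^j` times cubes) and
the "lite" form of (B1), valid for every odd prime.
-/

namespace Fermat.Agent.S14

open NumberField Polynomial

/-! ### T-P3 -/

theorem t_p3 (K : Type*) [Field K] [NumberField K] [IsCyclotomicExtension {3} ℚ K]
    (ζ : 𝓞 K) (hζ : IsPrimitiveRoot ζ 3) :
    (∀ I : Ideal (𝓞 K), I.IsPrincipal) ∧
      ∀ u : (𝓞 K)ˣ, ∃ (j : ℕ) (v : (𝓞 K)ˣ), (u : 𝓞 K) = ζ ^ j * (v : 𝓞 K) ^ 3 := by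
  refine ⟨fun I => ?_, fun u => ?_⟩
  · have := IsCyclotomicExtension.Rat.three_pid K
    exact IsPrincipalIdealRing.principal I
  · have hζK : IsPrimitiveRoot (algebraMap (𝓞 K) K ζ) 3 :=
      hζ.map_of_injective RingOfIntegers.coe_injective
    have hη : hζK.toInteger = ζ := RingOfIntegers.ext rfl
    have hmem := IsCyclotomicExtension.Rat.Three.Units.mem hζK u
    simp only [List.mem_cons, List.not_mem_nil, or_false] at hmem
    rcases hmem with h | h | h | h | h | h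
    · exact ⟨0, 1, by rw [h]; simp⟩
    · exact ⟨0, -1, by rw [h]; simp [Odd.neg_pow (by decide : Odd 3)]⟩
    · refine ⟨1, 1, ?_⟩
      rw [h, IsCyclotomicExtension.Rat.Three.coe_eta, hη]; simp
    · refine ⟨1, -1, ?_⟩
      rw [h, Units.val_neg, IsCyclotomicExtension.Rat.Three.coe_eta, hη]
      simp [Odd.neg_pow (by decide : Odd 3)]
    · refine ⟨2, 1, ?_⟩
      rw [h, Units.val_pow_eq_pow_val, IsCyclotomicExtension.Rat.Three.coe_eta, hη]; simp
    · refine ⟨2, -1, ?_⟩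
      rw [h, Units.val_neg, Units.val_pow_eq_pow_val,
        IsCyclotomicExtension.Rat.Three.coe_eta, hη]
      simp [Odd.neg_pow (by decide : Odd 3)]

/-! ### (B1) lite -/

section Lite

variable (p : ℕ) [Fact p.Prime]

theorem h30_aeval_cyclotomic_sq (hp2 : p ≠ 2) :
    Polynomial.aeval (AdjoinRoot.mk (X ^ 2 : (ZMod p)[X]) (1 - X)) (cyclotomic p ℤ) = 0 := by
  have hp3 : 3 ≤ p := by
    have := (Fact.out : p.Prime).two_le
    omega
  rw [cyclotomic_prime ℤ p]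
  simp only [map_sum, map_pow, aeval_X]
  have : ∑ i ∈ Finset.range p, (AdjoinRoot.mk (X ^ 2 : (ZMod p)[X]) (1 - X)) ^ i
      = AdjoinRoot.mk (X ^ 2 : (ZMod p)[X]) (∑ i ∈ Finset.range p, (1 - X) ^ i) := by
    simp only [map_sum, map_pow]
  rw [this, h37_geom_sum_one_sub_X, AdjoinRoot.mk_eq_zero]
  exact pow_dvd_pow X (by omega)

/-- There is a ring homomorphism `𝓞 K → 𝔽_p[T]/(T²)` with `ζ ↦ 1 - T` (any odd prime `p`). -/
theorem h30_exists_hom_sq {K : Type*} [Field K] [NumberField K]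
    [IsCyclotomicExtension {p} ℚ K]
    (ζ : 𝓞 K) (hζ : IsPrimitiveRoot ζ p) (hp2 : p ≠ 2) :
    ∃ φ : 𝓞 K →+* AdjoinRoot (X ^ 2 : (ZMod p)[X]),
      φ ζ = AdjoinRoot.mk (X ^ 2 : (ZMod p)[X]) (1 - X) := by
  have : NeZero p := ⟨(Fact.out : p.Prime).ne_zero⟩
  have hζK : IsPrimitiveRoot (algebraMap (𝓞 K) K ζ) p :=
    hζ.map_of_injective RingOfIntegers.coe_injective
  have hgen : hζK.integralPowerBasis.gen = ζ := by
    rw [IsPrimitiveRoot.integralPowerBasis_gen]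
    rfl
  have hmin : minpoly ℤ hζK.integralPowerBasis.gen = cyclotomic p ℤ := by
    rw [hgen, cyclotomic_eq_minpoly hζK (NeZero.pos p)]
    exact (RingOfIntegers.minpoly_coe ζ).symm
  let f := hζK.integralPowerBasis.lift (AdjoinRoot.mk (X ^ 2 : (ZMod p)[X]) (1 - X))
    (by rw [hmin]; exact h30_aeval_cyclotomic_sq p hp2)
  refine ⟨f.toRingHom, ?_⟩
  have h1 : f hζK.integralPowerBasis.gen = AdjoinRoot.mk (X ^ 2 : (ZMod p)[X]) (1 - X) :=
    hζK.integralPowerBasis.lift_gen _ _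
  have h2 : f ζ = f hζK.integralPowerBasis.gen := congrArg f hgen.symm
  exact h2.trans h1

theorem h30_coeff_one_one_sub_X_pow (j : ℕ) :
    ((1 - X : (ZMod p)[X]) ^ j).coeff 1 = -(j : ZMod p) := by
  induction j with
  | zero => simp [coeff_one]
  | succ n ih =>
    have h0 : ((1 - X : (ZMod p)[X]) ^ n).coeff 0 = 1 := by
      rw [coeff_zero_eq_eval_zero]; simp
    rw [pow_succ, mul_sub, mul_one, coeff_sub, coeff_mul_X, ih, h0]
    push_cast
    ring

/-- **(B1) lite**: `ζ^j` is a `p`-th power modulo `(1 - ζ)²` only if `p ∣ j` (any odd `p`). -/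
theorem h30_B1_lite (hp2 : p ≠ 2)
    (K : Type*) [Field K] [NumberField K] [IsCyclotomicExtension {p} ℚ K]
    (ζ : 𝓞 K) (hζ : IsPrimitiveRoot ζ p) (j : ℕ) (w : 𝓞 K)
    (h : (1 - ζ) ^ 2 ∣ ζ ^ j - w ^ p) : p ∣ j := by
  have hp3 : 3 ≤ p := by
    have := (Fact.out : p.Prime).two_le
    omega
  obtain ⟨φ, hφ⟩ := h30_exists_hom_sq p ζ hζ hp2
  obtain ⟨W, hW⟩ := AdjoinRoot.mk_surjective (φ w)
  have h1 : φ ((1 - ζ) ^ 2) = 0 := by
    rw [map_pow, map_sub, map_one, hφ, ← map_one (AdjoinRoot.mk (X ^ 2 : (ZMod p)[X])),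
      ← map_sub, ← map_pow, AdjoinRoot.mk_eq_zero]
    simp
  have h2 : φ (ζ ^ j - w ^ p) = 0 := by
    obtain ⟨c, hc⟩ := h
    rw [hc, map_mul, h1, zero_mul]
  rw [map_sub, map_pow, map_pow, hφ, ← hW, ← map_pow, ← map_pow, ← map_sub,
    AdjoinRoot.mk_eq_zero] at h2
  have hW' : (X : (ZMod p)[X]) ^ 2 ∣ W ^ p - C (W.coeff 0 ^ p) :=
    (pow_dvd_pow X (by omega)).trans (h37_pow_p_sub_const p W)
  have h3 : (X : (ZMod p)[X]) ^ 2 ∣ (1 - X) ^ j - C (W.coeff 0 ^ p) := by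
    have := dvd_add h2 hW'
    convert this using 1
    ring
  have h4 := (X_pow_dvd_iff.mp h3) 1 (by norm_num)
  rw [coeff_sub, h30_coeff_one_one_sub_X_pow, coeff_C] at h4
  simp only [one_ne_zero, if_false, sub_zero, neg_eq_zero] at h4
  exact (ZMod.natCast_eq_zero_iff j p).mp h4

end Lite

end Fermat.Agent.S14
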