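import Mathlib
import Fermat.Agent.S14.Defs

set_option autoImplicit false

namespace Fermat.Agent.S14

open NumberField
open scoped nonZeroDivisors Pointwise

/-- a cyclotomic extension of a field of characteristic zero of degree `φ(n)` has irreducible
cyclotomic polynomial. -/
theorem h77_irreducible_cyclotomic_of_finrank (n : ℕ) [NeZero n] (K L : Type*) [Field K]
    [Field L] [Algebra K L] [IsCyclotomicExtension {n} K L] [NeZero ((n : ℕ) : K)]
    (h : Module.finrank K L = n.totient) : Irreducible (Polynomial.cyclotomic n K) := by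
  have hζ := IsCyclotomicExtension.zeta_spec n K L
  set ζ := IsCyclotomicExtension.zeta n K L with hζdef
  have hint : IsIntegral K ζ := (IsCyclotomicExtension.integral {n} K L).isIntegral ζ
  have hdeg : (minpoly K ζ).natDegree = n.totient := by
    rw [← h, (hζ.powerBasis K).finrank, IsPrimitiveRoot.powerBasis_dim]
  have hroot : Polynomial.aeval ζ (Polynomial.cyclotomic n K) = 0 := by
    have h1 := hζ.isRoot_cyclotomic (NeZero.pos n)
    rw [Polynomial.IsRoot.def, ← Polynomial.map_cyclotomic n (algebraMap K L),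
      Polynomial.eval_map, ← Polynomial.aeval_def] at h1
    exact h1
  have hdvd : minpoly K ζ ∣ Polynomial.cyclotomic n K := minpoly.dvd K ζ hroot
  have heq : Polynomial.cyclotomic n K = minpoly K ζ := by
    refine Polynomial.eq_of_monic_of_dvd_of_natDegree_le (minpoly.monic hint)
      (Polynomial.cyclotomic.monic n K) hdvd ?_
    rw [hdeg, Polynomial.natDegree_cyclotomic]
  rw [heq]
  exact minpoly.irreducible hint

/-- T-REL-1a. `L = K(ζ_q)` is the `pq`-th cyclotomic field and `Φ_q` is irreducible over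
`K = ℚ(ζ_p)`. -/
theorem trel_cyc (p : ℕ) [Fact p.Prime]
    (K : Type) [Field K] [NumberField K] [IsCyclotomicExtension {p} ℚ K]
    (q : ℕ) [Fact q.Prime] (hqp : q ≠ p) :
    IsCyclotomicExtension {p * q} ℚ (CyclotomicField q K) ∧
      Irreducible (Polynomial.cyclotomic q K) := by
  have hp : p.Prime := Fact.out
  have hq : q.Prime := Fact.out
  have : NeZero p := ⟨hp.ne_zero⟩
  have : NeZero q := ⟨hq.ne_zero⟩
  have : NeZero (p * q) := ⟨Nat.mul_ne_zero hp.ne_zero hq.ne_zero⟩
  have hcop : Nat.Coprime p q := (Nat.coprime_primes hp hq).mpr (Ne.symm hqp)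
  -- step 1: `{p, q}`-cyclotomic
  have h1 : IsCyclotomicExtension ({p} ∪ {q}) ℚ (CyclotomicField q K) :=
    IsCyclotomicExtension.trans {p} {q} ℚ K (CyclotomicField q K)
      (algebraMap K (CyclotomicField q K)).injective
  -- a primitive `pq`-th root of unity
  obtain ⟨ζp, hζp⟩ := IsCyclotomicExtension.exists_isPrimitiveRoot ℚ (B := K) (S := {p})
    (Set.mem_singleton p) hp.ne_zero
  have hζp' : IsPrimitiveRoot (algebraMap K (CyclotomicField q K) ζp) p :=
    hζp.map_of_injective (algebraMap K (CyclotomicField q K)).injective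
  have hζq := IsCyclotomicExtension.zeta_spec q K (CyclotomicField q K)
  have hpq := hζp'.pow_mul_pow_lcm hζq hp.ne_zero hq.ne_zero
  rw [hcop.lcm_eq_mul] at hpq
  have h2 : IsCyclotomicExtension ({p} ∪ {q} ∪ {p * q}) ℚ (CyclotomicField q K) :=
    IsCyclotomicExtension.union_of_isPrimitiveRoot ({p} ∪ {q}) ℚ (CyclotomicField q K) hpq
  have hset : ({p} ∪ {q} ∪ {p * q} : Set ℕ) = {p * q} ∪ {p} ∪ {q} := by
    ext x; simp only [Set.mem_union, Set.mem_singleton_iff]; tauto
  rw [hset] at h2
  have h3 : IsCyclotomicExtension ({p * q} ∪ {p}) ℚ (CyclotomicField q K) :=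
    (IsCyclotomicExtension.iff_union_of_dvd (S := ({p * q} ∪ {p} : Set ℕ)) (n := q) ℚ
      (CyclotomicField q K)
      ⟨p * q, Or.inl (Set.mem_singleton _), Nat.mul_ne_zero hp.ne_zero hq.ne_zero,
        Dvd.intro_left p rfl⟩).mpr h2
  have h4 : IsCyclotomicExtension {p * q} ℚ (CyclotomicField q K) :=
    (IsCyclotomicExtension.iff_union_of_dvd (S := ({p * q} : Set ℕ)) (n := p) ℚ
      (CyclotomicField q K)
      ⟨p * q, Set.mem_singleton _, Nat.mul_ne_zero hp.ne_zero hq.ne_zero,
        Dvd.intro q rfl⟩).mpr h3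
  refine ⟨h4, ?_⟩
  -- degrees
  have hL : Module.finrank ℚ (CyclotomicField q K) = (p * q).totient :=
    IsCyclotomicExtension.finrank (CyclotomicField q K)
      (Polynomial.cyclotomic.irreducible_rat (Nat.mul_pos hp.pos hq.pos))
  have hK : Module.finrank ℚ K = p.totient :=
    IsCyclotomicExtension.finrank K (Polynomial.cyclotomic.irreducible_rat hp.pos)
  have htower := Module.finrank_mul_finrank ℚ K (CyclotomicField q K)
  rw [hL, hK, Nat.totient_mul hcop] at htower
  have hKL : Module.finrank K (CyclotomicField q K) = q.totient :=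
    Nat.eq_of_mul_eq_mul_left (Nat.totient_pos.mpr hp.pos) htower
  exact h77_irreducible_cyclotomic_of_finrank q K (CyclotomicField q K) hKL

end Fermat.Agent.S14
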