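import Mathlib
import Fermat.Agent.S14.Defs

set_option autoImplicit false

namespace Fermat.Agent.S14

open NumberField
open scoped nonZeroDivisors Pointwise

/-- A rational prime lying in a prime ideal of a ring of integers is the prime under it. -/
lemma h11_liesOver_of_mem {F : Type} [Field F] [NumberField F] (ℓ : ℕ) (hℓ : ℓ.Prime)
    (Q : Ideal (𝓞 F)) [Q.IsPrime] (h : (ℓ : 𝓞 F) ∈ Q) :
    Q.LiesOver (Ideal.span {(ℓ : ℤ)}) := by
  constructor
  have hmax : (Ideal.span {(ℓ : ℤ)}).IsMaximal :=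
    (Ideal.span_singleton_prime (by exact_mod_cast hℓ.ne_zero)).mpr
      (Nat.prime_iff_prime_int.mp hℓ) |>.isMaximal (by simpa using hℓ.ne_zero)
  have hle : Ideal.span {(ℓ : ℤ)} ≤ Q.under ℤ := by
    rw [Ideal.span_singleton_le_iff_mem, Ideal.mem_comap]
    simpa using h
  have hne : Q.under ℤ ≠ ⊤ := (Ideal.comap_isPrime _ _).ne_top
  exact hmax.eq_of_le hne hle

/-- T-REL-2a. Ramification indices of `ℚ(ζ_pq) / ℚ(ζ_p)`. -/
theorem trel_ramificationIdx (p q : ℕ) [Fact p.Prime] [Fact q.Prime] (hpq : p ≠ q)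
    (K L : Type) [Field K] [NumberField K] [Field L] [NumberField L] [Algebra K L]
    [IsCyclotomicExtension {p} ℚ K] [IsCyclotomicExtension {p * q} ℚ L]
    (Q' : Ideal (𝓞 L)) [Q'.IsPrime] (hQ' : Q' ≠ ⊥) :
    ((q : 𝓞 L) ∈ Q' → Q'.ramificationIdx (𝓞 K) = q - 1) ∧
      ((q : 𝓞 L) ∉ Q' → Q'.ramificationIdx (𝓞 K) = 1) := by
  have hp : p.Prime := Fact.out
  have hq : q.Prime := Fact.out
  have : NeZero p := ⟨hp.ne_zero⟩
  have : NeZero q := ⟨hq.ne_zero⟩
  have : NeZero (p * q) := ⟨Nat.mul_ne_zero hp.ne_zero hq.ne_zero⟩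
  have : NeZero Q' := ⟨hQ'⟩
  have hqp : ¬ q ∣ p := fun h => hpq ((Nat.prime_dvd_prime_iff_eq hq hp).mp h).symm
  have hpq' : ¬ p ∣ q := fun h => hpq ((Nat.prime_dvd_prime_iff_eq hp hq).mp h)
  -- the prime of `K` under `Q'`
  set P : Ideal (𝓞 K) := Q'.under (𝓞 K) with hPdef
  have hPprime : P.IsPrime := Ideal.IsPrime.under (𝓞 K) Q'
  have hQP : Q'.LiesOver P := ⟨rfl⟩
  -- the tower formula
  have htower : Q'.ramificationIdx ℤ = P.ramificationIdx ℤ * Q'.ramificationIdx (𝓞 K) :=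
    Ideal.ramificationIdx_tower P Q'
  -- the key computation for a given rational prime `ℓ` under `Q'`
  have key : ∀ ℓ : ℕ, ℓ.Prime → (ℓ : 𝓞 L) ∈ Q' →
      (ℓ = q → Q'.ramificationIdx (𝓞 K) = q - 1) ∧ (ℓ ≠ q → Q'.ramificationIdx (𝓞 K) = 1) := by
    intro ℓ hℓ hmem
    have : Fact ℓ.Prime := ⟨hℓ⟩
    have hQl : Q'.LiesOver (Ideal.span {(ℓ : ℤ)}) := h11_liesOver_of_mem ℓ hℓ Q' hmem
    have hPl : P.LiesOver (Ideal.span {(ℓ : ℤ)}) := Ideal.LiesOver.tower_bot Q' P _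
    refine ⟨fun hlq => ?_, fun hlq => ?_⟩
    · subst hlq
      have h1 : Q'.ramificationIdx ℤ = ℓ ^ 0 * (ℓ - 1) :=
        IsCyclotomicExtension.Rat.ramificationIdx_eq (p * ℓ) (m := p) (p := ℓ) (k := 0) L Q'
          (by ring) hqp
      have h2 : P.ramificationIdx ℤ = 1 :=
        IsCyclotomicExtension.Rat.ramificationIdx_eq_of_not_dvd (m := p) ℓ K P hqp
      rw [h1, h2] at htower
      simpa using htower.symm
    · by_cases hlp : ℓ = p
      · subst hlp
        have h1 : Q'.ramificationIdx ℤ = ℓ ^ 0 * (ℓ - 1) :=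
          IsCyclotomicExtension.Rat.ramificationIdx_eq (ℓ * q) (m := q) (p := ℓ) (k := 0) L Q'
            (by ring) hpq'
        have h2 : P.ramificationIdx ℤ = ℓ - 1 :=
          IsCyclotomicExtension.Rat.ramificationIdx_eq_of_prime ℓ K P
        rw [h1, h2] at htower
        have hpos : 0 < ℓ - 1 := by have := hℓ.two_le; omega
        have h3 : (ℓ - 1) * 1 = (ℓ - 1) * Q'.ramificationIdx (𝓞 K) := by simpa using htower
        exact (Nat.eq_of_mul_eq_mul_left hpos h3).symm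
      · have hnd : ¬ ℓ ∣ p * q := by
          intro hd
          rcases (Nat.Prime.dvd_mul hℓ).mp hd with h | h
          · exact hlp ((Nat.prime_dvd_prime_iff_eq hℓ hp).mp h)
          · exact hlq ((Nat.prime_dvd_prime_iff_eq hℓ hq).mp h)
        have h1 : Q'.ramificationIdx ℤ = 1 :=
          IsCyclotomicExtension.Rat.ramificationIdx_eq_of_not_dvd (m := p * q) ℓ L Q' hnd
        rw [h1] at htower
        exact (Nat.eq_one_of_mul_eq_one_left htower.symm)
  -- the rational prime under `Q'`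
  set ℓ : ℕ := Ideal.absNorm (Ideal.under ℤ Q') with hℓdef
  have hℓ : ℓ.Prime := Nat.absNorm_under_prime Q'
  have hℓmem : (ℓ : 𝓞 L) ∈ Q' := Int.absNorm_under_mem Q'
  have hQl : Q'.LiesOver (Ideal.span {(ℓ : ℤ)}) := Int.liesOver_span_absNorm Q'
  obtain ⟨k1, k2⟩ := key ℓ hℓ hℓmem
  refine ⟨fun hmem => ?_, fun hmem => ?_⟩
  · -- `q ∈ Q'` forces `ℓ = q`
    have hQq : Q'.LiesOver (Ideal.span {(q : ℤ)}) := h11_liesOver_of_mem q hq Q' hmem
    have heq : Ideal.span {(ℓ : ℤ)} = Ideal.span {(q : ℤ)} :=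
      hQl.over.trans hQq.over.symm
    have hlq : ℓ = q := by
      have h1 : (ℓ : ℤ) ∣ (q : ℤ) := by
        rw [← Ideal.mem_span_singleton, heq]
        exact Ideal.mem_span_singleton_self _
      exact (Nat.prime_dvd_prime_iff_eq hℓ hq).mp (by exact_mod_cast h1)
    exact k1 hlq
  · apply k2
    intro hlq
    exact hmem (hlq ▸ hℓmem)

end Fermat.Agent.S14
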