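import Mathlib
import Fermat.Agent.S14.Defs
import Fermat.Agent.S14.TRel_Ram

set_option autoImplicit false

namespace Fermat.Agent.S14

open NumberField
open scoped nonZeroDivisors Pointwise

/-- If the old-style ramification index is nonzero, every exponent `n` with
`map f p ≤ P ^ n` is bounded by it. -/
lemma h11_le_ramificationIdx' {R S : Type*} [CommRing R] [CommRing S] [Algebra R S]
    (p : Ideal R) (P : Ideal S) (h0 : p.ramificationIdx' P ≠ 0) (n : ℕ)
    (hn : Ideal.map (algebraMap R S) p ≤ P ^ n) : n ≤ p.ramificationIdx' P := by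
  classical
  have hex : ∃ N, ∀ k, Ideal.map (algebraMap R S) p ≤ P ^ k → k ≤ N := by
    by_contra hcon
    push Not at hcon
    exact h0 (Ideal.ramificationIdx'_eq_zero hcon)
  rw [Ideal.ramificationIdx'_eq_find hex]
  exact Nat.find_spec hex n hn

/-- If `ζ ^ q = 1` and the prime `q` lies in a prime ideal `Q`, then `1 - ζ ∈ Q`. -/
lemma h11_one_sub_mem {A : Type*} [CommRing A] (q : ℕ) (hq : q.Prime) (ζ : A) (hζ : ζ ^ q = 1)
    (Q : Ideal A) [hQ : Q.IsPrime] (hmem : (q : A) ∈ Q) : 1 - ζ ∈ Q := by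
  obtain ⟨r, hr⟩ := exists_add_pow_prime_eq hq (1 - ζ) ζ
  have h1 : (1 - ζ) ^ q = (q : A) * (-((1 - ζ) * ζ * r)) := by
    have h0 : (1 - ζ + ζ) ^ q = 1 := by simp
    rw [h0, hζ] at hr
    linear_combination -hr
  apply hQ.mem_of_pow_mem q
  rw [h1]
  exact Ideal.mul_mem_right _ _ hmem

/-- If `1 - ζ ∈ Q ^ 2` for a primitive `q`-th root of unity `ζ`, then `q ∈ Q ^ (2 (q - 1))`. -/
lemma h11_nat_mem_pow {A : Type*} [CommRing A] [IsDomain A] (q : ℕ) (hq : q.Prime) (ζ : A)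
    (hζ : IsPrimitiveRoot ζ q) (Q : Ideal A) (h : 1 - ζ ∈ Q ^ 2) :
    (q : A) ∈ Q ^ (2 * (q - 1)) := by
  obtain ⟨n, rfl⟩ : ∃ n, q = n + 1 := ⟨q - 1, by have := hq.one_lt; omega⟩
  have hprod := hζ.prod_one_sub_pow_eq_order
  have hcast : ((n + 1 : ℕ) : A) = ∏ k ∈ Finset.range n, (1 - ζ ^ (k + 1)) := by
    rw [hprod]; push_cast; ring
  rw [hcast]
  have hfac : ∀ k ∈ Finset.range n, (1 - ζ ^ (k + 1)) ∈ Q ^ 2 := by
    intro k _
    rw [← mul_neg_geom_sum ζ (k + 1)]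
    exact Ideal.mul_mem_right _ _ h
  have hmem := Ideal.prod_mem_prod hfac
  simp only [Finset.prod_const, Finset.card_range] at hmem
  rw [show 2 * (n + 1 - 1) = 2 * n by omega, pow_mul]
  exact hmem

/-- T-REL-2b. At a prime `Q'` of `ℚ(ζ_pq)` over `q`: `1 - ζ_q` is a uniformizer and
`Gal(L/K)` acts trivially on the residue field. -/
theorem trel_local_at_q (p q : ℕ) [Fact p.Prime] [Fact q.Prime] (hpq : p ≠ q)
    (K L : Type) [Field K] [NumberField K] [Field L] [NumberField L] [Algebra K L]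
    [IsCyclotomicExtension {p} ℚ K] [IsCyclotomicExtension {p * q} ℚ L]
    (ζq : 𝓞 L) (hζq : IsPrimitiveRoot ζq q)
    (Q' : Ideal (𝓞 L)) [Q'.IsPrime] (hq : (q : 𝓞 L) ∈ Q') :
    1 - ζq ∈ Q' ∧ 1 - ζq ∉ Q' ^ 2 ∧ ∀ (σ : L ≃ₐ[K] L) (x : 𝓞 L), σ • x - x ∈ Q' := by
  have hp : p.Prime := Fact.out
  have hqP : q.Prime := Fact.out
  have : NeZero p := ⟨hp.ne_zero⟩
  have : NeZero q := ⟨hqP.ne_zero⟩
  have : NeZero (p * q) := ⟨Nat.mul_ne_zero hp.ne_zero hqP.ne_zero⟩
  have hqp : ¬ q ∣ p := fun h => hpq ((Nat.prime_dvd_prime_iff_eq hqP hp).mp h).symm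
  have hQ'0 : Q' ≠ ⊥ := by
    rintro rfl
    have h0 : (q : 𝓞 L) = 0 := by simpa using hq
    exact hqP.ne_zero (by exact_mod_cast h0)
  have : NeZero Q' := ⟨hQ'0⟩
  have hQq : Q'.LiesOver (Ideal.span {(q : ℤ)}) := h11_liesOver_of_mem q hqP Q' hq
  have hmem : 1 - ζq ∈ Q' := h11_one_sub_mem q hqP ζq hζq.pow_eq_one Q' hq
  refine ⟨hmem, ?_, ?_⟩
  · intro h2
    have hqmem : (q : 𝓞 L) ∈ Q' ^ (2 * (q - 1)) := h11_nat_mem_pow q hqP ζq hζq Q' h2
    have hmap : Ideal.map (algebraMap ℤ (𝓞 L)) (Ideal.span {(q : ℤ)}) ≤ Q' ^ (2 * (q - 1)) := by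
      rw [Ideal.map_span, Ideal.span_le]
      rintro _ ⟨x, hx, rfl⟩
      rw [Set.mem_singleton_iff] at hx
      subst hx
      simpa using hqmem
    have he : Q'.ramificationIdx ℤ = q ^ 0 * (q - 1) :=
      IsCyclotomicExtension.Rat.ramificationIdx_eq (p * q) (m := p) (p := q) (k := 0) L Q'
        (by ring) hqp
    have hspan0 : Ideal.span {(q : ℤ)} ≠ ⊥ := by
      simp [hqP.ne_zero]
    have he' : (Ideal.span {(q : ℤ)}).ramificationIdx' Q' = q - 1 := by
      rw [Ideal.ramificationIdx'_eq_ramificationIdx _ _ hspan0, he]; simp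
    have hq2 := hqP.two_le
    have hle := h11_le_ramificationIdx' _ Q' (by rw [he']; omega) _ hmap
    rw [he'] at hle
    omega
  · -- the inertia group of `Q'` in `Gal(L/K)` is everything
    have : IsGalois ℚ L := IsCyclotomicExtension.isGalois {p * q} ℚ L
    have : IsGalois K L := IsGalois.tower_top_of_isGalois ℚ K L
    set P : Ideal (𝓞 K) := Q'.under (𝓞 K) with hPdef
    have hPprime : P.IsPrime := Ideal.IsPrime.under (𝓞 K) Q'
    have hQP : Q'.LiesOver P := ⟨rfl⟩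
    have hcardG : Nat.card (L ≃ₐ[K] L) = q - 1 := by
      rw [IsGalois.card_aut_eq_finrank K L]
      have hL : Module.finrank ℚ L = (p * q).totient :=
        IsCyclotomicExtension.finrank L
          (Polynomial.cyclotomic.irreducible_rat (Nat.pos_of_ne_zero (NeZero.ne _)))
      have hK : Module.finrank ℚ K = p.totient :=
        IsCyclotomicExtension.finrank K (Polynomial.cyclotomic.irreducible_rat hp.pos)
      have hmul := Module.finrank_mul_finrank ℚ K L
      rw [hL, hK, Nat.totient_mul ((Nat.coprime_primes hp hqP).mpr hpq), Nat.totient_prime hp,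
        Nat.totient_prime hqP] at hmul
      have hpos : 0 < p - 1 := by have := hp.two_le; omega
      exact Nat.eq_of_mul_eq_mul_left hpos hmul
    have hinert : Nat.card (Ideal.inertia (L ≃ₐ[K] L) Q') = q - 1 := by
      rw [Ideal.card_inertia_eq_ramificationIdxIn P Q',
        Ideal.ramificationIdxIn_eq_ramificationIdx P Q' (L ≃ₐ[K] L)]
      exact (trel_ramificationIdx p q hpq K L Q' hQ'0).1 hq
    have htop : Ideal.inertia (L ≃ₐ[K] L) Q' = ⊤ :=
      Subgroup.eq_top_of_card_eq _ (hinert.trans hcardG.symm)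
    intro σ x
    have hσ : σ ∈ Ideal.inertia (L ≃ₐ[K] L) Q' := htop ▸ Subgroup.mem_top σ
    exact (AddSubgroup.mem_inertia.mp hσ) x

end Fermat.Agent.S14
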