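import Mathlib
import Fermat.Agent.S14.Defs

/-!
Package T-REL of S14 CORE-T, row T-REL-3: the norm of an element all of whose conjugates
are associated.
-/

set_option autoImplicit false

namespace Fermat.Agent.S14

open NumberField
open scoped nonZeroDivisors Pointwise

theorem h28_algebraMap_norm_eq_prod (K L : Type) [Field K] [NumberField K] [Field L]
    [NumberField L] [Algebra K L] [IsGalois K L] (g : 𝓞 L) :
    algebraMap (𝓞 K) (𝓞 L) (RingOfIntegers.norm K g) = ∏ σ : L ≃ₐ[K] L, σ • g := by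
  apply RingOfIntegers.ext
  have h1 : ((algebraMap (𝓞 K) (𝓞 L) (RingOfIntegers.norm K g) : 𝓞 L) : L) =
      algebraMap K L (Algebra.norm K (g : L)) := by
    rw [← RingOfIntegers.coe_norm]
    rfl
  rw [h1, Algebra.norm_eq_prod_automorphisms]
  have h2 : ((∏ σ : L ≃ₐ[K] L, σ • g : 𝓞 L) : L) = ∏ σ : L ≃ₐ[K] L, ((σ • g : 𝓞 L) : L) := by
    exact map_prod (algebraMap (𝓞 L) L) _ _
  rw [h2]
  rfl

theorem trel_norm_span (K L : Type) [Field K] [NumberField K] [Field L] [NumberField L]
    [Algebra K L] [IsGalois K L] (g : 𝓞 L)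
    (hg : ∀ σ : L ≃ₐ[K] L, Associated (σ • g) g) :
    Ideal.map (algebraMap (𝓞 K) (𝓞 L)) (Ideal.span {RingOfIntegers.norm K g}) =
      Ideal.span {g} ^ Module.finrank K L := by
  rw [Ideal.map_span, Set.image_singleton, h28_algebraMap_norm_eq_prod, ← Ideal.prod_span_singleton]
  have h1 : ∀ σ ∈ (Finset.univ : Finset (L ≃ₐ[K] L)),
      Ideal.span {σ • g} = Ideal.span {g} := fun σ _ =>
    Ideal.span_singleton_eq_span_singleton.mpr (hg σ)
  rw [Finset.prod_congr rfl h1, Finset.prod_const, Finset.card_univ,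
    ← Nat.card_eq_fintype_card, IsGalois.card_aut_eq_finrank]

end Fermat.Agent.S14
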