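import Mathlib
import Fermat.Agent.S14.Defs

/-!
S14, package T-REL, row T-REL-6: for a rational prime `q` with `q % p = 1`, the primes of
`K = ℚ(ζ_p)` above `q` form one free orbit under `Gal(K/ℚ)`.
-/

namespace Fermat.Agent.S14

open NumberField
open scoped nonZeroDivisors Pointwise

theorem trel_primes_over_q (p : ℕ) [Fact p.Prime]
    (K : Type) [Field K] [NumberField K] [IsCyclotomicExtension {p} ℚ K]
    (q : ℕ) [Fact q.Prime] (hqp : q % p = 1) (Q : Ideal (𝓞 K)) [Q.IsPrime]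
    (hQ : (q : 𝓞 K) ∈ Q) :
    Function.Injective (fun σ : K ≃ₐ[ℚ] K => σ • Q) ∧
      ∀ P : Ideal (𝓞 K), P.IsPrime → (q : 𝓞 K) ∈ P → ∃ σ : K ≃ₐ[ℚ] K, σ • Q = P := by
  have hpp : p.Prime := Fact.out
  have hqq : q.Prime := Fact.out
  have : NeZero p := ⟨hpp.ne_zero⟩
  have : IsGalois ℚ K := IsCyclotomicExtension.isGalois {p} ℚ K
  have hqZ : Prime (q : ℤ) := Nat.prime_iff_prime_int.mp hqq
  have hmax : (Ideal.span {(q : ℤ)}).IsMaximal :=
    PrincipalIdealRing.isMaximal_of_irreducible hqZ.irreducible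
  have hlies : ∀ P : Ideal (𝓞 K), P.IsPrime → (q : 𝓞 K) ∈ P →
      P.LiesOver (Ideal.span {(q : ℤ)}) := by
    intro P hP hqP
    constructor
    refine hmax.eq_of_le (Ideal.comap_ne_top _ hP.ne_top) ?_
    rw [Ideal.span_singleton_le_iff_mem, Ideal.mem_comap]
    simpa using hqP
  have hQl : Q.LiesOver (Ideal.span {(q : ℤ)}) := hlies Q inferInstance hQ
  have hnd : ¬ q ∣ p := by
    intro hd
    have := (Nat.prime_dvd_prime_iff_eq hqq hpp).mp hd
    rw [this, Nat.mod_self] at hqp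
    exact zero_ne_one hqp
  refine ⟨?_, ?_⟩
  · -- injectivity
    have hstab : MulAction.stabilizer (K ≃ₐ[ℚ] K) Q = ⊥ := by
      rw [← Subgroup.card_eq_one,
        Ideal.card_stabilizer_eq (G := K ≃ₐ[ℚ] K) (Ideal.span {(q : ℤ)}) Q,
        IsCyclotomicExtension.Rat.ramificationIdxIn_eq_of_not_dvd q K hnd,
        IsCyclotomicExtension.Rat.inertiaDegIn_eq_of_not_dvd q K hnd, one_mul]
      have h1 : (q : ZMod p) = 1 := by
        rw [← ZMod.natCast_mod, hqp, Nat.cast_one]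
      rw [h1, orderOf_one]
    intro σ τ hστ
    have hmem : σ⁻¹ * τ ∈ MulAction.stabilizer (K ≃ₐ[ℚ] K) Q := by
      rw [MulAction.mem_stabilizer_iff, mul_smul]
      have : τ • Q = σ • Q := hστ.symm
      rw [this, inv_smul_smul]
    rw [hstab, Subgroup.mem_bot] at hmem
    exact (inv_mul_eq_one.mp hmem)
  · intro P hP hqP
    have hPl : P.LiesOver (Ideal.span {(q : ℤ)}) := hlies P hP hqP
    exact Ideal.exists_smul_eq_of_isGaloisGroup (Ideal.span {(q : ℤ)}) Q P (K ≃ₐ[ℚ] K)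

end Fermat.Agent.S14
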