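import Mathlib
import Fermat.Agent.S14.Defs

/-!
Package T-REL of S14 CORE-T, row T-REL-5: splitting a factorisation.
-/

set_option autoImplicit false

namespace Fermat.Agent.S14

open NumberField
open scoped nonZeroDivisors Pointwise

open UniqueFactorizationMonoid in
theorem trel_factor_split {R : Type*} [CommRing R] [IsDedekindDomain R] [DecidableEq (Ideal R)]
    (I : Ideal R) (hI : I ≠ ⊥) (n : ℕ) (hn : n ≠ 0) (T : Finset (Ideal R))
    (hT : ∀ P ∈ normalizedFactors I, P ∉ T → n ∣ Multiset.count P (normalizedFactors I)) :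
    ∃ 𝔞 : Ideal R, I = 𝔞 ^ n * ∏ P ∈ T, P ^ Multiset.count P (normalizedFactors I) := by
  classical
  set M := normalizedFactors I with hM
  have h1 : I = ∏ P ∈ M.toFinset, P ^ M.count P := by
    conv_lhs => rw [← Ideal.prod_normalizedFactors_eq_self hI]
    exact Finset.prod_multiset_count M
  refine ⟨∏ P ∈ M.toFinset.filter (fun P => P ∉ T), P ^ (M.count P / n), ?_⟩
  have h2 : ∏ P ∈ T, P ^ M.count P = ∏ P ∈ M.toFinset.filter (fun P => P ∈ T), P ^ M.count P := by
    symm
    apply Finset.prod_subset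
    · intro P hP
      exact (Finset.mem_filter.mp hP).2
    · intro P hPT hPM
      have : P ∉ M := by
        intro hmem
        exact hPM (Finset.mem_filter.mpr ⟨Multiset.mem_toFinset.mpr hmem, hPT⟩)
      rw [Multiset.count_eq_zero_of_notMem this, pow_zero]
  have h3 : (∏ P ∈ M.toFinset.filter (fun P => P ∉ T), P ^ (M.count P / n)) ^ n =
      ∏ P ∈ M.toFinset.filter (fun P => P ∉ T), P ^ M.count P := by
    rw [← Finset.prod_pow]
    apply Finset.prod_congr rfl
    intro P hP
    obtain ⟨hPM, hPT⟩ := Finset.mem_filter.mp hP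
    rw [← pow_mul, Nat.div_mul_cancel (hT P (Multiset.mem_toFinset.mp hPM) hPT)]
  rw [h3, h2, mul_comm, Finset.prod_filter_mul_prod_filter_not]
  exact h1

end Fermat.Agent.S14
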