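import Mathlib
import Fermat.Agent.S14.Defs
import Fermat.Agent.S14.h13_Euler
import Fermat.Agent.S14.h84_Split

/-!
# S14, package FI (algebraic half): local Euler factors and fibrewise regrouping

* `h17_hasProd_eq_off_finset` : two convergent products whose factors agree off a finite set.
* `h17_hasProd_fibre` : regrouping a product over the primes of `N` by the prime of `F` below.
* `h17_finite_over_nat` : finitely many primes contain a nonzero integer.
* `h17_local_euler` : the local identity `∏_k (1 - (c θ^k)(v) x) = ∏_{w ∣ v} (1 - N(w)^(-s))`.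
-/

namespace Fermat.Agent.S14

open NumberField IsDedekindDomain Filter Topology
open scoped nonZeroDivisors

/-- (L3) Two convergent infinite products whose factors agree off a finite set `S` differ by the
finite products over `S` (stated without division). -/
theorem h17_hasProd_eq_off_finset {β α : Type*} [CommMonoid α] [TopologicalSpace α] [T2Space α]
    [ContinuousMul α] {f g : β → α} {a b : α} (S : Finset β) (hf : HasProd f a) (hg : HasProd g b)
    (h : ∀ x ∉ S, f x = g x) : a * ∏ x ∈ S, g x = b * ∏ x ∈ S, f x := by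
  classical
  unfold HasProd at hf hg
  rw [SummationFilter.unconditional_filter] at hf hg
  have h1 : Tendsto (fun T : Finset β => (∏ x ∈ T, f x) * ∏ x ∈ S, g x) atTop
      (𝓝 (a * ∏ x ∈ S, g x)) := hf.mul_const _
  have h2 : Tendsto (fun T : Finset β => (∏ x ∈ T, g x) * ∏ x ∈ S, f x) atTop
      (𝓝 (b * ∏ x ∈ S, f x)) := hg.mul_const _
  refine tendsto_nhds_unique_of_eventuallyEq h1 h2 ?_
  filter_upwards [eventually_ge_atTop S] with T hT
  have hT' : S ⊆ T := hT
  have e : ∏ x ∈ T \ S, f x = ∏ x ∈ T \ S, g x :=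
    Finset.prod_congr rfl fun x hx => h x (Finset.mem_sdiff.mp hx).2
  show (∏ x ∈ T, f x) * ∏ x ∈ S, g x = (∏ x ∈ T, g x) * ∏ x ∈ S, f x
  rw [← Finset.prod_sdiff hT', ← Finset.prod_sdiff (f := g) hT', e]
  exact mul_right_comm _ _ _

section Fibre

variable (F N : Type*) [Field F] [NumberField F] [Field N] [NumberField N] [Algebra F N]

omit [NumberField F] [NumberField N] in
/-- (L2) Regrouping a convergent product over the primes of `N` according to the prime of `F`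
below. -/
theorem h17_hasProd_fibre
    [∀ v : HeightOneSpectrum (𝓞 F), Fintype {w : HeightOneSpectrum (𝓞 N) // w.under (𝓞 F) = v}]
    {f : HeightOneSpectrum (𝓞 N) → ℂ} {a : ℂ} (h : HasProd f a) :
    HasProd (fun v : HeightOneSpectrum (𝓞 F) =>
      ∏ w : {w : HeightOneSpectrum (𝓞 N) // w.under (𝓞 F) = v}, f w.1) a := by
  have h' : HasProd (f ∘ (Equiv.sigmaFiberEquiv
      (fun w : HeightOneSpectrum (𝓞 N) => w.under (𝓞 F)))) a := (Equiv.hasProd_iff _).mpr h
  refine HasProd.sigma h' fun v => ?_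
  exact hasProd_fintype
    (fun c : {w : HeightOneSpectrum (𝓞 N) // w.under (𝓞 F) = v} => f c.1)

/-- (L4) Only finitely many primes contain a given nonzero integer. -/
theorem h17_finite_over_nat (m : ℕ) (hm : m ≠ 0) :
    {v : HeightOneSpectrum (𝓞 F) | (m : 𝓞 F) ∈ v.asIdeal}.Finite := by
  have hI : Ideal.span {(m : 𝓞 F)} ≠ 0 := by
    rw [Ne, Ideal.zero_eq_bot, Ideal.span_singleton_eq_bot]
    exact_mod_cast hm
  refine (Ideal.finite_factors hI).subset fun v hv => ?_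
  rw [Set.mem_ofPred_eq, Ideal.dvd_span_singleton]
  exact hv

end Fibre

/-- `∏_{k<p} (1 - b a^k x) = 1 - x^p` for a primitive `p`-th root of unity `a` and `b^p = 1`. -/
theorem h17_prod_primitive {p : ℕ} (hp : 0 < p) {a b : ℂ} (ha : IsPrimitiveRoot a p)
    (hb : b ^ p = 1) (x : ℂ) :
    ∏ k ∈ Finset.range p, (1 - b * a ^ k * x) = 1 - x ^ p := by
  have : NeZero p := ⟨hp.ne'⟩
  have h := ha.pow_sub_pow_eq_prod_sub_mul (1 : ℂ) (b * x) hp
  rw [one_pow, mul_pow, hb, one_mul] at h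
  rw [h]
  refine Finset.prod_nbij (fun k => a ^ k) ?_ ?_ ?_ ?_
  · intro k _
    rw [Polynomial.mem_nthRootsFinset hp, ← pow_mul, mul_comm, pow_mul, ha.pow_eq_one, one_pow]
  · intro i hi j hj hij
    exact ha.pow_inj (Finset.mem_range.mp hi) (Finset.mem_range.mp hj) hij
  · intro ξ hξ
    have hξ' : ξ ^ p = 1 := (Polynomial.mem_nthRootsFinset hp _).mp hξ
    obtain ⟨i, hi, rfl⟩ := ha.eq_pow_of_pow_eq_one hξ'
    exact ⟨i, Finset.mem_coe.mpr (Finset.mem_range.mpr hi), rfl⟩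
  · intro k _
    ring

/-- (L1) The local identity behind `∏_k L(s, c θ^k) = ζ_N(s)`: for a prime `v` of `F` not
containing `m`, the product over `k < p` of the Euler factors of `c θ^k` at `v` equals the
product of the Euler factors of `ζ_N` at the primes of `N` above `v`. -/
theorem h17_local_euler {p : ℕ} (hp : p.Prime)
    {F N : Type*} [Field F] [NumberField F] [Field N] [NumberField N] [Algebra F N] [IsGalois F N]
    (hdeg : Module.finrank F N = p) (m : ℕ)
    (hunr : ∀ Q : Ideal (𝓞 N), Q.IsPrime → Q ≠ ⊥ → (m : 𝓞 N) ∉ Q → Q.ramificationIdx (𝓞 F) = 1)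
    (θ c : ClassGroup (𝓞 F) →* ℂˣ)
    (hθ : ∀ P : (Ideal (𝓞 F))⁰, (P : Ideal (𝓞 F)).IsPrime → (m : 𝓞 F) ∉ (P : Ideal (𝓞 F)) →
      (θ (ClassGroup.mk0 P) = 1 ↔ SplitsCompletely (𝓞 F) (𝓞 N) (P : Ideal (𝓞 F))) ∧
        θ (ClassGroup.mk0 P) ^ p = 1)
    (hc : ∀ P : (Ideal (𝓞 F))⁰, (P : Ideal (𝓞 F)).IsPrime → (m : 𝓞 F) ∉ (P : Ideal (𝓞 F)) →
      (SplitsCompletely (𝓞 F) (𝓞 N) (P : Ideal (𝓞 F)) → c (ClassGroup.mk0 P) = 1) ∧
        c (ClassGroup.mk0 P) ^ p = 1)
    (v : HeightOneSpectrum (𝓞 F)) (hv : (m : 𝓞 F) ∉ v.asIdeal) (s : ℝ)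
    [Fintype {w : HeightOneSpectrum (𝓞 N) // w.under (𝓞 F) = v}] :
    ∏ k ∈ Finset.range p, (1 - ((c * θ ^ k) (ClassGroup.mk0 (h13_toIdl v)) : ℂ) *
        (((Ideal.absNorm v.asIdeal : ℝ) ^ (-s) : ℝ) : ℂ)) =
      ∏ w : {w : HeightOneSpectrum (𝓞 N) // w.under (𝓞 F) = v},
        (1 - (((Ideal.absNorm w.1.asIdeal : ℝ) ^ (-s) : ℝ) : ℂ)) := by
  have hp' : (Module.finrank F N).Prime := hdeg ▸ hp
  have hvu : h84_Unramified F N v := by
    intro w hw
    refine hunr w.asIdeal w.isPrime w.ne_bot fun hmem => hv ?_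
    rw [← hw]
    show (m : 𝓞 F) ∈ Ideal.comap (algebraMap (𝓞 F) (𝓞 N)) w.asIdeal
    rw [Ideal.mem_comap, map_natCast]
    exact hmem
  obtain ⟨hθ1, hθ2⟩ := hθ (h13_toIdl v) v.isPrime hv
  obtain ⟨hc1, hc2⟩ := hc (h13_toIdl v) v.isPrime hv
  set x : ℂ := (((Ideal.absNorm v.asIdeal : ℝ) ^ (-s) : ℝ) : ℂ) with hx
  rcases h84_split_or_inert F N hp' v hvu with hs | ⟨⟨w0, hw0, huniq⟩, hf⟩
  · -- split case
    have hsp : SplitsCompletely (𝓞 F) (𝓞 N) v.asIdeal := (h84_splitsCompletely_iff F N v).mp hs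
    have e1 : θ (ClassGroup.mk0 (h13_toIdl v)) = 1 := hθ1.mpr hsp
    have e2 : c (ClassGroup.mk0 (h13_toIdl v)) = 1 := hc1 hsp
    have hL : ∀ k ∈ Finset.range p,
        (1 - ((c * θ ^ k) (ClassGroup.mk0 (h13_toIdl v)) : ℂ) * x) = 1 - x := by
      intro k _
      rw [MonoidHom.mul_apply, MonoidHom.pow_apply, e1, e2, one_pow, one_mul, Units.val_one,
        one_mul]
    rw [Finset.prod_congr rfl hL, Finset.prod_const, Finset.card_range]
    have hR : ∀ w ∈ (Finset.univ : Finset {w : HeightOneSpectrum (𝓞 N) // w.under (𝓞 F) = v}),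
        (1 - (((Ideal.absNorm w.1.asIdeal : ℝ) ^ (-s) : ℝ) : ℂ)) = 1 - x := by
      intro w _
      rw [h84_absNorm_eq_of_splits F N v hs w.1 w.2]
    rw [Finset.prod_congr rfl hR, Finset.prod_const, Finset.card_univ,
      ← Nat.card_eq_fintype_card, h84_card_fibre_of_splits F N v hs, hdeg]
  · -- inert case
    have hns : ¬ SplitsCompletely (𝓞 F) (𝓞 N) v.asIdeal := by
      intro hsp
      have h1 := ((h84_splitsCompletely_iff F N v).mpr hsp w0 hw0).2
      rw [hf w0 hw0, hdeg] at h1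
      exact hp.one_lt.ne' h1
    have hω1 : ((θ (ClassGroup.mk0 (h13_toIdl v)) : ℂˣ) : ℂ) ≠ 1 := by
      intro h1
      exact hns (hθ1.mp (Units.ext h1))
    have hωp : ((θ (ClassGroup.mk0 (h13_toIdl v)) : ℂˣ) : ℂ) ^ p = 1 := by
      rw [← Units.val_pow_eq_pow_val, hθ2, Units.val_one]
    have hbp : ((c (ClassGroup.mk0 (h13_toIdl v)) : ℂˣ) : ℂ) ^ p = 1 := by
      rw [← Units.val_pow_eq_pow_val, hc2, Units.val_one]
    have hprim : IsPrimitiveRoot ((θ (ClassGroup.mk0 (h13_toIdl v)) : ℂˣ) : ℂ) p :=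
      isPrimitiveRoot_of_mem_nthRootsFinset hp
        ((Polynomial.mem_nthRootsFinset hp.pos _).mpr hωp) hω1
    have hL : ∀ k ∈ Finset.range p,
        (1 - ((c * θ ^ k) (ClassGroup.mk0 (h13_toIdl v)) : ℂ) * x) =
          1 - ((c (ClassGroup.mk0 (h13_toIdl v)) : ℂˣ) : ℂ) *
            ((θ (ClassGroup.mk0 (h13_toIdl v)) : ℂˣ) : ℂ) ^ k * x := by
      intro k _
      rw [MonoidHom.mul_apply, MonoidHom.pow_apply, Units.val_mul, Units.val_pow_eq_pow_val]
    rw [Finset.prod_congr rfl hL, h17_prod_primitive hp.pos hprim hbp x]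
    rw [Fintype.prod_eq_single (⟨w0, hw0⟩ : {w : HeightOneSpectrum (𝓞 N) // w.under (𝓞 F) = v})
      (fun w hw => absurd (Subtype.ext (huniq w.1 w.2)) hw)]
    have hN : Ideal.absNorm w0.asIdeal = Ideal.absNorm v.asIdeal ^ p := by
      rw [h84_absNorm_eq_pow F N w0, hw0, hf w0 hw0, hdeg]
    rw [hN, hx, Nat.cast_pow, ← Real.rpow_pow_comm (Nat.cast_nonneg _), Complex.ofReal_pow]

end Fermat.Agent.S14
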