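import Mathlib

/-!
# S14, CORE-T, T-REL-4: the residue computation (pure Dedekind domain algebra)

`h25_trel_residue` is the statement `trel_residue` of the T-REL skeleton: if `τ` acts trivially
on `B / P`, `1 - x` is a uniformiser at `P` with `τ x = x ^ s`, and `τ g = ξ g` with
`v_P(g) = r`, then `ξ ≡ s ^ r` modulo `P`.
-/

set_option linter.unusedSectionVars false
set_option linter.unusedVariables false

namespace Fermat.Agent.S14

open Ideal

section Residue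

variable {B : Type*} [CommRing B] [IsDedekindDomain B] (P : Ideal B) [hPprime : P.IsPrime]

include hPprime in
/-- `P^k = (λ^k) + P^(k+1)` for a uniformiser `λ` at `P`. -/
theorem h25_pow_eq_span_sup (hP0 : P ≠ ⊥) (lam : B) (hlam : lam ∈ P) (hlam2 : lam ∉ P ^ 2)
    (k : ℕ) : Ideal.span {lam ^ k} ⊔ P ^ (k + 1) = P ^ k := by
  have hmax : P.IsMaximal := hPprime.isMaximal hP0
  obtain ⟨J, hJ⟩ : P ∣ Ideal.span {lam} := Ideal.dvd_span_singleton.2 hlam
  have hJP : ¬ J ≤ P := by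
    intro hle
    obtain ⟨J', hJ'⟩ := Ideal.dvd_iff_le.2 hle
    apply hlam2
    have : Ideal.span {lam} ≤ P ^ 2 := by
      rw [hJ, hJ', ← mul_assoc, ← pow_two]
      exact Ideal.mul_le_left
    exact this (Ideal.mem_span_singleton_self lam)
  have hcop : IsCoprime J P := by
    rw [Ideal.isCoprime_iff_sup_eq]
    by_contra h
    have h1 : J ⊔ P = P := (hmax.eq_of_le h le_sup_right).symm
    exact hJP (h1 ▸ le_sup_left)
  have hcopk : J ^ k ⊔ P = ⊤ := by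
    rw [← Ideal.isCoprime_iff_sup_eq]
    exact hcop.pow_left
  rw [← Ideal.span_singleton_pow, hJ, mul_pow, pow_succ, ← Ideal.mul_sup, hcopk, Ideal.mul_top]

include hPprime in
theorem h25_exists_decomp (hP0 : P ≠ ⊥) (lam : B) (hlam : lam ∈ P) (hlam2 : lam ∉ P ^ 2)
    (k : ℕ) (x : B) (hx : x ∈ P ^ k) : ∃ y z : B, z ∈ P ^ (k + 1) ∧ x = lam ^ k * y + z := by
  rw [← h25_pow_eq_span_sup P hP0 lam hlam hlam2 k] at hx
  obtain ⟨a, ha, z, hz, rfl⟩ := Submodule.mem_sup.1 hx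
  obtain ⟨y, rfl⟩ := Ideal.mem_span_singleton'.1 ha
  exact ⟨y, z, hz, by ring⟩

omit [IsDedekindDomain B] hPprime in
theorem h25_map_pow_mem (τ : B →+* B) (hτP : ∀ x, x ∈ P → τ x ∈ P) (k : ℕ) (x : B)
    (hx : x ∈ P ^ k) : τ x ∈ P ^ k := by
  have h1 : Ideal.map (τ : B →+* B) P ≤ P := by
    rw [Ideal.map_le_iff_le_comap]
    intro y hy
    exact hτP y hy
  have h2 : Ideal.map (τ : B →+* B) (P ^ k) ≤ P ^ k := by
    rw [Ideal.map_pow]
    exact Ideal.pow_right_mono h1 k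
  exact h2 (Ideal.mem_map_of_mem τ hx)

include hPprime in
/-- `τ x ≡ c^k x mod P^(k+1)` for `x ∈ P^k`. -/
theorem h25_twist_pow (hP0 : P ≠ ⊥) (τ : B →+* B) (hτP : ∀ x, x ∈ P → τ x ∈ P)
    (hτres : ∀ x : B, τ x - x ∈ P) (lam c : B) (hlam : lam ∈ P) (hlam2 : lam ∉ P ^ 2)
    (hτlam : τ lam = c * lam) (k : ℕ) (x : B) (hx : x ∈ P ^ k) :
    τ x - c ^ k * x ∈ P ^ (k + 1) := by
  obtain ⟨y, z, hz, rfl⟩ := h25_exists_decomp P hP0 lam hlam hlam2 k x hx
  have e : τ (lam ^ k * y + z) - c ^ k * (lam ^ k * y + z)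
      = c ^ k * (lam ^ k * (τ y - y)) + (τ z - c ^ k * z) := by
    rw [map_add, map_mul, map_pow, hτlam]
    ring
  rw [e]
  apply Ideal.add_mem
  · apply Ideal.mul_mem_left
    rw [pow_succ]
    exact Ideal.mul_mem_mul (Ideal.pow_mem_pow hlam k) (hτres y)
  · apply Ideal.sub_mem
    · exact h25_map_pow_mem P τ hτP (k + 1) z hz
    · exact Ideal.mul_mem_left _ _ hz

include hPprime in
/-- **Residue lemma**: if `τ g = ξ g`, `τ` acts trivially on `B / P`, and `τ λ = c λ` for a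
uniformiser `λ` at `P`, then `ξ ≡ c ^ v_P(g)` modulo `P`. -/
theorem h25_residue_of_ambiguous (hP0 : P ≠ ⊥) (τ : B →+* B) (hτP : ∀ x, x ∈ P → τ x ∈ P)
    (hτres : ∀ x : B, τ x - x ∈ P) (lam c : B) (hlam : lam ∈ P) (hlam2 : lam ∉ P ^ 2)
    (hτlam : τ lam = c * lam) (g ξ : B) (hξ : τ g = ξ * g) (r : ℕ) (hgr : g ∈ P ^ r)
    (hgr1 : g ∉ P ^ (r + 1)) : ξ - c ^ r ∈ P := by
  have hmax : P.IsMaximal := hPprime.isMaximal hP0
  have h1 := h25_twist_pow P hP0 τ hτP hτres lam c hlam hlam2 hτlam r g hgr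
  rw [hξ, ← sub_mul] at h1
  by_contra hn
  obtain ⟨y, m, hm, hym⟩ := hmax.exists_inv hn
  apply hgr1
  have e : g = y * ((ξ - c ^ r) * g) + g * m := by
    have : g = g * (y * (ξ - c ^ r) + m) := by rw [hym, mul_one]
    linear_combination this
  rw [e]
  apply Ideal.add_mem
  · exact Ideal.mul_mem_left _ _ h1
  · rw [pow_succ]
    exact Ideal.mul_mem_mul hgr hm

include hPprime in
/-- T-REL-4 (statement of `trel_residue` in helper44's skeleton, verbatim). -/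
theorem h25_trel_residue (hQ' : P ≠ ⊥) (τ : B →+* B) (hτ : ∀ x, τ x - x ∈ P) (x : B) (s : ℕ)
    (hx : 1 - x ∈ P) (hx2 : 1 - x ∉ P ^ 2) (hτx : τ x = x ^ s)
    (g ξ : B) (r : ℕ) (hg : τ g = ξ * g) (hgr : g ∈ P ^ r) (hgr' : g ∉ P ^ (r + 1)) :
    ξ - (s : B) ^ r ∈ P := by
  have hτP : ∀ y, y ∈ P → τ y ∈ P := by
    intro y hy
    have := Ideal.add_mem _ (hτ y) hy
    rwa [sub_add_cancel] at this
  set c : B := ∑ i ∈ Finset.range s, x ^ i with hc
  have hτlam : τ (1 - x) = c * (1 - x) := by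
    rw [map_sub, map_one, hτx, hc, mul_comm, mul_neg_geom_sum]
  have h1 := h25_residue_of_ambiguous P hQ' τ hτP hτ (1 - x) c hx hx2 hτlam g ξ hg r hgr hgr'
  -- `c ≡ s` modulo `P`
  have hxi : ∀ i : ℕ, x ^ i - 1 ∈ P := by
    intro i
    have h2 : x - 1 ∣ x ^ i - 1 := sub_one_dvd_pow_sub_one x i
    obtain ⟨d, hd⟩ := h2
    rw [hd]
    apply Ideal.mul_mem_right
    have := neg_mem hx
    rwa [neg_sub] at this
  have hcs : c - (s : B) ∈ P := by
    have e : c - (s : B) = ∑ i ∈ Finset.range s, (x ^ i - 1) := by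
      rw [Finset.sum_sub_distrib, hc]
      simp
    rw [e]
    exact Ideal.sum_mem _ (fun i _ => hxi i)
  have hcs' : c ^ r - (s : B) ^ r ∈ P := by
    obtain ⟨d, hd⟩ := sub_dvd_pow_sub_pow c (s : B) r
    rw [hd]
    exact Ideal.mul_mem_right _ _ hcs
  have e : ξ - (s : B) ^ r = (ξ - c ^ r) + (c ^ r - (s : B) ^ r) := by ring
  rw [e]
  exact Ideal.add_mem _ h1 hcs'

end Residue

end Fermat.Agent.S14
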