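import Mathlib

/-!
# S14, CORE-T, package UNITS (B2): the eigenspaces of the units of `ℚ(ζ_p)` modulo `p`-th powers

`K = ℚ(ζ_p)`, `σ` a generator of `Gal(K/ℚ)`.  If `u₁, u₂` are units with
`σ u_i = u_i ^ A * t_i ^ p` and `u₁` is not a root of unity times a `p`-th power, then
`u₂ = ε * u₁ ^ k * v ^ p` with `ε` a root of unity (`h25_unit_eigen_dim_le_one`).

Proof: `M = (𝓞 K)ˣ / torsion` is `ℤ`-free of rank `r = (p - 3) / 2`; a Minkowski unit `η`
(Mathlib `exists_unit` + strictly diagonally dominant circulant matrix) has `η, ση, …, σ^(r-1) η`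
independent and `∑_{i ≤ r} σ^i η = 0`, so the characteristic polynomial of `σ` on `M` is
`1 + X + ⋯ + X^r`; hence `|M / (σ - A) M| = |Φ(A)|`, which is divisible by `p` at most once for
a suitable `A` in its class modulo `p`.
-/

set_option linter.unusedSectionVars false
set_option linter.unusedVariables false

namespace Fermat.Agent.S14

open NumberField NumberField.InfinitePlace NumberField.Units Finset Polynomial

/-! ### Abstract algebra -/

/-- Two elements of order dividing `p` in a finite abelian group whose order is exactly divisible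
by `p` once: the second is a multiple of the first (if the first is non-zero). -/
theorem h25_mem_zmultiples_of_card {Q : Type*} [AddCommGroup Q] [Finite Q] (p : ℕ) (hp : p.Prime)
    (hcard : ¬ p ^ 2 ∣ Nat.card Q) (a b : Q) (ha : p • a = 0) (hb : p • b = 0) (ha0 : a ≠ 0) :
    ∃ k : ℤ, b = k • a := by
  classical
  set H : AddSubgroup Q := AddSubgroup.zmultiples a with hH
  have hHcard : Nat.card H = p := by
    rw [hH, Nat.card_zmultiples]
    have : Fact p.Prime := ⟨hp⟩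
    exact addOrderOf_eq_prime ha ha0
  have hmul : Nat.card Q = Nat.card (Q ⧸ H) * Nat.card H :=
    AddSubgroup.card_eq_card_quotient_mul_card_addSubgroup H
  have hnd : ¬ p ∣ Nat.card (Q ⧸ H) := by
    intro hd
    apply hcard
    rw [hmul, hHcard, pow_two]
    exact Nat.mul_dvd_mul hd dvd_rfl
  have hcop : Nat.Coprime p (Nat.card (Q ⧸ H)) := (Nat.Prime.coprime_iff_not_dvd hp).2 hnd
  have hb1 : p • (QuotientAddGroup.mk b : Q ⧸ H) = 0 := by
    rw [← QuotientAddGroup.mk_nsmul, hb]; rfl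
  have hb2 : Nat.card (Q ⧸ H) • (QuotientAddGroup.mk b : Q ⧸ H) = 0 := card_nsmul_eq_zero'
  have hb0 : (QuotientAddGroup.mk b : Q ⧸ H) = 0 := by
    have h1 : addOrderOf (QuotientAddGroup.mk b : Q ⧸ H) ∣ p := addOrderOf_dvd_of_nsmul_eq_zero hb1
    have h2 : addOrderOf (QuotientAddGroup.mk b : Q ⧸ H) ∣ Nat.card (Q ⧸ H) :=
      addOrderOf_dvd_of_nsmul_eq_zero hb2
    have h3 : addOrderOf (QuotientAddGroup.mk b : Q ⧸ H) = 1 :=
      Nat.eq_one_of_dvd_coprimes hcop h1 h2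
    exact AddMonoid.addOrderOf_eq_one_iff.1 h3
  have hbH : b ∈ H := (QuotientAddGroup.eq_zero_iff b).1 hb0
  obtain ⟨k, hk⟩ := AddSubgroup.mem_zmultiples_iff.1 hbH
  exact ⟨k, hk.symm⟩

/-- the characteristic polynomial of an endomorphism `g` of a free `ℤ`-module of rank `r` with a
"cyclic vector up to finite index" `η` satisfying `∑_{i ≤ r} g^i η = 0` is `1 + X + ... + X^r`. -/
theorem h25_charpoly_eq_of_cyclic
    {M : Type*} [AddCommGroup M] [Module.Free ℤ M] [Module.Finite ℤ M]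
    (g : M →ₗ[ℤ] M) (r : ℕ) (hr : Module.finrank ℤ M = r) (η : M)
    (hind : LinearIndependent ℤ (fun i : Fin r => (g ^ (i : ℕ)) η))
    (hsum : ∑ i ∈ Finset.range (r + 1), (g ^ i) η = 0) :
    g.charpoly = ∑ i ∈ Finset.range (r + 1), (X : ℤ[X]) ^ i := by
  classical
  set χ : ℤ[X] := g.charpoly with hχ
  have hχm : χ.Monic := g.charpoly_monic
  have hχd : χ.natDegree = r := by rw [hχ, LinearMap.charpoly_natDegree, hr]
  have hχη : (aeval g χ) η = 0 := by rw [hχ, LinearMap.aeval_self_charpoly]; rfl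
  have hχsum : (aeval g χ) η = ∑ i ∈ Finset.range (r + 1), χ.coeff i • (g ^ i) η := by
    rw [Polynomial.aeval_eq_sum_range, hχd]
    simp [LinearMap.sum_apply]
  have hχr : χ.coeff r = 1 := by rw [← hχd]; exact hχm.coeff_natDegree
  have h0 : ∑ i ∈ Finset.range r, (χ.coeff i - 1) • (g ^ i) η = 0 := by
    have h1 := hχsum
    rw [hχη, Finset.sum_range_succ, hχr, one_smul] at h1
    have h2 := hsum
    rw [Finset.sum_range_succ] at h2
    have h3 : ∑ i ∈ Finset.range r, (χ.coeff i - 1) • (g ^ i) η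
        = (∑ i ∈ Finset.range r, χ.coeff i • (g ^ i) η + (g ^ r) η)
          - (∑ i ∈ Finset.range r, (g ^ i) η + (g ^ r) η) := by
      simp only [sub_smul, one_smul, Finset.sum_sub_distrib]
      abel
    rw [h3, ← h1, h2, sub_zero]
  have h4 : ∀ i : Fin r, χ.coeff (i : ℕ) - 1 = 0 := by
    have h5 := Fintype.linearIndependent_iff.1 hind (fun i : Fin r => χ.coeff (i : ℕ) - 1)
    apply h5
    rw [← h0, Finset.sum_range]
  ext i
  rw [Polynomial.finsetSum_coeff]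
  simp only [Polynomial.coeff_X_pow]
  rcases lt_trichotomy i r with hi | hi | hi
  · have := h4 ⟨i, hi⟩
    simp only at this
    rw [Finset.sum_ite_eq, if_pos (Finset.mem_range.2 (by omega))]
    omega
  · rw [Finset.sum_ite_eq, if_pos (Finset.mem_range.2 (by omega)), hi, hχr]
  · rw [Finset.sum_ite_eq, if_neg (by simp; omega)]
    exact Polynomial.coeff_eq_zero_of_natDegree_lt (by omega)

theorem h25_eigen_mod_p_cyclic
    {M : Type*} [AddCommGroup M] [Module.Free ℤ M] [Module.Finite ℤ M]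
    (g : M →ₗ[ℤ] M) (r : ℕ) (hr : Module.finrank ℤ M = r) (η : M)
    (hind : LinearIndependent ℤ (fun i : Fin r => (g ^ (i : ℕ)) η))
    (hsum : ∑ i ∈ Finset.range (r + 1), (g ^ i) η = 0)
    (p : ℕ) (hp : p.Prime) (A : ℤ)
    (hA2 : ¬ (p : ℤ) ^ 2 ∣ ∑ i ∈ Finset.range (r + 1), A ^ i)
    (x y : M) (hx : ∃ z, g x - A • x = (p : ℤ) • z) (hy : ∃ z, g y - A • y = (p : ℤ) • z)
    (hx0 : ¬ ∃ z, x = (p : ℤ) • z) :
    ∃ (k : ℤ) (z : M), y = k • x + (p : ℤ) • z := by
  classical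
  have hχ := h25_charpoly_eq_of_cyclic g r hr η hind hsum
  set S : ℤ := ∑ i ∈ Finset.range (r + 1), A ^ i with hS
  set T : M →ₗ[ℤ] M := algebraMap ℤ (Module.End ℤ M) A - g with hT
  have hTapp : ∀ v, T v = A • v - g v := by
    intro v
    simp [hT]
  have hdet : LinearMap.det T = S := by
    rw [hT, ← LinearMap.eval_charpoly, hχ, hS, Polynomial.eval_finsetSum]
    simp
  have hS0 : S ≠ 0 := by
    intro h
    apply hA2
    rw [h]
    exact dvd_zero _
  have hTinj : Function.Injective T := by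
    rw [← LinearMap.ker_eq_bot]
    by_contra hker
    exact hS0 (hdet ▸ (LinearMap.det_eq_zero_iff_ker_ne_bot.2 hker))
  -- the quotient
  set N : Submodule ℤ M := LinearMap.range T with hN
  have hcard : Nat.card (M ⧸ N) = S.natAbs := by
    have h1 := Submodule.natAbs_det_equiv N (LinearEquiv.ofInjective T hTinj)
    rw [← h1, ← hdet]
    congr 2
  have hfin : Finite (M ⧸ N) := by
    apply Nat.finite_of_card_ne_zero
    rw [hcard]
    exact Int.natAbs_ne_zero.2 hS0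
  have hnd : ¬ p ^ 2 ∣ Nat.card (M ⧸ N) := by
    rw [hcard]
    intro h
    apply hA2
    have := Int.natCast_dvd_natCast.2 h
    rw [Int.natCast_natAbs] at this
    push_cast at this
    exact (dvd_abs _ _).1 this
  obtain ⟨zx, hzx⟩ := hx
  obtain ⟨zy, hzy⟩ := hy
  have hTx : T x = (p : ℤ) • (-zx) := by rw [hTapp, smul_neg, ← hzx]; abel
  have hTy : T y = (p : ℤ) • (-zy) := by rw [hTapp, smul_neg, ← hzy]; abel
  have ha : p • (Submodule.Quotient.mk (-zx) : M ⧸ N) = 0 := by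
    rw [← Submodule.Quotient.mk_smul, Submodule.Quotient.mk_eq_zero]
    exact ⟨x, by rw [hTx]; simp⟩
  have hb : p • (Submodule.Quotient.mk (-zy) : M ⧸ N) = 0 := by
    rw [← Submodule.Quotient.mk_smul, Submodule.Quotient.mk_eq_zero]
    exact ⟨y, by rw [hTy]; simp⟩
  have ha0 : (Submodule.Quotient.mk (-zx) : M ⧸ N) ≠ 0 := by
    intro h
    rw [Submodule.Quotient.mk_eq_zero] at h
    obtain ⟨w, hw⟩ := h
    apply hx0
    refine ⟨w, hTinj ?_⟩
    rw [hTx, map_smul, hw]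
  obtain ⟨k, hk⟩ := h25_mem_zmultiples_of_card p hp hnd _ _ ha hb ha0
  have hk' : (Submodule.Quotient.mk (-zy - k • (-zx)) : M ⧸ N) = 0 := by
    rw [Submodule.Quotient.mk_sub, Submodule.Quotient.mk_smul, hk, sub_self]
  rw [Submodule.Quotient.mk_eq_zero] at hk'
  obtain ⟨w, hw⟩ := hk'
  refine ⟨k, w, ?_⟩
  apply hTinj
  rw [map_add, map_smul, map_smul, hTx, hTy, hw]
  simp only [smul_sub, smul_neg, smul_comm k (p : ℤ)]
  abel

/-! ### A circulant matrix -/

theorem h25_sum_shift (r : ℕ) (F : ℕ → ℝ) (hper : ∀ n, F (n + (r + 1)) = F n)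
    (hsum : ∑ i ∈ range (r + 1), F i = 0) (m : ℕ) :
    ∑ i ∈ range (r + 1), F (m + i) = 0 := by
  induction m with
  | zero => simpa using hsum
  | succ m ih =>
    have h1 : ∑ i ∈ range (r + 1), F (m + 1 + i) = ∑ i ∈ range (r + 1), F (m + (i + 1)) := by
      apply Finset.sum_congr rfl
      intro i _
      congr 1
      omega
    rw [h1, Finset.sum_range_succ]
    have h2 := ih
    rw [Finset.sum_range_succ'] at h2
    have h3 : F (m + (r + 1)) = F (m + 0) := by rw [hper]; simp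
    linarith

theorem h25_circ_det_ne_zero (r : ℕ) (F : ℕ → ℝ) (hper : ∀ n, F (n + (r + 1)) = F n)
    (hneg : ∀ n, ¬ (r + 1) ∣ n → F n < 0) (hsum : ∑ i ∈ range (r + 1), F i = 0) :
    (Matrix.of fun (j i : Fin r) => F (r + 1 - (j : ℕ) + (i : ℕ))).det ≠ 0 := by
  classical
  apply det_ne_zero_of_sum_row_lt_diag
  intro j
  simp only [Matrix.of_apply]
  have hj : (j : ℕ) < r := j.2
  have hneg1 : ∀ i : Fin r, i ≠ j → F (r + 1 - (j : ℕ) + (i : ℕ)) < 0 := by
    intro i hij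
    apply hneg
    have hi : (i : ℕ) < r := i.2
    have hne : (i : ℕ) ≠ (j : ℕ) := fun h => hij (Fin.ext h)
    intro hd
    obtain ⟨c, hc⟩ := hd
    rcases Nat.lt_or_ge c 1 with h | h
    · have : c = 0 := by omega
      subst this
      omega
    · rcases Nat.lt_or_ge c 2 with h' | h'
      · have : c = 1 := by omega
        subst this
        omega
      · have := Nat.mul_le_mul_left (r + 1) h'
        omega
  have hneg2 : F (r + 1 - (j : ℕ) + r) < 0 := by
    apply hneg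
    intro hd
    obtain ⟨c, hc⟩ := hd
    rcases Nat.lt_or_ge c 2 with h | h
    · interval_cases c <;> omega
    · have := Nat.mul_le_mul_left (r + 1) h
      omega
  have hrow := h25_sum_shift r F hper hsum (r + 1 - (j : ℕ))
  rw [Finset.sum_range_succ, Finset.sum_range fun i => F (r + 1 - (j : ℕ) + i),
    ← Finset.add_sum_erase Finset.univ _ (Finset.mem_univ j)] at hrow
  have habs : ∑ i ∈ Finset.univ.erase j, ‖F (r + 1 - (j : ℕ) + (i : ℕ))‖
      = - ∑ i ∈ Finset.univ.erase j, F (r + 1 - (j : ℕ) + (i : ℕ)) := by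
    rw [← Finset.sum_neg_distrib]
    apply Finset.sum_congr rfl
    intro i hi
    rw [Real.norm_eq_abs, abs_of_neg (hneg1 i (Finset.ne_of_mem_erase hi))]
  have hle : ∑ i ∈ Finset.univ.erase j, F (r + 1 - (j : ℕ) + (i : ℕ)) ≤ 0 := by
    apply Finset.sum_nonpos
    intro i hi
    exact (hneg1 i (Finset.ne_of_mem_erase hi)).le
  have hpos : 0 < F (r + 1 - (j : ℕ) + (j : ℕ)) := by linarith
  rw [habs, Real.norm_eq_abs, abs_of_pos hpos]
  linarith

/-! ### Infinite places of `ℚ(ζ_p)` and the Galois group -/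

section NF

variable {p : ℕ} [Fact p.Prime] {K : Type*} [Field K] [NumberField K]
  [IsCyclotomicExtension {p} ℚ K]

/-- two ring homs `K →+* ℂ` that agree on `ζ` are equal -/
theorem h25_ringHom_ext {ζ : K} (hζ : IsPrimitiveRoot ζ p) (f₁ f₂ : K →+* ℂ)
    (h : f₁ ζ = f₂ ζ) : f₁ = f₂ := by
  have htop := IsCyclotomicExtension.adjoin_primitive_root_eq_top (A := ℚ) (B := K) hζ
  ext x
  have hx : x ∈ Algebra.adjoin ℚ ({ζ} : Set K) := by rw [htop]; trivial
  induction hx using Algebra.adjoin_induction with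
  | mem y hy => rw [Set.mem_singleton_iff.1 hy]; exact h
  | algebraMap q => simp
  | add y z _ _ hy hz => rw [map_add, map_add, hy, hz]
  | mul y z _ _ hy hz => rw [map_mul, map_mul, hy, hz]

theorem h25_conj_root {ζ : K} (hζ : IsPrimitiveRoot ζ p) (φ : K →+* ℂ) (k : ℕ) :
    (starRingEnd ℂ) (φ (ζ ^ k)) = (φ (ζ ^ k))⁻¹ := by
  have hn : ‖φ (ζ ^ k)‖ = 1 := by
    rw [map_pow, norm_pow, (hζ.map_of_injective φ.injective).norm'_eq_one (NeZero.ne p), one_pow]
  rw [Complex.inv_def, Complex.normSq_eq_norm_sq, hn]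
  simp

theorem h25_place_conj {ζ : K} (hζ : IsPrimitiveRoot ζ p) (τ : K ≃ₐ[ℚ] K) (hτ : τ ζ = ζ⁻¹)
    (w : InfinitePlace K) (x : K) : w (τ x) = w x := by
  rw [← mk_embedding w, InfinitePlace.apply, InfinitePlace.apply]
  set φ := w.embedding
  have h1 : φ.comp (τ : K →+* K) = (starRingEnd ℂ).comp φ := by
    apply h25_ringHom_ext hζ
    simp only [RingHom.comp_apply]
    have := h25_conj_root hζ φ 1
    rw [pow_one] at this
    rw [this, RingHom.coe_coe, hτ, map_inv₀]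
  have h2 : φ (τ x) = (starRingEnd ℂ) (φ x) := DFunLike.congr_fun h1 x
  rw [h2, RCLike.norm_conj]

theorem h25_pow_apply_root {ζ : K} (σ : K ≃ₐ[ℚ] K) (γ : ℕ) (hσ : σ ζ = ζ ^ γ) (k : ℕ) :
    (σ ^ k) ζ = ζ ^ (γ ^ k) := by
  induction k with
  | zero => simp
  | succ k ih => rw [pow_succ', AlgEquiv.mul_apply, ih, map_pow, hσ, ← pow_mul, pow_succ']

theorem h25_root_pow_eq_iff {ζ : K} (hζ : IsPrimitiveRoot ζ p) (a b : ℕ) :
    ζ ^ a = ζ ^ b ↔ (a : ZMod p) = (b : ZMod p) := by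
  have hpos : 0 < p := (Fact.out : p.Prime).pos
  rw [ZMod.natCast_eq_natCast_iff']
  constructor
  · intro h
    apply hζ.pow_inj (Nat.mod_lt _ hpos) (Nat.mod_lt _ hpos)
    rw [hζ.eq_orderOf, pow_mod_orderOf, pow_mod_orderOf]
    exact h
  · intro h
    rw [← pow_mod_orderOf ζ a, ← pow_mod_orderOf ζ b, ← hζ.eq_orderOf, h]

theorem h25_gamma_pow_half (γ : ℕ) (hγ : orderOf (γ : ZMod p) = p - 1) (r : ℕ)
    (hpr : p = 2 * r + 3) : (γ : ZMod p) ^ (r + 1) = -1 := by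
  have h1 : ((γ : ZMod p) ^ (r + 1)) * ((γ : ZMod p) ^ (r + 1)) = 1 := by
    rw [← pow_add]
    have : r + 1 + (r + 1) = orderOf (γ : ZMod p) := by rw [hγ]; omega
    rw [this, pow_orderOf_eq_one]
  have h2 : (γ : ZMod p) ^ (r + 1) ≠ 1 := by
    apply pow_ne_one_of_lt_orderOf (by omega)
    rw [hγ]; omega
  rcases mul_self_eq_one_iff.1 h1 with h | h
  · exact absurd h h2
  · exact h

theorem h25_sigma_half {ζ : K} (hζ : IsPrimitiveRoot ζ p) (σ : K ≃ₐ[ℚ] K) (γ : ℕ)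
    (hσ : σ ζ = ζ ^ γ) (hγ : orderOf (γ : ZMod p) = p - 1) (r : ℕ) (hpr : p = 2 * r + 3) :
    (σ ^ (r + 1)) ζ = ζ⁻¹ := by
  rw [h25_pow_apply_root σ γ hσ]
  apply eq_inv_of_mul_eq_one_left
  rw [← pow_succ, hζ.pow_eq_one_iff_dvd, ← ZMod.natCast_eq_zero_iff]
  push_cast
  rw [h25_gamma_pow_half γ hγ r hpr]
  ring

theorem h25_place_periodic {ζ : K} (hζ : IsPrimitiveRoot ζ p) (σ : K ≃ₐ[ℚ] K) (γ : ℕ)
    (hσ : σ ζ = ζ ^ γ) (hγ : orderOf (γ : ZMod p) = p - 1) (r : ℕ) (hpr : p = 2 * r + 3)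
    (w : InfinitePlace K) (n : ℕ) (x : K) :
    w ((σ ^ (n + (r + 1))) x) = w ((σ ^ n) x) := by
  rw [add_comm, pow_add, AlgEquiv.mul_apply]
  exact h25_place_conj hζ _ (h25_sigma_half hζ σ γ hσ hγ r hpr) w _

theorem h25_comap_ne {ζ : K} (hζ : IsPrimitiveRoot ζ p) (σ : K ≃ₐ[ℚ] K) (γ : ℕ)
    (hσ : σ ζ = ζ ^ γ) (hγ : orderOf (γ : ZMod p) = p - 1) (r : ℕ) (hpr : p = 2 * r + 3)
    (w₀ : InfinitePlace K) (k : ℕ) (hk0 : 0 < k) (hkr : k ≤ r) :
    w₀.comap ((σ ^ k : K ≃ₐ[ℚ] K) : K →+* K) ≠ w₀ := by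
  intro h
  rw [← mk_embedding w₀, comap_mk, mk_eq_iff] at h
  set φ := w₀.embedding
  rcases h with h | h
  · have h1 : φ ((σ ^ k) ζ) = φ ζ := DFunLike.congr_fun h ζ
    have h2 := φ.injective h1
    rw [h25_pow_apply_root σ γ hσ] at h2
    nth_rewrite 2 [← pow_one ζ] at h2
    rw [h25_root_pow_eq_iff hζ] at h2
    push_cast at h2
    have h3 := orderOf_dvd_of_pow_eq_one h2
    rw [hγ] at h3
    have := Nat.le_of_dvd hk0 h3
    omega
  · have h1 : (starRingEnd ℂ) (φ ((σ ^ k) ζ)) = φ ζ := DFunLike.congr_fun h ζ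
    rw [h25_pow_apply_root σ γ hσ, h25_conj_root hζ φ] at h1
    have h2 : φ (ζ ^ (γ ^ k + 1)) = φ (ζ ^ 0) := by
      rw [pow_succ, map_mul, ← h1, pow_zero, map_one]
      apply mul_inv_cancel₀
      rw [_root_.map_ne_zero]
      exact pow_ne_zero _ (hζ.ne_zero (NeZero.ne p))
    have h3 := φ.injective h2
    rw [h25_root_pow_eq_iff hζ] at h3
    push_cast at h3
    have h4 : (γ : ZMod p) ^ k = -1 := eq_neg_of_add_eq_zero_left h3
    have h5 : (γ : ZMod p) ^ (2 * k) = 1 := by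
      rw [mul_comm, pow_mul, h4]; ring
    have h6 := orderOf_dvd_of_pow_eq_one h5
    rw [hγ] at h6
    have := Nat.le_of_dvd (by omega) h6
    omega

theorem h25_card_places (r : ℕ) (hpr : p = 2 * r + 3) :
    Fintype.card (InfinitePlace K) = r + 1 := by
  have h2 : 2 < p := by omega
  have h1 := IsCyclotomicExtension.Rat.nrRealPlaces_eq_zero K (n := p) h2
  have h3 := IsCyclotomicExtension.Rat.nrComplexPlaces_eq_totient_div_two p K
  rw [card_eq_nrRealPlaces_add_nrComplexPlaces, h1, h3, Nat.totient_prime Fact.out]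
  omega

theorem h25_comap_ne_of_not_dvd {ζ : K} (hζ : IsPrimitiveRoot ζ p) (σ : K ≃ₐ[ℚ] K) (γ : ℕ)
    (hσ : σ ζ = ζ ^ γ) (hγ : orderOf (γ : ZMod p) = p - 1) (r : ℕ) (hpr : p = 2 * r + 3)
    (w₀ : InfinitePlace K) (n : ℕ) (hn : ¬ (r + 1) ∣ n) :
    w₀.comap ((σ ^ n : K ≃ₐ[ℚ] K) : K →+* K) ≠ w₀ := by
  have hper : Function.Periodic
      (fun n : ℕ => w₀.comap ((σ ^ n : K ≃ₐ[ℚ] K) : K →+* K)) (r + 1) := by
    intro n
    apply DFunLike.ext
    intro x
    simp only [comap_apply]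
    exact h25_place_periodic hζ σ γ hσ hγ r hpr w₀ n x
  have h1 : w₀.comap ((σ ^ (n % (r + 1)) : K ≃ₐ[ℚ] K) : K →+* K)
      = w₀.comap ((σ ^ n : K ≃ₐ[ℚ] K) : K →+* K) := hper.map_mod_nat n
  rw [← h1]
  apply h25_comap_ne hζ σ γ hσ hγ r hpr w₀
  · exact Nat.pos_of_ne_zero (fun h => hn (Nat.dvd_of_mod_eq_zero h))
  · have : n % (r + 1) < r + 1 := Nat.mod_lt n (by omega)
    omega

theorem h25_W_bij {ζ : K} (hζ : IsPrimitiveRoot ζ p) (σ : K ≃ₐ[ℚ] K) (γ : ℕ)
    (hσ : σ ζ = ζ ^ γ) (hγ : orderOf (γ : ZMod p) = p - 1) (r : ℕ) (hpr : p = 2 * r + 3)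
    (w₀ : InfinitePlace K) :
    Function.Bijective
      (fun i : Fin (r + 1) => w₀.comap ((σ ^ (i : ℕ) : K ≃ₐ[ℚ] K) : K →+* K)) := by
  have key : ∀ i j : ℕ, i < j → j ≤ r →
      w₀.comap ((σ ^ i : K ≃ₐ[ℚ] K) : K →+* K) ≠ w₀.comap ((σ ^ j : K ≃ₐ[ℚ] K) : K →+* K) := by
    intro i j hij hjr h
    apply h25_comap_ne hζ σ γ hσ hγ r hpr w₀ (j - i) (by omega) (by omega)
    apply DFunLike.ext
    intro x
    have h1 := DFunLike.congr_fun h ((σ ^ i).symm x)
    simp only [comap_apply] at h1 ⊢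
    have h2 : (σ ^ j) ((σ ^ i).symm x) = (σ ^ (j - i)) x := by
      have : σ ^ j = σ ^ (j - i) * σ ^ i := by rw [← pow_add]; congr 1; omega
      rw [this, AlgEquiv.mul_apply]
      simp
    have h3 : (σ ^ i) ((σ ^ i).symm x) = x := by simp
    have h1' : w₀ ((σ ^ i) ((σ ^ i).symm x)) = w₀ ((σ ^ j) ((σ ^ i).symm x)) := h1
    rw [h2, h3] at h1'
    exact h1'.symm
  rw [Fintype.bijective_iff_injective_and_card]
  refine ⟨?_, ?_⟩
  · intro i j h
    simp only at h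
    by_contra hne
    rcases lt_or_gt_of_ne (fun h' => hne (Fin.ext h')) with hlt | hlt
    · exact key i j hlt (by have := j.2; omega) h
    · exact key j i hlt (by have := i.2; omega) h.symm
  · rw [Fintype.card_fin, h25_card_places r hpr]

end NF

/-! ### Units modulo torsion -/

section Units

variable (K : Type*) [Field K] [NumberField K]

/-- units modulo torsion, written additively -/
def h25_M : Type _ := Additive ((𝓞 K)ˣ ⧸ torsion K)

noncomputable instance h25_M_addCommGroup : AddCommGroup (h25_M K) :=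
  inferInstanceAs (AddCommGroup (Additive ((𝓞 K)ˣ ⧸ torsion K)))

instance h25_M_free : Module.Free ℤ (h25_M K) :=
  NumberField.Units.instFreeIntAdditiveQuotientUnitsRingOfIntegersSubgroupTorsion K

instance h25_M_finite : Module.Finite ℤ (h25_M K) :=
  NumberField.Units.instFiniteIntAdditiveQuotientUnitsRingOfIntegersSubgroupTorsion K

theorem h25_M_finrank : Module.finrank ℤ (h25_M K) = rank K := finrank_modTorsion K

/-- the class of a unit -/
def h25_cls (u : (𝓞 K)ˣ) : h25_M K := Additive.ofMul (QuotientGroup.mk u)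

variable {K}

theorem h25_cls_mul (u v : (𝓞 K)ˣ) : h25_cls K (u * v) = h25_cls K u + h25_cls K v := rfl

theorem h25_cls_one : h25_cls K 1 = 0 := rfl

theorem h25_cls_zpow (u : (𝓞 K)ˣ) (k : ℤ) : h25_cls K (u ^ k) = k • h25_cls K u := rfl

theorem h25_cls_pow (u : (𝓞 K)ˣ) (k : ℕ) : h25_cls K (u ^ k) = k • h25_cls K u := rfl

theorem h25_cls_eq_zero_iff (u : (𝓞 K)ˣ) : h25_cls K u = 0 ↔ u ∈ torsion K := by
  unfold h25_cls
  rw [← QuotientGroup.eq_one_iff]
  rfl

theorem h25_cls_surjective : Function.Surjective (h25_cls K) := by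
  intro x
  obtain ⟨u, hu⟩ := QuotientGroup.mk_surjective (Additive.toMul x : (𝓞 K)ˣ ⧸ torsion K)
  exact ⟨u, by unfold h25_cls; rw [hu]; rfl⟩

theorem h25_cls_prod {ι : Type*} (s : Finset ι) (f : ι → (𝓞 K)ˣ) :
    h25_cls K (∏ i ∈ s, f i) = ∑ i ∈ s, h25_cls K (f i) := by
  classical
  induction s using Finset.induction_on with
  | empty => simp [h25_cls_one]
  | insert a s ha ih => rw [Finset.prod_insert ha, Finset.sum_insert ha, h25_cls_mul, ih]

/-- the action of a Galois automorphism on the units of the ring of integers -/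
noncomputable def h25_unitMap (τ : K ≃ₐ[ℚ] K) : (𝓞 K)ˣ ≃* (𝓞 K)ˣ :=
  Units.mapEquiv (RingOfIntegers.mapRingEquiv (τ : K ≃+* K)).toMulEquiv

theorem h25_unitMap_coe (τ : K ≃ₐ[ℚ] K) (u : (𝓞 K)ˣ) :
    ((h25_unitMap τ u : (𝓞 K)ˣ) : K) = τ (u : K) := rfl

theorem h25_unitMap_one (u : (𝓞 K)ˣ) : h25_unitMap (1 : K ≃ₐ[ℚ] K) u = u := by
  apply Units.ext
  apply RingOfIntegers.ext
  rfl

theorem h25_unitMap_mul (τ₁ τ₂ : K ≃ₐ[ℚ] K) (u : (𝓞 K)ˣ) :
    h25_unitMap (τ₁ * τ₂) u = h25_unitMap τ₁ (h25_unitMap τ₂ u) := by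
  apply Units.ext
  apply RingOfIntegers.ext
  rfl

theorem h25_unitMap_torsion (τ : K ≃ₐ[ℚ] K) :
    torsion K ≤ (torsion K).comap (h25_unitMap τ).toMonoidHom := by
  intro u hu
  rw [Subgroup.mem_comap]
  rw [torsion, CommGroup.mem_torsion] at hu ⊢
  exact (h25_unitMap τ).toMonoidHom.isOfFinOrder hu

/-- the induced map on units modulo torsion, written additively -/
noncomputable def h25_modTorsionMap (τ : K ≃ₐ[ℚ] K) : h25_M K →ₗ[ℤ] h25_M K :=
  AddMonoidHom.toIntLinearMap (show h25_M K →+ h25_M K from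
    MonoidHom.toAdditive (QuotientGroup.map (torsion K) (torsion K)
      (h25_unitMap τ).toMonoidHom (h25_unitMap_torsion τ)))

theorem h25_modTorsionMap_cls (τ : K ≃ₐ[ℚ] K) (u : (𝓞 K)ˣ) :
    h25_modTorsionMap τ (h25_cls K u) = h25_cls K (h25_unitMap τ u) := rfl

theorem h25_modTorsionMap_pow_cls (σ : K ≃ₐ[ℚ] K) (i : ℕ) (u : (𝓞 K)ˣ) :
    ((h25_modTorsionMap σ) ^ i) (h25_cls K u) = h25_cls K (h25_unitMap (σ ^ i) u) := by
  induction i with
  | zero => simp [h25_unitMap_one]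
  | succ i ih =>
    rw [pow_succ', Module.End.mul_apply, ih, h25_modTorsionMap_cls, pow_succ', h25_unitMap_mul]

/-- `log` of the absolute value at an infinite place, as a homomorphism on units -/
noncomputable def h25_logHom (w : InfinitePlace K) : (𝓞 K)ˣ →* Multiplicative ℝ where
  toFun u := Multiplicative.ofAdd (Real.log (w (u : K)))
  map_one' := by simp
  map_mul' u v := by
    rw [← ofAdd_add, ← Real.log_mul (pos_at_place u w).ne' (pos_at_place v w).ne']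
    simp

theorem h25_logHom_apply (w : InfinitePlace K) (u : (𝓞 K)ˣ) :
    Multiplicative.toAdd (h25_logHom w u) = Real.log (w (u : K)) := rfl

theorem h25_logHom_torsion (w : InfinitePlace K) (u : (𝓞 K)ˣ)
    (hu : u ∈ torsion K) : h25_logHom w u = 1 := by
  have h1 := (mem_torsion K).1 hu w
  apply Multiplicative.toAdd.injective
  rw [h25_logHom_apply, h1]
  simp

theorem h25_mem_torsion_of_logHom (u : (𝓞 K)ˣ)
    (h : ∀ w : InfinitePlace K, Multiplicative.toAdd (h25_logHom w u) = 0) : u ∈ torsion K := by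
  rw [mem_torsion]
  intro w
  have h1 := h w
  rw [h25_logHom_apply] at h1
  exact Real.eq_one_of_pos_of_log_eq_zero (pos_at_place u w) h1

end Units

/-! ### A Minkowski unit -/

section Minkowski

variable {p : ℕ} [Fact p.Prime] {K : Type*} [Field K] [NumberField K]
  [IsCyclotomicExtension {p} ℚ K]

theorem h25_exists_minkowski {ζ : K} (hζ : IsPrimitiveRoot ζ p) (σ : K ≃ₐ[ℚ] K) (γ : ℕ)
    (hσ : σ ζ = ζ ^ γ) (hγ : orderOf (γ : ZMod p) = p - 1) (r : ℕ) (hpr : p = 2 * r + 3) :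
    ∃ η : (𝓞 K)ˣ,
      LinearIndependent ℤ (fun i : Fin r => ((h25_modTorsionMap σ) ^ (i : ℕ)) (h25_cls K η)) ∧
      ∑ i ∈ Finset.range (r + 1), ((h25_modTorsionMap σ) ^ i) (h25_cls K η) = 0 := by
  classical
  obtain ⟨w₀⟩ := (inferInstance : Nonempty (InfinitePlace K))
  obtain ⟨η, hη⟩ := NumberField.Units.dirichletUnitTheorem.exists_unit K w₀
  set F : ℕ → ℝ := fun n => Real.log (w₀ ((σ ^ n) (η : K))) with hF
  have hbij := h25_W_bij hζ σ γ hσ hγ r hpr w₀
  have hper : ∀ n, F (n + (r + 1)) = F n := by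
    intro n
    simp only [hF]
    rw [h25_place_periodic hζ σ γ hσ hγ r hpr w₀ n]
  have hneg : ∀ n, ¬ (r + 1) ∣ n → F n < 0 := by
    intro n hn
    exact hη _ (h25_comap_ne_of_not_dvd hζ σ γ hσ hγ r hpr w₀ n hn)
  have hsum : ∑ i ∈ range (r + 1), F i = 0 := by
    have h1 := sum_mult_mul_log η
    have hTC : IsTotallyComplex K :=
      IsCyclotomicExtension.Rat.isTotallyComplex K (n := p) (by omega)
    have h2 : ∑ w : InfinitePlace K, Real.log (w (η : K)) = 0 := by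
      have h3 : ∑ w : InfinitePlace K, (w.mult : ℝ) * Real.log (w (η : K))
          = 2 * ∑ w : InfinitePlace K, Real.log (w (η : K)) := by
        rw [Finset.mul_sum]
        apply Finset.sum_congr rfl
        intro w _
        rw [IsTotallyComplex.mult_eq]
        norm_num
      linarith
    rw [Finset.sum_range, ← h2]
    exact Function.Bijective.sum_comp hbij (fun w => Real.log (w (η : K)))
  have hdet := h25_circ_det_ne_zero r F hper hneg hsum
  have hlog : ∀ (m i : ℕ), Multiplicative.toAdd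
      (h25_logHom (w₀.comap ((σ ^ m : K ≃ₐ[ℚ] K) : K →+* K)) (h25_unitMap (σ ^ i) η))
        = F (m + i) := by
    intro m i
    rw [h25_logHom_apply]
    simp only [hF]
    rw [pow_add, AlgEquiv.mul_apply]
    rfl
  refine ⟨η, ?_, ?_⟩
  · rw [Fintype.linearIndependent_iff]
    intro c hc
    set v : (𝓞 K)ˣ := ∏ i : Fin r, (h25_unitMap (σ ^ (i : ℕ)) η) ^ (c i) with hv
    have hv0 : h25_cls K v = 0 := by
      rw [hv, h25_cls_prod, ← hc]
      apply Finset.sum_congr rfl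
      intro i _
      rw [h25_cls_zpow, h25_modTorsionMap_pow_cls]
    have hvt : v ∈ torsion K := (h25_cls_eq_zero_iff v).1 hv0
    have hmul : (Matrix.of fun (j i : Fin r) => F (r + 1 - (j : ℕ) + (i : ℕ))).mulVec
        (fun i => (c i : ℝ)) = 0 := by
      ext j
      simp only [Matrix.mulVec, dotProduct, Matrix.of_apply, Pi.zero_apply]
      have h1 := h25_logHom_torsion
        (w₀.comap ((σ ^ (r + 1 - (j : ℕ)) : K ≃ₐ[ℚ] K) : K →+* K)) v hvt
      have h2 : Multiplicative.toAdd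
          (h25_logHom (w₀.comap ((σ ^ (r + 1 - (j : ℕ)) : K ≃ₐ[ℚ] K) : K →+* K)) v)
            = ∑ i : Fin r, F (r + 1 - (j : ℕ) + (i : ℕ)) * (c i : ℝ) := by
        rw [hv, map_prod, toAdd_prod]
        apply Finset.sum_congr rfl
        intro i _
        rw [map_zpow, toAdd_zpow, hlog, zsmul_eq_mul, mul_comm]
      rw [h1] at h2
      rw [← h2]
      rfl
    have hc0 := Matrix.eq_zero_of_mulVec_eq_zero hdet hmul
    intro i
    have h3 := congrFun hc0 i
    simp only [Pi.zero_apply] at h3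
    exact_mod_cast h3
  · have h1 : ∑ i ∈ range (r + 1), ((h25_modTorsionMap σ) ^ i) (h25_cls K η)
        = h25_cls K (∏ i ∈ range (r + 1), h25_unitMap (σ ^ i) η) := by
      rw [h25_cls_prod]
      apply Finset.sum_congr rfl
      intro i _
      rw [h25_modTorsionMap_pow_cls]
    rw [h1, h25_cls_eq_zero_iff]
    apply h25_mem_torsion_of_logHom
    intro w
    obtain ⟨j, rfl⟩ := hbij.2 w
    rw [map_prod, toAdd_prod]
    have h2 : ∀ i ∈ range (r + 1), Multiplicative.toAdd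
        (h25_logHom (w₀.comap ((σ ^ (j : ℕ) : K ≃ₐ[ℚ] K) : K →+* K)) (h25_unitMap (σ ^ i) η))
          = F ((j : ℕ) + i) := fun i _ => hlog j i
    rw [Finset.sum_congr rfl h2]
    exact h25_sum_shift r F hper hsum j

end Minkowski

/-! ### Choice of the lift `A₀` -/

theorem h25_binom_mod_sq (A P : ℤ) (n : ℕ) :
    P ^ 2 ∣ (A + P) ^ (n + 1) - A ^ (n + 1) - (n + 1) * P * A ^ n := by
  induction n with
  | zero => simp
  | succ n ih =>
    obtain ⟨c, hc⟩ := ih
    refine ⟨(A + P) * c + (n + 1) * A ^ n, ?_⟩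
    have h1 : (A + P) ^ (n + 1 + 1) = (A + P) * (A + P) ^ (n + 1) := by ring
    have h2 : (A + P) ^ (n + 1) = P ^ 2 * c + A ^ (n + 1) + (n + 1) * P * A ^ n := by linarith
    rw [h1, h2]
    push_cast
    ring

theorem h25_exists_lift (p r : ℕ) (hp : p.Prime) (hpr : p = 2 * r + 3) (A : ℤ) :
    ∃ m : ℤ, ¬ (p : ℤ) ^ 2 ∣ ∑ i ∈ range (r + 1), (A + p * m) ^ i := by
  by_cases h0 : (p : ℤ) ^ 2 ∣ ∑ i ∈ range (r + 1), A ^ i
  · refine ⟨1, ?_⟩
    rw [mul_one]
    intro h1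
    have hpZ : Prime (p : ℤ) := Nat.prime_iff_prime_int.1 hp
    -- p² ∣ A^(r+1) - 1 and p² ∣ (A+p)^(r+1) - 1
    have e0 : (p : ℤ) ^ 2 ∣ A ^ (r + 1) - 1 := by
      rw [← mul_geom_sum]
      exact Dvd.dvd.mul_left h0 _
    have e1 : (p : ℤ) ^ 2 ∣ (A + p) ^ (r + 1) - 1 := by
      rw [← mul_geom_sum]
      exact Dvd.dvd.mul_left h1 _
    have e2 := h25_binom_mod_sq A (p : ℤ) r
    have e3 : (p : ℤ) ^ 2 ∣ ((r : ℤ) + 1) * p * A ^ r := by
      have : ((r : ℤ) + 1) * p * A ^ r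
          = ((A + p) ^ (r + 1) - 1) - (A ^ (r + 1) - 1)
            - ((A + p) ^ (r + 1) - A ^ (r + 1) - (r + 1) * p * A ^ r) := by ring
      rw [this]
      exact dvd_sub (dvd_sub e1 e0) e2
    have e4 : (p : ℤ) ∣ ((r : ℤ) + 1) * A ^ r := by
      have hp0 : (p : ℤ) ≠ 0 := hpZ.ne_zero
      have : (p : ℤ) * p ∣ p * (((r : ℤ) + 1) * A ^ r) := by
        have h : (p : ℤ) * (((r : ℤ) + 1) * A ^ r) = ((r : ℤ) + 1) * p * A ^ r := by ring
        rw [h, ← pow_two]
        exact e3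
      exact (mul_dvd_mul_iff_left hp0).1 this
    rcases hpZ.dvd_or_dvd e4 with h | h
    · have h' : (p : ℤ) ∣ ((r + 1 : ℕ) : ℤ) := by push_cast; exact h
      have := Nat.le_of_dvd (Nat.succ_pos r) (Int.natCast_dvd_natCast.1 h')
      omega
    · have hA : (p : ℤ) ∣ A := hpZ.dvd_of_dvd_pow h
      have h2 : (p : ℤ) ∣ ∑ i ∈ range (r + 1), A ^ i := dvd_trans (dvd_pow_self _ (by norm_num)) h0
      rw [Finset.sum_range_succ', pow_zero] at h2
      have h3 : (p : ℤ) ∣ ∑ i ∈ range r, A ^ (i + 1) := by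
        apply Finset.dvd_sum
        intro i _
        exact dvd_trans hA (dvd_pow_self _ (by omega))
      have h4 : (p : ℤ) ∣ 1 := (dvd_add_right h3).1 h2
      exact hpZ.not_dvd_one h4
  · exact ⟨0, by simpa using h0⟩

/-! ### The main statement -/

section Final

variable {K : Type*} [Field K] [NumberField K]

theorem h25_cls_inv (u : (𝓞 K)ˣ) : h25_cls K u⁻¹ = - h25_cls K u := rfl

theorem h25_cls_pow' (u : (𝓞 K)ˣ) (k : ℕ) : h25_cls K (u ^ k) = (k : ℤ) • h25_cls K u := by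
  rw [h25_cls_pow, natCast_zsmul]

/-- the coercion `(𝓞 K)ˣ → K` as a monoid homomorphism -/
noncomputable def h25_coeHom : (𝓞 K)ˣ →* K :=
  ((algebraMap (𝓞 K) K : 𝓞 K →+* K) : 𝓞 K →* K).comp (Units.coeHom (𝓞 K))

theorem h25_coeHom_apply (u : (𝓞 K)ˣ) : h25_coeHom u = (u : K) := rfl

/-- an `n`-th root in `K` of a unit is a unit -/
theorem h25_unit_of_pow_eq (n : ℕ) (hn : 0 < n) (c : (𝓞 K)ˣ) (t : K) (ht : t ^ n = (c : K)) :
    ∃ t' : (𝓞 K)ˣ, (t' : K) = t := by
  have hint : IsIntegral ℤ t := by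
    apply IsIntegral.of_pow hn
    rw [ht]
    exact (c : 𝓞 K).isIntegral_coe
  set T : 𝓞 K := ⟨t, hint⟩ with hT
  have hTn : T ^ n = (c : 𝓞 K) := by
    apply RingOfIntegers.ext
    show algebraMap (𝓞 K) K (T ^ n) = algebraMap (𝓞 K) K (c : 𝓞 K)
    rw [map_pow, ← ht]
    rfl
  have hu : IsUnit T := by
    have : IsUnit (T ^ n) := by rw [hTn]; exact c.isUnit
    exact (isUnit_pow_iff hn.ne').1 this
  exact ⟨hu.unit, rfl⟩

theorem h25_cls_eigen (σ : K ≃ₐ[ℚ] K) (A : ℕ) (n : ℕ) (hn : 0 < n) (u : (𝓞 K)ˣ)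
    (h : ∃ t : K, σ (u : K) = (u : K) ^ A * t ^ n) :
    ∃ z : h25_M K,
      h25_modTorsionMap σ (h25_cls K u) - (A : ℤ) • h25_cls K u = (n : ℤ) • z := by
  obtain ⟨t, ht⟩ := h
  set c : (𝓞 K)ˣ := h25_unitMap σ u * (u ^ A)⁻¹ with hc
  have e1 : c * u ^ A = h25_unitMap σ u := by rw [hc, inv_mul_cancel_right]
  have e2 : (c : K) * (u : K) ^ A = σ (u : K) := by
    have h1 := congrArg h25_coeHom e1
    rw [map_mul, map_pow, h25_coeHom_apply, h25_coeHom_apply, h25_coeHom_apply,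
      h25_unitMap_coe] at h1
    exact h1
  have hu0 : (u : K) ^ A ≠ 0 := pow_ne_zero _ (coe_ne_zero u)
  have hc' : t ^ n = (c : K) := by
    apply mul_right_cancel₀ hu0
    rw [e2, ht, mul_comm]
  obtain ⟨t', ht'⟩ := h25_unit_of_pow_eq n hn c t hc'
  refine ⟨h25_cls K t', ?_⟩
  have h1 : h25_unitMap σ u = u ^ A * t' ^ n := by
    rw [← e1, mul_comm]
    congr 1
    apply Units.ext
    apply RingOfIntegers.ext
    show algebraMap (𝓞 K) K (c : 𝓞 K) = h25_coeHom (t' ^ n)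
    rw [map_pow, h25_coeHom_apply, ht', hc']
  rw [h25_modTorsionMap_cls, h1, h25_cls_mul, h25_cls_pow', h25_cls_pow']
  abel

variable {p : ℕ} [Fact p.Prime] [IsCyclotomicExtension {p} ℚ K]

/-- **UNITS (B2)**: the eigenspaces of a generator `σ` of `Gal(ℚ(ζ_p)/ℚ)` on the units modulo
`p`-th powers and roots of unity have dimension at most one. -/
theorem h25_unit_eigen_dim_le_one (hp5 : 5 ≤ p) {ζ : K} (hζ : IsPrimitiveRoot ζ p)
    (σ : K ≃ₐ[ℚ] K) (γ : ℕ) (hσ : σ ζ = ζ ^ γ) (hγ : orderOf (γ : ZMod p) = p - 1)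
    (A : ℕ) (u₁ u₂ : (𝓞 K)ˣ)
    (h₁ : ∃ t : K, σ (u₁ : K) = (u₁ : K) ^ A * t ^ p)
    (h₂ : ∃ t : K, σ (u₂ : K) = (u₂ : K) ^ A * t ^ p)
    (hu₁ : ¬ ∃ ε v : (𝓞 K)ˣ, ε ∈ torsion K ∧ u₁ = ε * v ^ p) :
    ∃ (k : ℕ) (ε v : (𝓞 K)ˣ), ε ∈ torsion K ∧ u₂ = ε * u₁ ^ k * v ^ p := by
  have hp : p.Prime := Fact.out
  obtain ⟨r, hpr⟩ : ∃ r, p = 2 * r + 3 := by
    have hodd : p % 2 = 1 := by
      rcases hp.eq_two_or_odd with h | h
      · omega
      · exact h
    exact ⟨(p - 3) / 2, by omega⟩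
  obtain ⟨η, hind, hsum⟩ := h25_exists_minkowski hζ σ γ hσ hγ r hpr
  have hrank : Module.finrank ℤ (h25_M K) = r := by
    rw [h25_M_finrank, Units.rank, h25_card_places r hpr]
    rfl
  obtain ⟨m, hm⟩ := h25_exists_lift p r hp hpr (A : ℤ)
  obtain ⟨z₁, hz₁⟩ := h25_cls_eigen σ A p hp.pos u₁ h₁
  obtain ⟨z₂, hz₂⟩ := h25_cls_eigen σ A p hp.pos u₂ h₂
  have hx : ∃ z, h25_modTorsionMap σ (h25_cls K u₁) - ((A : ℤ) + p * m) • h25_cls K u₁
      = (p : ℤ) • z := by
    refine ⟨z₁ - m • h25_cls K u₁, ?_⟩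
    rw [add_smul, mul_smul, smul_sub, ← hz₁]
    abel
  have hy : ∃ z, h25_modTorsionMap σ (h25_cls K u₂) - ((A : ℤ) + p * m) • h25_cls K u₂
      = (p : ℤ) • z := by
    refine ⟨z₂ - m • h25_cls K u₂, ?_⟩
    rw [add_smul, mul_smul, smul_sub, ← hz₂]
    abel
  have hx0 : ¬ ∃ z, h25_cls K u₁ = (p : ℤ) • z := by
    rintro ⟨z, hz⟩
    obtain ⟨v, rfl⟩ := h25_cls_surjective z
    apply hu₁
    refine ⟨u₁ * (v ^ p)⁻¹, v, ?_, by rw [inv_mul_cancel_right]⟩
    rw [← h25_cls_eq_zero_iff, h25_cls_mul, h25_cls_inv, h25_cls_pow', hz]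
    abel
  obtain ⟨k, z, hk⟩ := h25_eigen_mod_p_cyclic (h25_modTorsionMap σ) r hrank (h25_cls K η)
    hind hsum p hp _ hm _ _ hx hy hx0
  obtain ⟨v, rfl⟩ := h25_cls_surjective z
  refine ⟨(k % p).toNat, u₂ * (u₁ ^ (k % p).toNat * (u₁ ^ (k / p) * v) ^ p)⁻¹,
    u₁ ^ (k / p) * v, ?_, by rw [mul_assoc, inv_mul_cancel_right]⟩
  have hp0 : (p : ℤ) ≠ 0 := by exact_mod_cast hp.ne_zero
  have hk1 : ((k % p).toNat : ℤ) = k % p := Int.toNat_of_nonneg (Int.emod_nonneg _ hp0)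
  have hk2 : k • h25_cls K u₁
      = (k % p) • h25_cls K u₁ + (p : ℤ) • ((k / p) • h25_cls K u₁) := by
    rw [← mul_smul, ← add_smul, Int.emod_add_mul_ediv]
  rw [← h25_cls_eq_zero_iff, h25_cls_mul, h25_cls_inv, h25_cls_mul, h25_cls_pow', h25_cls_pow',
    h25_cls_mul, h25_cls_zpow, hk, hk2, hk1, smul_add]
  abel

end Final

end Fermat.Agent.S14
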