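import Mathlib
import Fermat.Agent.S14.h28_FldGen

/-!
# S14, block FLD: the abstract setting `K ⊆ L ⊆ Ω = L(ζ_q')`
-/

set_option autoImplicit false

namespace Fermat.Agent.S14

open NumberField

section core

variable {q' : ℕ} [Fact q'.Prime]
  {K L Ω : Type} [Field K] [NumberField K] [Field L] [NumberField L] [Field Ω] [NumberField Ω]
  [Algebra K L] [Algebra L Ω] [Algebra K Ω] [IsScalarTower K L Ω]
  [IsGalois K L] [IsGalois K Ω]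
  {ζ : Ω} (hζ : IsPrimitiveRoot ζ q')

include hζ in
/-- The action of an automorphism on the integral primitive root. -/
theorem h28_smul_toInteger (τ : Ω ≃ₐ[K] Ω) :
    τ • hζ.toInteger = hζ.toInteger ^ ((hζ.autToPow K τ : (ZMod q')ˣ) : ZMod q').val := by
  apply RingOfIntegers.ext
  rw [h28_coe_smul]
  simp only [map_pow]
  exact (hζ.autToPow_spec K τ).symm

include hζ in
/-- The cyclotomic character of a power of a Frobenius element is a power of the norm. -/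
theorem h28_chi_frob_pow (𝔓 : Ideal (𝓞 Ω)) [𝔓.IsPrime] (hq : (q' : 𝓞 Ω) ∉ 𝔓) (φ : Ω ≃ₐ[K] Ω)
    (hφ : IsArithFrobAt (𝓞 K) φ 𝔓) (n : ℕ) :
    ((hζ.autToPow K (φ ^ n) : (ZMod q')ˣ) : ZMod q') =
      (Nat.card (𝓞 K ⧸ 𝔓.under (𝓞 K)) : ZMod q') ^ n := by
  have h1 := h28_frob_pow hφ n hζ.toInteger
  rw [h28_smul_toInteger hζ] at h1
  have h2 := h28_pow_eq_of_sub_mem (Fact.out : q'.Prime) hζ.toInteger_isPrimitiveRoot 𝔓 hq h1
  have h3 := h28_natCast_eq_of_pow_eq hζ.toInteger_isPrimitiveRoot h2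
  rw [ZMod.natCast_zmod_val] at h3
  rw [h3]
  push_cast
  rfl

include hζ in
/-- `Ω / K` is unramified at the primes not above `q'` (given that `L / K` is unramified). -/
theorem h28_eq_one_of_inertia
    (hinj : ∀ τ : Ω ≃ₐ[K] Ω, AlgEquiv.restrictNormalHom L τ = 1 → hζ.autToPow K τ = 1 → τ = 1)
    (hunr : ∀ Q : Ideal (𝓞 L), Q.IsPrime → Q ≠ ⊥ → Q.ramificationIdx (𝓞 K) = 1)
    (𝔓 : Ideal (𝓞 Ω)) [𝔓.IsPrime] (h0 : 𝔓 ≠ ⊥) (hq : (q' : 𝓞 Ω) ∉ 𝔓)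
    (τ : Ω ≃ₐ[K] Ω) (hτ : ∀ x : 𝓞 Ω, τ • x - x ∈ 𝔓) : τ = 1 := by
  apply hinj
  · apply h28_restrict_eq_one τ 𝔓
    · apply hunr _ inferInstance
      intro hbot
      exact h0 (Ideal.eq_bot_of_comap_eq_bot hbot)
    · intro y; exact hτ _
  · have h1 := hτ hζ.toInteger
    rw [h28_smul_toInteger hζ] at h1
    have h2 := h28_pow_eq_of_sub_mem (Fact.out : q'.Prime) hζ.toInteger_isPrimitiveRoot 𝔓 hq
      (i := ((hζ.autToPow K τ : (ZMod q')ˣ) : ZMod q').val) (j := 1) (by simpa using h1)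
    have h3 := h28_natCast_eq_of_pow_eq hζ.toInteger_isPrimitiveRoot h2
    rw [ZMod.natCast_zmod_val] at h3
    ext
    simpa using h3

include hζ in
/-- `Ω / K` is unramified at the primes not above `q'` (given that `L / K` is unramified). -/
theorem h28_ramificationIdx_eq_one
    (hinj : ∀ τ : Ω ≃ₐ[K] Ω, AlgEquiv.restrictNormalHom L τ = 1 → hζ.autToPow K τ = 1 → τ = 1)
    (hunr : ∀ Q : Ideal (𝓞 L), Q.IsPrime → Q ≠ ⊥ → Q.ramificationIdx (𝓞 K) = 1)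
    (𝔓 : Ideal (𝓞 Ω)) [𝔓.IsPrime] (h0 : 𝔓 ≠ ⊥) (hq : (q' : 𝓞 Ω) ∉ 𝔓) :
    𝔓.ramificationIdx (𝓞 K) = 1 := by
  have hc : Nat.card (𝔓.inertia (Ω ≃ₐ[K] Ω)) = 1 := by
    rw [Nat.card_eq_one_iff_unique]
    refine ⟨⟨fun a b => ?_⟩, ⟨1⟩⟩
    have ha := h28_eq_one_of_inertia hζ hinj hunr 𝔓 h0 hq a.1 a.2
    have hb := h28_eq_one_of_inertia hζ hinj hunr 𝔓 h0 hq b.1 b.2
    exact Subtype.ext (ha.trans hb.symm)
  rw [← Ideal.ramificationIdxIn_eq_ramificationIdx (𝔓.under (𝓞 K)) 𝔓 (Ω ≃ₐ[K] Ω),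
    ← Ideal.card_inertia_eq_ramificationIdxIn (G := Ω ≃ₐ[K] Ω) (𝔓.under (𝓞 K)) 𝔓]
  exact hc

end core

end Fermat.Agent.S14
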