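import Mathlib
import Fermat.Agent.S14.Defs
import Fermat.Agent.S14.ZB

/-!
LBD, orbit bookkeeping: a sum over the nonzero elements of an ideal `J`, weighted by a
function `φ` whose sum over every unit orbit is a constant `c`, is `c * N(J)^(-s)` times the
partial zeta function of the class of `J⁻¹`.
-/

namespace Fermat.Agent.S14

open NumberField mixedEmbedding
open scoped nonZeroDivisors

variable (F : Type*) [Field F] [NumberField F]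

/-- the norm on the mixed space of the image of an integer is the norm of its ideal -/
theorem h31_norm_mixed (a : 𝓞 F) :
    mixedEmbedding.norm (mixedEmbedding F (a : F)) = (Ideal.absNorm (Ideal.span {a}) : ℝ) := by
  rw [norm_eq_norm, Ideal.absNorm_span_singleton, ← Algebra.coe_norm_int, Nat.cast_natAbs]
  push_cast
  rfl

variable {F}

/-- the orbit map `(I, u) ↦ u * gen I` -/
theorem h31_orbit_bijective (J : (Ideal (𝓞 F))⁰)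
    (gen : {I : (Ideal (𝓞 F))⁰ // ClassGroup.mk0 I = (ClassGroup.mk0 J)⁻¹} → 𝓞 F)
    (hgen : ∀ I : {I : (Ideal (𝓞 F))⁰ // ClassGroup.mk0 I = (ClassGroup.mk0 J)⁻¹},
      (J : Ideal (𝓞 F)) * ((I : (Ideal (𝓞 F))⁰) : Ideal (𝓞 F)) = Ideal.span {gen I})
    (E : (Σ _ : {I : (Ideal (𝓞 F))⁰ // ClassGroup.mk0 I = (ClassGroup.mk0 J)⁻¹}, (𝓞 F)ˣ) →
      {a : 𝓞 F // a ∈ (J : Ideal (𝓞 F)) ∧ a ≠ 0})
    (hE : ∀ x, ((E x : {a : 𝓞 F // a ∈ (J : Ideal (𝓞 F)) ∧ a ≠ 0}) : 𝓞 F) =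
      (x.2 : 𝓞 F) * gen x.1) : Function.Bijective E := by
  have hJ0 : (J : Ideal (𝓞 F)) ≠ 0 := nonZeroDivisors.coe_ne_zero J
  have hgen0 : ∀ I : {I : (Ideal (𝓞 F))⁰ // ClassGroup.mk0 I = (ClassGroup.mk0 J)⁻¹}, gen I ≠ 0 := by
    intro I h0
    have h1 := hgen I
    rw [h0, Ideal.span_singleton_eq_bot.2 rfl] at h1
    rcases mul_eq_zero.1 h1 with h | h
    · exact hJ0 h
    · exact nonZeroDivisors.coe_ne_zero (I : (Ideal (𝓞 F))⁰) h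
  constructor
  · rintro ⟨I, u⟩ ⟨I', u'⟩ h
    have h1 : (u : 𝓞 F) * gen I = (u' : 𝓞 F) * gen I' := by
      rw [← hE ⟨I, u⟩, ← hE ⟨I', u'⟩, h]
    have h2 : Ideal.span {gen I} = Ideal.span {gen I'} := by
      rw [Ideal.span_singleton_eq_span_singleton]
      refine ⟨u'⁻¹ * u, ?_⟩
      rw [Units.val_mul, mul_comm, mul_assoc, h1, ← mul_assoc, Units.inv_mul, one_mul]
    rw [← hgen I, ← hgen I'] at h2
    have h3 : ((I : (Ideal (𝓞 F))⁰) : Ideal (𝓞 F)) = ((I' : (Ideal (𝓞 F))⁰) : Ideal (𝓞 F)) :=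
      mul_left_cancel₀ hJ0 h2
    have h4 : I = I' := Subtype.ext (Subtype.ext h3)
    subst h4
    have h5 : (u : 𝓞 F) = (u' : 𝓞 F) := mul_right_cancel₀ (hgen0 I) h1
    rw [Units.ext h5]
  · rintro ⟨a, haJ, ha0⟩
    obtain ⟨I₀, hI₀⟩ := Ideal.dvd_span_singleton.2 haJ
    have hI₀0 : I₀ ≠ 0 := by
      rintro rfl
      rw [mul_zero] at hI₀
      exact ha0 (Ideal.span_singleton_eq_bot.1 hI₀)
    let I₁ : (Ideal (𝓞 F))⁰ := ⟨I₀, mem_nonZeroDivisors_of_ne_zero hI₀0⟩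
    have hcl : ClassGroup.mk0 I₁ = (ClassGroup.mk0 J)⁻¹ := by
      apply eq_inv_of_mul_eq_one_right
      rw [← map_mul]
      have h1 : ((J * I₁ : (Ideal (𝓞 F))⁰) : Ideal (𝓞 F)) = Ideal.span {a} := by
        rw [hI₀]
        rfl
      have h2 : (J * I₁ : (Ideal (𝓞 F))⁰) = ⟨Ideal.span {a}, h1 ▸ (J * I₁).2⟩ := Subtype.ext h1
      rw [h2, ClassGroup.mk0_eq_one_iff]
      exact ⟨⟨a, rfl⟩⟩
    have h3 : Ideal.span {gen ⟨I₁, hcl⟩} = Ideal.span {a} := by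
      rw [← hgen ⟨I₁, hcl⟩, hI₀]
    obtain ⟨u, hu⟩ := Ideal.span_singleton_eq_span_singleton.1 h3
    refine ⟨⟨⟨I₁, hcl⟩, u⟩, Subtype.ext ?_⟩
    rw [hE, mul_comm]
    exact hu

theorem h31_orbit_hasSum (F : Type*) [Field F] [NumberField F] (φ : mixedSpace F → ℝ)
    (hφ0 : ∀ x, 0 ≤ φ x) (c : ℝ)
    (hφ : ∀ x : mixedSpace F, mixedEmbedding.norm x ≠ 0 →
      HasSum (fun u : (𝓞 F)ˣ => φ (u • x)) c)
    (J : (Ideal (𝓞 F))⁰) {s : ℝ} (hs : 1 < s) :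
    HasSum (fun a : {a : 𝓞 F // a ∈ (J : Ideal (𝓞 F)) ∧ a ≠ 0} =>
        φ (mixedEmbedding F ((a : 𝓞 F) : F)) *
          mixedEmbedding.norm (mixedEmbedding F ((a : 𝓞 F) : F)) ^ (-s))
      (c * (Ideal.absNorm (J : Ideal (𝓞 F)) : ℝ) ^ (-s) *
        ∑' I : {I : (Ideal (𝓞 F))⁰ // ClassGroup.mk0 I = (ClassGroup.mk0 J)⁻¹},
          (Ideal.absNorm ((I : (Ideal (𝓞 F))⁰) : Ideal (𝓞 F)) : ℝ) ^ (-s)) := by
  classical
  have hJ0 : (J : Ideal (𝓞 F)) ≠ 0 := nonZeroDivisors.coe_ne_zero J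
  -- generators
  have hprinc : ∀ I : {I : (Ideal (𝓞 F))⁰ // ClassGroup.mk0 I = (ClassGroup.mk0 J)⁻¹},
      ∃ g : 𝓞 F, (J : Ideal (𝓞 F)) * ((I : (Ideal (𝓞 F))⁰) : Ideal (𝓞 F)) = Ideal.span {g} := by
    intro I
    have h1 : ClassGroup.mk0 (J * (I : (Ideal (𝓞 F))⁰)) = 1 := by
      rw [map_mul, I.2, mul_inv_cancel]
    have h2 := (ClassGroup.mk0_eq_one_iff (J * (I : (Ideal (𝓞 F))⁰)).2).1 h1
    obtain ⟨g, hg⟩ := h2.principal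
    exact ⟨g, by rw [← Ideal.span, ← Ideal.submodule_span_eq] at hg; exact hg⟩
  choose gen hgen using hprinc
  have hgen0 : ∀ I : {I : (Ideal (𝓞 F))⁰ // ClassGroup.mk0 I = (ClassGroup.mk0 J)⁻¹}, gen I ≠ 0 := by
    intro I h0
    have h1 := hgen I
    rw [h0, Ideal.span_singleton_eq_bot.2 rfl] at h1
    rcases mul_eq_zero.1 h1 with h | h
    · exact hJ0 h
    · exact nonZeroDivisors.coe_ne_zero (I : (Ideal (𝓞 F))⁰) h
  have hmemJ : ∀ (I : {I : (Ideal (𝓞 F))⁰ // ClassGroup.mk0 I = (ClassGroup.mk0 J)⁻¹})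
      (u : (𝓞 F)ˣ), (u : 𝓞 F) * gen I ∈ (J : Ideal (𝓞 F)) := by
    intro I u
    have h1 : gen I ∈ Ideal.span {gen I} := Ideal.mem_span_singleton_self _
    rw [← hgen I] at h1
    have h2 : gen I ∈ (J : Ideal (𝓞 F)) :=
      (Ideal.mul_le_left : (J : Ideal (𝓞 F)) * ((I : (Ideal (𝓞 F))⁰) : Ideal (𝓞 F)) ≤ _) h1
    exact Ideal.mul_mem_left (J : Ideal (𝓞 F)) (u : 𝓞 F) h2
  let E : (Σ _ : {I : (Ideal (𝓞 F))⁰ // ClassGroup.mk0 I = (ClassGroup.mk0 J)⁻¹}, (𝓞 F)ˣ) →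
      {a : 𝓞 F // a ∈ (J : Ideal (𝓞 F)) ∧ a ≠ 0} :=
    fun x => ⟨(x.2 : 𝓞 F) * gen x.1, hmemJ x.1 x.2, mul_ne_zero x.2.ne_zero (hgen0 x.1)⟩
  have hEbij : Function.Bijective E := h31_orbit_bijective J gen hgen E (fun x => rfl)
  rw [← (Equiv.ofBijective E hEbij).hasSum_iff]
  -- the inner sums
  have hnormgen : ∀ I : {I : (Ideal (𝓞 F))⁰ // ClassGroup.mk0 I = (ClassGroup.mk0 J)⁻¹},
      mixedEmbedding.norm (mixedEmbedding F ((gen I : 𝓞 F) : F)) =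
        (Ideal.absNorm (J : Ideal (𝓞 F)) : ℝ) *
          (Ideal.absNorm ((I : (Ideal (𝓞 F))⁰) : Ideal (𝓞 F)) : ℝ) := by
    intro I
    rw [h31_norm_mixed, ← hgen I, map_mul, Nat.cast_mul]
  have hval : ∀ (I : {I : (Ideal (𝓞 F))⁰ // ClassGroup.mk0 I = (ClassGroup.mk0 J)⁻¹})
      (u : (𝓞 F)ˣ),
      φ (mixedEmbedding F (((E ⟨I, u⟩ : {a : 𝓞 F // a ∈ (J : Ideal (𝓞 F)) ∧ a ≠ 0}) : 𝓞 F) : F)) *
          mixedEmbedding.norm (mixedEmbedding F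
            (((E ⟨I, u⟩ : {a : 𝓞 F // a ∈ (J : Ideal (𝓞 F)) ∧ a ≠ 0}) : 𝓞 F) : F)) ^ (-s) =
        φ (u • mixedEmbedding F ((gen I : 𝓞 F) : F)) *
          ((Ideal.absNorm (J : Ideal (𝓞 F)) : ℝ) ^ (-s) *
            (Ideal.absNorm ((I : (Ideal (𝓞 F))⁰) : Ideal (𝓞 F)) : ℝ) ^ (-s)) := by
    intro I u
    have h1 : mixedEmbedding F (((E ⟨I, u⟩ : {a : 𝓞 F // a ∈ (J : Ideal (𝓞 F)) ∧ a ≠ 0}) : 𝓞 F) : F)
        = u • mixedEmbedding F ((gen I : 𝓞 F) : F) := by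
      rw [unitSMul_smul, ← map_mul]
      rfl
    rw [h1, norm_unit_smul, hnormgen,
      Real.mul_rpow (Nat.cast_nonneg _) (Nat.cast_nonneg _)]
  have hinner : ∀ I : {I : (Ideal (𝓞 F))⁰ // ClassGroup.mk0 I = (ClassGroup.mk0 J)⁻¹},
      HasSum (fun u : (𝓞 F)ˣ =>
        φ (mixedEmbedding F (((E ⟨I, u⟩ : {a : 𝓞 F // a ∈ (J : Ideal (𝓞 F)) ∧ a ≠ 0}) : 𝓞 F) : F)) *
          mixedEmbedding.norm (mixedEmbedding F
            (((E ⟨I, u⟩ : {a : 𝓞 F // a ∈ (J : Ideal (𝓞 F)) ∧ a ≠ 0}) : 𝓞 F) : F)) ^ (-s))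
        (c * ((Ideal.absNorm (J : Ideal (𝓞 F)) : ℝ) ^ (-s) *
            (Ideal.absNorm ((I : (Ideal (𝓞 F))⁰) : Ideal (𝓞 F)) : ℝ) ^ (-s))) := by
    intro I
    simp_rw [hval I]
    apply HasSum.mul_right
    apply hφ
    rw [hnormgen]
    have h1 : Ideal.absNorm (J : Ideal (𝓞 F)) ≠ 0 := Ideal.absNorm_ne_zero_of_nonZeroDivisors J
    have h2 : Ideal.absNorm ((I : (Ideal (𝓞 F))⁰) : Ideal (𝓞 F)) ≠ 0 :=
      Ideal.absNorm_ne_zero_of_nonZeroDivisors (I : (Ideal (𝓞 F))⁰)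
    positivity
  have hsummT : Summable fun I : {I : (Ideal (𝓞 F))⁰ // ClassGroup.mk0 I = (ClassGroup.mk0 J)⁻¹} =>
      (Ideal.absNorm ((I : (Ideal (𝓞 F))⁰) : Ideal (𝓞 F)) : ℝ) ^ (-s) :=
    (summable_absNorm_rpow F hs).subtype _
  have houter : HasSum (fun I : {I : (Ideal (𝓞 F))⁰ // ClassGroup.mk0 I = (ClassGroup.mk0 J)⁻¹} =>
      c * ((Ideal.absNorm (J : Ideal (𝓞 F)) : ℝ) ^ (-s) *
            (Ideal.absNorm ((I : (Ideal (𝓞 F))⁰) : Ideal (𝓞 F)) : ℝ) ^ (-s)))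
      (c * (Ideal.absNorm (J : Ideal (𝓞 F)) : ℝ) ^ (-s) *
        ∑' I : {I : (Ideal (𝓞 F))⁰ // ClassGroup.mk0 I = (ClassGroup.mk0 J)⁻¹},
          (Ideal.absNorm ((I : (Ideal (𝓞 F))⁰) : Ideal (𝓞 F)) : ℝ) ^ (-s)) := by
    have := hsummT.hasSum.mul_left (c * (Ideal.absNorm (J : Ideal (𝓞 F)) : ℝ) ^ (-s))
    simpa [mul_assoc] using this
  refine HasSum.sigma_of_hasSum houter hinner ?_
  rw [summable_sigma_of_nonneg]
  · refine ⟨fun I => (hinner I).summable, ?_⟩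
    have : (fun I : {I : (Ideal (𝓞 F))⁰ // ClassGroup.mk0 I = (ClassGroup.mk0 J)⁻¹} =>
        ∑' u : (𝓞 F)ˣ, ((fun a : {a : 𝓞 F // a ∈ (J : Ideal (𝓞 F)) ∧ a ≠ 0} =>
          φ (mixedEmbedding F ((a : 𝓞 F) : F)) *
          mixedEmbedding.norm (mixedEmbedding F ((a : 𝓞 F) : F)) ^ (-s)) ∘
            (Equiv.ofBijective E hEbij)) ⟨I, u⟩) =
        fun I : {I : (Ideal (𝓞 F))⁰ // ClassGroup.mk0 I = (ClassGroup.mk0 J)⁻¹} =>
          c * ((Ideal.absNorm (J : Ideal (𝓞 F)) : ℝ) ^ (-s) *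
            (Ideal.absNorm ((I : (Ideal (𝓞 F))⁰) : Ideal (𝓞 F)) : ℝ) ^ (-s)) := by
      funext I
      exact (hinner I).tsum_eq
    rw [this]
    exact houter.summable
  · intro x
    exact mul_nonneg (hφ0 _) (Real.rpow_nonneg (mixedEmbedding.norm_nonneg _) _)

end Fermat.Agent.S14
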