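import Mathlib
import Fermat.Agent.S14.Defs
import Fermat.Agent.S14.ZB

/-!
LBD wrapper: the class L-series of a nontrivial class character is bounded on `(1,2]`
as soon as the partial zeta functions of any two ideal classes differ by `O(1)` there.
-/

namespace Fermat.Agent.S14

open NumberField
open scoped nonZeroDivisors

/-- the sum of the values of a nontrivial character of a finite group vanishes -/
theorem h31_sum_char_eq_zero {G : Type*} [CommGroup G] [Fintype G] (χ : G →* ℂˣ) (hχ : χ ≠ 1) :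
    ∑ g : G, (χ g : ℂ) = 0 := by
  obtain ⟨a, ha⟩ : ∃ a, χ a ≠ 1 := by
    by_contra h
    push Not at h
    exact hχ (MonoidHom.ext h)
  have h1 : (χ a : ℂ) * ∑ g : G, (χ g : ℂ) = ∑ g : G, (χ g : ℂ) := by
    rw [Finset.mul_sum]
    refine Fintype.sum_equiv (Equiv.mulLeft a) _ _ (fun g => ?_)
    simp [map_mul]
  have h2 : ((χ a : ℂ) - 1) * ∑ g : G, (χ g : ℂ) = 0 := by rw [sub_mul, h1, one_mul, sub_self]
  rcases mul_eq_zero.1 h2 with h | h
  · exfalso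
    apply ha
    ext
    simpa [sub_eq_zero] using h
  · exact h

/-- values of a character of a finite group have norm one -/
theorem h31_norm_char {G : Type*} [CommGroup G] [Finite G] (χ : G →* ℂˣ) (g : G) :
    ‖(χ g : ℂ)‖ = 1 := by
  have h1 : (χ g : ℂ) ^ Nat.card G = 1 := by
    rw [← Units.val_pow_eq_pow_val, ← map_pow, pow_card_eq_one', map_one, Units.val_one]
  exact Complex.norm_eq_one_of_pow_eq_one h1 Nat.card_pos.ne'

theorem h31_classLSeries_bounded_of (F : Type*) [Field F] [NumberField F]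
    (hsub : ∀ C C' : ClassGroup (𝓞 F), ∃ B : ℝ, ∀ s : ℝ, 1 < s → s ≤ 2 →
      |(∑' I : {I : (Ideal (𝓞 F))⁰ // ClassGroup.mk0 I = C},
          (Ideal.absNorm ((I : (Ideal (𝓞 F))⁰) : Ideal (𝓞 F)) : ℝ) ^ (-s)) -
        ∑' I : {I : (Ideal (𝓞 F))⁰ // ClassGroup.mk0 I = C'},
          (Ideal.absNorm ((I : (Ideal (𝓞 F))⁰) : Ideal (𝓞 F)) : ℝ) ^ (-s)| ≤ B)
    (χ : ClassGroup (𝓞 F) →* ℂˣ) (hχ : χ ≠ 1) :
    ∃ B : ℝ, ∀ s : ℝ, 1 < s → s ≤ 2 →
      ‖idealSum F (fun I => (χ (ClassGroup.mk0 I) : ℂ)) s‖ ≤ B := by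
  classical
  choose B hB using fun C => hsub C 1
  refine ⟨∑ C, B C, fun s hs hs2 => ?_⟩
  -- the partial zeta functions
  set Z : ClassGroup (𝓞 F) → ℝ := fun C =>
    ∑' I : {I : (Ideal (𝓞 F))⁰ // ClassGroup.mk0 I = C},
      (Ideal.absNorm ((I : (Ideal (𝓞 F))⁰) : Ideal (𝓞 F)) : ℝ) ^ (-s) with hZ
  have hsumm : Summable fun I : (Ideal (𝓞 F))⁰ =>
      (χ (ClassGroup.mk0 I) : ℂ) * (((Ideal.absNorm (I : Ideal (𝓞 F)) : ℝ) ^ (-s) : ℝ) : ℂ) :=
    idealSum_summable F (fun I => (χ (ClassGroup.mk0 I) : ℂ))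
      (fun I => (h31_norm_char χ _).le) hs
  have hkey : idealSum F (fun I => (χ (ClassGroup.mk0 I) : ℂ)) s =
      ∑ C : ClassGroup (𝓞 F), (χ C : ℂ) * ((Z C : ℝ) : ℂ) := by
    set e := Equiv.sigmaFiberEquiv (fun I : (Ideal (𝓞 F))⁰ => ClassGroup.mk0 I) with he
    set g : (Σ C : ClassGroup (𝓞 F), {I : (Ideal (𝓞 F))⁰ // ClassGroup.mk0 I = C}) → ℂ :=
      fun c => (χ (ClassGroup.mk0 (e c)) : ℂ) *
        (((Ideal.absNorm ((e c : (Ideal (𝓞 F))⁰) : Ideal (𝓞 F)) : ℝ) ^ (-s) : ℝ) : ℂ) with hg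
    have hsumm' : Summable g := e.summable_iff.2 hsumm
    have h1 : idealSum F (fun I => (χ (ClassGroup.mk0 I) : ℂ)) s = ∑' c, g c := by
      rw [idealSum, ← e.tsum_eq]
    rw [h1, hsumm'.tsum_sigma' (fun C => hsumm'.sigma_factor C), tsum_fintype]
    refine Finset.sum_congr rfl (fun C _ => ?_)
    rw [hZ]
    simp only
    rw [Complex.ofReal_tsum, ← tsum_mul_left]
    refine tsum_congr (fun I => ?_)
    simp only [hg, he, Equiv.sigmaFiberEquiv_apply]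
    rw [I.2]
  rw [hkey]
  have hzero := h31_sum_char_eq_zero χ hχ
  have hrew : ∑ C : ClassGroup (𝓞 F), (χ C : ℂ) * ((Z C : ℝ) : ℂ) =
      ∑ C : ClassGroup (𝓞 F), (χ C : ℂ) * (((Z C - Z 1 : ℝ)) : ℂ) := by
    have : ∑ C : ClassGroup (𝓞 F), (χ C : ℂ) * (((Z C - Z 1 : ℝ)) : ℂ) =
        ∑ C : ClassGroup (𝓞 F), (χ C : ℂ) * ((Z C : ℝ) : ℂ) -
          (∑ C : ClassGroup (𝓞 F), (χ C : ℂ)) * ((Z 1 : ℝ) : ℂ) := by
      rw [Finset.sum_mul, ← Finset.sum_sub_distrib]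
      refine Finset.sum_congr rfl (fun C _ => ?_)
      push_cast
      ring
    rw [this, hzero, zero_mul, sub_zero]
  rw [hrew]
  refine (norm_sum_le _ _).trans (Finset.sum_le_sum (fun C _ => ?_))
  rw [norm_mul, h31_norm_char, one_mul, Complex.norm_real, Real.norm_eq_abs]
  exact hB C s hs hs2

end Fermat.Agent.S14
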