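import Mathlib
import Fermat.Agent.S14.h37_Units

/-!
# S14, CORE-T, package T-KL: Kummer's lemma for the `ω²`-part of the units of `ℚ(ζ_p)`

A unit `u` of `K = ℚ(ζ_p)` with `σ_a u = u^(a²) · t^p` for all `a`, which is a `p`-th power
modulo `(1 - ζ)³`, is a `p`-th power of a unit.  The input "the `a²`-eigenspace of the units
modulo `p`-th powers (and torsion) is at most one-dimensional" is taken as a hypothesis `hdim`
(its statement is the announced export of `h25_UnitsDim.lean`).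
-/

set_option autoImplicit false

namespace Fermat.Agent.S14

open NumberField

section Kummer

variable (p : ℕ) [Fact p.Prime] {K : Type*} [Field K] [NumberField K]
  [IsCyclotomicExtension {p} ℚ K]

/-- A generator of `Gal(K/ℚ)`: `σ ζ = ζ^γ` with `γ` a primitive root mod `p`. -/
theorem h37_exists_gen (ζ : K) (hζ : IsPrimitiveRoot ζ p) :
    ∃ (σ : K ≃ₐ[ℚ] K) (γ : ℕ), σ ζ = ζ ^ γ ∧ orderOf (γ : ZMod p) = p - 1 ∧ ¬ p ∣ γ := by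
  have : NeZero p := ⟨(Fact.out : p.Prime).ne_zero⟩
  obtain ⟨g, hg⟩ := IsCyclic.exists_generator (α := (ZMod p)ˣ)
  have hord : orderOf g = p - 1 := by
    rw [orderOf_eq_card_of_forall_mem_zpowers hg, Nat.card_eq_fintype_card, ZMod.card_units]
  have hirr : Irreducible (Polynomial.cyclotomic p ℚ) :=
    Polynomial.cyclotomic.irreducible_rat (NeZero.pos p)
  let σ : K ≃ₐ[ℚ] K := (IsCyclotomicExtension.autEquivPow K hirr).symm g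
  have hσ : (IsCyclotomicExtension.zeta_spec p ℚ K).autToPow ℚ σ = g :=
    (IsCyclotomicExtension.autEquivPow K hirr).apply_symm_apply g
  have hz := (IsCyclotomicExtension.zeta_spec p ℚ K).autToPow_spec ℚ σ
  rw [hσ] at hz
  obtain ⟨i, -, hi⟩ :=
    (IsCyclotomicExtension.zeta_spec p ℚ K).eq_pow_of_pow_eq_one hζ.pow_eq_one
  refine ⟨σ, (g : ZMod p).val, ?_, ?_, ?_⟩
  · rw [← hi, map_pow, ← hz, ← pow_mul, ← pow_mul, mul_comm]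
  · rw [ZMod.natCast_zmod_val, orderOf_units, hord]
  · rw [← ZMod.natCast_eq_zero_iff, ZMod.natCast_zmod_val]; exact g.ne_zero

/-- Torsion units of `ℚ(ζ_p)` are `ζ^r · s^p` (with `s = ± 1`). -/
theorem h37_torsion_eq (hp2 : p ≠ 2) (ζu : (𝓞 K)ˣ) (hζ : IsPrimitiveRoot (ζu : 𝓞 K) p)
    (ε : (𝓞 K)ˣ) (hε : ε ∈ NumberField.Units.torsion K) :
    ∃ (r : ℕ) (s : (𝓞 K)ˣ), r < p ∧ ε = ζu ^ r * s ^ p := by
  have : NeZero p := ⟨(Fact.out : p.Prime).ne_zero⟩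
  have hodd : Odd p := (Fact.out : p.Prime).odd_of_ne_two hp2
  have hζK : IsPrimitiveRoot (algebraMap (𝓞 K) K (ζu : 𝓞 K)) p :=
    hζ.map_of_injective RingOfIntegers.coe_injective
  have hfin : IsOfFinOrder (algebraMap (𝓞 K) K (ε : 𝓞 K)) := by
    have h1 : IsOfFinOrder ε := (CommGroup.mem_torsion _).mp hε
    exact ((algebraMap (𝓞 K) K).toMonoidHom.comp (Units.coeHom (𝓞 K))).isOfFinOrder h1
  obtain ⟨r, hr, h | h⟩ := hζK.exists_pow_or_neg_mul_pow_of_isOfFinOrder hodd hfin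
  · refine ⟨r, 1, hr, ?_⟩
    rw [one_pow, mul_one]
    apply Units.ext
    apply RingOfIntegers.coe_injective
    rw [h]; simp
  · refine ⟨r, -1, hr, ?_⟩
    rw [hodd.neg_one_pow]
    apply Units.ext
    apply RingOfIntegers.coe_injective
    rw [h]; simp

/-- **(T-KL)**, with the dimension bound as a hypothesis. -/
theorem h37_unit_eq_pow_of_dim (hp : 5 ≤ p)
    (hdim : ∀ (ζ : K) (_ : IsPrimitiveRoot ζ p) (σ : K ≃ₐ[ℚ] K) (γ : ℕ) (_ : σ ζ = ζ ^ γ)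
      (_ : orderOf (γ : ZMod p) = p - 1) (A : ℕ) (_ : (A : ZMod p) = (γ : ZMod p) ^ 2)
      (u₁ u₂ : (𝓞 K)ˣ) (_ : ∃ t : K, σ (u₁ : K) = (u₁ : K) ^ A * t ^ p)
      (_ : ∃ t : K, σ (u₂ : K) = (u₂ : K) ^ A * t ^ p)
      (_ : ¬ ∃ ε v : (𝓞 K)ˣ, ε ∈ NumberField.Units.torsion K ∧ u₁ = ε * v ^ p),
      ∃ (k : ℕ) (ε v : (𝓞 K)ˣ), ε ∈ NumberField.Units.torsion K ∧ u₂ = ε * u₁ ^ k * v ^ p)
    (ζ : 𝓞 K) (hζ : IsPrimitiveRoot ζ p) (u : (𝓞 K)ˣ)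
    (hu : ∀ (σ : K ≃ₐ[ℚ] K) (a : ℕ), σ (ζ : K) = (ζ : K) ^ a →
      ∃ t : K, σ (u : K) = (u : K) ^ (a ^ 2) * t ^ p)
    (w : 𝓞 K) (hw : (1 - ζ) ^ 3 ∣ (u : 𝓞 K) - w ^ p) : ∃ v : (𝓞 K)ˣ, u = v ^ p := by
  have hpr : p.Prime := Fact.out
  have hp2 : p ≠ 2 := by omega
  have hζK : IsPrimitiveRoot (algebraMap (𝓞 K) K ζ) p :=
    hζ.map_of_injective RingOfIntegers.coe_injective
  -- `ζ` as a unit
  have hζunit : IsUnit ζ := IsUnit.of_pow_eq_one hζ.pow_eq_one hpr.ne_zero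
  obtain ⟨ζu, hζu⟩ := hζunit
  have hζ' : IsPrimitiveRoot (ζu : 𝓞 K) p := by rw [hζu]; exact hζ
  -- Thaine's unit
  obtain ⟨uE, huE⟩ := h37_E_isUnit (p := p) hζ
  -- the generator
  obtain ⟨σ, γ, hσ, hγ, hpγ⟩ := h37_exists_gen p (algebraMap (𝓞 K) K ζ) hζK
  -- `E` is an eigenvector
  have h₁ : ∃ t : K, σ (uE : K) = (uE : K) ^ (γ ^ 2) * t ^ p := by
    have hσ' : RingOfIntegers.mapRingHom (σ : K →+* K) ζ = ζ ^ γ := by
      apply RingOfIntegers.coe_injective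
      rw [map_pow]
      exact hσ
    obtain ⟨v, hv⟩ := h37_E_eig hζ hp (RingOfIntegers.mapRingHom (σ : K →+* K)) γ hpγ hσ'
    refine ⟨algebraMap (𝓞 K) K ((v⁻¹ : (𝓞 K)ˣ) : 𝓞 K), ?_⟩
    have hv' := congrArg (algebraMap (𝓞 K) K) hv
    rw [map_pow, map_mul, map_pow] at hv'
    have hvv : algebraMap (𝓞 K) K (v : 𝓞 K) * algebraMap (𝓞 K) K ((v⁻¹ : (𝓞 K)ˣ) : 𝓞 K) = 1 := by
      rw [← map_mul, ← Units.val_mul, mul_inv_cancel, Units.val_one, map_one]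
    have e1 : algebraMap (𝓞 K) K (RingOfIntegers.mapRingHom (σ : K →+* K) (h37_E p ζ))
        = σ (algebraMap (𝓞 K) K (h37_E p ζ)) := rfl
    rw [e1] at hv'
    rw [huE, hv', mul_assoc, ← mul_pow, hvv, one_pow, mul_one]
  have h₂ := hu σ γ hσ
  -- `E` is nontrivial modulo torsion and `p`-th powers
  have hu₁ : ¬ ∃ ε v : (𝓞 K)ˣ, ε ∈ NumberField.Units.torsion K ∧ uE = ε * v ^ p := by
    rintro ⟨ε, v, hε, hEv⟩
    obtain ⟨r, s, hr, hεs⟩ := h37_torsion_eq p hp2 ζu hζ' ε hε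
    have hE : h37_E p ζ = ζ ^ r * ((s * v : (𝓞 K)ˣ) : 𝓞 K) ^ p := by
      rw [← huE, hEv, hεs, ← hζu]
      push_cast
      ring
    have hdvd : (1 - ζ) ^ 3 ∣ ζ ^ (p - r) * h37_E p ζ ^ 1 - ((s * v : (𝓞 K)ˣ) : 𝓞 K) ^ p := by
      have : ζ ^ (p - r) * h37_E p ζ ^ 1 - ((s * v : (𝓞 K)ˣ) : 𝓞 K) ^ p = 0 := by
        rw [pow_one, hE, ← mul_assoc, ← pow_add, Nat.sub_add_cancel hr.le, hζ.pow_eq_one, one_mul,
          sub_self]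
      rw [this]
      exact dvd_zero _
    have := (h37_B1 p ζ hζ hp _ _ _ hdvd).2
    exact hpr.one_lt.ne' (Nat.dvd_one.mp this)
  obtain ⟨k, ε, v, hε, huk⟩ := hdim (algebraMap (𝓞 K) K ζ) hζK σ γ hσ hγ (γ ^ 2)
    (by push_cast; rfl) uE u h₁ h₂ hu₁
  obtain ⟨r, s, hr, hεs⟩ := h37_torsion_eq p hp2 ζu hζ' ε hε
  -- now `u = ζ^r * E^k * (s v)^p`
  have hu' : (u : 𝓞 K) = ζ ^ r * h37_E p ζ ^ k * ((s * v : (𝓞 K)ˣ) : 𝓞 K) ^ p := by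
    rw [huk, hεs, ← huE, ← hζu]
    push_cast
    ring
  have hVV : ((s * v : (𝓞 K)ˣ) : 𝓞 K) * (((s * v)⁻¹ : (𝓞 K)ˣ) : 𝓞 K) = 1 := by
    rw [← Units.val_mul, mul_inv_cancel, Units.val_one]
  have hdvd : (1 - ζ) ^ 3 ∣ ζ ^ r * h37_E p ζ ^ k
      - ((((s * v)⁻¹ : (𝓞 K)ˣ) : 𝓞 K) * w) ^ p := by
    have e : ζ ^ r * h37_E p ζ ^ k - ((((s * v)⁻¹ : (𝓞 K)ˣ) : 𝓞 K) * w) ^ p
        = (((s * v)⁻¹ : (𝓞 K)ˣ) : 𝓞 K) ^ p * ((u : 𝓞 K) - w ^ p) := by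
      rw [hu']
      have h1 : (((s * v : (𝓞 K)ˣ) : 𝓞 K) * (((s * v)⁻¹ : (𝓞 K)ˣ) : 𝓞 K)) ^ p = 1 := by
        rw [hVV, one_pow]
      rw [mul_pow] at h1
      linear_combination (-(ζ ^ r * h37_E p ζ ^ k)) * h1
    rw [e]
    exact Dvd.dvd.mul_left hw _
  obtain ⟨hpr', hpk⟩ := h37_B1 p ζ hζ hp r k _ hdvd
  have hr0 : r = 0 := Nat.eq_zero_of_dvd_of_lt hpr' hr
  obtain ⟨k', rfl⟩ := hpk
  refine ⟨uE ^ k' * (s * v), ?_⟩
  rw [huk, hεs, hr0, pow_zero, one_mul, mul_pow, ← pow_mul, mul_comm k' p, mul_pow,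
    mul_comm (s ^ p) (uE ^ (p * k')), mul_assoc]

end Kummer

end Fermat.Agent.S14
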