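import Mathlib
import Fermat.Agent.S14.h37_Kummer
import Fermat.Agent.S14.h25_UnitsDim

/-!
# S14, CORE-T, package T-KL (final form): Kummer's lemma for the `ω²`-part

`h37_unit_eq_pow`: a unit `u` of `K = ℚ(ζ_p)`, `p ≥ 5`, with `σ_a u = u^(a²) · t^p` for all
`a`, which is a `p`-th power modulo `(1 - ζ)³`, is a `p`-th power of a unit.
(`h37_unit_eq_pow_of_dim` with `hdim` discharged by `h25_unit_eigen_dim_le_one`.)
-/

set_option autoImplicit false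

namespace Fermat.Agent.S14

open NumberField

/-- **(T-KL)** Kummer's lemma for the `ω²`-eigenspace of the units of `ℚ(ζ_p)`. -/
theorem h37_unit_eq_pow (p : ℕ) [Fact p.Prime] {K : Type*} [Field K] [NumberField K]
    [IsCyclotomicExtension {p} ℚ K] (hp : 5 ≤ p) (ζ : 𝓞 K) (hζ : IsPrimitiveRoot ζ p)
    (u : (𝓞 K)ˣ)
    (hu : ∀ (σ : K ≃ₐ[ℚ] K) (a : ℕ), σ (ζ : K) = (ζ : K) ^ a →
      ∃ t : K, σ (u : K) = (u : K) ^ (a ^ 2) * t ^ p)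
    (w : 𝓞 K) (hw : (1 - ζ) ^ 3 ∣ (u : 𝓞 K) - w ^ p) : ∃ v : (𝓞 K)ˣ, u = v ^ p :=
  h37_unit_eq_pow_of_dim p hp
    (fun ζ hζ σ γ hσ hγ A _ u₁ u₂ h₁ h₂ hu₁ =>
      h25_unit_eigen_dim_le_one hp hζ σ γ hσ hγ A u₁ u₂ h₁ h₂ hu₁) ζ hζ u hu w hw

end Fermat.Agent.S14
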