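import Mathlib
import Fermat.Agent.S14.h37_Units

/-!
# S14, CORE-T, row T-MAIN (core): `χ(Q) ≠ 1` forces Thaine's unit to be a `p`-th power mod `Q`

The statement is parametrised by Thaine's relation (`t_thaine_rel`, row T-REL) as a hypothesis.
-/

set_option autoImplicit false

namespace Fermat.Agent.S14

open NumberField
open scoped nonZeroDivisors Pointwise

theorem h46_thaine_main_of_rel (p : ℕ) [Fact p.Prime] (hp5 : 5 ≤ p)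
    (K : Type) [Field K] [NumberField K] [IsCyclotomicExtension {p} ℚ K]
    (ζ : 𝓞 K) (hζ : IsPrimitiveRoot ζ p)
    (hrel : ∀ (q : ℕ), q.Prime → q % p = 1 → ∀ (Q : Ideal (𝓞 K)) [Q.IsPrime],
      (q : 𝓞 K) ∈ Q →
      ∃ (r : (K ≃ₐ[ℚ] K) → ℕ) (s : ℕ) (𝔞 : Ideal (𝓞 K)) (ν : 𝓞 K), ν ≠ 0 ∧
        Ideal.span {ν} = 𝔞 ^ (q - 1) * ∏ σ : K ≃ₐ[ℚ] K, (σ • Q) ^ r σ ∧
        ∀ σ : K ≃ₐ[ℚ] K, (1 - ζ) - (s : 𝓞 K) ^ r σ ∈ σ • Q)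
    (χ : ClassGroup (𝓞 K) →* ℂˣ) (hχp : ∀ c, χ c ^ p = 1)
    (hχσ : ∀ (σ : K ≃ₐ[ℚ] K) (m : ℕ), σ (ζ : K) = (ζ : K) ^ m → ∀ I J : (Ideal (𝓞 K))⁰,
      (J : Ideal (𝓞 K)) = σ • (I : Ideal (𝓞 K)) →
      χ (ClassGroup.mk0 J) = χ (ClassGroup.mk0 I) ^ (m ^ 2))
    (Q : (Ideal (𝓞 K))⁰) (hQ : (Q : Ideal (𝓞 K)).IsPrime)
    (hq : (Ideal.absNorm (Q : Ideal (𝓞 K))).Prime) (hQp : (p : 𝓞 K) ∉ (Q : Ideal (𝓞 K)))
    (hχQ : χ (ClassGroup.mk0 Q) ≠ 1) :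
    ∃ y : 𝓞 K, h37_E p ζ - y ^ p ∈ (Q : Ideal (𝓞 K)) := by
  classical
  have hpr : p.Prime := Fact.out
  have : NeZero p := ⟨hpr.ne_zero⟩
  have hQ0 : (Q : Ideal (𝓞 K)) ≠ ⊥ := mem_nonZeroDivisors_iff_ne_zero.mp Q.2
  have hQmax : (Q : Ideal (𝓞 K)).IsMaximal := hQ.isMaximal hQ0
  -- (1) `1 - ζ ∉ Q`
  have h1ζ : (1 - ζ) ∉ (Q : Ideal (𝓞 K)) := by
    intro hmem
    apply hQp
    have hsum : (p : 𝓞 K) = ∑ j ∈ Finset.range p, (1 - ζ ^ j) := by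
      rw [Finset.sum_sub_distrib, hζ.geom_sum_eq_zero hpr.one_lt]
      simp
    rw [hsum]
    refine Ideal.sum_mem _ (fun j _ => ?_)
    rw [← h37_one_sub_mul_cycU]
    exact Ideal.mul_mem_right _ _ hmem
  -- (2) `q ≡ 1 mod p`
  have hqmem : ((Ideal.absNorm (Q : Ideal (𝓞 K)) : ℕ) : 𝓞 K) ∈ (Q : Ideal (𝓞 K)) :=
    Ideal.absNorm_mem _
  have hqp : Ideal.absNorm (Q : Ideal (𝓞 K)) % p = 1 := by
    let _ : Field (𝓞 K ⧸ (Q : Ideal (𝓞 K))) := Ideal.Quotient.field _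
    have hfin : Finite (𝓞 K ⧸ (Q : Ideal (𝓞 K))) := Ideal.finiteQuotientOfFreeOfNeBot _ hQ0
    let _ : Fintype (𝓞 K ⧸ (Q : Ideal (𝓞 K))) := Fintype.ofFinite _
    have hcard : Fintype.card (𝓞 K ⧸ (Q : Ideal (𝓞 K))) = Ideal.absNorm (Q : Ideal (𝓞 K)) := by
      rw [Ideal.absNorm_apply, Submodule.cardQuot_apply, Nat.card_eq_fintype_card]
    have hζb1 : Ideal.Quotient.mk (Q : Ideal (𝓞 K)) ζ ≠ 1 := by
      intro h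
      apply h1ζ
      rw [← Ideal.Quotient.eq_zero_iff_mem, map_sub, map_one, h, sub_self]
    have hζbp : Ideal.Quotient.mk (Q : Ideal (𝓞 K)) ζ ^ p = 1 := by
      rw [← map_pow, hζ.pow_eq_one, map_one]
    have hord : orderOf (Ideal.Quotient.mk (Q : Ideal (𝓞 K)) ζ) = p :=
      orderOf_eq_prime hζbp hζb1
    have hζb0 : Ideal.Quotient.mk (Q : Ideal (𝓞 K)) ζ ≠ 0 := by
      intro h
      rw [h, zero_pow hpr.ne_zero] at hζbp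
      exact zero_ne_one hζbp
    have hfermat : Ideal.Quotient.mk (Q : Ideal (𝓞 K)) ζ ^
        (Ideal.absNorm (Q : Ideal (𝓞 K)) - 1) = 1 := by
      rw [← hcard]
      exact FiniteField.pow_card_sub_one_eq_one _ hζb0
    have hdvd : p ∣ Ideal.absNorm (Q : Ideal (𝓞 K)) - 1 := by
      rw [← hord]
      exact orderOf_dvd_of_pow_eq_one hfermat
    obtain ⟨k, hk⟩ := hdvd
    have hq2 := hq.two_le
    have hqk : Ideal.absNorm (Q : Ideal (𝓞 K)) = p * k + 1 := by omega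
    rw [hqk, Nat.mul_add_mod, Nat.mod_eq_of_lt hpr.one_lt]
  -- (3) Thaine's relation
  obtain ⟨r, s, 𝔞, ν, hν0, hspan, hcong⟩ := hrel _ hq hqp (Q : Ideal (𝓞 K)) hqmem
  have hq2 := hq.two_le
  have hpq1 : p ∣ Ideal.absNorm (Q : Ideal (𝓞 K)) - 1 :=
    Nat.dvd_of_mod_eq_zero (Nat.sub_mod_eq_zero_of_mod_eq (by
      rw [hqp, Nat.mod_eq_of_lt hpr.one_lt]))
  -- the exponents `m σ`
  set m : (K ≃ₐ[ℚ] K) → ℕ :=
    fun σ => (IsCyclotomicExtension.Rat.galEquivZMod p K σ).val.val with hm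
  have hζK : ((ζ : 𝓞 K) : K) ^ p = 1 := by
    rw [← map_pow, hζ.pow_eq_one, map_one]
  have hmK : ∀ σ : K ≃ₐ[ℚ] K, σ (ζ : K) = (ζ : K) ^ m σ := fun σ =>
    IsCyclotomicExtension.Rat.galEquivZMod_apply_of_pow_eq p K σ hζK
  have hmO : ∀ σ : K ≃ₐ[ℚ] K, σ • ζ = ζ ^ m σ := fun σ =>
    IsCyclotomicExtension.Rat.galEquivZMod_smul_of_pow_eq p K σ hζ.pow_eq_one
  -- (4) the character computation
  have h𝔞0 : 𝔞 ≠ ⊥ := by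
    rintro rfl
    apply hν0
    have hq1 : Ideal.absNorm (Q : Ideal (𝓞 K)) - 1 ≠ 0 := by omega
    rw [← Ideal.zero_eq_bot, zero_pow hq1, zero_mul, Ideal.zero_eq_bot,
      Ideal.span_singleton_eq_bot] at hspan
    exact hspan
  have hσQ0 : ∀ σ : K ≃ₐ[ℚ] K, σ • (Q : Ideal (𝓞 K)) ≠ ⊥ := by
    intro σ h
    apply hQ0
    have h2 : (Q : Ideal (𝓞 K)) = σ⁻¹ • (σ • (Q : Ideal (𝓞 K))) := by rw [inv_smul_smul]
    rw [h2, h, Ideal.smul_bot]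
  let A' : (Ideal (𝓞 K))⁰ := ⟨𝔞, mem_nonZeroDivisors_iff_ne_zero.mpr h𝔞0⟩
  let Qσ : (K ≃ₐ[ℚ] K) → (Ideal (𝓞 K))⁰ :=
    fun σ => ⟨σ • (Q : Ideal (𝓞 K)), mem_nonZeroDivisors_iff_ne_zero.mpr (hσQ0 σ)⟩
  let N' : (Ideal (𝓞 K))⁰ := ⟨Ideal.span {ν}, mem_nonZeroDivisors_iff_ne_zero.mpr (by
    rwa [Ne, Ideal.zero_eq_bot, Ideal.span_singleton_eq_bot])⟩
  have heq : N' = A' ^ (Ideal.absNorm (Q : Ideal (𝓞 K)) - 1) * ∏ σ : K ≃ₐ[ℚ] K, Qσ σ ^ r σ := by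
    apply Subtype.ext
    simp only [N', A', Qσ, Submonoid.coe_mul, SubmonoidClass.coe_pow, Submonoid.coe_finsetProd]
    exact hspan
  have hN1 : ClassGroup.mk0 N' = 1 := (ClassGroup.mk0_eq_one_iff N'.2).mpr ⟨⟨ν, rfl⟩⟩
  have h1 : (1 : ℂˣ) = χ (ClassGroup.mk0 A') ^ (Ideal.absNorm (Q : Ideal (𝓞 K)) - 1) *
      ∏ σ : K ≃ₐ[ℚ] K, χ (ClassGroup.mk0 (Qσ σ)) ^ r σ := by
    have h := congrArg (fun I => χ (ClassGroup.mk0 I)) heq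
    simp only [map_mul, map_pow, map_prod, hN1, map_one] at h
    exact h
  have hA : χ (ClassGroup.mk0 A') ^ (Ideal.absNorm (Q : Ideal (𝓞 K)) - 1) = 1 := by
    obtain ⟨k, hk⟩ := hpq1
    rw [hk, pow_mul, hχp, one_pow]
  have hQσ : ∀ σ : K ≃ₐ[ℚ] K,
      χ (ClassGroup.mk0 (Qσ σ)) = χ (ClassGroup.mk0 Q) ^ (m σ ^ 2) :=
    fun σ => hχσ σ (m σ) (hmK σ) Q (Qσ σ) rfl
  have hS : χ (ClassGroup.mk0 Q) ^ (∑ σ : K ≃ₐ[ℚ] K, m σ ^ 2 * r σ) = 1 := by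
    rw [← Finset.prod_pow_eq_pow_sum]
    rw [hA, one_mul] at h1
    rw [h1]
    refine Finset.prod_congr rfl (fun σ _ => ?_)
    rw [hQσ, pow_mul]
  have hpS : p ∣ ∑ σ : K ≃ₐ[ℚ] K, m σ ^ 2 * r σ := by
    have hord : orderOf (χ (ClassGroup.mk0 Q)) = p := orderOf_eq_prime (hχp _) hχQ
    rw [← hord]
    exact orderOf_dvd_of_pow_eq_one hS
  -- (5) the congruences modulo `Q`
  have hnat : ∀ (g : K ≃ₐ[ℚ] K) (n : ℕ), g • (n : 𝓞 K) = n := fun g n =>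
    map_natCast (MulSemiringAction.toRingHom (K ≃ₐ[ℚ] K) (𝓞 K) g) n
  have hc : ∀ σ : K ≃ₐ[ℚ] K,
      (1 - ζ ^ m σ⁻¹) - (s : 𝓞 K) ^ r σ ∈ (Q : Ideal (𝓞 K)) := by
    intro σ
    have h := hcong σ
    rw [Ideal.mem_pointwise_smul_iff_inv_smul_mem] at h
    have e : σ⁻¹ • ((1 - ζ) - (s : 𝓞 K) ^ r σ) = (1 - ζ ^ m σ⁻¹) - (s : 𝓞 K) ^ r σ := by
      rw [smul_sub, smul_sub, smul_one, hmO σ⁻¹, smul_pow', hnat]
    rwa [e] at h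
  -- (6) the product over the Galois group
  let e : (K ≃ₐ[ℚ] K) ≃ (ZMod p)ˣ :=
    (IsCyclotomicExtension.Rat.galEquivZMod p K).toEquiv.trans (Equiv.inv _)
  have he : ∀ σ : K ≃ₐ[ℚ] K, e σ = (IsCyclotomicExtension.Rat.galEquivZMod p K σ)⁻¹ :=
    fun σ => rfl
  have he_val : ∀ σ : K ≃ₐ[ℚ] K, ((e σ : (ZMod p)ˣ) : ZMod p).val = m σ⁻¹ := by
    intro σ
    rw [he, ← map_inv]
  have he_nE : ∀ σ : K ≃ₐ[ℚ] K,
      ((h37_nE p (e σ) : ℕ) : ZMod p) = ((m σ : ℕ) : ZMod p) ^ 2 := by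
    intro σ
    rw [h37_nE_cast, he, inv_inv, hm]
    simp only [ZMod.natCast_zmod_val]
  have hprod : (1 - ζ) ^ (∑ x : (ZMod p)ˣ, h37_nE p x) * h37_E p ζ
      = ∏ σ : K ≃ₐ[ℚ] K, (1 - ζ ^ m σ⁻¹) ^ h37_nE p (e σ) := by
    rw [h37_one_sub_pow_mul_E]
    symm
    refine Fintype.prod_equiv e _ _ (fun σ => ?_)
    rw [he_val]
  have hmk : Ideal.Quotient.mk (Q : Ideal (𝓞 K))
        ((1 - ζ) ^ (∑ x : (ZMod p)ˣ, h37_nE p x) * h37_E p ζ)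
      = Ideal.Quotient.mk (Q : Ideal (𝓞 K)) (s : 𝓞 K) ^
          (∑ σ : K ≃ₐ[ℚ] K, r σ * h37_nE p (e σ)) := by
    rw [hprod, map_prod, ← Finset.prod_pow_eq_pow_sum]
    refine Finset.prod_congr rfl (fun σ _ => ?_)
    rw [map_pow, pow_mul, ← map_pow _ (s : 𝓞 K)]
    congr 1
    exact Ideal.Quotient.eq.mpr (hc σ)
  have hpe : p ∣ ∑ σ : K ≃ₐ[ℚ] K, r σ * h37_nE p (e σ) := by
    rw [← ZMod.natCast_eq_zero_iff] at hpS ⊢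
    rw [← hpS]
    push_cast
    refine Finset.sum_congr rfl (fun σ _ => ?_)
    rw [he_nE]
    ring
  -- (7) conclusion
  obtain ⟨t, ht⟩ := h37_sum_nE p hp5
  obtain ⟨k, hk⟩ := hpe
  let _ : Field (𝓞 K ⧸ (Q : Ideal (𝓞 K))) := Ideal.Quotient.field _
  have hne : Ideal.Quotient.mk (Q : Ideal (𝓞 K)) (1 - ζ) ≠ 0 := by
    rwa [Ne, Ideal.Quotient.eq_zero_iff_mem]
  obtain ⟨w, hw⟩ := Ideal.Quotient.mk_surjective
    (Ideal.Quotient.mk (Q : Ideal (𝓞 K)) (1 - ζ))⁻¹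
  refine ⟨w ^ t * (s : 𝓞 K) ^ k, ?_⟩
  rw [← Ideal.Quotient.eq]
  rw [ht, hk, map_mul, map_pow] at hmk
  rw [map_pow, map_mul, map_pow, map_pow, hw, mul_pow, ← pow_mul, ← pow_mul, mul_comm k p,
    ← hmk, mul_comm t p, inv_pow, ← mul_assoc, inv_mul_cancel₀ (pow_ne_zero _ hne), one_mul]

end Fermat.Agent.S14
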