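import Mathlib
import Fermat.Agent.S14.Defs

/-!
# S14, package AUX: the auxiliary prime (core, stated against the NS package as a hypothesis)

`K = ℚ(ζ_p)`, `F₁ = K(α)` with `α ^ p = q * q₀ ^ ((p-1) a)`, `F₂ = F₁(β)` with `β ^ p = q₀`.
A degree-one prime of `F₁` which is unramified and not split in `F₂` has norm `q'` with
`q' ≡ 1 (mod p)`, `q ≡ q₀ ^ a * y ^ p (mod q')` and `q₀` not a `p`-th power modulo `q'`.
-/

namespace Fermat.Agent.S14

open NumberField Polynomial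

/-- A `p`-th power in `ℚ` has all its `ℓ`-adic valuations divisible by `p`. -/
theorem h49_dvd_padicValRat_of_pow {p ℓ : ℕ} [Fact ℓ.Prime] {r x : ℚ} (h : r ^ p = x) :
    (p : ℤ) ∣ padicValRat ℓ x := by
  subst h
  rw [padicValRat.pow]; exact dvd_mul_right _ _

theorem h49_padicValRat_m {q q₀ : ℕ} (hq : q.Prime) (hq₀ : q₀.Prime) (hne : q ≠ q₀) (n : ℕ) :
    padicValRat q ((q * q₀ ^ n : ℕ) : ℚ) = 1 := by
  have := Fact.mk hq
  have := Fact.mk hq₀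
  rw [padicValRat.of_nat, padicValNat.mul hq.ne_zero (pow_ne_zero _ hq₀.ne_zero), padicValNat.pow,
    padicValNat_self, padicValNat_primes hne]
  simp

theorem h49_not_dvd_pred {p : ℕ} (hp : p.Prime) : ¬ (p : ℤ) ∣ ((p - 1 : ℕ) : ℤ) := by
  intro h
  have h2 : p ∣ p - 1 := by exact_mod_cast h
  have := Nat.le_of_dvd (by have := hp.two_le; omega) h2
  have := hp.two_le
  omega

/-- `m ^ (p-1)` is not a `p`-th power in `ℚ` for `m = q * q₀ ^ n`. -/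
theorem h49_rat1 {p q q₀ : ℕ} (hp : p.Prime) (hq : q.Prime) (hq₀ : q₀.Prime) (hne : q ≠ q₀)
    (n : ℕ) (r : ℚ) (h : r ^ p = ((q * q₀ ^ n : ℕ) : ℚ) ^ (p - 1)) : False := by
  have := Fact.mk hq
  have h1 := h49_dvd_padicValRat_of_pow (ℓ := q) h
  rw [padicValRat.pow, h49_padicValRat_m hq hq₀ hne, mul_one] at h1
  exact h49_not_dvd_pred hp h1

/-- `q₀ ^ (p-1) = r ^ p * m ^ (k (p-1))` with `k < p` is impossible in `ℚ`. -/
theorem h49_rat2 {p q q₀ : ℕ} (hp : p.Prime) (hq : q.Prime) (hq₀ : q₀.Prime) (hne : q ≠ q₀)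
    (n k : ℕ) (hk : k < p) (r : ℚ)
    (h : ((q₀ : ℕ) : ℚ) ^ (p - 1) = r ^ p * (((q * q₀ ^ n : ℕ) : ℚ) ^ (p - 1)) ^ k) : False := by
  have := Fact.mk hq
  have := Fact.mk hq₀
  have hm0 : ((q * q₀ ^ n : ℕ) : ℚ) ≠ 0 := by
    exact_mod_cast (Nat.mul_ne_zero hq.ne_zero (pow_ne_zero _ hq₀.ne_zero))
  have hq₀0 : ((q₀ : ℕ) : ℚ) ≠ 0 := by exact_mod_cast hq₀.ne_zero
  have hr0 : r ≠ 0 := by
    rintro rfl
    rw [zero_pow hp.ne_zero, zero_mul] at h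
    exact pow_ne_zero _ hq₀0 h
  -- valuation at q
  have hv := congrArg (padicValRat q) h
  rw [padicValRat.pow, padicValRat.mul (pow_ne_zero _ hr0) (pow_ne_zero _ (pow_ne_zero _ hm0)),
    padicValRat.pow, padicValRat.pow, padicValRat.pow,
    h49_padicValRat_m hq hq₀ hne, padicValRat.of_nat, padicValNat_primes hne] at hv
  simp only [Nat.cast_zero, mul_zero, mul_one] at hv
  have hdvd : (p : ℤ) ∣ (k : ℤ) * ((p - 1 : ℕ) : ℤ) := by
    refine ⟨-padicValRat q r, ?_⟩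
    linarith
  have hk0 : k = 0 := by
    have h3 : p ∣ k * (p - 1) := by exact_mod_cast hdvd
    rcases (Nat.Prime.dvd_mul hp).1 h3 with h4 | h4
    · exact Nat.eq_zero_of_dvd_of_lt h4 hk
    · exfalso
      have := Nat.le_of_dvd (by have := hp.two_le; omega) h4
      have := hp.two_le
      omega
  subst hk0
  rw [pow_zero, mul_one] at h
  have h1 := h49_dvd_padicValRat_of_pow (ℓ := q₀) h.symm
  rw [padicValRat.pow, padicValRat.of_nat, padicValNat_self] at h1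
  simp only [Nat.cast_one, mul_one] at h1
  exact h49_not_dvd_pred hp h1

theorem h49_norm_natCast (p : ℕ) [Fact p.Prime] (K : Type) [Field K] [NumberField K]
    [IsCyclotomicExtension {p} ℚ K] (n : ℕ) :
    Algebra.norm ℚ ((n : K)) = (n : ℚ) ^ (p - 1) := by
  have hp : p.Prime := Fact.out
  have : NeZero p := ⟨hp.ne_zero⟩
  have h1 : ((n : K)) = algebraMap ℚ K (n : ℚ) := by simp
  rw [h1, Algebra.norm_algebraMap,
    IsCyclotomicExtension.finrank (n := p) K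
      (Polynomial.cyclotomic.irreducible_rat hp.pos), Nat.totient_prime hp]

/-- `m = q * q₀ ^ n` is not a `p`-th power in `ℚ(ζ_p)`. -/
theorem h49_K1 (p : ℕ) [Fact p.Prime] (K : Type) [Field K] [NumberField K]
    [IsCyclotomicExtension {p} ℚ K] {q q₀ : ℕ} (hq : q.Prime) (hq₀ : q₀.Prime) (hne : q ≠ q₀)
    (n : ℕ) (b : K) : b ^ p ≠ ((q * q₀ ^ n : ℕ) : K) := by
  intro hb
  have h := congrArg (Algebra.norm ℚ) hb
  rw [map_pow, h49_norm_natCast p K] at h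
  exact h49_rat1 Fact.out hq hq₀ hne n _ h

/-- `q₀` is not of the form `κ ^ p * m ^ k`, `k < p`, in `ℚ(ζ_p)`. -/
theorem h49_K2 (p : ℕ) [Fact p.Prime] (K : Type) [Field K] [NumberField K]
    [IsCyclotomicExtension {p} ℚ K] {q q₀ : ℕ} (hq : q.Prime) (hq₀ : q₀.Prime) (hne : q ≠ q₀)
    (n k : ℕ) (hk : k < p) (κ : K)
    (h : ((q₀ : ℕ) : K) = κ ^ p * ((q * q₀ ^ n : ℕ) : K) ^ k) :
    False := by
  have h' := congrArg (Algebra.norm ℚ) h
  rw [map_mul, map_pow, map_pow, h49_norm_natCast p K, h49_norm_natCast p K] at h'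
  exact h49_rat2 Fact.out hq hq₀ hne n k hk _ h'

theorem h49_exists_K (p : ℕ) : ∃ (K : Type) (_ : Field K) (_ : NumberField K),
    IsCyclotomicExtension {p} ℚ K := by
  refine ⟨CyclotomicField p ℚ, inferInstance, inferInstance, ?_⟩
  have h : @IsCyclotomicExtension {p} ℚ (CyclotomicField p ℚ) _ _
      (CyclotomicField.algebra p ℚ) := inferInstance
  exact h

/-- Kummer: a `p`-th root of `c ∈ K` inside `K[ᵖ√m]` is `κ * (ᵖ√m) ^ k` with `κ ∈ K`. -/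
theorem h49_kummer {K : Type} [Field K] {p : ℕ} (hp : p.Prime) {ζ : K} (hζ : IsPrimitiveRoot ζ p)
    (m : K) (H : Irreducible (X ^ p - C m)) (c : K) (hc : c ≠ 0)
    (γ : AdjoinRoot (X ^ p - C m)) (hγ : γ ^ p = AdjoinRoot.of _ c) :
    ∃ k < p, ∃ κ : K, c = κ ^ p * m ^ k := by
  have := Fact.mk H
  have : NeZero p := ⟨hp.ne_zero⟩
  have hζ' : (primitiveRoots p K).Nonempty := ⟨ζ, (mem_primitiveRoots hp.pos).2 hζ⟩
  have := isSplittingField_AdjoinRoot_X_pow_sub_C hζ' H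
  have : IsGalois K (AdjoinRoot (X ^ p - C m)) :=
    isGalois_of_isSplittingField_X_pow_sub_C hζ' H _
  have : FiniteDimensional K (AdjoinRoot (X ^ p - C m)) :=
    Polynomial.IsSplittingField.finiteDimensional _ (X ^ p - C m)
  have hα : (AdjoinRoot.root (X ^ p - C m)) ^ p = algebraMap K _ m := root_X_pow_sub_C_pow p m
  have hα0 : (AdjoinRoot.root (X ^ p - C m)) ≠ 0 := root_X_pow_sub_C_ne_zero hp.one_lt m
  have hγ' : γ ^ p = algebraMap K _ c := hγ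
  have hγ0 : γ ≠ 0 := by
    rintro rfl
    rw [zero_pow hp.ne_zero] at hγ'
    exact hc ((algebraMap K (AdjoinRoot (X ^ p - C m))).injective (by rw [← hγ', map_zero]))
  obtain ⟨τ, hτ, hτα⟩ : ∃ τ : Gal(AdjoinRoot (X ^ p - C m)/K),
      (∀ σ : Gal(AdjoinRoot (X ^ p - C m)/K), ∃ j : ℕ, σ = τ ^ j) ∧
      τ (AdjoinRoot.root (X ^ p - C m)) =
        algebraMap K _ ζ * AdjoinRoot.root (X ^ p - C m) := by
    refine ⟨(autEquivZmod H (AdjoinRoot (X ^ p - C m)) hζ).symm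
      (Multiplicative.ofAdd ((1 : ℕ) : ZMod p)),
      fun σ => ⟨(Multiplicative.toAdd (autEquivZmod H (AdjoinRoot (X ^ p - C m)) hζ σ)).val, ?_⟩,
      ?_⟩
    · rw [← map_pow]
      apply (autEquivZmod H (AdjoinRoot (X ^ p - C m)) hζ).injective
      rw [MulEquiv.apply_symm_apply, ← ofAdd_nsmul]
      simp
    · rw [autEquivZmod_symm_apply_natCast H (AdjoinRoot (X ^ p - C m)) hα hζ 1, pow_one,
        Algebra.smul_def]
  have hζ₁ : IsPrimitiveRoot (algebraMap K (AdjoinRoot (X ^ p - C m)) ζ) p :=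
    hζ.map_of_injective (algebraMap K (AdjoinRoot (X ^ p - C m))).injective
  -- τ γ = ζ^k γ
  obtain ⟨k, hkp, hk⟩ := hζ₁.eq_pow_of_pow_eq_one (ξ := τ γ / γ)
    (by rw [div_pow, ← map_pow, hγ', AlgEquiv.commutes, div_self]; rw [← hγ']; exact pow_ne_zero _ hγ0)
  have hτγ : τ γ = algebraMap K _ ζ ^ k * γ := by
    rw [hk, div_mul_cancel₀ _ hγ0]
  have hτδ : τ (γ / AdjoinRoot.root (X ^ p - C m) ^ k) = γ / AdjoinRoot.root (X ^ p - C m) ^ k := by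
    rw [map_div₀, map_pow, hτα, hτγ, mul_pow]
    have hζ0 : (algebraMap K (AdjoinRoot (X ^ p - C m)) ζ) ^ k ≠ 0 :=
      pow_ne_zero _ (hζ₁.ne_zero hp.ne_zero)
    field_simp
  have hfix : ∀ σ : Gal(AdjoinRoot (X ^ p - C m)/K),
      σ (γ / AdjoinRoot.root (X ^ p - C m) ^ k) = γ / AdjoinRoot.root (X ^ p - C m) ^ k := by
    intro σ
    obtain ⟨j, rfl⟩ := hτ σ
    induction j with
    | zero => simp
    | succ j ih => rw [pow_succ, AlgEquiv.mul_apply, hτδ, ih]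
  obtain ⟨κ, hκ⟩ := (IsGalois.mem_range_algebraMap_iff_fixed _).2 hfix
  refine ⟨k, hkp, κ, ?_⟩
  apply (algebraMap K (AdjoinRoot (X ^ p - C m))).injective
  rw [map_mul, map_pow, map_pow, hκ, ← hγ', ← hα, div_pow, ← pow_mul, ← pow_mul, mul_comm k p]
  field_simp

theorem h49_natCast_not_mem {R : Type*} [CommRing R] (Q : Ideal R) (hQ : Q ≠ ⊤) {n q' : ℕ}
    (hq' : (q' : R) ∈ Q) (hn : Nat.Coprime n q') : (n : R) ∉ Q := by
  intro h
  have h3 : (((n.gcd q' : ℕ) : ℤ) : R) ∈ Q := by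
    rw [Nat.gcd_eq_gcd_ab]
    push_cast
    exact Q.add_mem (Q.mul_mem_right _ h) (Q.mul_mem_right _ hq')
  rw [hn] at h3
  exact hQ ((Ideal.eq_top_iff_one Q).2 (by simpa using h3))

theorem h49_card_quot {F : Type} [Field F] [NumberField F] (P : Ideal (𝓞 F)) :
    Nat.card (𝓞 F ⧸ P) = Ideal.absNorm P := by
  rw [Ideal.absNorm_apply, Submodule.cardQuot_apply]

theorem h49_exists_resEquiv {F : Type} [Field F] [NumberField F] (P : Ideal (𝓞 F))
    (hq' : (Ideal.absNorm P).Prime) : Nonempty (ZMod (Ideal.absNorm P) ≃+* (𝓞 F ⧸ P)) := by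
  have hcard := h49_card_quot P
  have : Finite (𝓞 F ⧸ P) := Nat.finite_of_card_ne_zero (by rw [hcard]; exact hq'.ne_zero)
  let := Fintype.ofFinite (𝓞 F ⧸ P)
  exact ⟨ZMod.ringEquivOfPrime (𝓞 F ⧸ P) hq' (by rw [← Nat.card_eq_fintype_card, hcard])⟩

theorem h49_mod_eq_one {p : ℕ} (hp : p.Prime) {F : Type} [Field F] [NumberField F]
    (ζ : F) (hζ : IsPrimitiveRoot ζ p) (P : Ideal (𝓞 F)) (hP : P.IsPrime) (hP0 : P ≠ ⊥)
    (hq' : (Ideal.absNorm P).Prime) (hp' : Ideal.absNorm P ≠ p) : Ideal.absNorm P % p = 1 := by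
  have := Fact.mk hp
  have : NeZero p := ⟨hp.ne_zero⟩
  have hmax : P.IsMaximal := hP.isMaximal hP0
  let := Ideal.Quotient.field P
  have hcard := h49_card_quot P
  have : Finite (𝓞 F ⧸ P) := Nat.finite_of_card_ne_zero (by rw [hcard]; exact hq'.ne_zero)
  let := Fintype.ofFinite (𝓞 F ⧸ P)
  have hcard' : Fintype.card (𝓞 F ⧸ P) = Ideal.absNorm P := by
    rw [← Nat.card_eq_fintype_card, hcard]
  have hζi := hζ.toInteger_isPrimitiveRoot
  have hz : (Ideal.Quotient.mk P hζ.toInteger) ^ p = 1 := by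
    rw [← map_pow, hζi.pow_eq_one, map_one]
  have hz1 : (Ideal.Quotient.mk P hζ.toInteger) ≠ 1 := by
    intro h1
    have hs := congrArg (Ideal.Quotient.mk P) (hζi.geom_sum_eq_zero hp.one_lt)
    rw [map_sum, map_zero] at hs
    simp only [map_pow, h1, one_pow, Finset.sum_const, Finset.card_range, nsmul_eq_mul,
      mul_one] at hs
    have hmem : (p : 𝓞 F) ∈ P := by
      rw [← Ideal.Quotient.eq_zero_iff_mem, map_natCast]; exact hs
    exact h49_natCast_not_mem P hP.ne_top (Ideal.absNorm_mem P)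
      ((Nat.coprime_primes hp hq').2 (Ne.symm hp')) hmem
  have hz0 : (Ideal.Quotient.mk P hζ.toInteger) ≠ 0 := by
    intro h0
    rw [h0, zero_pow hp.ne_zero] at hz
    exact zero_ne_one hz
  have hord : orderOf (Ideal.Quotient.mk P hζ.toInteger) = p := orderOf_eq_prime hz hz1
  have hdvd : p ∣ Ideal.absNorm P - 1 := by
    rw [← hord, ← hcard']
    exact orderOf_dvd_of_pow_eq_one (FiniteField.pow_card_sub_one_eq_one _ hz0)
  obtain ⟨c, hc⟩ := hdvd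
  have h2 := hq'.two_le
  have h3 : Ideal.absNorm P = p * c + 1 := by omega
  rw [h3, Nat.mul_add_mod]
  exact Nat.mod_eq_of_lt hp.one_lt

theorem h49_exists_y {p : ℕ} (hp : p.Prime) {F : Type} [Field F] [NumberField F]
    (q q₀ a : ℕ) (α : F) (hα : α ^ p = ((q * q₀ ^ ((p - 1) * a) : ℕ) : F))
    (P : Ideal (𝓞 F)) (hP : P.IsPrime) (hP0 : P ≠ ⊥) (hq' : (Ideal.absNorm P).Prime)
    (hq₀' : Nat.Coprime q₀ (Ideal.absNorm P)) :
    ∃ y : ZMod (Ideal.absNorm P),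
      (q : ZMod (Ideal.absNorm P)) = (q₀ : ZMod (Ideal.absNorm P)) ^ a * y ^ p := by
  have hmax : P.IsMaximal := hP.isMaximal hP0
  let := Ideal.Quotient.field P
  obtain ⟨φ⟩ := h49_exists_resEquiv P hq'
  have hint : IsIntegral ℤ α := by
    refine IsIntegral.of_pow hp.pos ?_
    rw [hα]
    exact isIntegral_natCast _
  obtain ⟨αi, hαi⟩ : ∃ αi : 𝓞 F, algebraMap (𝓞 F) F αi = α := ⟨⟨α, hint⟩, rfl⟩
  have hαp : αi ^ p = ((q * q₀ ^ ((p - 1) * a) : ℕ) : 𝓞 F) := by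
    apply RingOfIntegers.coe_injective
    rw [map_pow, map_natCast, hαi]
    exact hα
  have hq₀k : (Ideal.Quotient.mk P (q₀ : 𝓞 F)) ≠ 0 := by
    rw [Ne, Ideal.Quotient.eq_zero_iff_mem]
    exact h49_natCast_not_mem P hP.ne_top (Ideal.absNorm_mem P) hq₀'
  have hk := congrArg (Ideal.Quotient.mk P) hαp
  rw [map_pow, Nat.cast_mul, Nat.cast_pow, map_mul, map_pow, map_natCast, map_natCast] at hk
  rw [map_natCast] at hq₀k
  refine ⟨φ.symm (Ideal.Quotient.mk P αi * (((q₀ : 𝓞 F ⧸ P)) ^ a)⁻¹), ?_⟩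
  apply φ.injective
  rw [map_mul, map_pow, map_pow, RingEquiv.apply_symm_apply, map_natCast, map_natCast, mul_pow, hk]
  have hpa : (p - 1) * a + a = a * p := by
    have := hp.one_le
    calc (p - 1) * a + a = (p - 1 + 1) * a := by ring
      _ = a * p := by rw [Nat.sub_add_cancel this, mul_comm]
  rw [inv_pow, ← pow_mul, ← hpa, pow_add]
  field_simp

theorem h49_not_pow {p : ℕ} (hp : p.Prime)
    {F₁ F₂ : Type} [Field F₁] [NumberField F₁] [Field F₂] [NumberField F₂] [Algebra F₁ F₂]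
    [IsGalois F₁ F₂]
    (ζ : F₁) (hζ : IsPrimitiveRoot ζ p) (q₀ : ℕ)
    (β : F₂) (hβ : β ^ p = (q₀ : F₂))
    (hgen : ∀ σ : F₂ ≃ₐ[F₁] F₂, σ β = β → σ = 1)
    (P : Ideal (𝓞 F₁)) (hP : P.IsPrime) (hP0 : P ≠ ⊥) (hq' : (Ideal.absNorm P).Prime)
    (hp' : Ideal.absNorm P ≠ p) (hq₀' : Nat.Coprime q₀ (Ideal.absNorm P))
    (hmod : Ideal.absNorm P % p = 1)
    (hunr : ∀ Q : Ideal (𝓞 F₂), Q.IsPrime → Q.LiesOver P → Q.ramificationIdx (𝓞 F₁) = 1)
    (hns : ¬ SplitsCompletely (𝓞 F₁) (𝓞 F₂) P) :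
    ¬ ∃ y : ZMod (Ideal.absNorm P), (q₀ : ZMod (Ideal.absNorm P)) = y ^ p := by
  rintro ⟨y, hy⟩
  apply hns
  intro Q hQ hQP
  refine ⟨hunr Q hQ hQP, ?_⟩
  have := Fact.mk hp
  have : NeZero p := ⟨hp.ne_zero⟩
  have := Fact.mk hq'
  have hpq' : Nat.Coprime p (Ideal.absNorm P) := (Nat.coprime_primes hp hq').2 (Ne.symm hp')
  have hQ0 : Q ≠ ⊥ := Ideal.ne_bot_of_liesOver_of_ne_bot hP0 Q
  have : Finite (𝓞 F₂ ⧸ Q) := Ideal.finiteQuotientOfFreeOfNeBot Q hQ0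
  obtain ⟨σ, hσ⟩ := IsArithFrobAt.exists_of_isInvariant (𝓞 F₁) (F₂ ≃ₐ[F₁] F₂) Q
  have hunder : Q.under (𝓞 F₁) = P := hQP.over.symm
  have hcard : Nat.card (𝓞 F₁ ⧸ Q.under (𝓞 F₁)) = Ideal.absNorm P := by
    rw [hunder, h49_card_quot]
  have hσ' : ∀ x : 𝓞 F₂, σ • x - x ^ (Ideal.absNorm P) ∈ Q := by
    intro x
    have := hσ x
    rw [hcard] at this
    exact this
  -- q' ∈ Q
  have hq'Q : ((Ideal.absNorm P : ℕ) : 𝓞 F₂) ∈ Q := by
    have h1 : ((Ideal.absNorm P : ℕ) : 𝓞 F₁) ∈ Q.under (𝓞 F₁) := by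
      rw [hunder]; exact Ideal.absNorm_mem P
    rw [Ideal.under_def, Ideal.mem_comap, map_natCast] at h1
    exact h1
  -- the integral element β
  have hint : IsIntegral ℤ β := by
    refine IsIntegral.of_pow hp.pos ?_
    rw [hβ]
    exact isIntegral_natCast _
  obtain ⟨βi, hβi⟩ : ∃ βi : 𝓞 F₂, algebraMap (𝓞 F₂) F₂ βi = β := ⟨⟨β, hint⟩, rfl⟩
  have hβp : βi ^ p = ((q₀ : ℕ) : 𝓞 F₂) := by
    apply RingOfIntegers.coe_injective
    rw [map_pow, map_natCast, hβi]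
    exact hβ
  have hβ0 : β ≠ 0 := by
    rintro rfl
    rw [zero_pow hp.ne_zero] at hβ
    have h0 : q₀ = 0 := by exact_mod_cast hβ.symm
    rw [h0] at hq₀'
    rw [Nat.coprime_zero_left] at hq₀'
    exact hq'.one_lt.ne' hq₀'
  -- `q₀ ^ c ≡ 1` modulo `q'`
  obtain ⟨c, hc⟩ : ∃ c, Ideal.absNorm P = p * c + 1 :=
    ⟨Ideal.absNorm P / p, by have := Nat.div_add_mod (Ideal.absNorm P) p; omega⟩
  have hy0 : y ≠ 0 := by
    rintro rfl
    rw [zero_pow hp.ne_zero, ZMod.natCast_eq_zero_iff] at hy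
    exact hq'.one_lt.ne' (Nat.Coprime.eq_one_of_dvd hq₀'.symm hy)
  have hpow : ((q₀ ^ c : ℕ) : ZMod (Ideal.absNorm P)) = 1 := by
    have h1 : Ideal.absNorm P - 1 = p * c := by omega
    have h2 := ZMod.pow_card_sub_one_eq_one hy0
    rw [h1] at h2
    rw [Nat.cast_pow, hy, ← pow_mul, h2]
  have hmem1 : ((q₀ ^ c : ℕ) : 𝓞 F₂) - 1 ∈ Q := by
    have h2 : ((Ideal.absNorm P : ℕ) : ℤ) ∣ ((q₀ ^ c : ℕ) : ℤ) - 1 := by
      rw [← ZMod.intCast_zmod_eq_zero_iff_dvd]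
      rw [Int.cast_sub, Int.cast_natCast, hpow]
      simp
    obtain ⟨t, ht⟩ := h2
    have h3 : ((q₀ ^ c : ℕ) : 𝓞 F₂) - 1 = ((Ideal.absNorm P : ℕ) : 𝓞 F₂) * (t : 𝓞 F₂) := by
      have := congrArg (Int.cast : ℤ → 𝓞 F₂) ht
      rw [Int.cast_sub, Int.cast_mul, Int.cast_natCast, Int.cast_natCast, Int.cast_one] at this
      exact this
    rw [h3]
    exact Q.mul_mem_right _ hq'Q
  have hmem2 : βi ^ (Ideal.absNorm P) - βi ∈ Q := by
    have h4 : βi ^ (Ideal.absNorm P) - βi = (((q₀ ^ c : ℕ) : 𝓞 F₂) - 1) * βi := by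
      rw [hc, pow_succ, pow_mul, hβp, Nat.cast_pow]
      ring
    rw [h4]
    exact Q.mul_mem_right _ hmem1
  have hmem3 : σ • βi - βi ∈ Q := by
    have := Q.add_mem (hσ' βi) hmem2
    rwa [sub_add_sub_cancel] at this
  -- `σ β = ζ ^ i * β`
  have hζ₂ : IsPrimitiveRoot (algebraMap F₁ F₂ ζ) p :=
    hζ.map_of_injective (algebraMap F₁ F₂).injective
  have hσβ : (σ β) ^ p = β ^ p := by rw [← map_pow, hβ, map_natCast]
  obtain ⟨i, hip, hi⟩ := hζ₂.eq_pow_of_pow_eq_one (ξ := σ β / β)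
    (by rw [div_pow, hσβ, div_self (pow_ne_zero _ hβ0)])
  have hσβ' : σ β = algebraMap F₁ F₂ ζ ^ i * β := by rw [hi, div_mul_cancel₀ _ hβ0]
  have hζi := hζ.toInteger_isPrimitiveRoot
  have hζ₂i : IsPrimitiveRoot (algebraMap (𝓞 F₁) (𝓞 F₂) hζ.toInteger) p :=
    hζi.map_of_injective (FaithfulSMul.algebraMap_injective (𝓞 F₁) (𝓞 F₂))
  have hσβi : σ • βi = (algebraMap (𝓞 F₁) (𝓞 F₂) hζ.toInteger) ^ i * βi := by
    apply RingOfIntegers.coe_injective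
    rw [algebraMap.smul', AlgEquiv.smul_def, hβi, map_mul, map_pow, hβi, hσβ']
    congr 2
  have hβQ : βi ∉ Q := by
    intro h
    have h5 : ((q₀ : ℕ) : 𝓞 F₂) ∈ Q := by rw [← hβp]; exact Q.pow_mem_of_mem h p hp.pos
    exact h49_natCast_not_mem Q hQ.ne_top hq'Q hq₀' h5
  have hmem4 : (algebraMap (𝓞 F₁) (𝓞 F₂) hζ.toInteger) ^ i - 1 ∈ Q := by
    have h6 : ((algebraMap (𝓞 F₁) (𝓞 F₂) hζ.toInteger) ^ i - 1) * βi ∈ Q := by
      rw [sub_mul, one_mul, ← hσβi]; exact hmem3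
    exact (hQ.mem_or_mem h6).resolve_right hβQ
  have hi0 : i = 0 := by
    by_contra hi0
    have hcop : Nat.Coprime i p :=
      Nat.Coprime.symm ((Nat.Prime.coprime_iff_not_dvd hp).2
        (Nat.not_dvd_of_pos_of_lt (Nat.pos_of_ne_zero hi0) hip))
    have hprim := hζ₂i.pow_of_coprime i hcop
    have hs := congrArg (Ideal.Quotient.mk Q) (hprim.geom_sum_eq_zero hp.one_lt)
    have h1 : Ideal.Quotient.mk Q ((algebraMap (𝓞 F₁) (𝓞 F₂) hζ.toInteger) ^ i) = 1 := by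
      rw [← map_one (Ideal.Quotient.mk Q), Ideal.Quotient.eq]; exact hmem4
    rw [map_sum, map_zero] at hs
    simp only [map_pow, h1, one_pow, Finset.sum_const, Finset.card_range, nsmul_eq_mul,
      mul_one] at hs
    have hmem : (p : 𝓞 F₂) ∈ Q := by
      rw [← Ideal.Quotient.eq_zero_iff_mem, map_natCast]; exact hs
    exact h49_natCast_not_mem Q hQ.ne_top hq'Q hpq' hmem
  have hσ1 : σ = 1 := by
    apply hgen
    rw [hσβ', hi0, pow_zero, one_mul]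
  subst hσ1
  -- the residue field of `Q` has at most `q'` elements
  have hmaxQ : Q.IsMaximal := hQ.isMaximal hQ0
  let := Ideal.Quotient.field Q
  let := Fintype.ofFinite (𝓞 F₂ ⧸ Q)
  have hall : ∀ u : 𝓞 F₂ ⧸ Q, u ^ (Ideal.absNorm P) = u := by
    intro u
    obtain ⟨x, rfl⟩ := Ideal.Quotient.mk_surjective u
    rw [← map_pow, eq_comm, Ideal.Quotient.eq]
    have := hσ' x
    rwa [one_smul] at this
  have hcardle : Fintype.card (𝓞 F₂ ⧸ Q) ≤ Ideal.absNorm P := by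
    classical
    have hne := FiniteField.X_pow_card_sub_X_ne_zero (𝓞 F₂ ⧸ Q) hq'.one_lt
    have hdeg := FiniteField.X_pow_card_sub_X_natDegree_eq (𝓞 F₂ ⧸ Q) hq'.one_lt
    calc Fintype.card (𝓞 F₂ ⧸ Q) = (Finset.univ : Finset (𝓞 F₂ ⧸ Q)).card := Finset.card_univ.symm
      _ ≤ (X ^ (Ideal.absNorm P) - X : (𝓞 F₂ ⧸ Q)[X]).roots.toFinset.card :=
          Finset.card_le_card (fun u _ => by
            rw [Multiset.mem_toFinset, Polynomial.mem_roots hne]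
            simp [hall u])
      _ ≤ Multiset.card (X ^ (Ideal.absNorm P) - X : (𝓞 F₂ ⧸ Q)[X]).roots :=
          Multiset.toFinset_card_le _
      _ ≤ (X ^ (Ideal.absNorm P) - X : (𝓞 F₂ ⧸ Q)[X]).natDegree := Polynomial.card_roots' _
      _ = Ideal.absNorm P := hdeg
  have hNQ : Ideal.absNorm Q ≤ Ideal.absNorm P := by
    rw [← h49_card_quot Q, Nat.card_eq_fintype_card]
    exact hcardle
  have hpowQ := Ideal.absNorm_pow_inertiaDeg P Q
  have hpos := Ideal.inertiaDeg_pos Q (𝓞 F₁)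
  rw [← hpowQ] at hNQ
  have hle : Q.inertiaDeg (𝓞 F₁) ≤ 1 := by
    have h7 : Ideal.absNorm P ^ Q.inertiaDeg (𝓞 F₁) ≤ Ideal.absNorm P ^ 1 := by
      rw [pow_one]; exact hNQ
    exact (Nat.pow_le_pow_iff_right hq'.one_lt).1 h7
  omega

/-- An extension of a number field obtained by adjoining a root is a number field. -/
theorem h49_numberField_adjoinRoot {K : Type} [Field K] [NumberField K] (f : K[X])
    [Fact (Irreducible f)] : NumberField (AdjoinRoot f) := by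
  have : CharZero (AdjoinRoot f) :=
    charZero_of_injective_algebraMap (algebraMap K (AdjoinRoot f)).injective
  have : FiniteDimensional K (AdjoinRoot f) :=
    (AdjoinRoot.powerBasis (Irreducible.ne_zero Fact.out)).finite
  have : FiniteDimensional ℚ (AdjoinRoot f) := Module.Finite.trans K (AdjoinRoot f)
  exact ⟨⟩

/-- The statement of package NS (existence of non-split degree-one primes), as a hypothesis. -/
def h49_NSHyp : Prop :=
  ∀ {p : ℕ} (_ : p.Prime) {F₁ F₂ : Type} [Field F₁] [NumberField F₁] [Field F₂] [NumberField F₂]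
    [Algebra F₁ F₂] [IsGalois F₁ F₂] (_ : Module.finrank F₁ F₂ = p)
    (S : Set (Ideal (𝓞 F₁))) (_ : S.Finite),
    ∃ P : Ideal (𝓞 F₁), P.IsPrime ∧ P ≠ ⊥ ∧ P ∉ S ∧ (Ideal.absNorm P).Prime ∧
      (∀ Q : Ideal (𝓞 F₂), Q.IsPrime → Q.LiesOver P → Q.ramificationIdx (𝓞 F₁) = 1) ∧
      ¬ SplitsCompletely (𝓞 F₁) (𝓞 F₂) P

theorem h49_step2 (hNS : h49_NSHyp) {p : ℕ} (hp : p.Prime) {F₁ : Type} [Field F₁]
    [NumberField F₁] (ζ : F₁) (hζ : IsPrimitiveRoot ζ p) (q q₀ a : ℕ) (hq₀ : q₀.Prime)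
    (α : F₁) (hα : α ^ p = ((q * q₀ ^ ((p - 1) * a) : ℕ) : F₁))
    (H₂ : Irreducible (X ^ p - C (q₀ : F₁))) (S : Finset ℕ) :
    ∃ q' : ℕ, q'.Prime ∧ q' % p = 1 ∧ q' ∉ S ∧ q' ≠ p ∧ q' ≠ q ∧ q' ≠ q₀ ∧
      (∃ y : ZMod q', (q : ZMod q') = (q₀ : ZMod q') ^ a * y ^ p) ∧
      ¬ ∃ y : ZMod q', (q₀ : ZMod q') = y ^ p := by
  have := Fact.mk H₂
  have : NeZero p := ⟨hp.ne_zero⟩
  have hζ' : (primitiveRoots p F₁).Nonempty := ⟨ζ, (mem_primitiveRoots hp.pos).2 hζ⟩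
  have := isSplittingField_AdjoinRoot_X_pow_sub_C hζ' H₂
  have : IsGalois F₁ (AdjoinRoot (X ^ p - C (q₀ : F₁))) :=
    isGalois_of_isSplittingField_X_pow_sub_C hζ' H₂ _
  have : NumberField (AdjoinRoot (X ^ p - C (q₀ : F₁))) := h49_numberField_adjoinRoot _
  have hdeg : Module.finrank F₁ (AdjoinRoot (X ^ p - C (q₀ : F₁))) = p :=
    finrank_of_isSplittingField_X_pow_sub_C hζ' H₂ _
  obtain ⟨P, hP, hP0, hPS, hq', hunr, hns⟩ := hNS hp hdeg
    {P : Ideal (𝓞 F₁) | Ideal.absNorm P ∈ S ∪ {p, q, q₀}}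
    (((S ∪ {p, q, q₀}).finite_toSet.biUnion
      (fun n _ => Ideal.finite_setOfPred_absNorm_eq (S := 𝓞 F₁) n)).subset
      (fun P hP => Set.mem_biUnion (show Ideal.absNorm P ∈ ((S ∪ {p, q, q₀} : Finset ℕ) : Set ℕ)
        from hP) rfl))
  have hnT : Ideal.absNorm P ∉ S ∪ {p, q, q₀} := hPS
  have hp' : Ideal.absNorm P ≠ p := fun h => hnT (by simp [h])
  have hq1 : Ideal.absNorm P ≠ q := fun h => hnT (by simp [h])
  have hq₀' : Ideal.absNorm P ≠ q₀ := fun h => hnT (by simp [h])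
  have hcop : Nat.Coprime q₀ (Ideal.absNorm P) := (Nat.coprime_primes hq₀ hq').2 (Ne.symm hq₀')
  have hmod := h49_mod_eq_one hp ζ hζ P hP hP0 hq' hp'
  refine ⟨Ideal.absNorm P, hq', hmod, fun h => hnT (by simp [h]), hp', hq1, hq₀',
    h49_exists_y hp q q₀ a α hα P hP hP0 hq' hcop, ?_⟩
  refine h49_not_pow hp ζ hζ q₀ (AdjoinRoot.root (X ^ p - C (q₀ : F₁))) ?_ ?_ P hP hP0 hq' hp'
    hcop hmod hunr hns
  · exact (root_X_pow_sub_C_pow p _).trans (map_natCast _ _)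
  · intro σ h
    apply AlgEquiv.coe_toAlgHom_injective
    apply AdjoinRoot.algHom_ext
    simpa using h

theorem h49_step1 (hNS : h49_NSHyp) (p : ℕ) [Fact p.Prime] (K : Type) [Field K] [NumberField K]
    [IsCyclotomicExtension {p} ℚ K] (q q₀ : ℕ) (hq : q.Prime) (hq₀ : q₀.Prime) (hne : q ≠ q₀)
    (a : ℕ) (S : Finset ℕ) :
    ∃ q' : ℕ, q'.Prime ∧ q' % p = 1 ∧ q' ∉ S ∧ q' ≠ p ∧ q' ≠ q ∧ q' ≠ q₀ ∧
      (∃ y : ZMod q', (q : ZMod q') = (q₀ : ZMod q') ^ a * y ^ p) ∧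
      ¬ ∃ y : ZMod q', (q₀ : ZMod q') = y ^ p := by
  have hp : p.Prime := Fact.out
  have : NeZero p := ⟨hp.ne_zero⟩
  obtain ⟨ζ, hζ⟩ :=
    IsCyclotomicExtension.exists_isPrimitiveRoot ℚ K (Set.mem_singleton p) hp.ne_zero
  have H₁ : Irreducible (X ^ p - C ((q * q₀ ^ ((p - 1) * a) : ℕ) : K)) :=
    X_pow_sub_C_irreducible_of_prime hp (h49_K1 p K hq hq₀ hne _)
  have := Fact.mk H₁
  have : NumberField (AdjoinRoot (X ^ p - C ((q * q₀ ^ ((p - 1) * a) : ℕ) : K))) :=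
    h49_numberField_adjoinRoot _
  have hζ₁ : IsPrimitiveRoot
      (algebraMap K (AdjoinRoot (X ^ p - C ((q * q₀ ^ ((p - 1) * a) : ℕ) : K))) ζ) p :=
    hζ.map_of_injective (algebraMap K _).injective
  have H₂ : Irreducible (X ^ p -
      C ((q₀ : ℕ) : AdjoinRoot (X ^ p - C ((q * q₀ ^ ((p - 1) * a) : ℕ) : K)))) := by
    refine X_pow_sub_C_irreducible_of_prime hp (fun γ hγ => ?_)
    obtain ⟨k, hk, κ, hκ⟩ := h49_kummer hp hζ _ H₁ (q₀ : K) (by exact_mod_cast hq₀.ne_zero) γ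
      (hγ.trans (map_natCast _ _).symm)
    exact h49_K2 p K hq hq₀ hne _ k hk κ hκ
  exact h49_step2 hNS hp _ hζ₁ q q₀ a hq₀ (AdjoinRoot.root _)
    ((root_X_pow_sub_C_pow p _).trans (map_natCast _ _)) H₂ S

/-- Package AUX, conditional on package NS. -/
theorem h49_exists_aux_prime_of_NS (hNS : h49_NSHyp) (p : ℕ) [Fact p.Prime] (q q₀ : ℕ)
    (hq : q.Prime) (hq₀ : q₀.Prime) (hne : q ≠ q₀) (a : ℕ) (S : Finset ℕ) :
    ∃ q' : ℕ, q'.Prime ∧ q' % p = 1 ∧ q' ∉ S ∧ q' ≠ p ∧ q' ≠ q ∧ q' ≠ q₀ ∧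
      (∃ y : ZMod q', (q : ZMod q') = (q₀ : ZMod q') ^ a * y ^ p) ∧
      ¬ ∃ y : ZMod q', (q₀ : ZMod q') = y ^ p := by
  obtain ⟨K, _, _, _⟩ := h49_exists_K p
  exact h49_step1 hNS p K q q₀ hq hq₀ hne a S

end Fermat.Agent.S14
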