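import Mathlib
import Fermat.Agent.S14.Defs
import Fermat.Agent.S14.h37_Units
import Fermat.Agent.S14.h37_Local

/-!
CORE-T (backup core of project S14), T-END: the assembly `CoreData p K L → False`, with the
packages that are not landed yet entering as hypotheses (in exactly the shapes of the CORE-T
skeleton).  The final `core_T` (file `CoreT.lean`) is a short wrapper.
-/

namespace Fermat.Agent.S14

open NumberField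
open scoped nonZeroDivisors Pointwise

/-- `n`-th roots of ideals of a Dedekind domain are unique. -/
theorem h56_ideal_pow_inj {R : Type*} [CommRing R] [IsDedekindDomain R] {I J : Ideal R} {n : ℕ}
    (hn : n ≠ 0) (h : I ^ n = J ^ n) : I = J := by
  apply le_antisymm
  · exact Ideal.le_of_dvd ((UniqueFactorizationMonoid.pow_dvd_pow_iff_dvd hn).1 (h ▸ dvd_rfl))
  · exact Ideal.le_of_dvd ((UniqueFactorizationMonoid.pow_dvd_pow_iff_dvd hn).1 (h ▸ dvd_rfl))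

theorem h56_mk0_eq_one_of_principal {R : Type*} [CommRing R] [IsDedekindDomain R]
    (I : (Ideal R)⁰) (h : (I : Ideal R).IsPrincipal) : ClassGroup.mk0 I = 1 := by
  obtain ⟨I, hI⟩ := I
  exact (ClassGroup.mk0_eq_one_iff hI).2 h

section ClassRel

variable {K : Type*} [Field K] [NumberField K]

theorem h56_smul_span (σ : K ≃ₐ[ℚ] K) (x : 𝓞 K) :
    σ • (Ideal.span {x} : Ideal (𝓞 K)) = Ideal.span {σ • x} := by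
  rw [Ideal.pointwise_smul_def, Ideal.map_span, Set.image_singleton]
  rfl

theorem h56_coe_smul (σ : K ≃ₐ[ℚ] K) (x : 𝓞 K) : ((σ • x : 𝓞 K) : K) = σ (x : K) := rfl

/-- **CLASS relation**: if `(β) = 𝔟^p` and `σ β = β^n κ^p`, then `[σ 𝔟] = [𝔟]^n`. -/
theorem h56_class_rel (σ : K ≃ₐ[ℚ] K) (p n : ℕ) (hp : p ≠ 0)
    (β : 𝓞 K) (hβ : β ≠ 0) (𝔟 : (Ideal (𝓞 K))⁰)
    (h𝔟 : Ideal.span {β} = (𝔟 : Ideal (𝓞 K)) ^ p)
    (κ : K) (hκ : σ (β : K) = (β : K) ^ n * κ ^ p)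
    (J : (Ideal (𝓞 K))⁰) (hJ : (J : Ideal (𝓞 K)) = σ • (𝔟 : Ideal (𝓞 K))) :
    ClassGroup.mk0 J = ClassGroup.mk0 𝔟 ^ n := by
  obtain ⟨a, b, hb, rfl⟩ := IsFractionRing.div_surjective (A := 𝓞 K) κ
  have hb0 : b ≠ 0 := nonZeroDivisors.ne_zero hb
  have hbK : (b : K) ≠ 0 := by
    simpa using hb0
  -- the relation in `𝓞 K`
  have hrel : b ^ p * σ • β = β ^ n * a ^ p := by
    apply RingOfIntegers.coe_injective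
    push_cast
    rw [AlgEquiv.smul_def, hκ, div_pow]
    field_simp
  have ha0 : a ≠ 0 := by
    rintro rfl
    rw [zero_pow hp, mul_zero] at hrel
    rcases mul_eq_zero.1 hrel with h | h
    · exact hb0 (pow_eq_zero_iff hp |>.1 h)
    · exact hβ ((smul_eq_zero_iff_eq σ).1 h)
  have hid : (Ideal.span {b} * (J : Ideal (𝓞 K))) ^ p
      = (Ideal.span {a} * ((𝔟 ^ n : (Ideal (𝓞 K))⁰) : Ideal (𝓞 K))) ^ p := by
    rw [hJ, mul_pow, ← smul_pow', ← h𝔟, h56_smul_span, Ideal.span_singleton_pow,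
      Ideal.span_singleton_mul_span_singleton, hrel, mul_pow, SubmonoidClass.coe_pow, ← pow_mul,
      mul_comm n p, pow_mul, ← h𝔟, Ideal.span_singleton_pow, Ideal.span_singleton_pow,
      Ideal.span_singleton_mul_span_singleton, mul_comm]
  have := h56_ideal_pow_inj hp hid
  rw [← map_pow]
  exact ClassGroup.mk0_eq_mk0_iff.2 ⟨b, a, hb0, ha0, this⟩

end ClassRel

section Unit

variable {K L : Type*} [Field K] [NumberField K] [Field L] [Algebra K L]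

theorem h56_unit_of_principal (p : ℕ) (hp : p ≠ 0) (β : 𝓞 K) (hβ : β ≠ 0) (θ : 𝓞 L)
    (hθ : θ ^ p = algebraMap (𝓞 K) (𝓞 L) β) (hnp : ¬ ∃ y : K, y ^ p = (β : K))
    (𝔟 : Ideal (𝓞 K)) (h𝔟 : Ideal.span {β} = 𝔟 ^ p) (hprinc : 𝔟.IsPrincipal)
    (heig : ∀ (σ : K ≃ₐ[ℚ] K) (ζ : K) (m : ℕ), IsPrimitiveRoot ζ p → σ ζ = ζ ^ m →
        ∃ κ : K, σ (β : K) = (β : K) ^ (m ^ 2) * κ ^ p) :
    ∃ (u : (𝓞 K)ˣ) (θ' : 𝓞 L), θ' ^ p = algebraMap (𝓞 K) (𝓞 L) (u : 𝓞 K) ∧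
      (¬ ∃ y : K, y ^ p = ((u : 𝓞 K) : K)) ∧
      ∀ (σ : K ≃ₐ[ℚ] K) (ζ : K) (m : ℕ), IsPrimitiveRoot ζ p → σ ζ = ζ ^ m →
        ∃ t : K, σ ((u : 𝓞 K) : K) = ((u : 𝓞 K) : K) ^ (m ^ 2) * t ^ p := by
  obtain ⟨δ, rfl⟩ := hprinc.principal
  rw [Ideal.submodule_span_eq, Ideal.span_singleton_pow,
    Ideal.span_singleton_eq_span_singleton] at h𝔟
  obtain ⟨u, hu⟩ := h𝔟.symm
  have hδ : δ ≠ 0 := by
    rintro rfl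
    rw [zero_pow hp, zero_mul] at hu
    exact hβ hu.symm
  have hδK : (δ : K) ≠ 0 := by simpa using hδ
  have hδL : algebraMap (𝓞 K) L δ ≠ 0 := by
    rw [IsScalarTower.algebraMap_apply (𝓞 K) K L]
    simpa using hδ
  have huK : (δ : K) ^ p * ((u : 𝓞 K) : K) = (β : K) := by
    rw [← hu]; push_cast; rfl
  -- the root upstairs
  have hθL : (θ : L) ^ p = algebraMap (𝓞 K) L β := by
    have := congrArg (algebraMap (𝓞 L) L) hθ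
    rw [map_pow, ← IsScalarTower.algebraMap_apply] at this
    exact this
  have hpow : ((θ : L) / algebraMap (𝓞 K) L δ) ^ p = algebraMap (𝓞 K) L (u : 𝓞 K) := by
    rw [div_pow, hθL, ← hu, map_mul, map_pow]
    field_simp
  have hint : IsIntegral ℤ ((θ : L) / algebraMap (𝓞 K) L δ) := by
    apply IsIntegral.of_pow (Nat.pos_of_ne_zero hp)
    rw [hpow, IsScalarTower.algebraMap_apply (𝓞 K) (𝓞 L) L]
    exact RingOfIntegers.isIntegral_coe _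
  refine ⟨u, ⟨_, hint⟩, ?_, ?_, ?_⟩
  · apply RingOfIntegers.coe_injective
    rw [← IsScalarTower.algebraMap_apply, ← hpow]
    rfl
  · rintro ⟨y, hy⟩
    exact hnp ⟨δ * y, by rw [mul_pow, hy, huK]⟩
  · intro σ ζ m hζ hσ
    obtain ⟨κ, hκ⟩ := heig σ ζ m hζ hσ
    have hσδ : σ (δ : K) ≠ 0 := by
      simpa using hδK
    refine ⟨(δ : K) ^ (m ^ 2) * κ / σ (δ : K), ?_⟩
    rw [← huK, map_mul, map_pow] at hκ
    rw [div_pow, mul_pow]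
    field_simp
    rw [mul_comm, hκ]
    ring

end Unit

theorem h56_dvd_of_unit_mul {R : Type*} [CommRing R] (π a w : R) (v : Rˣ) (p N : ℕ)
    (h : π ^ N ∣ a * (v : R) ^ p - w ^ p) : π ^ N ∣ a - (w * ((v⁻¹ : Rˣ) : R)) ^ p := by
  have e : a - (w * ((v⁻¹ : Rˣ) : R)) ^ p = (a * (v : R) ^ p - w ^ p) * ((v⁻¹ : Rˣ) : R) ^ p := by
    rw [sub_mul, mul_assoc, ← mul_pow, Units.mul_inv, one_pow, mul_one, mul_pow]
  rw [e]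
  exact Dvd.dvd.mul_right h _

section Cyc

variable {K : Type*} [Field K] [NumberField K] (p : ℕ) [Fact p.Prime]
  [IsCyclotomicExtension {p} ℚ K]

/-- torsion units of `ℚ(ζ_p)` (`p` odd) are `ζ^r` times a `p`-th power (of `±1`). -/
theorem h56_torsion_eq (hp2 : p ≠ 2) (ζ : 𝓞 K) (hζ : IsPrimitiveRoot ζ p) (ε : (𝓞 K)ˣ)
    (hε : ε ∈ NumberField.Units.torsion K) :
    ∃ (r : ℕ) (s : (𝓞 K)ˣ), (ε : 𝓞 K) = ζ ^ r * (s : 𝓞 K) ^ p := by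
  have hpr : p.Prime := Fact.out
  have : NeZero p := ⟨hpr.ne_zero⟩
  have hodd : Odd p := hpr.odd_of_ne_two hp2
  have hζK : IsPrimitiveRoot (ζ : K) p := hζ.map_of_injective RingOfIntegers.coe_injective
  have hfin : IsOfFinOrder ((ε : 𝓞 K) : K) := by
    have h1 : IsOfFinOrder ε := (CommGroup.mem_torsion ε).1 hε
    obtain ⟨n, hn, hn1⟩ := isOfFinOrder_iff_pow_eq_one.1 h1
    refine isOfFinOrder_iff_pow_eq_one.2 ⟨n, hn, ?_⟩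
    have := congrArg (fun x : (𝓞 K)ˣ => ((x : 𝓞 K) : K)) hn1
    simpa using this
  obtain ⟨r, -, hr | hr⟩ := hζK.exists_pow_or_neg_mul_pow_of_isOfFinOrder hodd hfin
  · refine ⟨r, 1, RingOfIntegers.ext ?_⟩
    exact hr.trans (by simp)
  · refine ⟨r, -1, RingOfIntegers.ext ?_⟩
    exact hr.trans (by simp [hodd.neg_one_pow])

/-- Thaine's unit is not a `p`-th power in `K`. -/
theorem h56_E_not_pow (hp5 : 5 ≤ p) (ζ : 𝓞 K) (hζ : IsPrimitiveRoot ζ p) :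
    ¬ ∃ y : K, y ^ p = ((h37_E p ζ : 𝓞 K) : K) := by
  have hpr : p.Prime := Fact.out
  rintro ⟨y, hy⟩
  have hint : IsIntegral ℤ y := by
    apply IsIntegral.of_pow hpr.pos
    rw [hy]
    exact RingOfIntegers.isIntegral_coe _
  obtain ⟨y', rfl⟩ : ∃ y' : 𝓞 K, (y' : K) = y := ⟨⟨y, hint⟩, rfl⟩
  have hy' : y' ^ p = h37_E p ζ := RingOfIntegers.ext (by rw [← hy]; simp)
  have h0 : (1 - ζ) ^ 3 ∣ ζ ^ 0 * h37_E p ζ ^ 1 - y' ^ p := by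
    have : ζ ^ 0 * h37_E p ζ ^ 1 - y' ^ p = 0 := by
      rw [pow_zero, one_mul, pow_one, hy', sub_self]
    rw [this]
    exact dvd_zero _
  have := (h37_B1 p ζ hζ hp5 0 1 _ h0).2
  exact hpr.one_lt.ne' (Nat.dvd_one.1 this)

/-- Thaine's unit is not a torsion unit times a `p`-th power. -/
theorem h56_E_not_torsion_pow (hp5 : 5 ≤ p) (ζ : 𝓞 K) (hζ : IsPrimitiveRoot ζ p)
    (u₁ : (𝓞 K)ˣ) (hu₁ : (u₁ : 𝓞 K) = h37_E p ζ) :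
    ¬ ∃ ε v : (𝓞 K)ˣ, ε ∈ NumberField.Units.torsion K ∧ u₁ = ε * v ^ p := by
  have hpr : p.Prime := Fact.out
  rintro ⟨ε, v, hε, h⟩
  obtain ⟨r, s, hrs⟩ := h56_torsion_eq p (by omega) ζ hζ ε hε
  have h1 : h37_E p ζ = ζ ^ r * ((s * v : (𝓞 K)ˣ) : 𝓞 K) ^ p := by
    rw [← hu₁, h]
    push_cast
    rw [hrs]
    ring
  have h0 : (1 - ζ) ^ 3 ∣ ζ ^ ((p - 1) * r) * h37_E p ζ ^ 1 - ((s * v : (𝓞 K)ˣ) : 𝓞 K) ^ p := by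
    have : ζ ^ ((p - 1) * r) * h37_E p ζ ^ 1 - ((s * v : (𝓞 K)ˣ) : 𝓞 K) ^ p = 0 := by
      rw [pow_one, h1, ← mul_assoc, ← pow_add]
      have e : (p - 1) * r + r = p * r := by
        have := hpr.one_lt
        zify [this.le]
        ring
      rw [e, pow_mul, hζ.pow_eq_one, one_pow, one_mul, sub_self]
    rw [this]
    exact dvd_zero _
  have := (h37_B1 p ζ hζ hp5 _ 1 _ h0).2
  exact hpr.one_lt.ne' (Nat.dvd_one.1 this)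

end Cyc

section CycW

variable (K : Type*) [Field K] [NumberField K] (p : ℕ) [Fact p.Prime]
  [IsCyclotomicExtension {p} ℚ K]

/-- the exponents of the Galois action on `p`-th roots of unity. -/
theorem h56_exists_w : ∃ w : (K ≃ₐ[ℚ] K) → ℕ,
    (∀ a b, (w (a * b) : ZMod p) = w a * w b) ∧ (∀ a, (w a : ZMod p) ≠ 0) ∧
    (∀ (σ : K ≃ₐ[ℚ] K) (x : K), x ^ p = 1 → σ x = x ^ w σ) ∧
    ∃ σ, orderOf (w σ : ZMod p) = p - 1 := by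
  have hpr : p.Prime := Fact.out
  have : NeZero p := ⟨hpr.ne_zero⟩
  refine ⟨fun σ => ((IsCyclotomicExtension.Rat.galEquivZMod p K σ : (ZMod p)ˣ) : ZMod p).val,
    ?_, ?_, ?_, ?_⟩
  · intro a b
    simp only [ZMod.natCast_zmod_val, map_mul, Units.val_mul]
  · intro a
    simp only [ZMod.natCast_zmod_val]
    exact Units.ne_zero _
  · intro σ x hx
    exact IsCyclotomicExtension.Rat.galEquivZMod_apply_of_pow_eq p K σ hx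
  · obtain ⟨g, hg⟩ := IsCyclic.exists_generator (α := (ZMod p)ˣ)
    refine ⟨(IsCyclotomicExtension.Rat.galEquivZMod p K).symm g, ?_⟩
    simp only [ZMod.natCast_zmod_val, MulEquiv.apply_symm_apply]
    rw [orderOf_units, orderOf_eq_card_of_forall_mem_zpowers hg, Nat.card_eq_fintype_card,
      ZMod.card_units]

theorem h56_card_aut : Nat.card (K ≃ₐ[ℚ] K) = p - 1 := by
  have hpr : p.Prime := Fact.out
  have : NeZero p := ⟨hpr.ne_zero⟩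
  rw [Nat.card_congr (IsCyclotomicExtension.Rat.galEquivZMod p K).toEquiv,
    Nat.card_eq_fintype_card, ZMod.card_units]

theorem h56_not_dvd_card [Fintype (K ≃ₐ[ℚ] K)] : ¬ p ∣ Fintype.card (K ≃ₐ[ℚ] K) := by
  have hpr : p.Prime := Fact.out
  rw [← Nat.card_eq_fintype_card, h56_card_aut K p]
  intro h
  have := Nat.le_of_dvd (by have := hpr.two_le; omega) h
  have := hpr.two_le
  omega

end CycW

section UnitEnd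

variable {K L : Type*} [Field K] [NumberField K] [Field L] [NumberField L] [Algebra K L]
  (p : ℕ) [Fact p.Prime] [IsCyclotomicExtension {p} ℚ K]

/-- end of the argument when the units are `ζ^j` times `p`-th powers (used for `p = 3`). -/
theorem h56_unit_pow_lite (ζ : 𝓞 K) (hζ : IsPrimitiveRoot ζ p)
    (hsplit : ∀ P : Ideal (𝓞 K), P.IsPrime → (p : 𝓞 K) ∈ P → SplitsCompletely (𝓞 K) (𝓞 L) P)
    (hunits : ∀ u : (𝓞 K)ˣ, ∃ (j : ℕ) (v : (𝓞 K)ˣ), (u : 𝓞 K) = ζ ^ j * (v : 𝓞 K) ^ p)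
    (hlite : ∀ (j : ℕ) (w : 𝓞 K), (1 - ζ) ^ 2 ∣ ζ ^ j - w ^ p → p ∣ j)
    (u : (𝓞 K)ˣ) (θ' : 𝓞 L) (hθ' : θ' ^ p = algebraMap (𝓞 K) (𝓞 L) (u : 𝓞 K)) :
    ∃ y : K, y ^ p = ((u : 𝓞 K) : K) := by
  obtain ⟨j, v, hjv⟩ := hunits u
  obtain ⟨w, hw⟩ := h37_exists_pow_congr ζ hζ hsplit θ' (u : 𝓞 K) p hθ' 2
  rw [hjv] at hw
  obtain ⟨c, rfl⟩ := hlite j _ (h56_dvd_of_unit_mul _ _ _ _ _ _ hw)
  refine ⟨((v : 𝓞 K) : K), ?_⟩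
  rw [hjv, pow_mul, hζ.pow_eq_one, one_pow, one_mul]
  simp

/-- end of the argument for `p ≥ 5`: a unit in the `ω²`-eigenspace which is a `p`-th power
in a field where the primes over `p` split completely is a `p`-th power. -/
theorem h56_unit_pow_ge5 (hp5 : 5 ≤ p) (ζ : 𝓞 K) (hζ : IsPrimitiveRoot ζ p)
    (hsplit : ∀ P : Ideal (𝓞 K), P.IsPrime → (p : 𝓞 K) ∈ P → SplitsCompletely (𝓞 K) (𝓞 L) P)
    (hB2 : ∀ (ζ : K), IsPrimitiveRoot ζ p → ∀ (σ : K ≃ₐ[ℚ] K) (γ : ℕ), σ ζ = ζ ^ γ →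
      orderOf (γ : ZMod p) = p - 1 → ∀ (A : ℕ), (A : ZMod p) = (γ : ZMod p) ^ 2 →
      ∀ (u₁ u₂ : (𝓞 K)ˣ), (∃ t : K, σ (u₁ : K) = (u₁ : K) ^ A * t ^ p) →
      (∃ t : K, σ (u₂ : K) = (u₂ : K) ^ A * t ^ p) →
      (¬ ∃ ε v : (𝓞 K)ˣ, ε ∈ NumberField.Units.torsion K ∧ u₁ = ε * v ^ p) →
      ∃ (k : ℕ) (ε v : (𝓞 K)ˣ), ε ∈ NumberField.Units.torsion K ∧ u₂ = ε * u₁ ^ k * v ^ p)
    (u : (𝓞 K)ˣ) (θ' : 𝓞 L) (hθ' : θ' ^ p = algebraMap (𝓞 K) (𝓞 L) (u : 𝓞 K))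
    (heig : ∀ (σ : K ≃ₐ[ℚ] K) (ζ : K) (m : ℕ), IsPrimitiveRoot ζ p → σ ζ = ζ ^ m →
        ∃ t : K, σ ((u : 𝓞 K) : K) = ((u : 𝓞 K) : K) ^ (m ^ 2) * t ^ p) :
    ∃ y : K, y ^ p = ((u : 𝓞 K) : K) := by
  have hpr : p.Prime := Fact.out
  have hζK : IsPrimitiveRoot (ζ : K) p := hζ.map_of_injective RingOfIntegers.coe_injective
  obtain ⟨w, -, hw0, hwspec, σ, hσord⟩ := h56_exists_w K p
  have hσζ : σ (ζ : K) = (ζ : K) ^ w σ := hwspec σ _ hζK.pow_eq_one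
  -- Thaine's unit
  set u₁ : (𝓞 K)ˣ := (h37_E_isUnit (p := p) hζ).unit with hu₁def
  have hu₁ : (u₁ : 𝓞 K) = h37_E p ζ := IsUnit.unit_spec _
  have hndvd : ¬ p ∣ w σ := by
    rw [← ZMod.natCast_eq_zero_iff]
    exact hw0 σ
  have h₁ : ∃ t : K, σ (u₁ : K) = (u₁ : K) ^ (w σ ^ 2) * t ^ p := by
    obtain ⟨v, hv⟩ := h37_E_eig hζK hp5 (σ : K →+* K) (w σ) hndvd hσζ
    refine ⟨((v⁻¹ : Kˣ) : K), ?_⟩
    have e : ((u₁ : 𝓞 K) : K) = h37_E p (ζ : K) := by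
      rw [hu₁]
      exact h37_E_map p (algebraMap (𝓞 K) K) ζ
    show σ ((u₁ : 𝓞 K) : K) = ((u₁ : 𝓞 K) : K) ^ (w σ ^ 2) * ((v⁻¹ : Kˣ) : K) ^ p
    rw [e, hv]
    have : (σ : K →+* K) (h37_E p (ζ : K)) = σ (h37_E p (ζ : K)) := rfl
    rw [this, mul_assoc, ← mul_pow, Units.mul_inv, one_pow, mul_one]
  have h₂ : ∃ t : K, σ (u : K) = (u : K) ^ (w σ ^ 2) * t ^ p := heig σ _ _ hζK hσζ
  obtain ⟨k, ε, v, hε, huv⟩ := hB2 _ hζK σ (w σ) hσζ hσord (w σ ^ 2) (by push_cast; rfl)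
    u₁ u h₁ h₂ (h56_E_not_torsion_pow p hp5 ζ hζ u₁ hu₁)
  obtain ⟨r, s, hrs⟩ := h56_torsion_eq p (by omega) ζ hζ ε hε
  have hu : (u : 𝓞 K) = ζ ^ r * h37_E p ζ ^ k * ((s * v : (𝓞 K)ˣ) : 𝓞 K) ^ p := by
    rw [huv]
    push_cast
    rw [hrs, hu₁]
    ring
  obtain ⟨y, hy⟩ := h37_exists_pow_congr ζ hζ hsplit θ' (u : 𝓞 K) p hθ' 3
  rw [hu] at hy
  obtain ⟨⟨c, rfl⟩, ⟨d, rfl⟩⟩ := h37_B1 p ζ hζ hp5 r k _ (h56_dvd_of_unit_mul _ _ _ _ _ _ hy)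
  refine ⟨((h37_E p ζ ^ d * ((s * v : (𝓞 K)ˣ) : 𝓞 K) : 𝓞 K) : K), ?_⟩
  rw [hu, pow_mul, hζ.pow_eq_one, one_pow, one_mul]
  push_cast
  ring

end UnitEnd

theorem h56_modEq_of_pow_eq {F : Type*} [Field F] {ζ : F} {p : ℕ} (hζ : IsPrimitiveRoot ζ p)
    (hp : p ≠ 0) {a b : ℕ} (h : ζ ^ a = ζ ^ b) : a ≡ b [MOD p] := by
  have h0 : ζ ≠ 0 := hζ.ne_zero hp
  rw [Nat.modEq_iff_dvd]
  apply (hζ.zpow_eq_one_iff_dvd _).1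
  rw [zpow_sub₀ h0, zpow_natCast, zpow_natCast, h, div_self (pow_ne_zero _ h0)]

section ClassTrivial

variable {K : Type} [Field K] [NumberField K] (p : ℕ) [Fact p.Prime]
  [IsCyclotomicExtension {p} ℚ K]

/-- for `p ≥ 5`: an `ω²`-eigenclass of order dividing `p` is trivial (Thaine). -/
theorem h56_class_trivial_ge5 (hp5 : 5 ≤ p) (ζ : 𝓞 K) (hζ : IsPrimitiveRoot ζ p)
    (s : (K ≃ₐ[ℚ] K) →* Monoid.End (ClassGroup (𝓞 K)))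
    (hs : ∀ (σ : K ≃ₐ[ℚ] K) (I J : (Ideal (𝓞 K))⁰),
        (J : Ideal (𝓞 K)) = σ • (I : Ideal (𝓞 K)) →
        s σ (ClassGroup.mk0 I) = ClassGroup.mk0 J)
    (hALG : ∀ (s : (K ≃ₐ[ℚ] K) →* Monoid.End (ClassGroup (𝓞 K))) (w : (K ≃ₐ[ℚ] K) → ℕ),
      (∀ a b, (w (a * b) : ZMod p) = w a * w b) → (∀ a, (w a : ZMod p) ≠ 0) →
      ∀ x : ClassGroup (𝓞 K), x ≠ 1 → x ^ p = 1 → (∀ a, s a x = x ^ (w a ^ 2)) →
      ∃ χ : ClassGroup (𝓞 K) →* ℂˣ, χ ≠ 1 ∧ (∀ c, χ c ^ p = 1) ∧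
        ∀ (a : K ≃ₐ[ℚ] K) (c : ClassGroup (𝓞 K)), χ (s a c) = χ c ^ (w a ^ 2))
    (hMAIN : ∀ (χ : ClassGroup (𝓞 K) →* ℂˣ), (∀ c, χ c ^ p = 1) →
      (∀ (σ : K ≃ₐ[ℚ] K) (m : ℕ), σ (ζ : K) = (ζ : K) ^ m → ∀ I J : (Ideal (𝓞 K))⁰,
        (J : Ideal (𝓞 K)) = σ • (I : Ideal (𝓞 K)) →
        χ (ClassGroup.mk0 J) = χ (ClassGroup.mk0 I) ^ (m ^ 2)) →
      ∀ (Q : (Ideal (𝓞 K))⁰), (Q : Ideal (𝓞 K)).IsPrime →
      (Ideal.absNorm (Q : Ideal (𝓞 K))).Prime → (p : 𝓞 K) ∉ (Q : Ideal (𝓞 K)) →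
      χ (ClassGroup.mk0 Q) ≠ 1 → ∃ y : 𝓞 K, h37_E p ζ - y ^ p ∈ (Q : Ideal (𝓞 K)))
    (hDENS : ∀ (χ : ClassGroup (𝓞 K) →* ℂˣ), χ ≠ 1 → ∀ u : 𝓞 K, u ≠ 0 →
      (¬ ∃ y : K, y ^ p = (u : K)) →
      ∃ Q : (Ideal (𝓞 K))⁰, (Q : Ideal (𝓞 K)).IsPrime ∧
        (Ideal.absNorm (Q : Ideal (𝓞 K))).Prime ∧ (p : 𝓞 K) ∉ (Q : Ideal (𝓞 K)) ∧
        χ (ClassGroup.mk0 Q) ≠ 1 ∧ ¬ ∃ y : 𝓞 K, u - y ^ p ∈ (Q : Ideal (𝓞 K)))
    (x : ClassGroup (𝓞 K)) (hpx : x ^ p = 1)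
    (hx : ∀ (σ : K ≃ₐ[ℚ] K) (m : ℕ), σ (ζ : K) = (ζ : K) ^ m → s σ x = x ^ (m ^ 2)) :
    x = 1 := by
  by_contra hx1
  have hpr : p.Prime := Fact.out
  have hζK : IsPrimitiveRoot (ζ : K) p := hζ.map_of_injective RingOfIntegers.coe_injective
  obtain ⟨w, hw, hw0, hwspec, -⟩ := h56_exists_w K p
  obtain ⟨χ, hχ1, hχp, hχs⟩ := hALG s w hw hw0 x hx1 hpx
    (fun a => hx a (w a) (hwspec a _ hζK.pow_eq_one))
  have hχσ : ∀ (σ : K ≃ₐ[ℚ] K) (m : ℕ), σ (ζ : K) = (ζ : K) ^ m → ∀ I J : (Ideal (𝓞 K))⁰,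
      (J : Ideal (𝓞 K)) = σ • (I : Ideal (𝓞 K)) →
      χ (ClassGroup.mk0 J) = χ (ClassGroup.mk0 I) ^ (m ^ 2) := by
    intro σ m hσ I J hJ
    rw [← hs σ I J hJ, hχs]
    have h1 : w σ ≡ m [MOD p] := by
      have := hwspec σ _ hζK.pow_eq_one
      rw [hσ] at this
      exact (h56_modEq_of_pow_eq hζK hpr.ne_zero this).symm
    have h2 : w σ ^ 2 ≡ m ^ 2 [MOD orderOf (χ (ClassGroup.mk0 I))] :=
      (h1.pow 2).of_dvd (orderOf_dvd_of_pow_eq_one (hχp _))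
    exact pow_eq_pow_iff_modEq.2 h2
  have hE0 : h37_E p ζ ≠ 0 := (h37_E_isUnit (p := p) hζ).ne_zero
  obtain ⟨Q, hQ, hq, hQp, hχQ, hno⟩ := hDENS χ hχ1 (h37_E p ζ) hE0 (h56_E_not_pow p hp5 ζ hζ)
  exact hno (hMAIN χ hχp hχσ Q hQ hq hQp hχQ)

end ClassTrivial

/-- **CORE-T assembly**, with the packages `t_kummer`, `t_classAction`, `t_alg`,
`t_thaine_main`, `t_dens`, (B2), `t_p3` and (B1-lite) as hypotheses. -/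
theorem h56_core_T_of (p : ℕ) [Fact p.Prime] (hp2 : p ≠ 2)
    (K L : Type) [Field K] [NumberField K] [Field L] [NumberField L] [Algebra K L]
    [IsCyclotomicExtension {p} ℚ K] (h : CoreData p K L)
    (hKUM : ∃ (β : 𝓞 K) (θ : 𝓞 L) (𝔟 : Ideal (𝓞 K)), β ≠ 0 ∧
      θ ^ p = algebraMap (𝓞 K) (𝓞 L) β ∧
      (¬ ∃ y : K, y ^ p = (β : K)) ∧ Ideal.span {β} = 𝔟 ^ p ∧
      ∀ (σ : K ≃ₐ[ℚ] K) (ζ : K) (m : ℕ), IsPrimitiveRoot ζ p → σ ζ = ζ ^ m →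
        ∃ κ : K, σ (β : K) = (β : K) ^ (m ^ 2) * κ ^ p)
    (hACT : ∃ s : (K ≃ₐ[ℚ] K) →* Monoid.End (ClassGroup (𝓞 K)),
      ∀ (σ : K ≃ₐ[ℚ] K) (I J : (Ideal (𝓞 K))⁰),
        (J : Ideal (𝓞 K)) = σ • (I : Ideal (𝓞 K)) →
        s σ (ClassGroup.mk0 I) = ClassGroup.mk0 J)
    (hALG : ∀ (s : (K ≃ₐ[ℚ] K) →* Monoid.End (ClassGroup (𝓞 K))) (w : (K ≃ₐ[ℚ] K) → ℕ),
      (∀ a b, (w (a * b) : ZMod p) = w a * w b) → (∀ a, (w a : ZMod p) ≠ 0) →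
      ∀ x : ClassGroup (𝓞 K), x ≠ 1 → x ^ p = 1 → (∀ a, s a x = x ^ (w a ^ 2)) →
      ∃ χ : ClassGroup (𝓞 K) →* ℂˣ, χ ≠ 1 ∧ (∀ c, χ c ^ p = 1) ∧
        ∀ (a : K ≃ₐ[ℚ] K) (c : ClassGroup (𝓞 K)), χ (s a c) = χ c ^ (w a ^ 2))
    (hMAIN : 5 ≤ p → ∀ (ζ : 𝓞 K), IsPrimitiveRoot ζ p →
      ∀ (χ : ClassGroup (𝓞 K) →* ℂˣ), (∀ c, χ c ^ p = 1) →
      (∀ (σ : K ≃ₐ[ℚ] K) (m : ℕ), σ (ζ : K) = (ζ : K) ^ m → ∀ I J : (Ideal (𝓞 K))⁰,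
        (J : Ideal (𝓞 K)) = σ • (I : Ideal (𝓞 K)) →
        χ (ClassGroup.mk0 J) = χ (ClassGroup.mk0 I) ^ (m ^ 2)) →
      ∀ (Q : (Ideal (𝓞 K))⁰), (Q : Ideal (𝓞 K)).IsPrime →
      (Ideal.absNorm (Q : Ideal (𝓞 K))).Prime → (p : 𝓞 K) ∉ (Q : Ideal (𝓞 K)) →
      χ (ClassGroup.mk0 Q) ≠ 1 → ∃ y : 𝓞 K, h37_E p ζ - y ^ p ∈ (Q : Ideal (𝓞 K)))
    (hDENS : ∀ (χ : ClassGroup (𝓞 K) →* ℂˣ), χ ≠ 1 → ∀ u : 𝓞 K, u ≠ 0 →
      (¬ ∃ y : K, y ^ p = (u : K)) →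
      ∃ Q : (Ideal (𝓞 K))⁰, (Q : Ideal (𝓞 K)).IsPrime ∧
        (Ideal.absNorm (Q : Ideal (𝓞 K))).Prime ∧ (p : 𝓞 K) ∉ (Q : Ideal (𝓞 K)) ∧
        χ (ClassGroup.mk0 Q) ≠ 1 ∧ ¬ ∃ y : 𝓞 K, u - y ^ p ∈ (Q : Ideal (𝓞 K)))
    (hB2 : 5 ≤ p → ∀ (ζ : K), IsPrimitiveRoot ζ p → ∀ (σ : K ≃ₐ[ℚ] K) (γ : ℕ), σ ζ = ζ ^ γ →
      orderOf (γ : ZMod p) = p - 1 → ∀ (A : ℕ), (A : ZMod p) = (γ : ZMod p) ^ 2 →
      ∀ (u₁ u₂ : (𝓞 K)ˣ), (∃ t : K, σ (u₁ : K) = (u₁ : K) ^ A * t ^ p) →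
      (∃ t : K, σ (u₂ : K) = (u₂ : K) ^ A * t ^ p) →
      (¬ ∃ ε v : (𝓞 K)ˣ, ε ∈ NumberField.Units.torsion K ∧ u₁ = ε * v ^ p) →
      ∃ (k : ℕ) (ε v : (𝓞 K)ˣ), ε ∈ NumberField.Units.torsion K ∧ u₂ = ε * u₁ ^ k * v ^ p)
    (hP3 : p = 3 → ∀ (ζ : 𝓞 K), IsPrimitiveRoot ζ p →
      (∀ I : Ideal (𝓞 K), I.IsPrincipal) ∧
      ∀ u : (𝓞 K)ˣ, ∃ (j : ℕ) (v : (𝓞 K)ˣ), (u : 𝓞 K) = ζ ^ j * (v : 𝓞 K) ^ p)
    (hLITE : ∀ (ζ : 𝓞 K), IsPrimitiveRoot ζ p → ∀ (j : ℕ) (w : 𝓞 K),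
      (1 - ζ) ^ 2 ∣ ζ ^ j - w ^ p → p ∣ j) : False := by
  have hpr : p.Prime := Fact.out
  have : NeZero p := ⟨hpr.ne_zero⟩
  have hcase : p = 3 ∨ 5 ≤ p := by
    have h4 : p ≠ 4 := by
      rintro rfl
      exact absurd hpr (by norm_num)
    have := hpr.two_le
    omega
  -- the root of unity
  have hζK0 := IsCyclotomicExtension.zeta_spec p ℚ K
  obtain ⟨ζ, hζ⟩ : ∃ ζ : 𝓞 K, IsPrimitiveRoot ζ p := ⟨_, hζK0.toInteger_isPrimitiveRoot⟩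
  have hζK : IsPrimitiveRoot (ζ : K) p := hζ.map_of_injective RingOfIntegers.coe_injective
  obtain ⟨β, θ, 𝔟, hβ, hθ, hnp, h𝔟, heig⟩ := hKUM
  -- `𝔟` is principal
  have hprinc : 𝔟.IsPrincipal := by
    rcases hcase with h3 | h5
    · exact (hP3 h3 ζ hζ).1 𝔟
    · obtain ⟨s, hs⟩ := hACT
      have h𝔟0 : 𝔟 ≠ ⊥ := by
        rintro rfl
        rw [← Ideal.zero_eq_bot, zero_pow hpr.ne_zero, Ideal.zero_eq_bot,
          Ideal.span_singleton_eq_bot] at h𝔟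
        exact hβ h𝔟
      have h𝔟mem : 𝔟 ∈ (Ideal (𝓞 K))⁰ := mem_nonZeroDivisors_iff_ne_zero.2 h𝔟0
      have hx1 : ClassGroup.mk0 ⟨𝔟, h𝔟mem⟩ = 1 := by
        apply h56_class_trivial_ge5 p h5 ζ hζ s hs hALG (hMAIN h5 ζ hζ) hDENS
        · rw [← map_pow]
          refine h56_mk0_eq_one_of_principal _ ⟨β, ?_⟩
          rw [SubmonoidClass.coe_pow]
          exact h𝔟.symm
        · intro σ m hσ
          obtain ⟨κ, hκ⟩ := heig σ ζ m hζK hσ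
          have hJ0 : σ • 𝔟 ∈ (Ideal (𝓞 K))⁰ := by
            rw [mem_nonZeroDivisors_iff_ne_zero]
            intro h0
            exact h𝔟0 ((smul_eq_zero_iff_eq σ).1 h0)
          rw [hs σ ⟨𝔟, h𝔟mem⟩ ⟨σ • 𝔟, hJ0⟩ rfl]
          exact h56_class_rel σ p (m ^ 2) hpr.ne_zero β hβ ⟨𝔟, h𝔟mem⟩ h𝔟 κ hκ _ rfl
      exact (ClassGroup.mk0_eq_one_iff h𝔟mem).1 hx1
  obtain ⟨u, θ', hθ', hnu, heigu⟩ :=
    h56_unit_of_principal p hpr.ne_zero β hβ θ hθ hnp 𝔟 h𝔟 hprinc heig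
  apply hnu
  rcases hcase with h3 | h5
  · exact h56_unit_pow_lite p ζ hζ h.split_p (hP3 h3 ζ hζ).2 (hLITE ζ hζ) u θ' hθ'
  · exact h56_unit_pow_ge5 p h5 ζ hζ h.split_p (hB2 h5) u θ' hθ' heigu

end Fermat.Agent.S14
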