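import Mathlib
import Fermat.Agent.S14.Defs
import Fermat.Agent.S14.h56_CoreTOf
import Fermat.Agent.S14.TKummer
import Fermat.Agent.S14.TAlg
import Fermat.Agent.S14.TP3
import Fermat.Agent.S14.h25_UnitsDim
import Fermat.Agent.S14.h46_TMainCore
import Fermat.Agent.S14.h35_Dens
import Fermat.Agent.S14.LBD

/-!
CORE-T (backup core of project S14), T-END: `CoreData p K L → False` with Thaine's relation
(`t_thaine_rel`, the only package of CORE-T which is not landed yet) as the single hypothesis.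
-/

namespace Fermat.Agent.S14

open NumberField
open scoped nonZeroDivisors Pointwise

/-- **CORE-T modulo Thaine's relation.** -/
theorem h56_core_T_of_rel (p : ℕ) [Fact p.Prime] (hp2 : p ≠ 2)
    (K L : Type) [Field K] [NumberField K] [Field L] [NumberField L] [Algebra K L]
    [IsCyclotomicExtension {p} ℚ K] [IsGalois ℚ L] (h : CoreData p K L)
    (hrel : 5 ≤ p → ∀ (ζ : 𝓞 K), IsPrimitiveRoot ζ p →
      ∀ (q : ℕ), q.Prime → q % p = 1 → ∀ (Q : Ideal (𝓞 K)) [Q.IsPrime],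
      (q : 𝓞 K) ∈ Q →
      ∃ (r : (K ≃ₐ[ℚ] K) → ℕ) (s : ℕ) (𝔞 : Ideal (𝓞 K)) (ν : 𝓞 K), ν ≠ 0 ∧
        Ideal.span {ν} = 𝔞 ^ (q - 1) * ∏ σ : K ≃ₐ[ℚ] K, (σ • Q) ^ r σ ∧
        ∀ σ : K ≃ₐ[ℚ] K, (1 - ζ) - (s : 𝓞 K) ^ r σ ∈ σ • Q) : False :=
  h56_core_T_of p hp2 K L h (t_kummer p hp2 K L h) (t_classAction K)
    (fun s w hw hw0 x hx hpx hs =>
      t_alg p (h56_not_dvd_card K p) s w hw hw0 x hx hpx hs)
    (fun hp5 ζ hζ χ hχp hχσ Q hQ hq hQp hχQ =>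
      h46_thaine_main_of_rel p hp5 K ζ hζ (hrel hp5 ζ hζ) χ hχp hχσ Q hQ hq hQp hχQ)
    (fun χ hχ u hu0 hu =>
      h35_dens_of (Fact.out : p.Prime) hp2 K _ (IsCyclotomicExtension.zeta_spec p ℚ K) χ
        (classLSeries_bounded K χ hχ) u hu0 hu)
    (fun hp5 _ hζ σ γ hσ hγ A _ u₁ u₂ h₁ h₂ hu₁ =>
      h25_unit_eigen_dim_le_one hp5 hζ σ γ hσ hγ A u₁ u₂ h₁ h₂ hu₁)
    (fun h3 ζ hζ => by subst h3; exact t_p3 K ζ hζ)
    (fun ζ hζ j w hjw => h30_B1_lite p hp2 K ζ hζ j w hjw)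

end Fermat.Agent.S14
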