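import Mathlib

set_option autoImplicit false
set_option linter.unusedSectionVars false

/-!
# Maps between class groups (package SI of S14)

For an extension `L/K` of number fields: the norm `Cl(L) → Cl(K)`, the extension map
`Cl(K) → Cl(L)` and the action of `Gal(L/K)` on `Cl(L)`, each characterised on `ClassGroup.mk0`.
-/

namespace Fermat.Agent.S14

open NumberField
open scoped nonZeroDivisors Pointwise

section Lift

variable {R : Type*} [CommRing R] [IsDedekindDomain R] {G : Type*} [CommGroup G]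

/-- the nonzero principal ideal generated by a nonzero element -/
noncomputable def h92_spanNZ (x : R) (hx : x ≠ 0) : (Ideal R)⁰ :=
  ⟨Ideal.span {x}, mem_nonZeroDivisors_of_ne_zero (by simpa using hx)⟩

theorem h92_lift_wd (φ : (Ideal R)⁰ →* G) (hφ : ∀ (x : R) (hx : x ≠ 0), φ (h92_spanNZ x hx) = 1)
    {I J : (Ideal R)⁰} (h : ClassGroup.mk0 I = ClassGroup.mk0 J) : φ I = φ J := by
  obtain ⟨x, y, hx, hy, hxy⟩ := ClassGroup.mk0_eq_mk0_iff.mp h
  have h1 : h92_spanNZ x hx * I = h92_spanNZ y hy * J := Subtype.ext hxy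
  have h2 := congrArg φ h1
  rwa [map_mul, map_mul, hφ, hφ, one_mul, one_mul] at h2

/-- A monoid hom on nonzero ideals which kills principal ideals descends to the class group. -/
theorem h92_exists_lift (φ : (Ideal R)⁰ →* G)
    (hφ : ∀ (x : R) (hx : x ≠ 0), φ (h92_spanNZ x hx) = 1) :
    ∃ θ : ClassGroup R →* G, ∀ I : (Ideal R)⁰, θ (ClassGroup.mk0 I) = φ I := by
  classical
  have hsurj := ClassGroup.mk0_surjective (R := R)
  let f : ClassGroup R → G := fun c => φ (Classical.choose (hsurj c))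
  have hf : ∀ I : (Ideal R)⁰, f (ClassGroup.mk0 I) = φ I := fun I =>
    h92_lift_wd φ hφ (Classical.choose_spec (hsurj (ClassGroup.mk0 I)))
  refine ⟨{ toFun := f, map_one' := ?_, map_mul' := ?_ }, hf⟩
  · have := hf 1
    rwa [map_one, map_one] at this
  · intro a b
    obtain ⟨I, rfl⟩ := hsurj a
    obtain ⟨J, rfl⟩ := hsurj b
    rw [← map_mul, hf, hf, hf, map_mul]

end Lift

section Maps

variable (K L : Type*) [Field K] [NumberField K] [Field L] [NumberField L] [Algebra K L]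

/-- relative norm on nonzero ideals -/
noncomputable def h92_normNZ : (Ideal (𝓞 L))⁰ →* (Ideal (𝓞 K))⁰ where
  toFun I := ⟨Ideal.relNorm (𝓞 K) (I : Ideal (𝓞 L)), mem_nonZeroDivisors_of_ne_zero (by
    rw [Ne, Ideal.zero_eq_bot, Ideal.relNorm_eq_bot_iff]
    exact nonZeroDivisors.coe_ne_zero I)⟩
  map_one' := Subtype.ext (by simp)
  map_mul' I J := Subtype.ext (by simp)

/-- extension of nonzero ideals -/
noncomputable def h92_extNZ : (Ideal (𝓞 K))⁰ →* (Ideal (𝓞 L))⁰ where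
  toFun I := ⟨(I : Ideal (𝓞 K)).map (algebraMap (𝓞 K) (𝓞 L)), mem_nonZeroDivisors_of_ne_zero (by
    rw [Ne, Ideal.zero_eq_bot, Ideal.map_eq_bot_iff_of_injective
      (FaithfulSMul.algebraMap_injective (𝓞 K) (𝓞 L))]
    exact nonZeroDivisors.coe_ne_zero I)⟩
  map_one' := Subtype.ext (by simp [Ideal.one_eq_top, Ideal.map_top])
  map_mul' I J := Subtype.ext (by simp [Ideal.map_mul])


variable {K L} in
/-- Galois action on nonzero ideals -/
noncomputable def h92_galNZ (σ : L ≃ₐ[K] L) : (Ideal (𝓞 L))⁰ →* (Ideal (𝓞 L))⁰ where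
  toFun I := ⟨σ • (I : Ideal (𝓞 L)), mem_nonZeroDivisors_of_ne_zero (by
    intro h
    have h2 : (I : Ideal (𝓞 L)) = σ⁻¹ • (σ • (I : Ideal (𝓞 L))) := (inv_smul_smul σ _).symm
    rw [h, Ideal.zero_eq_bot, Ideal.smul_bot] at h2
    exact nonZeroDivisors.coe_ne_zero I h2)⟩
  map_one' := Subtype.ext (by
    change σ • (1 : Ideal (𝓞 L)) = 1
    rw [Ideal.one_eq_top, eq_top_iff, Ideal.subset_pointwise_smul_iff]
    exact le_top)
  map_mul' I J := Subtype.ext (by simp)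

theorem h92_normNZ_spanNZ (x : 𝓞 L) (hx : x ≠ 0) :
    ClassGroup.mk0 (h92_normNZ K L (h92_spanNZ x hx)) = 1 := by
  rw [ClassGroup.mk0_eq_one_iff]
  change (Ideal.relNorm (𝓞 K) (Ideal.span {x})).IsPrincipal
  rw [Ideal.relNorm_singleton]
  exact ⟨⟨_, rfl⟩⟩

theorem h92_extNZ_spanNZ (x : 𝓞 K) (hx : x ≠ 0) :
    ClassGroup.mk0 (h92_extNZ K L (h92_spanNZ x hx)) = 1 := by
  rw [ClassGroup.mk0_eq_one_iff]
  change ((Ideal.span {x}).map (algebraMap (𝓞 K) (𝓞 L))).IsPrincipal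
  rw [Ideal.map_span, Set.image_singleton]
  exact ⟨⟨_, rfl⟩⟩

variable {K L} in
theorem h92_galNZ_spanNZ (σ : L ≃ₐ[K] L) (x : 𝓞 L) (hx : x ≠ 0) :
    ClassGroup.mk0 (h92_galNZ σ (h92_spanNZ x hx)) = 1 := by
  rw [ClassGroup.mk0_eq_one_iff]
  change (σ • Ideal.span {x}).IsPrincipal
  rw [Ideal.smul_closure, Set.smul_set_singleton]
  exact ⟨⟨_, rfl⟩⟩

/-- The norm map `Cl(L) → Cl(K)`. -/
noncomputable def h92_clNorm : ClassGroup (𝓞 L) →* ClassGroup (𝓞 K) :=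
  Classical.choose (h92_exists_lift (ClassGroup.mk0.comp (h92_normNZ K L))
    (fun x hx => h92_normNZ_spanNZ K L x hx))

theorem h92_clNorm_mk0 (I : (Ideal (𝓞 L))⁰) :
    h92_clNorm K L (ClassGroup.mk0 I) = ClassGroup.mk0 (h92_normNZ K L I) :=
  Classical.choose_spec (h92_exists_lift (ClassGroup.mk0.comp (h92_normNZ K L))
    (fun x hx => h92_normNZ_spanNZ K L x hx)) I

/-- The extension map `Cl(K) → Cl(L)`. -/
noncomputable def h92_clExt : ClassGroup (𝓞 K) →* ClassGroup (𝓞 L) :=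
  Classical.choose (h92_exists_lift (ClassGroup.mk0.comp (h92_extNZ K L))
    (fun x hx => h92_extNZ_spanNZ K L x hx))

theorem h92_clExt_mk0 (I : (Ideal (𝓞 K))⁰) :
    h92_clExt K L (ClassGroup.mk0 I) = ClassGroup.mk0 (h92_extNZ K L I) :=
  Classical.choose_spec (h92_exists_lift (ClassGroup.mk0.comp (h92_extNZ K L))
    (fun x hx => h92_extNZ_spanNZ K L x hx)) I

variable {K L} in
/-- The action of `σ ∈ Gal(L/K)` on `Cl(L)`. -/
noncomputable def h92_clGal (σ : L ≃ₐ[K] L) : ClassGroup (𝓞 L) →* ClassGroup (𝓞 L) :=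
  Classical.choose (h92_exists_lift (ClassGroup.mk0.comp (h92_galNZ σ))
    (fun x hx => h92_galNZ_spanNZ σ x hx))

variable {K L} in
theorem h92_clGal_mk0 (σ : L ≃ₐ[K] L) (I : (Ideal (𝓞 L))⁰) :
    h92_clGal σ (ClassGroup.mk0 I) = ClassGroup.mk0 (h92_galNZ σ I) :=
  Classical.choose_spec (h92_exists_lift (ClassGroup.mk0.comp (h92_galNZ σ))
    (fun x hx => h92_galNZ_spanNZ σ x hx)) I

@[simp] theorem h92_normNZ_coe (I : (Ideal (𝓞 L))⁰) :
    ((h92_normNZ K L I : (Ideal (𝓞 K))⁰) : Ideal (𝓞 K)) = Ideal.relNorm (𝓞 K) (I : Ideal (𝓞 L)) :=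
  rfl

@[simp] theorem h92_extNZ_coe (I : (Ideal (𝓞 K))⁰) :
    ((h92_extNZ K L I : (Ideal (𝓞 L))⁰) : Ideal (𝓞 L))
      = (I : Ideal (𝓞 K)).map (algebraMap (𝓞 K) (𝓞 L)) :=
  rfl

variable {K L} in
@[simp] theorem h92_galNZ_coe (σ : L ≃ₐ[K] L) (I : (Ideal (𝓞 L))⁰) :
    ((h92_galNZ σ I : (Ideal (𝓞 L))⁰) : Ideal (𝓞 L)) = σ • (I : Ideal (𝓞 L)) :=
  rfl

/-- `N (σ c) = N c`. -/
theorem h92_clNorm_clGal [IsGalois K L] (σ : L ≃ₐ[K] L) (c : ClassGroup (𝓞 L)) :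
    h92_clNorm K L (h92_clGal σ c) = h92_clNorm K L c := by
  obtain ⟨I, rfl⟩ := ClassGroup.mk0_surjective c
  rw [h92_clGal_mk0, h92_clNorm_mk0, h92_clNorm_mk0]
  congr 1
  have : SMulCommClass (L ≃ₐ[K] L) (𝓞 K) (𝓞 L) :=
    (inferInstance : IsGaloisGroup (L ≃ₐ[K] L) (𝓞 K) (𝓞 L)).commutes
  exact Subtype.ext (Ideal.relNorm_smul (𝓞 K) σ (I : Ideal (𝓞 L)))

/-- `N (j c) = c ^ [L:K]`. -/
theorem h92_clNorm_clExt (c : ClassGroup (𝓞 K)) :
    h92_clNorm K L (h92_clExt K L c) = c ^ Module.finrank K L := by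
  obtain ⟨I, rfl⟩ := ClassGroup.mk0_surjective c
  rw [h92_clExt_mk0, h92_clNorm_mk0, ← map_pow]
  congr 1
  refine Subtype.ext ?_
  rw [h92_normNZ_coe, h92_extNZ_coe, Ideal.relNorm_algebraMap,
    ← IsFractionRing.finrank_eq (𝓞 K) K (𝓞 L) L]
  rfl


variable {K L} in
/-- `c ↦ σ c / c` on `Cl(L)`. -/
noncomputable def h92_clD (σ : L ≃ₐ[K] L) : ClassGroup (𝓞 L) →* ClassGroup (𝓞 L) :=
  h92_clGal σ / MonoidHom.id _

variable {K L} in
theorem h92_clD_apply (σ : L ≃ₐ[K] L) (c : ClassGroup (𝓞 L)) :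
    h92_clD σ c = h92_clGal σ c / c := rfl

variable {K L} in
theorem h92_mem_ker_clD (σ : L ≃ₐ[K] L) (c : ClassGroup (𝓞 L)) :
    c ∈ (h92_clD σ).ker ↔ h92_clGal σ c = c := by
  rw [MonoidHom.mem_ker, h92_clD_apply, div_eq_one]

/-- `N (σ c / c) = 1`. -/
theorem h92_clNorm_clD [IsGalois K L] (σ : L ≃ₐ[K] L) (c : ClassGroup (𝓞 L)) :
    h92_clNorm K L (h92_clD σ c) = 1 := by
  rw [h92_clD_apply, map_div, h92_clNorm_clGal, div_self']

end Maps

end Fermat.Agent.S14
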