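import Mathlib
import Fermat.Agent.S14.h84_Split

set_option autoImplicit false

/-!
# S14, package AUX (core): from a non-split degree-one prime of a Kummer extension to the
congruence conditions on the rational prime below it.

`F₂ / F₁` is a Galois extension of number fields of prime degree `p`, `F₁` contains a primitive
`p`-th root of unity `ζ`, an integer `α` with `α ^ p = A`, and `F₂` is generated over `F₁` by an
integer `β` with `β ^ p = q₀`.  If `P` is a prime of `F₁` of prime norm `q'`, prime to `p q₀`,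
unramified and not completely split in `F₂`, then `q' ≡ 1 mod p`, `A` is a `p`-th power modulo `q'`
and `q₀` is not.
-/

open NumberField
open scoped Pointwise

namespace Fermat.Agent.S14

/-- If `z` is a primitive `p`-th root of unity (`p` prime) and `z - 1 ∈ I`, then `p ∈ I`. -/
theorem h97_prime_mem_of_sub_one_mem {R : Type*} [CommRing R] [IsDomain R] {p : ℕ}
    [Fact p.Prime] {z : R} (hz : IsPrimitiveRoot z p) (I : Ideal R) (h : z - 1 ∈ I) :
    (p : R) ∈ I := by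
  have h0 : ∑ i ∈ Finset.range p, z ^ i = 0 := by
    have := hz.isRoot_cyclotomic (Fact.out : p.Prime).pos
    rw [Polynomial.cyclotomic_prime, Polynomial.IsRoot.def, Polynomial.eval_finsetSum] at this
    simpa using this
  have h1 : ∀ i : ℕ, z ^ i - 1 ∈ I := by
    intro i
    induction i with
    | zero => simp
    | succ i ih =>
      have : z ^ (i + 1) - 1 = z ^ i * (z - 1) + (z ^ i - 1) := by ring
      rw [this]
      exact I.add_mem (I.mul_mem_left _ h) ih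
  have h3 : (p : R) = - ∑ i ∈ Finset.range p, (z ^ i - 1) := by
    rw [Finset.sum_sub_distrib, h0]; simp
  rw [h3]
  exact I.neg_mem (I.sum_mem fun i _ => h1 i)

section core

variable {F₁ F₂ : Type*} [Field F₁] [NumberField F₁] [Field F₂] [NumberField F₂]
    [Algebra F₁ F₂] [IsGalois F₁ F₂]

set_option maxHeartbeats 800000 in
theorem h97_aux_core {p : ℕ} [Fact p.Prime] (hdeg : Module.finrank F₁ F₂ = p)
    (ζ : 𝓞 F₁) (hζ : IsPrimitiveRoot ζ p) (A q₀ : ℕ)
    (α : 𝓞 F₁) (hα : α ^ p = (A : 𝓞 F₁))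
    (β : 𝓞 F₂) (hβ : β ^ p = (q₀ : 𝓞 F₂))
    (hgen : ∀ σ : F₂ ≃ₐ[F₁] F₂, σ (β : F₂) = (β : F₂) → σ = 1)
    (M : ℕ) (hpM : p ∣ M) (hqM : q₀ ∣ M)
    (P : Ideal (𝓞 F₁)) (hP : P.IsPrime) (hP0 : P ≠ ⊥) (hMP : (M : 𝓞 F₁) ∉ P)
    (q' : ℕ) (hq' : q'.Prime) (hN : Ideal.absNorm P = q')
    (hunr : ∀ Q : Ideal (𝓞 F₂), Q.IsPrime → Q.LiesOver P → Q.ramificationIdx (𝓞 F₁) = 1)
    (hns : ¬ SplitsCompletely (𝓞 F₁) (𝓞 F₂) P) :
    q' % p = 1 ∧ ¬ q' ∣ M ∧ (∃ y : ZMod q', (A : ZMod q') = y ^ p) ∧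
      ¬ ∃ y : ZMod q', (q₀ : ZMod q') = y ^ p := by
  have hpp : p.Prime := Fact.out
  have hpP : (p : 𝓞 F₁) ∉ P := fun h => hMP (by
    obtain ⟨m, rfl⟩ := hpM; push_cast; exact P.mul_mem_right _ h)
  have hq₀P : (q₀ : 𝓞 F₁) ∉ P := fun h => hMP (by
    obtain ⟨m, rfl⟩ := hqM; push_cast; exact P.mul_mem_right _ h)
  have hq'P : (q' : 𝓞 F₁) ∈ P := hN ▸ Ideal.absNorm_mem P
  have : P.IsMaximal := hP.isMaximal hP0
  let : Field (𝓞 F₁ ⧸ P) := Ideal.Quotient.field P
  have : Finite (𝓞 F₁ ⧸ P) := Ideal.finiteQuotientOfFreeOfNeBot P hP0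
  let : Fintype (𝓞 F₁ ⧸ P) := Fintype.ofFinite _
  have hcard : Fintype.card (𝓞 F₁ ⧸ P) = q' := by
    rw [← Nat.card_eq_fintype_card, ← hN, Ideal.absNorm_apply, Submodule.cardQuot_apply]
  let e : ZMod q' ≃+* (𝓞 F₁ ⧸ P) := ZMod.ringEquivOfPrime _ hq' hcard
  -- (1) `q' ≡ 1 mod p`
  have hζ1 : Ideal.Quotient.mk P ζ ≠ 1 := by
    intro h
    apply hpP
    apply h97_prime_mem_of_sub_one_mem hζ P
    rw [← Ideal.Quotient.eq_zero_iff_mem, map_sub, h, map_one, sub_self]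
  have hζp : Ideal.Quotient.mk P ζ ^ p = 1 := by rw [← map_pow, hζ.pow_eq_one, map_one]
  have hord : orderOf (Ideal.Quotient.mk P ζ) = p := orderOf_eq_prime hζp hζ1
  have hζ0 : Ideal.Quotient.mk P ζ ≠ 0 := by
    intro h; rw [h, zero_pow hpp.ne_zero] at hζp; exact zero_ne_one hζp
  have hdvd : p ∣ q' - 1 := by
    rw [← hord]
    apply orderOf_dvd_of_pow_eq_one
    have := FiniteField.pow_card_sub_one_eq_one (Ideal.Quotient.mk P ζ) hζ0
    rwa [hcard] at this
  obtain ⟨m, hm⟩ := hdvd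
  have hq'eq : q' = 1 + p * m := by have := hq'.one_lt; omega
  have h1 : q' % p = 1 := by
    rw [hq'eq, Nat.add_mul_mod_self_left, Nat.mod_eq_of_lt hpp.one_lt]
  refine ⟨h1, ?_, ?_, ?_⟩
  · rintro ⟨m', rfl⟩
    apply hMP; push_cast; exact P.mul_mem_right _ hq'P
  · refine ⟨e.symm (Ideal.Quotient.mk P α), ?_⟩
    apply e.injective
    rw [map_natCast, map_pow, RingEquiv.apply_symm_apply, ← map_pow, hα, map_natCast]
  · rintro ⟨y, hy⟩
    obtain ⟨c, hc⟩ := Ideal.Quotient.mk_surjective (e y)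
    have hc' : Ideal.Quotient.mk P (q₀ : 𝓞 F₁) = Ideal.Quotient.mk P c ^ p := by
      rw [hc, ← map_pow, ← hy, map_natCast, map_natCast]
    have hc0 : Ideal.Quotient.mk P c ≠ 0 := by
      intro h
      rw [h, zero_pow hpp.ne_zero, Ideal.Quotient.eq_zero_iff_mem] at hc'
      exact hq₀P hc'
    have hq₀m : (q₀ : 𝓞 F₁) ^ m - 1 ∈ P := by
      rw [← Ideal.Quotient.eq_zero_iff_mem, map_sub, map_pow, map_one, hc', ← pow_mul, ← hm,
        ← hcard, FiniteField.pow_card_sub_one_eq_one _ hc0, sub_self]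
    -- the prime `P` is inert
    rcases h84_split_or_inert_ideal F₁ F₂ (by rw [hdeg]; exact hpp) P hP hP0 hunr with
      hsp | ⟨⟨Q, hQ, hQP, -⟩, hf⟩
    · exact hns hsp
    have hQ0 : Q ≠ ⊥ := h84_ne_bot_of_liesOver F₁ F₂ P hP0 Q hQP
    have hfQ : Q.inertiaDeg (𝓞 F₁) = p := by rw [hf Q hQ hQP, hdeg]
    have hNQ : Ideal.absNorm Q = q' ^ p := by
      rw [h84_absNorm_eq_pow_ideal F₁ F₂ P Q hQ hQ0 hQP, hN, hfQ]
    have := hQ
    have := hQP
    have : Finite (𝓞 F₂ ⧸ Q) := Ideal.finiteQuotientOfFreeOfNeBot Q hQ0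
    obtain ⟨σ, hσ⟩ := IsArithFrobAt.exists_of_isInvariant (𝓞 F₁) (F₂ ≃ₐ[F₁] F₂) Q
    have hunder : Q.under (𝓞 F₁) = P := hQP.over.symm
    have hcardP : Nat.card (𝓞 F₁ ⧸ Q.under (𝓞 F₁)) = q' := by
      rw [hunder, ← hN, Ideal.absNorm_apply, Submodule.cardQuot_apply]
    have hσ' : ∀ x : 𝓞 F₂, σ • x - x ^ q' ∈ Q := by
      intro x
      have := hσ x
      rw [hcardP] at this
      exact this
    -- the action of `σ` on `β`
    have hq₀0 : (q₀ : F₂) ≠ 0 := by
      intro h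
      have : q₀ = 0 := by exact_mod_cast h
      apply hq₀P
      rw [this]; simp
    have hβF : (β : F₂) ^ p = (q₀ : F₂) := by
      have := congrArg (fun x : 𝓞 F₂ => (x : F₂)) hβ
      simpa using this
    have hβ0 : (β : F₂) ≠ 0 := by
      intro h
      rw [h, zero_pow hpp.ne_zero] at hβF
      exact hq₀0 hβF.symm
    have hσβp : (σ (β : F₂)) ^ p = (β : F₂) ^ p := by
      rw [← map_pow, hβF, map_natCast]
    have hζ₂ : IsPrimitiveRoot (algebraMap (𝓞 F₁) F₂ ζ) p :=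
      hζ.map_of_injective (FaithfulSMul.algebraMap_injective (𝓞 F₁) F₂)
    have : NeZero p := ⟨hpp.ne_zero⟩
    obtain ⟨i, hi, hiξ⟩ := hζ₂.eq_pow_of_pow_eq_one (ξ := σ (β : F₂) / (β : F₂))
      (by rw [div_pow, hσβp, div_self (pow_ne_zero _ hβ0)])
    have hσβ : σ (β : F₂) = algebraMap (𝓞 F₁) F₂ ζ ^ i * (β : F₂) := by
      rw [hiξ]; field_simp
    have hσβ' : σ • β = algebraMap (𝓞 F₁) (𝓞 F₂) ζ ^ i * β := by
      apply RingOfIntegers.ext
      show σ (β : F₂) = _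
      rw [hσβ]
      simp [IsScalarTower.algebraMap_apply (𝓞 F₁) (𝓞 F₂) F₂]
    have hβq' : β ^ q' = β * (q₀ : 𝓞 F₂) ^ m := by
      rw [hq'eq, pow_add, pow_one, pow_mul, hβ]
    have hq₀m' : (q₀ : 𝓞 F₂) ^ m - 1 ∈ Q := by
      have := (Ideal.mem_of_liesOver Q P _).mp hq₀m
      simpa using this
    have hkey : (algebraMap (𝓞 F₁) (𝓞 F₂) ζ ^ i - 1) * β ∈ Q := by
      have h1 := hσ' β
      rw [hσβ', hβq'] at h1
      have : (algebraMap (𝓞 F₁) (𝓞 F₂) ζ ^ i - 1) * β =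
          (algebraMap (𝓞 F₁) (𝓞 F₂) ζ ^ i * β - β * (q₀ : 𝓞 F₂) ^ m) +
            β * ((q₀ : 𝓞 F₂) ^ m - 1) := by ring
      rw [this]
      exact Q.add_mem h1 (Q.mul_mem_left _ hq₀m')
    rcases hQ.mem_or_mem hkey with h | h
    · have hi0 : i = 0 := by
        by_contra hne
        have hprim : IsPrimitiveRoot (ζ ^ i) p :=
          hζ.pow_of_coprime i (Nat.coprime_of_lt_prime hne hi hpp).symm
        have hmem : ζ ^ i - 1 ∈ P := by
          rw [Ideal.mem_of_liesOver Q P]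
          simpa using h
        exact hpP (h97_prime_mem_of_sub_one_mem hprim P hmem)
      subst hi0
      have hσ1 : σ = 1 := hgen σ (by rw [hσβ]; simp)
      have hall : ∀ x : 𝓞 F₂, x - x ^ q' ∈ Q := by
        intro x
        have := hσ' x
        rwa [hσ1, one_smul] at this
      have : Q.IsMaximal := hQ.isMaximal hQ0
      let : Field (𝓞 F₂ ⧸ Q) := Ideal.Quotient.field Q
      let : Fintype (𝓞 F₂ ⧸ Q) := Fintype.ofFinite _
      have hcardQ : Fintype.card (𝓞 F₂ ⧸ Q) = q' ^ p := by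
        rw [← Nat.card_eq_fintype_card, ← hNQ, Ideal.absNorm_apply, Submodule.cardQuot_apply]
      have hroots : ∀ z : 𝓞 F₂ ⧸ Q, z ^ q' = z := by
        intro z
        obtain ⟨x, rfl⟩ := Ideal.Quotient.mk_surjective z
        rw [← map_pow]
        exact (Ideal.Quotient.eq.mpr (hall x)).symm
      have hle : Fintype.card (𝓞 F₂ ⧸ Q) ≤ q' := by
        have hf0 : (Polynomial.X ^ q' - Polynomial.X : Polynomial (𝓞 F₂ ⧸ Q)) ≠ 0 :=
          FiniteField.X_pow_card_sub_X_ne_zero _ hq'.one_lt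
        have := Polynomial.card_le_degree_of_subset_roots
          (p := (Polynomial.X ^ q' - Polynomial.X : Polynomial (𝓞 F₂ ⧸ Q)))
          (Z := Finset.univ) (by
            intro z _
            rw [Polynomial.mem_roots hf0]
            simp [hroots z])
        rw [FiniteField.X_pow_card_sub_X_natDegree_eq _ hq'.one_lt] at this
        simpa using this
      rw [hcardQ] at hle
      have h2 : q' ^ 2 ≤ q' ^ p := Nat.pow_le_pow_right hq'.pos hpp.two_le
      nlinarith [hq'.two_le]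
    · have : (q₀ : 𝓞 F₂) ∈ Q := by
        rw [← hβ]
        exact Q.pow_mem_of_mem h p hpp.pos
      apply hq₀P
      rw [Ideal.mem_of_liesOver Q P]
      simpa using this

end core

end Fermat.Agent.S14
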