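import Mathlib

set_option autoImplicit false

/-!
# S14, package AUX (Kummer theory input)

* `h97_kummer_descent` : if `K` contains a primitive `p`-th root of unity, `X ^ p - a` is
  irreducible over `K` and `β ∈ K(a^(1/p))` has `β ^ p = b ∈ K`, then `b = a ^ j * k ^ p` for
  some `j < p` and `k ∈ K`.
* `h97_not_pow_of_norm` : the norm argument (`b ^ p = x` with `x` rational forces
  `p ∣ [K : ℚ] * v_ℓ(x)`).
* number field instances for `AdjoinRoot`.
-/

open Polynomial

namespace Fermat.Agent.S14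

section descent

variable {K : Type*} [Field K]

theorem h97_kummer_descent {p : ℕ} [Fact p.Prime] {ζ : K} (hζ : IsPrimitiveRoot ζ p) (a : K)
    (H : Irreducible (X ^ p - C a)) (β : AdjoinRoot (X ^ p - C a)) (b : K)
    (hβ : β ^ p = AdjoinRoot.of (X ^ p - C a) b) :
    ∃ j < p, ∃ k : K, b = a ^ j * k ^ p := by
  have hpp : p.Prime := Fact.out
  have : NeZero p := ⟨hpp.ne_zero⟩
  have := Fact.mk H
  let L := AdjoinRoot (X ^ p - C a)
  let α : L := AdjoinRoot.root (X ^ p - C a)
  have hinj : Function.Injective (AdjoinRoot.of (X ^ p - C a)) :=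
    RingHom.injective (AdjoinRoot.of (X ^ p - C a))
  have hα : α ^ p = AdjoinRoot.of (X ^ p - C a) a := root_X_pow_sub_C_pow p a
  have hα0 : α ≠ 0 := root_X_pow_sub_C_ne_zero hpp.one_lt a
  by_cases hβ0 : β = 0
  · refine ⟨0, hpp.pos, 0, ?_⟩
    rw [hβ0, zero_pow hpp.ne_zero] at hβ
    have : b = 0 := hinj (by rw [← hβ, map_zero])
    rw [this, zero_pow hpp.ne_zero, mul_zero]
  have hζs : (primitiveRoots p K).Nonempty := ⟨ζ, (mem_primitiveRoots hpp.pos).mpr hζ⟩
  have hsplit : IsSplittingField K L (X ^ p - C a) := isSplittingField_AdjoinRoot_X_pow_sub_C hζs H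
  have hGal : IsGalois K L := isGalois_of_isSplittingField_X_pow_sub_C hζs H L
  have hfin : FiniteDimensional K L := Polynomial.IsSplittingField.finiteDimensional L (X ^ p - C a)
  have hcard : Nat.card (L ≃ₐ[K] L) = p := by
    rw [IsGalois.card_aut_eq_finrank, finrank_of_isSplittingField_X_pow_sub_C hζs H L]
  -- the automorphism `α ↦ ζ α`
  let σ : L ≃ₐ[K] L := autAdjoinRootXPowSubC p a hζ.toRootsOfUnity
  have hσα : σ α = AdjoinRoot.of (X ^ p - C a) ζ * α := by
    have := autAdjoinRootXPowSubC_root a hζ.toRootsOfUnity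
    rw [Algebra.smul_def] at this
    exact this
  have hζL : IsPrimitiveRoot (AdjoinRoot.of (X ^ p - C a) ζ) p := hζ.map_of_injective hinj
  have hσ1 : σ ≠ 1 := by
    intro h
    have h1 : σ α = α := by rw [h]; rfl
    rw [hσα] at h1
    have h2 : AdjoinRoot.of (X ^ p - C a) ζ = 1 := by
      have := mul_right_cancel₀ hα0 (h1.trans (one_mul α).symm)
      exact this
    exact hζL.ne_one hpp.one_lt h2
  have htop : Subgroup.zpowers σ = ⊤ := zpowers_eq_top_of_prime_card hcard hσ1
  -- `σ β = ζ ^ j β`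
  have hσβp : (σ β) ^ p = β ^ p := by
    rw [← map_pow, hβ]
    exact σ.commutes b
  obtain ⟨j, hj, hjξ⟩ := hζL.eq_pow_of_pow_eq_one (ξ := σ β / β)
    (by rw [div_pow, hσβp, div_self (pow_ne_zero _ hβ0)])
  have hσβ : σ β = AdjoinRoot.of (X ^ p - C a) ζ ^ j * β := by
    rw [hjξ, div_mul_cancel₀ _ hβ0]
  -- `γ = β / α ^ j` is fixed by `σ`, hence by the whole Galois group
  let γ : L := β / α ^ j
  have hσγ : σ γ = γ := by
    show σ (β / α ^ j) = β / α ^ j
    rw [map_div₀, map_pow, hσβ, hσα, mul_pow]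
    have h1 : AdjoinRoot.of (X ^ p - C a) ζ ^ j ≠ 0 := pow_ne_zero _ (hζL.ne_zero hpp.ne_zero)
    exact mul_div_mul_left _ _ h1
  have hfix : ∀ τ : L ≃ₐ[K] L, τ γ = γ := by
    intro τ
    have hτ : τ ∈ Subgroup.zpowers σ := by rw [htop]; trivial
    have hle : Subgroup.zpowers σ ≤ MulAction.stabilizer (L ≃ₐ[K] L) γ := by
      rw [Subgroup.zpowers_le]
      exact hσγ
    exact hle hτ
  have hγ : γ ∈ (⊥ : IntermediateField K L) := (IsGalois.mem_bot_iff_fixed γ).mpr hfix
  rw [IntermediateField.mem_bot] at hγ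
  obtain ⟨k, hk⟩ := hγ
  refine ⟨j, hj, k, ?_⟩
  apply hinj
  have hβγ : β = α ^ j * AdjoinRoot.of (X ^ p - C a) k := by
    have h2 : α ^ j ≠ 0 := pow_ne_zero _ hα0
    have hk' : AdjoinRoot.of (X ^ p - C a) k = β / α ^ j := hk
    rw [hk', mul_comm, div_mul_cancel₀ _ h2]
  rw [← hβ, hβγ, mul_pow, ← pow_mul, mul_comm j p, pow_mul, hα, map_mul, map_pow, map_pow]

end descent

section norm

/-- The norm argument: a rational number `x` with `p ∤ [K : ℚ] * v_ℓ(x)` is not a `p`-th power
in `K`. -/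
theorem h97_not_pow_of_norm {K : Type*} [Field K] [NumberField K] (p : ℕ) (ℓ : ℕ) [Fact ℓ.Prime]
    (x : ℚ)
    (hv : ¬ (p : ℤ) ∣ (Module.finrank ℚ K : ℤ) * padicValRat ℓ x) (b : K) :
    b ^ p ≠ algebraMap ℚ K x := by
  intro h
  have h1 : (Algebra.norm ℚ b) ^ p = x ^ Module.finrank ℚ K := by
    rw [← map_pow, h, Algebra.norm_algebraMap]
  have h2 := congrArg (padicValRat ℓ) h1
  rw [padicValRat.pow, padicValRat.pow] at h2
  exact hv ⟨padicValRat ℓ (Algebra.norm ℚ b), h2.symm⟩

end norm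

section instances

variable {K : Type*} [Field K] [NumberField K]

omit [NumberField K] in
theorem h97_finite_adjoinRoot (f : K[X]) [Fact (Irreducible f)] :
    Module.Finite K (AdjoinRoot f) :=
  (AdjoinRoot.powerBasis (Fact.out : Irreducible f).ne_zero).finite

theorem h97_numberField_adjoinRoot (f : K[X]) [Fact (Irreducible f)] :
    NumberField (AdjoinRoot f) := by
  have : CharZero (AdjoinRoot f) := charZero_of_injective_algebraMap (algebraMap K _).injective
  have := h97_finite_adjoinRoot f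
  exact { to_charZero := inferInstance
          to_finiteDimensional := Module.Finite.trans K (AdjoinRoot f) }

end instances

end Fermat.Agent.S14
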