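import Mathlib
import Fermat.Agent.S14.h97_AuxCore
import Fermat.Agent.S14.h97_AuxKummer

set_option autoImplicit false

/-!
# S14, package AUX (assembly modulo NS)

`h97_exists_aux_prime_of_NS` : the statement of `exists_aux_prime`, with the theorem
`exists_nonsplit_prime` (package NS) as an explicit hypothesis `hNS`.
-/

open NumberField Polynomial

namespace Fermat.Agent.S14

/-- The primes of `𝓞 F` containing a nonzero integer `M` are finite in number. -/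
theorem h97_finite_primes_of_mem {F : Type*} [Field F] [NumberField F] (M : ℕ) (hM : M ≠ 0) :
    {P : Ideal (𝓞 F) | P.IsPrime ∧ (M : 𝓞 F) ∈ P}.Finite := by
  have hI : Ideal.span {(M : 𝓞 F)} ≠ ⊥ := by
    rw [Ne, Ideal.span_singleton_eq_bot]
    exact_mod_cast hM
  apply (Ideal.finite_minimalPrimes_of_isNoetherianRing (𝓞 F) (Ideal.span {(M : 𝓞 F)})).subset
  rintro P ⟨hP, hMP⟩
  have hle : Ideal.span {(M : 𝓞 F)} ≤ P := (Ideal.span_singleton_le_iff_mem _).mpr hMP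
  obtain ⟨P', hP', hP'P⟩ := Ideal.exists_minimalPrimes_le hle
  have hP'prime : P'.IsPrime := hP'.1.1
  have hP'0 : P' ≠ ⊥ := fun h => hI (le_bot_iff.mp (h ▸ hP'.1.2))
  have hmax : P'.IsMaximal := hP'prime.isMaximal hP'0
  have hEq : P' = P := hmax.eq_of_le hP.ne_top hP'P
  rw [← hEq]
  exact hP'

theorem h97_norm_natCast {K : Type*} [Field K] [NumberField K] (n : ℕ) :
    Algebra.norm ℚ (n : K) = (n : ℚ) ^ Module.finrank ℚ K := by
  rw [← map_natCast (algebraMap ℚ K) n, Algebra.norm_algebraMap]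

set_option maxHeartbeats 1000000 in
theorem h97_exists_aux_prime_of_NS (p : ℕ) [Fact p.Prime] (q q₀ : ℕ) (hq : q.Prime)
    (hq₀ : q₀.Prime) (hne : q ≠ q₀) (a : ℕ) (S : Finset ℕ)
    (hNS : ∀ (F₁ F₂ : Type) [Field F₁] [NumberField F₁] [Field F₂] [NumberField F₂]
      [Algebra F₁ F₂] [IsGalois F₁ F₂], Module.finrank F₁ F₂ = p →
      ∀ S : Set (Ideal (𝓞 F₁)), S.Finite →
      ∃ P : Ideal (𝓞 F₁), P.IsPrime ∧ P ≠ ⊥ ∧ P ∉ S ∧ (Ideal.absNorm P).Prime ∧
        (∀ Q : Ideal (𝓞 F₂), Q.IsPrime → Q.LiesOver P → Q.ramificationIdx (𝓞 F₁) = 1) ∧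
        ¬ SplitsCompletely (𝓞 F₁) (𝓞 F₂) P) :
    ∃ q' : ℕ, q'.Prime ∧ q' % p = 1 ∧ q' ∉ S ∧
      (∃ y : ZMod q', (q : ZMod q') = (q₀ : ZMod q') ^ a * y ^ p) ∧
      ¬ ∃ y : ZMod q', (q₀ : ZMod q') = y ^ p := by
  have hpp : p.Prime := Fact.out
  have : NeZero p := ⟨hpp.ne_zero⟩
  have : Fact q.Prime := ⟨hq⟩
  have : Fact q₀.Prime := ⟨hq₀⟩
  have hp1 : ¬ (p : ℤ) ∣ ((p - 1 : ℕ) : ℤ) := by
    rw [Int.natCast_dvd_natCast]
    intro h
    have := Nat.le_of_dvd (by have := hpp.two_le; omega) h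
    have := hpp.two_le
    omega
  let K := CyclotomicField p ℚ
  have hcyc : IsCyclotomicExtension {p} ℚ K := CyclotomicField.isCyclotomicExtension p ℚ
  let ζ : K := IsCyclotomicExtension.zeta p ℚ K
  have hζ : IsPrimitiveRoot ζ p := IsCyclotomicExtension.zeta_spec p ℚ K
  have hfinK : Module.finrank ℚ K = p - 1 := by
    rw [IsCyclotomicExtension.finrank (n := p) K (cyclotomic.irreducible_rat hpp.pos),
      Nat.totient_prime hpp]
  let A : ℕ := q * q₀ ^ ((p - 1) * a)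
  have hq0 : (q : ℚ) ≠ 0 := Nat.cast_ne_zero.mpr hq.ne_zero
  have hq₀0 : (q₀ : ℚ) ≠ 0 := Nat.cast_ne_zero.mpr hq₀.ne_zero
  have hA0 : (A : ℚ) ≠ 0 := by
    simp only [A]; push_cast; exact mul_ne_zero hq0 (pow_ne_zero _ hq₀0)
  have hvq₀ : padicValRat q (q₀ : ℚ) = 0 := by
    rw [padicValRat.of_nat, padicValNat_primes hne]; rfl
  have hvq : padicValRat q (q : ℚ) = 1 := padicValRat.self hq.one_lt
  have hvq₀' : padicValRat q₀ (q₀ : ℚ) = 1 := padicValRat.self hq₀.one_lt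
  have hvA : padicValRat q (A : ℚ) = 1 := by
    simp only [A]; push_cast
    rw [padicValRat.mul hq0 (pow_ne_zero _ hq₀0), padicValRat.pow, hvq, hvq₀, mul_zero, add_zero]
  -- `A` is not a `p`-th power in `K`
  have hA1 : ∀ b : K, b ^ p ≠ (A : K) := by
    intro b
    have := h97_not_pow_of_norm (K := K) p q (A : ℚ)
      (by rw [hfinK, hvA, mul_one]; exact hp1) b
    rwa [map_natCast] at this
  have H1 : Irreducible (X ^ p - C (A : K)) := X_pow_sub_C_irreducible_of_prime hpp hA1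
  have := Fact.mk H1
  let F₁ := AdjoinRoot (X ^ p - C (A : K))
  have : NumberField F₁ := h97_numberField_adjoinRoot _
  let α : F₁ := AdjoinRoot.root _
  have hαp : α ^ p = (A : F₁) := by
    show AdjoinRoot.root (X ^ p - C (A : K)) ^ p = _
    rw [root_X_pow_sub_C_pow]
    exact map_natCast (AdjoinRoot.of (X ^ p - C (A : K))) A
  let ζ₁ : F₁ := AdjoinRoot.of _ ζ
  have hζ₁ : IsPrimitiveRoot ζ₁ p :=
    hζ.map_of_injective (RingHom.injective (AdjoinRoot.of (X ^ p - C (A : K))))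
  -- `q₀` is not a `p`-th power in `F₁`
  have hq₀1 : ∀ β : F₁, β ^ p ≠ (q₀ : F₁) := by
    intro β hβ
    obtain ⟨j, hj, k, hk⟩ := h97_kummer_descent hζ (A : K) H1 β (q₀ : K)
      (by rw [hβ]; exact (map_natCast (AdjoinRoot.of (X ^ p - C (A : K))) q₀).symm)
    have hnorm := congrArg (Algebra.norm ℚ) hk
    rw [map_mul, map_pow, map_pow, h97_norm_natCast, h97_norm_natCast, hfinK] at hnorm
    have hN0 : Algebra.norm ℚ k ≠ 0 := by
      intro h
      rw [h, zero_pow hpp.ne_zero, mul_zero] at hnorm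
      exact pow_ne_zero _ hq₀0 hnorm
    have hv := congrArg (padicValRat q) hnorm
    rw [padicValRat.pow, hvq₀, mul_zero,
      padicValRat.mul (pow_ne_zero _ (pow_ne_zero _ hA0)) (pow_ne_zero _ hN0),
      padicValRat.pow, padicValRat.pow, padicValRat.pow, hvA, mul_one] at hv
    have hdj : (p : ℤ) ∣ ((j * (p - 1) : ℕ) : ℤ) := by
      refine ⟨-padicValRat q (Algebra.norm ℚ k), ?_⟩
      push_cast
      linarith
    rw [Int.natCast_dvd_natCast] at hdj
    have hj0 : j = 0 := by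
      rcases (Nat.Prime.dvd_mul hpp).mp hdj with h | h
      · exact Nat.eq_zero_of_dvd_of_lt h hj
      · exfalso
        have := Nat.le_of_dvd (by have := hpp.two_le; omega) h
        have := hpp.two_le
        omega
    rw [hj0, pow_zero, one_mul] at hk
    have := h97_not_pow_of_norm (K := K) p q₀ (q₀ : ℚ)
      (by rw [hfinK, hvq₀', mul_one]; exact hp1) k
    rw [map_natCast] at this
    exact this hk.symm
  have H2 : Irreducible (X ^ p - C (q₀ : F₁)) := X_pow_sub_C_irreducible_of_prime hpp hq₀1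
  have := Fact.mk H2
  let F₂ := AdjoinRoot (X ^ p - C (q₀ : F₁))
  have : NumberField F₂ := h97_numberField_adjoinRoot _
  have hζs₁ : (primitiveRoots p F₁).Nonempty := ⟨ζ₁, (mem_primitiveRoots hpp.pos).mpr hζ₁⟩
  have : IsSplittingField F₁ F₂ (X ^ p - C (q₀ : F₁)) :=
    isSplittingField_AdjoinRoot_X_pow_sub_C hζs₁ H2
  have : IsGalois F₁ F₂ := isGalois_of_isSplittingField_X_pow_sub_C hζs₁ H2 F₂
  have hdeg : Module.finrank F₁ F₂ = p := finrank_of_isSplittingField_X_pow_sub_C hζs₁ H2 F₂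
  let β : F₂ := AdjoinRoot.root _
  have hβp : β ^ p = (q₀ : F₂) := by
    show AdjoinRoot.root (X ^ p - C (q₀ : F₁)) ^ p = _
    rw [root_X_pow_sub_C_pow]
    exact map_natCast (AdjoinRoot.of (X ^ p - C (q₀ : F₁))) q₀
  have hgen : ∀ σ : F₂ ≃ₐ[F₁] F₂, σ β = β → σ = 1 := by
    intro σ h
    have h1 : (σ : F₂ →ₐ[F₁] F₂) = AlgHom.id F₁ F₂ := AdjoinRoot.algHom_ext h
    ext x
    exact DFunLike.congr_fun h1 x
  -- the integers
  let ζ' : 𝓞 F₁ := hζ₁.toInteger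
  have hζ' : IsPrimitiveRoot ζ' p := hζ₁.toInteger_isPrimitiveRoot
  have hαint : IsIntegral ℤ α :=
    IsIntegral.of_pow hpp.pos (by
      rw [hαp]
      simpa using (isIntegral_algebraMap : IsIntegral ℤ (algebraMap ℤ F₁ (A : ℤ))))
  let α' : 𝓞 F₁ := ⟨α, hαint⟩
  have hα' : α' ^ p = (A : 𝓞 F₁) := RingOfIntegers.ext (by
    show α ^ p = _
    rw [hαp]; simp)
  have hβint : IsIntegral ℤ β :=
    IsIntegral.of_pow hpp.pos (by
      rw [hβp]
      simpa using (isIntegral_algebraMap : IsIntegral ℤ (algebraMap ℤ F₂ (q₀ : ℤ))))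
  let β' : 𝓞 F₂ := ⟨β, hβint⟩
  have hβ' : β' ^ p = (q₀ : 𝓞 F₂) := RingOfIntegers.ext (by
    show β ^ p = _
    rw [hβp]; simp)
  -- the excluded primes
  let M : ℕ := p * q₀ * ∏ s ∈ S.filter (· ≠ 0), s
  have hM : M ≠ 0 := by
    refine mul_ne_zero (mul_ne_zero hpp.ne_zero hq₀.ne_zero) ?_
    rw [Finset.prod_ne_zero_iff]
    intro s hs
    exact (Finset.mem_filter.mp hs).2
  obtain ⟨P, hP, hP0, hPS, hNprime, hunr, hns⟩ :=
    hNS F₁ F₂ hdeg {P | P.IsPrime ∧ (M : 𝓞 F₁) ∈ P} (h97_finite_primes_of_mem M hM)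
  have hMP : (M : 𝓞 F₁) ∉ P := fun h => hPS ⟨hP, h⟩
  obtain ⟨h1, h2, ⟨y, hy⟩, h4⟩ := h97_aux_core hdeg ζ' hζ' A q₀ α' hα' β' hβ' hgen M
    (Dvd.dvd.mul_right (dvd_mul_right p q₀) _) (Dvd.dvd.mul_right (dvd_mul_left q₀ p) _)
    P hP hP0 hMP (Ideal.absNorm P) hNprime rfl hunr hns
  refine ⟨Ideal.absNorm P, hNprime, h1, ?_, ?_, h4⟩
  · intro hmem
    apply h2
    exact Dvd.dvd.mul_left
      (Finset.dvd_prod_of_mem _ (Finset.mem_filter.mpr ⟨hmem, hNprime.ne_zero⟩)) _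
  · have : Fact (Ideal.absNorm P).Prime := ⟨hNprime⟩
    have hq₀u : (q₀ : ZMod (Ideal.absNorm P)) ≠ 0 := by
      intro h
      rw [ZMod.natCast_eq_zero_iff] at h
      exact h2 (h.trans (Dvd.dvd.mul_right (dvd_mul_left q₀ p) _))
    have hu : (q₀ : ZMod (Ideal.absNorm P)) ^ a ≠ 0 := pow_ne_zero _ hq₀u
    have hA : (q : ZMod (Ideal.absNorm P)) * (q₀ : ZMod (Ideal.absNorm P)) ^ ((p - 1) * a) =
        y ^ p := by
      rw [← hy]; simp only [A]; push_cast; rfl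
    have hpow : ((q₀ : ZMod (Ideal.absNorm P)) ^ a) ^ p =
        (q₀ : ZMod (Ideal.absNorm P)) ^ a * (q₀ : ZMod (Ideal.absNorm P)) ^ ((p - 1) * a) := by
      rw [← pow_mul, ← pow_add]
      congr 1
      have := hpp.one_le
      calc a * p = a * ((p - 1) + 1) := by rw [Nat.sub_add_cancel this]
        _ = a + (p - 1) * a := by ring
    refine ⟨y * ((q₀ : ZMod (Ideal.absNorm P)) ^ a)⁻¹, ?_⟩
    rw [mul_pow, inv_pow, ← hA, hpow]
    field_simp

end Fermat.Agent.S14
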